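/-
S34 moonshot, package [M]/(E) (helper6), part 1: the ATKIN–LEHNER involution `w_q` of the function
field `𝓕 = K₀(j(q^d) : d ∣ M q)` over an ARBITRARY field `K₀` of characteristic zero which embeds
into `ℚ̄` (in the application a number field), by descent of `s37w_al` (over `ℚ̄`) along the
coefficientwise base change `s18q_map φ`, `φ : K₀ →+* ℚ̄`.

* `s34m_al φ M q hq hqM : 𝓕 ≃ₐ[K₀] 𝓕`, characterised by `s34m_iota_al : ι (w x) = w̄ (ι x)`;
* `s34m_al_al`, `s34m_al_alpha`, `s34m_al_beta` (`w ∘ α = β`, `w ∘ β = α`);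
* `s34m_al_coeffEmb`: `w` maps the rational subfield `coeffEmb '' F₀` to itself;
* `s34m_al_galois`: `w` commutes with the coefficientwise action of every `σ₀ : K₀ ≃ₐ[ℚ] K₀`.
-/
import Fermat.Agent.Lib.S37.WAtkin
import Fermat.Agent.Lib.S18.QBase

set_option autoImplicit false

noncomputable section

namespace Fermat.Agent.Lib.S34

open ModularCurve AlgebraicCurve Fermat.Agent.Lib.FF Fermat.Agent.Lib.S18 Fermat.Agent.Lib.S28
  Fermat.Agent.Lib.S37

local notation "Kb" => AlgebraicClosure ℚ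

/-- The function field of level `N` over `K₀`. -/
abbrev s34m_F (K₀ : Type*) [Field K₀] [Algebra ℚ K₀] (N : ℕ) [NeZero N] : Type _ :=
  ↥(laurentBaseChange K₀ (modularFunctionFieldFull N))

variable {K₀ : Type*} [Field K₀] [Algebra ℚ K₀] (φ : K₀ →+* Kb)
variable (M q : ℕ) [NeZero M] [NeZero q]

/-- The coefficientwise embedding `𝓕_{K₀} → 𝓕_{ℚ̄}`. -/
abbrev s34m_iota (N : ℕ) [NeZero N] : s34m_F K₀ N →+* ffi_F N :=
  s18q_map φ (modularFunctionFieldFull N)

theorem s34m_coeffEmb_algebraMap (L : Type*) [Field L] [Algebra ℚ L] (r : ℚ) :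
    coeffEmb L (algebraMap ℚ (LaurentSeries ℚ) r) =
      algebraMap L (LaurentSeries L) (algebraMap ℚ L r) := by
  rw [coeffEmb, algebraMap_laurentSeries_eq_single, algebraMap_laurentSeries_eq_single,
    coeffMap_single]

/-- `w̄` maps the rational subfield `coeffEmb '' F₀` to itself. -/
theorem s34m_alBar_coeffEmb (hq : q.Prime) (hqM : ¬ q ∣ M) (z : LaurentSeries ℚ)
    (hz : z ∈ modularFunctionFieldFull (M * q)) :
    ∀ y : ffi_F (M * q), (y : LaurentSeries Kb) = coeffEmb Kb z →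
    ∃ z' ∈ modularFunctionFieldFull (M * q),
      ((s37w_al M q hq hqM y : ffi_F (M * q)) : LaurentSeries Kb) = coeffEmb Kb z' := by
  rw [modularFunctionFieldFull] at hz
  induction hz using IntermediateField.adjoin_induction with
  | mem x hx =>
    intro y hy
    obtain ⟨d, hne, hd, rfl⟩ := hx
    let D : s28w_Idx (M * q) := ⟨d, hd⟩
    refine ⟨qExpand ℚ (s37w_alCo M q hq D).1 jq,
      jqd_mem_full (M * q) (s37w_alCo M q hq D).2, ?_⟩
    exact s37w_al_gen M q hq hqM D y hy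
  | algebraMap r =>
    intro y hy
    refine ⟨algebraMap ℚ (LaurentSeries ℚ) r, IntermediateField.algebraMap_mem _ r, ?_⟩
    have e : y = algebraMap Kb (ffi_F (M * q)) (algebraMap ℚ Kb r) := by
      apply Subtype.ext
      rw [hy, s34m_coeffEmb_algebraMap]
      rfl
    rw [e, AlgEquiv.commutes, s34m_coeffEmb_algebraMap]
    rfl
  | add x y hx hy ihx ihy =>
    intro u hu
    have hx' : coeffEmb Kb x ∈ laurentBaseChange Kb (modularFunctionFieldFull (M * q)) :=
      coeffEmb_mem_laurentBaseChange Kb hx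
    have hy' : coeffEmb Kb y ∈ laurentBaseChange Kb (modularFunctionFieldFull (M * q)) :=
      coeffEmb_mem_laurentBaseChange Kb hy
    obtain ⟨x', hx'', ex⟩ := ihx ⟨_, hx'⟩ rfl
    obtain ⟨y', hy'', ey⟩ := ihy ⟨_, hy'⟩ rfl
    refine ⟨x' + y', add_mem hx'' hy'', ?_⟩
    have e : u = (⟨_, hx'⟩ : ffi_F (M * q)) + ⟨_, hy'⟩ := by
      apply Subtype.ext
      rw [hu, map_add]
      rfl
    rw [e, map_add, map_add, ← ex, ← ey]
    rfl
  | inv x hx ihx =>
    intro u hu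
    have hx' : coeffEmb Kb x ∈ laurentBaseChange Kb (modularFunctionFieldFull (M * q)) :=
      coeffEmb_mem_laurentBaseChange Kb hx
    obtain ⟨x', hx'', ex⟩ := ihx ⟨_, hx'⟩ rfl
    refine ⟨x'⁻¹, inv_mem hx'', ?_⟩
    have e : u = (⟨_, hx'⟩ : ffi_F (M * q))⁻¹ := by
      apply Subtype.ext
      rw [hu, map_inv₀]
      rfl
    rw [e, map_inv₀, map_inv₀, ← ex]
    rfl
  | mul x y hx hy ihx ihy =>
    intro u hu
    have hx' : coeffEmb Kb x ∈ laurentBaseChange Kb (modularFunctionFieldFull (M * q)) :=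
      coeffEmb_mem_laurentBaseChange Kb hx
    have hy' : coeffEmb Kb y ∈ laurentBaseChange Kb (modularFunctionFieldFull (M * q)) :=
      coeffEmb_mem_laurentBaseChange Kb hy
    obtain ⟨x', hx'', ex⟩ := ihx ⟨_, hx'⟩ rfl
    obtain ⟨y', hy'', ey⟩ := ihy ⟨_, hy'⟩ rfl
    refine ⟨x' * y', mul_mem hx'' hy'', ?_⟩
    have e : u = (⟨_, hx'⟩ : ffi_F (M * q)) * ⟨_, hy'⟩ := by
      apply Subtype.ext
      rw [hu, map_mul]
      rfl
    rw [e, map_mul, map_mul, ← ex, ← ey]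
    rfl

/-- `ι (coeffEmb z) = coeffEmb z`. -/
theorem s34m_iota_coeffEmb (N : ℕ) [NeZero N] (z : LaurentSeries ℚ)
    (hz : z ∈ modularFunctionFieldFull N) :
    ((s34m_iota φ N ⟨coeffEmb K₀ z, coeffEmb_mem_laurentBaseChange K₀ hz⟩ : ffi_F N) :
      LaurentSeries Kb) = coeffEmb Kb z := by
  rw [s18q_map_coe]
  exact s18q_coeffMap_coeffEmb φ z

/-- `w̄` maps the image of `𝓕_{K₀}` in `𝓕_{ℚ̄}` to itself. -/
theorem s34m_alBar_range (hq : q.Prime) (hqM : ¬ q ∣ M) (x : LaurentSeries K₀)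
    (hx : x ∈ laurentBaseChange K₀ (modularFunctionFieldFull (M * q))) :
    ∀ y : ffi_F (M * q), (y : LaurentSeries Kb) = coeffMap φ x →
      s37w_al M q hq hqM y ∈ Set.range (s34m_iota φ (M * q)) := by
  rw [mem_laurentBaseChange_iff] at hx
  induction hx using Subfield.closure_induction with
  | mem u hu =>
    intro y hy
    rcases hu with ⟨c, rfl⟩ | ⟨z, hz, rfl⟩
    · refine ⟨algebraMap K₀ _ c, ?_⟩
      have e : y = algebraMap Kb (ffi_F (M * q)) (φ c) := by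
        apply Subtype.ext
        rw [hy, s18q_coeffMap_algebraMap]
        rfl
      rw [e, AlgEquiv.commutes]
      exact s18q_map_algebraMap φ _ c
    · obtain ⟨z', hz', e⟩ := s34m_alBar_coeffEmb M q hq hqM z hz y
        (by rw [hy, s18q_coeffMap_coeffEmb])
      refine ⟨⟨coeffEmb K₀ z', coeffEmb_mem_laurentBaseChange K₀ hz'⟩, ?_⟩
      apply Subtype.ext
      rw [e]
      exact s34m_iota_coeffEmb φ (M * q) z' hz'
  | one =>
    intro y hy
    refine ⟨1, ?_⟩
    have e : y = 1 := by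
      apply Subtype.ext
      rw [hy, map_one]
      rfl
    rw [e, map_one, map_one]
  | add u v hu hv ihu ihv =>
    intro y hy
    obtain ⟨a, ha⟩ := ihu ⟨coeffMap φ u, s18q_coeffMap_mem φ hu⟩ rfl
    obtain ⟨b, hb⟩ := ihv ⟨coeffMap φ v, s18q_coeffMap_mem φ hv⟩ rfl
    refine ⟨a + b, ?_⟩
    have e : y = (⟨coeffMap φ u, s18q_coeffMap_mem φ hu⟩ : ffi_F (M * q)) +
        ⟨coeffMap φ v, s18q_coeffMap_mem φ hv⟩ := by
      apply Subtype.ext
      rw [hy, map_add]
      rfl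
    rw [e, map_add, map_add, ha, hb]
  | neg u hu ihu =>
    intro y hy
    obtain ⟨a, ha⟩ := ihu ⟨coeffMap φ u, s18q_coeffMap_mem φ hu⟩ rfl
    refine ⟨-a, ?_⟩
    have e : y = -(⟨coeffMap φ u, s18q_coeffMap_mem φ hu⟩ : ffi_F (M * q)) := by
      apply Subtype.ext
      rw [hy, map_neg]
      rfl
    rw [e, map_neg, map_neg, ha]
  | inv u hu ihu =>
    intro y hy
    obtain ⟨a, ha⟩ := ihu ⟨coeffMap φ u, s18q_coeffMap_mem φ hu⟩ rfl
    refine ⟨a⁻¹, ?_⟩
    have e : y = (⟨coeffMap φ u, s18q_coeffMap_mem φ hu⟩ : ffi_F (M * q))⁻¹ := by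
      apply Subtype.ext
      rw [hy, map_inv₀]
      rfl
    rw [e, map_inv₀, map_inv₀, ha]
  | mul u v hu hv ihu ihv =>
    intro y hy
    obtain ⟨a, ha⟩ := ihu ⟨coeffMap φ u, s18q_coeffMap_mem φ hu⟩ rfl
    obtain ⟨b, hb⟩ := ihv ⟨coeffMap φ v, s18q_coeffMap_mem φ hv⟩ rfl
    refine ⟨a * b, ?_⟩
    have e : y = (⟨coeffMap φ u, s18q_coeffMap_mem φ hu⟩ : ffi_F (M * q)) *
        ⟨coeffMap φ v, s18q_coeffMap_mem φ hv⟩ := by
      apply Subtype.ext
      rw [hy, map_mul]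
      rfl
    rw [e, map_mul, map_mul, ha, hb]

theorem s34m_exists_al (hq : q.Prime) (hqM : ¬ q ∣ M) (x : s34m_F K₀ (M * q)) :
    ∃ y : s34m_F K₀ (M * q), s34m_iota φ (M * q) y = s37w_al M q hq hqM (s34m_iota φ (M * q) x) :=
  s34m_alBar_range φ M q hq hqM x.1 x.2 _ rfl

/-- The underlying function of `w_q` over `K₀`. -/
def s34m_alFun (hq : q.Prime) (hqM : ¬ q ∣ M) (x : s34m_F K₀ (M * q)) : s34m_F K₀ (M * q) :=
  (s34m_exists_al φ M q hq hqM x).choose

/-- **The defining property** `ι (w x) = w̄ (ι x)`. -/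
theorem s34m_iota_alFun (hq : q.Prime) (hqM : ¬ q ∣ M) (x : s34m_F K₀ (M * q)) :
    s34m_iota φ (M * q) (s34m_alFun φ M q hq hqM x) =
      s37w_al M q hq hqM (s34m_iota φ (M * q) x) :=
  (s34m_exists_al φ M q hq hqM x).choose_spec

theorem s34m_iota_injective (N : ℕ) [NeZero N] : Function.Injective (s34m_iota φ N) :=
  s18q_map_injective φ _

/-- **The Atkin–Lehner involution `w_q` over `K₀`.** -/
def s34m_al (hq : q.Prime) (hqM : ¬ q ∣ M) : s34m_F K₀ (M * q) ≃ₐ[K₀] s34m_F K₀ (M * q) where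
  toFun := s34m_alFun φ M q hq hqM
  invFun := s34m_alFun φ M q hq hqM
  left_inv x := by
    apply s34m_iota_injective φ
    rw [s34m_iota_alFun, s34m_iota_alFun, s37w_al_al]
  right_inv x := by
    apply s34m_iota_injective φ
    rw [s34m_iota_alFun, s34m_iota_alFun, s37w_al_al]
  map_mul' x y := by
    apply s34m_iota_injective φ
    rw [map_mul, s34m_iota_alFun, s34m_iota_alFun, s34m_iota_alFun, map_mul, map_mul]
  map_add' x y := by
    apply s34m_iota_injective φ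
    rw [map_add, s34m_iota_alFun, s34m_iota_alFun, s34m_iota_alFun, map_add, map_add]
  commutes' c := by
    apply s34m_iota_injective φ
    rw [s34m_iota_alFun, s18q_map_algebraMap, AlgEquiv.commutes]

theorem s34m_iota_al (hq : q.Prime) (hqM : ¬ q ∣ M) (x : s34m_F K₀ (M * q)) :
    s34m_iota φ (M * q) (s34m_al φ M q hq hqM x) =
      s37w_al M q hq hqM (s34m_iota φ (M * q) x) :=
  s34m_iota_alFun φ M q hq hqM x

theorem s34m_al_al (hq : q.Prime) (hqM : ¬ q ∣ M) (x : s34m_F K₀ (M * q)) :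
    s34m_al φ M q hq hqM (s34m_al φ M q hq hqM x) = x :=
  (s34m_al φ M q hq hqM).left_inv x

theorem s34m_al_symm (hq : q.Prime) (hqM : ¬ q ∣ M) :
    (s34m_al φ M q hq hqM).symm = s34m_al φ M q hq hqM := rfl

/-- `ι ∘ α = ᾱ ∘ ι`. -/
theorem s34m_iota_alpha (y : s34m_F K₀ M) :
    s34m_iota φ (M * q) (heckeAlphaBar K₀ M q y) = heckeAlphaBar Kb M q (s34m_iota φ M y) := by
  apply Subtype.ext
  rw [s18q_map_coe, coe_heckeAlphaBar, coe_heckeAlphaBar, s18q_map_coe]

/-- `ι ∘ β = β̄ ∘ ι`. -/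
theorem s34m_iota_beta (y : s34m_F K₀ M) :
    s34m_iota φ (M * q) (heckeBetaBar K₀ M q y) = heckeBetaBar Kb M q (s34m_iota φ M y) := by
  apply Subtype.ext
  rw [s18q_map_coe, coe_heckeBetaBar, coe_heckeBetaBar, s18q_map_coe]
  exact ffb_coeffMap_qExpand (d := q) φ _

/-- **`w ∘ α = β`.** -/
theorem s34m_al_alpha (hq : q.Prime) (hqM : ¬ q ∣ M) (y : s34m_F K₀ M) :
    s34m_al φ M q hq hqM (heckeAlphaBar K₀ M q y) = heckeBetaBar K₀ M q y := by
  apply s34m_iota_injective φ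
  rw [s34m_iota_al, s34m_iota_alpha, s34m_iota_beta, s37w_al_alpha]

/-- **`w ∘ β = α`.** -/
theorem s34m_al_beta (hq : q.Prime) (hqM : ¬ q ∣ M) (y : s34m_F K₀ M) :
    s34m_al φ M q hq hqM (heckeBetaBar K₀ M q y) = heckeAlphaBar K₀ M q y := by
  rw [← s34m_al_alpha φ M q hq hqM y, s34m_al_al]

/-- `w` maps the rational subfield `coeffEmb '' F₀` to itself. -/
theorem s34m_al_coeffEmb (hq : q.Prime) (hqM : ¬ q ∣ M) (z : LaurentSeries ℚ)
    (hz : z ∈ modularFunctionFieldFull (M * q)) :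
    ∃ (z' : LaurentSeries ℚ) (hz' : z' ∈ modularFunctionFieldFull (M * q)),
      s34m_al φ M q hq hqM ⟨coeffEmb K₀ z, coeffEmb_mem_laurentBaseChange K₀ hz⟩ =
        ⟨coeffEmb K₀ z', coeffEmb_mem_laurentBaseChange K₀ hz'⟩ := by
  obtain ⟨z', hz', e⟩ := s34m_alBar_coeffEmb M q hq hqM z hz
    (s34m_iota φ (M * q) ⟨coeffEmb K₀ z, coeffEmb_mem_laurentBaseChange K₀ hz⟩)
    (s34m_iota_coeffEmb φ (M * q) z hz)
  refine ⟨z', hz', ?_⟩
  apply s34m_iota_injective φ
  apply Subtype.ext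
  rw [s34m_iota_al, e]
  exact (s34m_iota_coeffEmb φ (M * q) z' hz').symm

/-- The coefficientwise Galois action fixes the rational subfield. -/
theorem s34m_galois_coeffEmb (N : ℕ) [NeZero N] (σ₀ : K₀ ≃ₐ[ℚ] K₀) (z : LaurentSeries ℚ)
    (hz : z ∈ modularFunctionFieldFull N) :
    arithmeticRingAut (modularFunctionFieldFull N) σ₀
      ⟨coeffEmb K₀ z, coeffEmb_mem_laurentBaseChange K₀ hz⟩ =
        ⟨coeffEmb K₀ z, coeffEmb_mem_laurentBaseChange K₀ hz⟩ := by
  apply Subtype.ext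
  rw [coe_arithmeticRingAut_apply]
  exact s18q_coeffMap_coeffEmb (σ₀ : K₀ →+* K₀) z

/-- **`w` commutes with the coefficientwise Galois action.** -/
theorem s34m_al_galois (hq : q.Prime) (hqM : ¬ q ∣ M) (σ₀ : K₀ ≃ₐ[ℚ] K₀)
    (x : s34m_F K₀ (M * q)) :
    s34m_al φ M q hq hqM (arithmeticRingAut (modularFunctionFieldFull (M * q)) σ₀ x) =
      arithmeticRingAut (modularFunctionFieldFull (M * q)) σ₀ (s34m_al φ M q hq hqM x) := by
  set w : s34m_F K₀ (M * q) ≃+* s34m_F K₀ (M * q) := (s34m_al φ M q hq hqM).toRingEquiv with hw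
  have hwc : ∀ c : K₀, w (algebraMap K₀ (s34m_F K₀ (M * q)) c) =
      algebraMap K₀ (s34m_F K₀ (M * q)) c := fun c => (s34m_al φ M q hq hqM).commutes c
  set τ := arithmeticRingAut (L := K₀) (modularFunctionFieldFull (M * q)) σ₀ with hτ
  obtain ⟨u, hu⟩ := x
  have key : ∀ (u : LaurentSeries K₀)
      (hu : u ∈ laurentBaseChange K₀ (modularFunctionFieldFull (M * q))),
      w (τ ⟨u, hu⟩) = τ (w ⟨u, hu⟩) := by
    intro u hu
    have hu' := hu
    rw [mem_laurentBaseChange_iff] at hu'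
    induction hu' using Subfield.closure_induction with
    | mem v hv =>
      rcases hv with ⟨c, rfl⟩ | ⟨z, hz, rfl⟩
      · have e : (⟨algebraMap K₀ (LaurentSeries K₀) c, hu⟩ : s34m_F K₀ (M * q)) =
            algebraMap K₀ (s34m_F K₀ (M * q)) c := rfl
        rw [e, hτ, arithmeticRingAut_algebraMap, hwc, hwc, arithmeticRingAut_algebraMap]
      · obtain ⟨z', hz', e'⟩ := s34m_al_coeffEmb φ M q hq hqM z hz
        have e'' : w ⟨coeffEmb K₀ z, coeffEmb_mem_laurentBaseChange K₀ hz⟩ =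
            ⟨coeffEmb K₀ z', coeffEmb_mem_laurentBaseChange K₀ hz'⟩ := e'
        rw [hτ, s34m_galois_coeffEmb (M * q) σ₀ z hz, e'',
          s34m_galois_coeffEmb (M * q) σ₀ z' hz']
    | one =>
      have e : (⟨1, hu⟩ : s34m_F K₀ (M * q)) = 1 := rfl
      rw [e, map_one, map_one, map_one]
    | add a b ha hb iha ihb =>
      have ha' : a ∈ laurentBaseChange K₀ (modularFunctionFieldFull (M * q)) :=
        mem_laurentBaseChange_iff.mpr ha
      have hb' : b ∈ laurentBaseChange K₀ (modularFunctionFieldFull (M * q)) :=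
        mem_laurentBaseChange_iff.mpr hb
      have e : (⟨a + b, hu⟩ : s34m_F K₀ (M * q)) = ⟨a, ha'⟩ + ⟨b, hb'⟩ := rfl
      rw [e, map_add, map_add, map_add, map_add, iha ha', ihb hb']
    | neg a ha iha =>
      have ha' : a ∈ laurentBaseChange K₀ (modularFunctionFieldFull (M * q)) :=
        mem_laurentBaseChange_iff.mpr ha
      have e : (⟨-a, hu⟩ : s34m_F K₀ (M * q)) = -⟨a, ha'⟩ := rfl
      rw [e, map_neg, map_neg, map_neg, map_neg, iha ha']
    | inv a ha iha =>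
      have ha' : a ∈ laurentBaseChange K₀ (modularFunctionFieldFull (M * q)) :=
        mem_laurentBaseChange_iff.mpr ha
      have e : (⟨a⁻¹, hu⟩ : s34m_F K₀ (M * q)) = (⟨a, ha'⟩ : s34m_F K₀ (M * q))⁻¹ := rfl
      rw [e, map_inv₀, map_inv₀, map_inv₀, map_inv₀, iha ha']
    | mul a b ha hb iha ihb =>
      have ha' : a ∈ laurentBaseChange K₀ (modularFunctionFieldFull (M * q)) :=
        mem_laurentBaseChange_iff.mpr ha
      have hb' : b ∈ laurentBaseChange K₀ (modularFunctionFieldFull (M * q)) :=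
        mem_laurentBaseChange_iff.mpr hb
      have e : (⟨a * b, hu⟩ : s34m_F K₀ (M * q)) = ⟨a, ha'⟩ * ⟨b, hb'⟩ := rfl
      rw [e, map_mul, map_mul, map_mul, map_mul, iha ha', ihb hb']
  exact key u hu

end Fermat.Agent.Lib.S34
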