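/-
S34 moonshot, package [M]/(E) (helper6), part 2: INERTIA acts trivially on the Gauss reduction.

`G : s18g_GaussData K κ` (valuation subring `A`, uniformiser `ϖ`, reduction `π : A → κ`),
`σ₀ : K ≃+* K` with `σ₀ A ⊆ A` and `π ∘ σ₀ = π` on `A` ("`σ₀` lies in the inertia group").  Then the
coefficientwise map `coeffMap σ₀` of `K((q))` preserves the Gauss ring `O = s18g_O G`, commutes with
the reduction `s18g_red`, and `coeffMap σ₀ f - f ∈ ϖ O` for `f ∈ O`.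

`s34m_second_diff` (abstract, "(L) is formal"): a ring automorphism `σ` of a field preserving a
discrete valuation ring `V` with uniformiser `ϖ` and trivial on `V/ϖV` satisfies
`σ²U · U / (σU)² ∈ 1 + ϖV` for EVERY `U ≠ 0`.
-/
import Fermat.Agent.Lib.S18.GVal

set_option autoImplicit false

noncomputable section

namespace Fermat.Agent.Lib.S34

open ModularCurve HahnSeries Fermat.Agent.Lib.S18

section Abstract

variable {F : Type*} [Field F]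

/-- **(L) is formal.**  `V` a valuation subring of `F` in which every nonzero element of `F` is
`ϖ ^ n * unit`; `σ` an automorphism of `F` with `σ V ⊆ V`, `σ⁻¹ V ⊆ V` and `σ y - y ∈ ϖ V` for
`y ∈ V`.  Then for every `U ≠ 0`: `σ (σ U) * U / (σ U) ^ 2 - 1 ∈ ϖ V`. -/
theorem s34m_second_diff (V : ValuationSubring F) (ϖ : F) (hϖ0 : ϖ ≠ 0) (hϖV : ϖ ∈ V)
    (hdvr : ∀ U : F, U ≠ 0 → ∃ (n : ℤ) (u : F), u ∈ V ∧ u⁻¹ ∈ V ∧ U = ϖ ^ n * u)
    (σ : F ≃+* F) (hσ : ∀ y ∈ V, σ y ∈ V) (hσ' : ∀ y ∈ V, σ.symm y ∈ V)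
    (hres : ∀ y ∈ V, ∃ z ∈ V, σ y - y = ϖ * z) (U : F) (hU : U ≠ 0) :
    ∃ z ∈ V, σ (σ U) * U / (σ U) ^ 2 - 1 = ϖ * z := by
  -- `σϖ/ϖ` is a unit of `V`
  have hσϖ0 : σ ϖ ≠ 0 := (map_ne_zero σ).mpr hϖ0
  have h1 : σ ϖ / ϖ ∈ V := by
    obtain ⟨z, hz, e⟩ := hres ϖ hϖV
    have : σ ϖ / ϖ = 1 + z := by
      field_simp
      linear_combination e
    rw [this]; exact V.add_mem _ _ V.one_mem hz
  have h2 : ϖ / σ ϖ ∈ V := by
    obtain ⟨z, hz, e⟩ := hres (σ.symm ϖ) (hσ' ϖ hϖV)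
    rw [RingEquiv.apply_symm_apply] at e
    -- `σ⁻¹ϖ = ϖ (1 - z)`, so `ϖ = σϖ · σ(1 - z)`
    have e1 : σ.symm ϖ = ϖ * (1 - z) := by linear_combination -e
    have e2 : ϖ = σ ϖ * σ (1 - z) := by
      have := congrArg σ e1
      rwa [RingEquiv.apply_symm_apply, map_mul] at this
    have : ϖ / σ ϖ = σ (1 - z) := by
      field_simp
      linear_combination e2
    rw [this]
    exact hσ _ (sub_mem V.one_mem hz)
  -- `ρ = σU/U` is a unit of `V`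
  obtain ⟨n, u, hu, hu', rfl⟩ := hdvr U hU
  have hu0 : u ≠ 0 := by
    rintro rfl
    exact hU (by rw [mul_zero])
  have hσu0 : σ u ≠ 0 := (map_ne_zero σ).mpr hu0
  set ρ : F := (σ ϖ / ϖ) ^ n * (σ u * u⁻¹) with hρ
  have hρV : ρ ∈ V := by
    refine V.mul_mem _ _ ?_ (V.mul_mem _ _ (hσ u hu) hu')
    rcases n with n | n
    · rw [Int.ofNat_eq_natCast, zpow_natCast]; exact V.pow_mem h1 n
    · rw [zpow_negSucc, ← inv_pow, inv_div]; exact V.pow_mem h2 _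
  have hρ'V : ρ⁻¹ ∈ V := by
    have : ρ⁻¹ = (ϖ / σ ϖ) ^ n * (u * σ (u⁻¹)) := by
      rw [hρ, mul_inv, ← inv_zpow, inv_div, mul_inv, inv_inv, map_inv₀, mul_comm (σ u)⁻¹]
    rw [this]
    refine V.mul_mem _ _ ?_ (V.mul_mem _ _ hu (hσ _ hu'))
    rcases n with n | n
    · rw [Int.ofNat_eq_natCast, zpow_natCast]; exact V.pow_mem h2 n
    · rw [zpow_negSucc, ← inv_pow, inv_div]; exact V.pow_mem h1 _
  have hρ0 : ρ ≠ 0 := by
    rw [hρ]
    exact mul_ne_zero (zpow_ne_zero _ (div_ne_zero hσϖ0 hϖ0))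
      (mul_ne_zero hσu0 (inv_ne_zero hu0))
  have hρeq : σ (ϖ ^ n * u) = ρ * (ϖ ^ n * u) := by
    rw [hρ, map_mul, map_zpow₀, div_zpow]
    field_simp
  obtain ⟨z, hz, e⟩ := hres ρ hρV
  refine ⟨z * ρ⁻¹, V.mul_mem _ _ hz hρ'V, ?_⟩
  have hX0 : ϖ ^ n * u ≠ 0 := hU
  rw [hρeq, map_mul, hρeq]
  have e' : σ ρ = ρ + ϖ * z := by linear_combination e
  rw [e']
  field_simp
  ring

end Abstract

section Gauss

variable {K : Type*} [Field K] {κ : Type*} [Field κ] (G : s18g_GaussData K κ)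
variable (σ₀ : K ≃+* K) (hσA : ∀ a : K, a ∈ G.A → σ₀ a ∈ G.A)

/-- The restriction of `σ₀` to `A`. -/
def s34m_sigmaA : G.A →+* G.A where
  toFun a := ⟨σ₀ a, hσA a a.2⟩
  map_one' := Subtype.ext (map_one σ₀)
  map_mul' a b := Subtype.ext (map_mul σ₀ (a : K) (b : K))
  map_zero' := Subtype.ext (map_zero σ₀)
  map_add' a b := Subtype.ext (map_add σ₀ (a : K) (b : K))

@[simp] theorem s34m_coe_sigmaA (a : G.A) : ((s34m_sigmaA G σ₀ hσA a : G.A) : K) = σ₀ a := rfl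

theorem s34m_iota_sigmaA (P : LaurentSeries G.A) :
    s18g_iota G (coeffMap (s34m_sigmaA G σ₀ hσA) P) =
      coeffMap (σ₀ : K →+* K) (s18g_iota G P) := by
  ext n
  rfl

variable (hσπ : ∀ a : G.A, G.π (s34m_sigmaA G σ₀ hσA a) = G.π a)

include hσπ in
theorem s34m_rho_sigmaA (P : LaurentSeries G.A) :
    s18g_rho G (coeffMap (s34m_sigmaA G σ₀ hσA) P) = s18g_rho G P := by
  ext n
  exact hσπ _

include hσπ in
/-- `coeffMap σ₀` preserves the Gauss ring. -/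
theorem s34m_sigma_mem_O {f : LaurentSeries K} (hf : f ∈ s18g_O G) :
    coeffMap (σ₀ : K →+* K) f ∈ s18g_O G := by
  obtain ⟨P, Q, hQ, h⟩ := hf
  refine ⟨coeffMap (s34m_sigmaA G σ₀ hσA) P, coeffMap (s34m_sigmaA G σ₀ hσA) Q, ?_, ?_⟩
  · rw [s34m_rho_sigmaA G σ₀ hσA hσπ]; exact hQ
  · rw [s34m_iota_sigmaA, s34m_iota_sigmaA, ← h, map_mul]

include hσπ in
/-- `coeffMap σ₀` commutes with the Gauss reduction. -/
theorem s34m_red_sigma (f : s18g_O G) :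
    s18g_red G ⟨coeffMap (σ₀ : K →+* K) (f : LaurentSeries K),
      s34m_sigma_mem_O G σ₀ hσA hσπ f.2⟩ = s18g_red G f := by
  obtain ⟨P, Q, hQ, h⟩ := f.2
  rw [s18g_red_eq G f P Q hQ h,
    s18g_red_eq G _ (coeffMap (s34m_sigmaA G σ₀ hσA) P) (coeffMap (s34m_sigmaA G σ₀ hσA) Q)
      (by rw [s34m_rho_sigmaA G σ₀ hσA hσπ]; exact hQ)
      (by
        show s18g_iota G _ * coeffMap (σ₀ : K →+* K) (f : LaurentSeries K) = _
        rw [s34m_iota_sigmaA, s34m_iota_sigmaA, ← h, map_mul]),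
    s34m_rho_sigmaA G σ₀ hσA hσπ, s34m_rho_sigmaA G σ₀ hσA hσπ]

include hσπ in
/-- **Inertia is trivial modulo `ϖ`**: `coeffMap σ₀ f - f ∈ ϖ O` for `f ∈ O`. -/
theorem s34m_sigma_sub_mem {f : LaurentSeries K} (hf : f ∈ s18g_O G) :
    ∃ g ∈ s18g_O G, coeffMap (σ₀ : K →+* K) f - f = HahnSeries.C ((G.ϖ : G.A) : K) * g := by
  have h1 := s34m_red_sigma G σ₀ hσA hσπ ⟨f, hf⟩
  have h2 : s18g_red G (⟨coeffMap (σ₀ : K →+* K) f, s34m_sigma_mem_O G σ₀ hσA hσπ hf⟩ -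
      ⟨f, hf⟩) = 0 := by
    rw [map_sub, h1, sub_self]
  obtain ⟨g, hg⟩ := (s18g_red_eq_zero_iff G _).mp h2
  refine ⟨g, g.2, ?_⟩
  have := congrArg Subtype.val hg
  simpa using this

end Gauss

end Fermat.Agent.Lib.S34
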