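/-
S34 moonshot, package [M]/(E) (helper6), part 3: THE TWO VALUATIONS of the function field
`𝓕 = K₀(j(q^d) : d ∣ M q)` of `X₀(M q)` over `K₀` lying over a discrete valuation `A ⊂ K₀` of
residue characteristic `q`:

* `s34m_Vinf G N`  — the Gauss valuation ring with respect to the `q`-expansion at `∞`
  (S18 `s18g_V`, any level `N`);
* `s34m_Vzero G φ M q hq hqM := (s34m_Vinf G (M q)).comap w_q` — its Atkin–Lehner transform;
* `s34m_VV G φ M q hq hqM : Bool → ValuationSubring 𝓕` (`true ↦ V_∞`, `false ↦ V_0`), the family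
  to be fed to `s34x_infRing` / `s34x_zero_inf`.

For `σ₀ : K₀ ≃ₐ[ℚ] K₀` in the inertia group of `A` (`σ₀ A ⊆ A`, `σ₀⁻¹ A ⊆ A`, `π ∘ σ₀ = π`) and
`τ := arithmeticRingAut σ₀` (the coefficientwise action on `𝓕`):
`s34m_galois_mem_VV`, `s34m_galois_symm_mem_VV` (`τ V_i = V_i`), `s34m_galois_sub_mem_VV`
(`τ y - y ∈ ϖ V_i`), `s34m_exists_zpow_VV` (every `U ≠ 0` is `ϖ ^ n * unit` in `V_i`), and
**`s34m_second_diff_VV`**: `τ (τ U) * U / (τ U) ^ 2 - 1 ∈ ϖ V_i` for every `U ≠ 0` and both `i`.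
-/
import Fermat.Agent.Lib.S34.MValAL
import Fermat.Agent.Lib.S34.MValSigma
import Fermat.Agent.Lib.S18.GInst

set_option autoImplicit false

noncomputable section

namespace Fermat.Agent.Lib.S34

open ModularCurve AlgebraicCurve HahnSeries Fermat.Agent.Lib.FF Fermat.Agent.Lib.S18
  Fermat.Agent.Lib.S37

local notation "Kb" => AlgebraicClosure ℚ

variable {K₀ : Type*} [Field K₀] [Algebra ℚ K₀] {κ : Type*} [Field κ] (G : s18g_GaussData K₀ κ)

/-- The function field of level `N` over `K₀` lies in the Gauss fraction field. -/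
theorem s34m_hF (N : ℕ) [NeZero N] :
    ∀ f ∈ laurentBaseChange K₀ (modularFunctionFieldFull N), f ∈ s18g_Frac G :=
  fun _ hf => s18g_baseChange_mem_Frac G N hf

/-- **`V_∞`**: the Gauss valuation ring (at the cusp `∞`) of the function field of level `N`. -/
def s34m_Vinf (N : ℕ) [NeZero N] : ValuationSubring (s34m_F K₀ N) :=
  s18g_V G (laurentBaseChange K₀ (modularFunctionFieldFull N)) (s34m_hF G N)

theorem s34m_mem_Vinf (N : ℕ) [NeZero N] (y : s34m_F K₀ N) :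
    y ∈ s34m_Vinf G N ↔ (y : LaurentSeries K₀) ∈ s18g_O G := Iff.rfl

/-- The uniformiser `ϖ` as an element of the function field. -/
def s34m_unif (N : ℕ) [NeZero N] : s34m_F K₀ N :=
  algebraMap K₀ (s34m_F K₀ N) ((G.ϖ : G.A) : K₀)

theorem s34m_unif_ne_zero (N : ℕ) [NeZero N] : s34m_unif G N ≠ 0 := by
  rw [s34m_unif, Ne, map_eq_zero]
  exact s18g_unifK_ne_zero G

theorem s34m_coe_unif (N : ℕ) [NeZero N] :
    ((s34m_unif G N : s34m_F K₀ N) : LaurentSeries K₀) = HahnSeries.C ((G.ϖ : G.A) : K₀) :=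
  s18g_coe_algebraMap _ _

theorem s34m_unif_mem_Vinf (N : ℕ) [NeZero N] : s34m_unif G N ∈ s34m_Vinf G N :=
  (s18g_unifV G _ (s34m_hF G N)).2

variable (φ : K₀ →+* Kb) (M q : ℕ) [NeZero M] [NeZero q]

/-- **`V_0`**: the Atkin–Lehner transform of `V_∞` (the Gauss valuation at the cusp `0`). -/
def s34m_Vzero (hq : q.Prime) (hqM : ¬ q ∣ M) : ValuationSubring (s34m_F K₀ (M * q)) :=
  (s34m_Vinf G (M * q)).comap ((s34m_al φ M q hq hqM).toRingEquiv : _ →+* _)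

theorem s34m_mem_Vzero (hq : q.Prime) (hqM : ¬ q ∣ M) (y : s34m_F K₀ (M * q)) :
    y ∈ s34m_Vzero G φ M q hq hqM ↔ s34m_al φ M q hq hqM y ∈ s34m_Vinf G (M * q) := Iff.rfl

theorem s34m_al_mem_Vinf_iff (hq : q.Prime) (hqM : ¬ q ∣ M) (y : s34m_F K₀ (M * q)) :
    s34m_al φ M q hq hqM y ∈ s34m_Vzero G φ M q hq hqM ↔ y ∈ s34m_Vinf G (M * q) := by
  rw [s34m_mem_Vzero, s34m_al_al]

theorem s34m_al_unif (hq : q.Prime) (hqM : ¬ q ∣ M) :
    s34m_al φ M q hq hqM (s34m_unif G (M * q)) = s34m_unif G (M * q) :=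
  (s34m_al φ M q hq hqM).commutes _

theorem s34m_unif_mem_Vzero (hq : q.Prime) (hqM : ¬ q ∣ M) :
    s34m_unif G (M * q) ∈ s34m_Vzero G φ M q hq hqM := by
  rw [s34m_mem_Vzero, s34m_al_unif]
  exact s34m_unif_mem_Vinf G (M * q)

/-- **The family `{V_∞, V_0}`** (`true ↦ V_∞`, `false ↦ V_0`). -/
def s34m_VV (hq : q.Prime) (hqM : ¬ q ∣ M) : Bool → ValuationSubring (s34m_F K₀ (M * q))
  | true => s34m_Vinf G (M * q)
  | false => s34m_Vzero G φ M q hq hqM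

theorem s34m_unif_mem_VV (hq : q.Prime) (hqM : ¬ q ∣ M) (i : Bool) :
    s34m_unif G (M * q) ∈ s34m_VV G φ M q hq hqM i := by
  cases i
  · exact s34m_unif_mem_Vzero G φ M q hq hqM
  · exact s34m_unif_mem_Vinf G (M * q)

/-! ### The discrete valuation structure -/

theorem s34m_exists_zpow_Vinf (N : ℕ) [NeZero N] (U : s34m_F K₀ N) (hU : U ≠ 0) :
    ∃ (n : ℤ) (u : s34m_F K₀ N), u ∈ s34m_Vinf G N ∧ u⁻¹ ∈ s34m_Vinf G N ∧
      U = s34m_unif G N ^ n * u := by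
  obtain ⟨n, u, e⟩ := s18g_exists_zpow_unitV G _ (s34m_hF G N) U hU
  refine ⟨n, (u : s18g_V G _ (s34m_hF G N)), (u : s18g_V G _ (s34m_hF G N)).2, ?_, e⟩
  have h : ((u⁻¹ : (s18g_V G _ (s34m_hF G N))ˣ) : s34m_F K₀ N) =
      ((u : s18g_V G _ (s34m_hF G N)) : s34m_F K₀ N)⁻¹ := by
    have h1 : ((u : s18g_V G _ (s34m_hF G N)) : s34m_F K₀ N) *
        ((u⁻¹ : (s18g_V G _ (s34m_hF G N))ˣ) : s34m_F K₀ N) = 1 := by
      have h2 : ((u : s18g_V G _ (s34m_hF G N)) * ((u⁻¹ : (s18g_V G _ (s34m_hF G N))ˣ) :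
          s18g_V G _ (s34m_hF G N)) : s18g_V G _ (s34m_hF G N)) = 1 := Units.mul_inv u
      have h3 := congrArg Subtype.val h2
      exact h3
    exact eq_inv_of_mul_eq_one_right h1
  rw [← h]
  exact ((u⁻¹ : (s18g_V G _ (s34m_hF G N))ˣ) : s18g_V G _ (s34m_hF G N)).2

theorem s34m_exists_zpow_VV (hq : q.Prime) (hqM : ¬ q ∣ M) (i : Bool)
    (U : s34m_F K₀ (M * q)) (hU : U ≠ 0) :
    ∃ (n : ℤ) (u : s34m_F K₀ (M * q)), u ∈ s34m_VV G φ M q hq hqM i ∧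
      u⁻¹ ∈ s34m_VV G φ M q hq hqM i ∧ U = s34m_unif G (M * q) ^ n * u := by
  cases i
  · -- `V_0`: transport by `w`
    set w := s34m_al φ M q hq hqM with hw
    have hwU : w U ≠ 0 := (map_ne_zero w).mpr hU
    obtain ⟨n, u, hu, hu', e⟩ := s34m_exists_zpow_Vinf G (M * q) (w U) hwU
    refine ⟨n, w u, ?_, ?_, ?_⟩
    · show w u ∈ s34m_Vzero G φ M q hq hqM
      rw [hw, s34m_al_mem_Vinf_iff]; exact hu
    · show (w u)⁻¹ ∈ s34m_Vzero G φ M q hq hqM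
      rw [← map_inv₀, hw, s34m_al_mem_Vinf_iff]; exact hu'
    · have := congrArg w e
      rw [hw, s34m_al_al, map_mul, map_zpow₀, s34m_al_unif] at this
      exact this
  · exact s34m_exists_zpow_Vinf G (M * q) U hU

/-! ### The inertia group acts trivially modulo `ϖ` -/

section Inertia

variable (σ₀ : K₀ ≃ₐ[ℚ] K₀)
  (hσA : ∀ a : K₀, a ∈ G.A → (σ₀ : K₀ ≃+* K₀) a ∈ G.A)
  (hσπ : ∀ a : G.A, G.π (s34m_sigmaA G (σ₀ : K₀ ≃+* K₀) hσA a) = G.π a)

include hσπ in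
theorem s34m_galois_mem_Vinf (N : ℕ) [NeZero N] {y : s34m_F K₀ N} (hy : y ∈ s34m_Vinf G N) :
    arithmeticRingAut (modularFunctionFieldFull N) σ₀ y ∈ s34m_Vinf G N := by
  rw [s34m_mem_Vinf, coe_arithmeticRingAut_apply]
  exact s34m_sigma_mem_O G (σ₀ : K₀ ≃+* K₀) hσA hσπ hy

include hσπ in
theorem s34m_galois_sub_mem_Vinf (N : ℕ) [NeZero N] {y : s34m_F K₀ N}
    (hy : y ∈ s34m_Vinf G N) :
    ∃ z ∈ s34m_Vinf G N,
      arithmeticRingAut (modularFunctionFieldFull N) σ₀ y - y = s34m_unif G N * z := by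
  obtain ⟨g, hg, e⟩ := s34m_sigma_sub_mem G (σ₀ : K₀ ≃+* K₀) hσA hσπ hy
  have hϖ0 := s34m_unif_ne_zero G N
  refine ⟨(s34m_unif G N)⁻¹ * (arithmeticRingAut (modularFunctionFieldFull N) σ₀ y - y), ?_, ?_⟩
  · rw [s34m_mem_Vinf]
    have : (((s34m_unif G N)⁻¹ * (arithmeticRingAut (modularFunctionFieldFull N) σ₀ y - y) :
        s34m_F K₀ N) : LaurentSeries K₀) = g := by
      have hC : (HahnSeries.C ((G.ϖ : G.A) : K₀) : LaurentSeries K₀) ≠ 0 :=
        s18g_C_unifK_ne_zero G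
      rw [MulMemClass.coe_mul, IntermediateField.coe_inv, AddSubgroupClass.coe_sub,
        coe_arithmeticRingAut_apply, s34m_coe_unif]
      have e' : coeffMap ((σ₀ : K₀ ≃+* K₀) : K₀ →+* K₀) (y : LaurentSeries K₀) -
          (y : LaurentSeries K₀) = HahnSeries.C ((G.ϖ : G.A) : K₀) * g := e
      have e'' : coeffMap (σ₀ : K₀ →+* K₀) (y : LaurentSeries K₀) - (y : LaurentSeries K₀) =
          HahnSeries.C ((G.ϖ : G.A) : K₀) * g := e'
      rw [e'', ← mul_assoc, inv_mul_cancel₀ hC, one_mul]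
    rw [this]; exact hg
  · rw [← mul_assoc, mul_inv_cancel₀ hϖ0, one_mul]

include hσπ in
theorem s34m_galois_mem_Vzero (hq : q.Prime) (hqM : ¬ q ∣ M) {y : s34m_F K₀ (M * q)}
    (hy : y ∈ s34m_Vzero G φ M q hq hqM) :
    arithmeticRingAut (modularFunctionFieldFull (M * q)) σ₀ y ∈ s34m_Vzero G φ M q hq hqM := by
  rw [s34m_mem_Vzero, s34m_al_galois]
  exact s34m_galois_mem_Vinf G σ₀ hσA hσπ (M * q) hy

include hσπ in
theorem s34m_galois_sub_mem_Vzero (hq : q.Prime) (hqM : ¬ q ∣ M) {y : s34m_F K₀ (M * q)}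
    (hy : y ∈ s34m_Vzero G φ M q hq hqM) :
    ∃ z ∈ s34m_Vzero G φ M q hq hqM,
      arithmeticRingAut (modularFunctionFieldFull (M * q)) σ₀ y - y =
        s34m_unif G (M * q) * z := by
  set w := s34m_al φ M q hq hqM with hw
  obtain ⟨z', hz', e⟩ := s34m_galois_sub_mem_Vinf G σ₀ hσA hσπ (M * q)
    ((s34m_mem_Vzero G φ M q hq hqM y).mp hy)
  refine ⟨w z', ?_, ?_⟩
  · rw [hw, s34m_al_mem_Vinf_iff]; exact hz'
  · have h1 : w (arithmeticRingAut (modularFunctionFieldFull (M * q)) σ₀ y - y) =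
        s34m_unif G (M * q) * z' := by
      rw [map_sub, hw, s34m_al_galois]; exact e
    have h2 := congrArg w h1
    rw [hw, s34m_al_al, map_mul, s34m_al_unif] at h2
    exact h2

include hσπ in
theorem s34m_galois_mem_VV (hq : q.Prime) (hqM : ¬ q ∣ M) (i : Bool) {y : s34m_F K₀ (M * q)}
    (hy : y ∈ s34m_VV G φ M q hq hqM i) :
    arithmeticRingAut (modularFunctionFieldFull (M * q)) σ₀ y ∈ s34m_VV G φ M q hq hqM i := by
  cases i
  · exact s34m_galois_mem_Vzero G φ M q σ₀ hσA hσπ hq hqM hy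
  · exact s34m_galois_mem_Vinf G σ₀ hσA hσπ (M * q) hy

include hσπ in
theorem s34m_galois_sub_mem_VV (hq : q.Prime) (hqM : ¬ q ∣ M) (i : Bool)
    {y : s34m_F K₀ (M * q)} (hy : y ∈ s34m_VV G φ M q hq hqM i) :
    ∃ z ∈ s34m_VV G φ M q hq hqM i,
      arithmeticRingAut (modularFunctionFieldFull (M * q)) σ₀ y - y =
        s34m_unif G (M * q) * z := by
  cases i
  · exact s34m_galois_sub_mem_Vzero G φ M q σ₀ hσA hσπ hq hqM hy
  · exact s34m_galois_sub_mem_Vinf G σ₀ hσA hσπ (M * q) hy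

end Inertia

/-! ### The second difference is `≡ 1` -/

section SecondDiff

variable (σ₀ : K₀ ≃ₐ[ℚ] K₀)
  (hσA : ∀ a : K₀, a ∈ G.A → (σ₀ : K₀ ≃+* K₀) a ∈ G.A)
  (hσA' : ∀ a : K₀, a ∈ G.A → (σ₀.symm : K₀ ≃+* K₀) a ∈ G.A)
  (hσπ : ∀ a : G.A, G.π (s34m_sigmaA G (σ₀ : K₀ ≃+* K₀) hσA a) = G.π a)

include hσπ in
/-- The inverse of an element of the inertia group is in the inertia group. -/
theorem s34m_symm_res (a : G.A) :
    G.π (s34m_sigmaA G (σ₀.symm : K₀ ≃+* K₀) hσA' a) = G.π a := by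
  have h := hσπ (s34m_sigmaA G (σ₀.symm : K₀ ≃+* K₀) hσA' a)
  rw [← h]
  congr 1
  apply Subtype.ext
  show σ₀ (σ₀.symm (a : K₀)) = (a : K₀)
  exact σ₀.apply_symm_apply _

include hσπ hσA' in
/-- **(L) is formal**: for `σ₀` in the inertia group of `A` and EVERY `U ≠ 0` of the function
field, `σ²U · U / (σU)² ≡ 1` modulo `ϖ` in both `V_∞` and `V_0`. -/
theorem s34m_second_diff_VV (hq : q.Prime) (hqM : ¬ q ∣ M) (i : Bool)
    (U : s34m_F K₀ (M * q)) (hU : U ≠ 0) :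
    ∃ z ∈ s34m_VV G φ M q hq hqM i,
      arithmeticRingAut (modularFunctionFieldFull (M * q)) σ₀
          (arithmeticRingAut (modularFunctionFieldFull (M * q)) σ₀ U) * U /
        (arithmeticRingAut (modularFunctionFieldFull (M * q)) σ₀ U) ^ 2 - 1 =
        s34m_unif G (M * q) * z :=
  s34m_second_diff (s34m_VV G φ M q hq hqM i) (s34m_unif G (M * q))
    (s34m_unif_ne_zero G (M * q)) (s34m_unif_mem_VV G φ M q hq hqM i)
    (s34m_exists_zpow_VV G φ M q hq hqM i)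
    (arithmeticRingAut (modularFunctionFieldFull (M * q)) σ₀)
    (fun _ hy => s34m_galois_mem_VV G φ M q σ₀ hσA hσπ hq hqM i hy)
    (fun _ hy => s34m_galois_mem_VV G φ M q σ₀.symm hσA'
      (s34m_symm_res G σ₀ hσA hσA' hσπ) hq hqM i hy)
    (fun _ hy => s34m_galois_sub_mem_VV G φ M q σ₀ hσA hσπ hq hqM i hy) U hU

end SecondDiff

end Fermat.Agent.Lib.S34
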