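/-
S34 moonshot [X″]: the chart lattices of S18 (`Lib/S18/Lat.lean`) for an arbitrary SUBRING `O` of the
function field (in the application `O = O_∞ ⊓ O_0`, the intersection of two Gauss valuation rings)
instead of a valuation subring.  Copy-generalisation of `Lib/S18/Defs.lean` + `Lib/S18/Lat.lean`;
the charts `s18_chart1/2/12` and the exponent function `s18_E` are re-used from S18.  (helper9)
-/
import Fermat.Agent.Lib.S18.Defs
import Fermat.Agent.Lib.FF.FFBasicPlace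

set_option autoImplicit false

noncomputable section

namespace Fermat.Agent.Lib.S34

open AlgebraicCurve Fermat.Agent.Lib.FF Fermat.Agent.Lib.S18

variable {L₀ 𝓕 : Type*} [Field L₀] [Field 𝓕] [Algebra L₀ 𝓕]

/-- The lattice of a chart: elements of the ring `O` with `E Q ≤ ord_Q y` at all places `Q`
of the chart `S`. -/
def s34x_latSet (O : Subring 𝓕) (S : Set (Place L₀ 𝓕)) (E : Place L₀ 𝓕 → ℤ) : Set 𝓕 :=
  {y | y ∈ O ∧ ∀ Q ∈ S, y = 0 ∨ E Q ≤ Q.ord y}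

/-- The coordinate ring of a chart: elements of `O` regular at all places of the chart. -/
def s34x_ringSet (O : Subring 𝓕) (S : Set (Place L₀ 𝓕)) : Set 𝓕 :=
  {y | y ∈ O ∧ ∀ Q ∈ S, y ∈ Q.toValuationSubring}

/-- The lattice `s34x_latSet O S E` as an additive subgroup. -/
def s34x_latAdd (O : Subring 𝓕) (S : Set (Place L₀ 𝓕)) (E : Place L₀ 𝓕 → ℤ) :
    AddSubgroup 𝓕 where
  carrier := s34x_latSet O S E
  zero_mem' := ⟨O.zero_mem, fun _ _ => Or.inl rfl⟩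
  add_mem' := by
    rintro a b ⟨haO, ha⟩ ⟨hbO, hb⟩
    refine ⟨O.add_mem haO hbO, fun Q hQ => ?_⟩
    by_cases hab : a + b = 0
    · exact Or.inl hab
    right
    by_cases ha0 : a = 0
    · subst ha0
      rw [zero_add] at hab ⊢
      exact (hb Q hQ).resolve_left hab
    by_cases hb0 : b = 0
    · subst hb0
      rw [add_zero] at hab ⊢
      exact (ha Q hQ).resolve_left hab
    have h1 := (ha Q hQ).resolve_left ha0
    have h2 := (hb Q hQ).resolve_left hb0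
    exact (le_min h1 h2).trans (ff_ord_add_ge Q ha0 hb0 hab)
  neg_mem' := by
    rintro a ⟨haO, ha⟩
    refine ⟨O.neg_mem haO, fun Q hQ => ?_⟩
    rcases ha Q hQ with h | h
    · exact Or.inl (by rw [h, neg_zero])
    · right
      have : Q.ord (-a) = Q.ord a := by
        by_cases ha0 : a = 0
        · rw [ha0, neg_zero]
        have h1 : (-a) = (algebraMap L₀ 𝓕 (-1)) * a := by rw [map_neg, map_one]; ring
        rw [h1, Q.ord_mul (by rw [map_neg, map_one]; exact neg_ne_zero.mpr one_ne_zero) ha0,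
          ff_ord_algebraMap, zero_add]
      rw [this]; exact h

theorem s34x_mem_latAdd (O : Subring 𝓕) (S : Set (Place L₀ 𝓕)) (E : Place L₀ 𝓕 → ℤ)
    (y : 𝓕) : y ∈ s34x_latAdd O S E ↔ y ∈ O ∧ ∀ Q ∈ S, y = 0 ∨ E Q ≤ Q.ord y := Iff.rfl

/-- The lattice as a submodule over a valuation subring `A₀` of the constants mapping into `O`. -/
def s34x_lat (A₀ : ValuationSubring L₀) (O : Subring 𝓕)
    (hAO : ∀ a : A₀, algebraMap L₀ 𝓕 (a : L₀) ∈ O)
    (S : Set (Place L₀ 𝓕)) (E : Place L₀ 𝓕 → ℤ) : Submodule A₀ 𝓕 where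
  __ := s34x_latAdd O S E
  smul_mem' := by
    rintro a y ⟨hyO, hy⟩
    have hsm : a • y = algebraMap L₀ 𝓕 (a : L₀) * y := by
      rw [Algebra.smul_def]; rfl
    refine ⟨by rw [hsm]; exact O.mul_mem (hAO a) hyO, fun Q hQ => ?_⟩
    rw [hsm]
    rcases hy Q hQ with h | h
    · exact Or.inl (by rw [h, mul_zero])
    by_cases ha0 : algebraMap L₀ 𝓕 (a : L₀) = 0
    · exact Or.inl (by rw [ha0, zero_mul])
    by_cases hy0 : y = 0
    · exact Or.inl (by rw [hy0, mul_zero])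
    right
    rw [Q.ord_mul ha0 hy0, ff_ord_algebraMap, zero_add]
    exact h

theorem s34x_mem_lat (A₀ : ValuationSubring L₀) (O : Subring 𝓕)
    (hAO : ∀ a : A₀, algebraMap L₀ 𝓕 (a : L₀) ∈ O)
    (S : Set (Place L₀ 𝓕)) (E : Place L₀ 𝓕 → ℤ) (y : 𝓕) :
    y ∈ s34x_lat A₀ O hAO S E ↔ y ∈ O ∧ ∀ Q ∈ S, y = 0 ∨ E Q ≤ Q.ord y := Iff.rfl

theorem s34x_lat_mono (A₀ : ValuationSubring L₀) (O : Subring 𝓕)
    (hAO : ∀ a : A₀, algebraMap L₀ 𝓕 (a : L₀) ∈ O)
    {S S' : Set (Place L₀ 𝓕)} (h : S' ⊆ S) (E : Place L₀ 𝓕 → ℤ) :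
    s34x_lat A₀ O hAO S E ≤ s34x_lat A₀ O hAO S' E :=
  fun _ hy => ⟨hy.1, fun Q hQ => hy.2 Q (h hQ)⟩

/-- **Purity**: dividing an element of the lattice by a nonzero constant `c` keeps it in the lattice
as soon as the quotient lies in `O`. -/
theorem s34x_lat_pure (O : Subring 𝓕) (S : Set (Place L₀ 𝓕)) (E : Place L₀ 𝓕 → ℤ)
    (c : L₀) (hc : c ≠ 0) {x y : 𝓕} (hy : y ∈ s34x_latSet O S E) (hx : x ∈ O)
    (hxy : y = algebraMap L₀ 𝓕 c * x) : x ∈ s34x_latSet O S E := by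
  refine ⟨hx, fun Q hQ => ?_⟩
  by_cases hx0 : x = 0
  · exact Or.inl hx0
  right
  have hc' : algebraMap L₀ 𝓕 c ≠ 0 := by simpa using hc
  have hy0 : y ≠ 0 := by rw [hxy]; exact mul_ne_zero hc' hx0
  have h := (hy.2 Q hQ).resolve_left hy0
  rwa [hxy, Q.ord_mul hc' hx0, ff_ord_algebraMap, zero_add] at h

/-- The chart ring as a subring. -/
def s34x_ring (O : Subring 𝓕) (S : Set (Place L₀ 𝓕)) : Subring 𝓕 where
  carrier := s34x_ringSet O S
  zero_mem' := ⟨O.zero_mem, fun Q _ => Q.toValuationSubring.zero_mem⟩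
  one_mem' := ⟨O.one_mem, fun Q _ => Q.toValuationSubring.one_mem⟩
  add_mem' := fun ha hb => ⟨O.add_mem ha.1 hb.1,
    fun Q hQ => Q.toValuationSubring.add_mem _ _ (ha.2 Q hQ) (hb.2 Q hQ)⟩
  mul_mem' := fun ha hb => ⟨O.mul_mem ha.1 hb.1,
    fun Q hQ => Q.toValuationSubring.mul_mem _ _ (ha.2 Q hQ) (hb.2 Q hQ)⟩
  neg_mem' := fun ha => ⟨O.neg_mem ha.1, fun Q hQ => Q.toValuationSubring.neg_mem _ (ha.2 Q hQ)⟩

theorem s34x_mem_ring (O : Subring 𝓕) (S : Set (Place L₀ 𝓕)) (y : 𝓕) :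
    y ∈ s34x_ring O S ↔ y ∈ O ∧ ∀ Q ∈ S, y ∈ Q.toValuationSubring := Iff.rfl

theorem s34x_ring_le (O : Subring 𝓕) (S : Set (Place L₀ 𝓕)) :
    s34x_ring O S ≤ O := fun _ hy => hy.1

/-- The chart ring is the lattice of the zero divisor. -/
theorem s34x_ringSet_eq_latSet_zero (O : Subring 𝓕) (S : Set (Place L₀ 𝓕)) :
    s34x_ringSet O S = s34x_latSet O S (fun _ => 0) := by
  ext y
  constructor
  · rintro ⟨hO, h⟩
    refine ⟨hO, fun Q hQ => ?_⟩
    by_cases hy : y = 0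
    · exact Or.inl hy
    · exact Or.inr ((ff_mem_iff_ord_nonneg Q hy).mp (h Q hQ))
  · rintro ⟨hO, h⟩
    refine ⟨hO, fun Q hQ => ?_⟩
    rcases h Q hQ with h0 | h0
    · rw [h0]; exact Q.toValuationSubring.zero_mem
    · by_cases hy : y = 0
      · rw [hy]; exact Q.toValuationSubring.zero_mem
      · exact (ff_mem_iff_ord_nonneg Q hy).mpr h0

/-- Products: `I(E) · I(E') ⊆ I(E + E')`. -/
theorem s34x_latSet_mul (O : Subring 𝓕) (S : Set (Place L₀ 𝓕)) (E E' : Place L₀ 𝓕 → ℤ)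
    {a b : 𝓕} (ha : a ∈ s34x_latSet O S E) (hb : b ∈ s34x_latSet O S E') :
    a * b ∈ s34x_latSet O S (fun Q => E Q + E' Q) := by
  refine ⟨O.mul_mem ha.1 hb.1, fun Q hQ => ?_⟩
  by_cases ha0 : a = 0
  · exact Or.inl (by rw [ha0, zero_mul])
  by_cases hb0 : b = 0
  · exact Or.inl (by rw [hb0, mul_zero])
  right
  rw [Q.ord_mul ha0 hb0]
  exact add_le_add ((ha.2 Q hQ).resolve_left ha0) ((hb.2 Q hQ).resolve_left hb0)

end Fermat.Agent.Lib.S34
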