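/-
S34 moonshot [X″], package [H]: the Čech cover of the overlap lattice and finite generation of the
chart lattice over `A₀[t]`, for an arbitrary SUBRING `O` of the function field.  Mechanical
copy-generalisation of `Lib/S18/HCover.lean` + `Lib/S18/HGen.lean` (which use only the subring
operations of the Gauss valuation ring).  Main statement `s34x_hmain`: the hypothesis `hH` of
`s34x_zero` from finiteness of the chart ring over `A₀[t]`, a common denominator, and finiteness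
of the zeros and poles of `t`.  (helper9; original: helper4/helper6)
-/
import Fermat.Agent.Lib.S34.XLat
import Fermat.Agent.Lib.S18.HGen

set_option autoImplicit false

noncomputable section

namespace Fermat.Agent.Lib.S34

open AlgebraicCurve Fermat.Agent.Lib.FF Fermat.Agent.Lib.S18

variable {L₀ 𝓕 : Type*} [Field L₀] [Field 𝓕] [Algebra L₀ 𝓕]

variable (A₀ : ValuationSubring L₀) (O : Subring 𝓕)
  (hAO : ∀ a : A₀, algebraMap L₀ 𝓕 (a : L₀) ∈ O)

/-- **[H], concrete cover.** -/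
theorem s34x_cover (t : 𝓕) (ht0 : t ≠ 0) (htO : t ∈ O) (htinvO : t⁻¹ ∈ O)
    (E : Place L₀ 𝓕 → ℤ)
    (hzeros : {Q : Place L₀ 𝓕 | 0 < Q.ord t}.Finite)
    (hpoles : {Q : Place L₀ 𝓕 | Q.ord t < 0}.Finite)
    (Y : Finset 𝓕) (hY : ∀ y ∈ Y, y ∈ s34x_lat A₀ O hAO (s18_chart1 t) E)
    (hgen : s34x_lat A₀ O hAO (s18_chart1 t) E ≤ s18a_posSpan A₀ (s18h_unit t ht0) (Y : Set 𝓕)) :
    ∃ G : Submodule A₀ 𝓕, G.FG ∧
      s34x_lat A₀ O hAO (s18_chart12 t) E ≤
        G ⊔ (s34x_lat A₀ O hAO (s18_chart1 t) E ⊔ s34x_lat A₀ O hAO (s18_chart2 t) E) := by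
  classical
  -- (H3): for each generator, large negative powers of `t` push it into `M₂`
  have hH3 : ∀ y ∈ Y, ∃ n₀ : ℕ, ∀ n : ℕ, n₀ ≤ n →
      t ^ (-(n : ℤ)) * y ∈ s34x_lat A₀ O hAO (s18_chart2 t) E := by
    intro y hy
    have hyM := hY y hy
    rw [s34x_mem_lat] at hyM
    refine ⟨hpoles.toFinset.sup fun Q => (E Q - Q.ord y).toNat, fun n hn => ?_⟩
    rw [s34x_mem_lat]
    refine ⟨O.mul_mem (by rw [zpow_neg, ← inv_zpow, zpow_natCast]; exact O.pow_mem htinvO n)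
      hyM.1, fun Q hQ => ?_⟩
    by_cases hy0 : y = 0
    · left; rw [hy0, mul_zero]
    right
    rw [s18h_ord_zpow_mul Q ht0 hy0]
    rw [s18h_mem_chart2_iff ht0] at hQ
    rcases hQ.lt_or_eq with hlt | heq
    · -- a pole of `t`
      have hQp : Q ∈ hpoles.toFinset := by
        rw [Set.Finite.mem_toFinset]; exact hlt
      have h1 : (E Q - Q.ord y).toNat ≤ n :=
        (Finset.le_sup (f := fun Q => (E Q - Q.ord y).toNat) hQp).trans hn
      have h2 : E Q - Q.ord y ≤ n := by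
        have := Int.self_le_toNat (E Q - Q.ord y)
        have h3 : ((E Q - Q.ord y).toNat : ℤ) ≤ (n : ℤ) := by exact_mod_cast h1
        omega
      have h4 : (n : ℤ) ≤ -(n : ℤ) * Q.ord t := by
        have : (1 : ℤ) ≤ -Q.ord t := by omega
        nlinarith [Int.natCast_nonneg n]
      omega
    · -- `t` is a unit at `Q`
      rw [heq, mul_zero, zero_add]
      have hQ1 : Q ∈ s18_chart1 t := by rw [s18h_mem_chart1_iff ht0, heq]
      exact (hyM.2 Q hQ1).resolve_left hy0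
  choose! n₀ hn₀ using hH3
  -- (H2): every element of `M₁₂` is a negative power of `t` times an element of `M₁`
  have hH2 : ∀ y ∈ s34x_lat A₀ O hAO (s18_chart12 t) E, ∃ k : ℕ,
      t ^ (k : ℤ) * y ∈ s34x_lat A₀ O hAO (s18_chart1 t) E := by
    intro y hyM
    rw [s34x_mem_lat] at hyM
    refine ⟨hzeros.toFinset.sup fun Q => (E Q - Q.ord y).toNat, ?_⟩
    set k := hzeros.toFinset.sup fun Q => (E Q - Q.ord y).toNat with hk
    rw [s34x_mem_lat]
    refine ⟨O.mul_mem (by rw [zpow_natCast]; exact O.pow_mem htO k) hyM.1, fun Q hQ => ?_⟩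
    by_cases hy0 : y = 0
    · left; rw [hy0, mul_zero]
    right
    rw [s18h_ord_zpow_mul Q ht0 hy0]
    rw [s18h_mem_chart1_iff ht0] at hQ
    rcases hQ.lt_or_eq with hlt | heq
    · have hQz : Q ∈ hzeros.toFinset := by
        rw [Set.Finite.mem_toFinset]; exact hlt
      have h1 : (E Q - Q.ord y).toNat ≤ k :=
        Finset.le_sup (f := fun Q => (E Q - Q.ord y).toNat) hQz
      have h2 : E Q - Q.ord y ≤ k := by
        have := Int.self_le_toNat (E Q - Q.ord y)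
        have h3 : ((E Q - Q.ord y).toNat : ℤ) ≤ (k : ℤ) := by exact_mod_cast h1
        omega
      have h4 : (k : ℤ) ≤ (k : ℤ) * Q.ord t := by
        have : (1 : ℤ) ≤ Q.ord t := by omega
        nlinarith [Int.natCast_nonneg k]
      omega
    · rw [← heq, mul_zero, zero_add]
      have hQ12 : Q ∈ s18_chart12 t := by rw [s18h_mem_chart12_iff ht0, ← heq]
      exact (hyM.2 Q hQ12).resolve_left hy0
  -- apply the abstract Čech lemma
  obtain ⟨G, hG, hcov⟩ := s18a_cech_fg (R := A₀) (s18h_unit t ht0) Y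
    (s34x_lat A₀ O hAO (s18_chart2 t) E) (Y.sup n₀)
    (by
      intro y hy n hn
      rw [s18h_coe_unit_zpow, smul_eq_mul]
      exact hn₀ y hy n ((Finset.le_sup (f := n₀) hy).trans hn))
  refine ⟨G, hG, ?_⟩
  -- `posSpan ≤ M₁`
  have hpos : s18a_posSpan A₀ (s18h_unit t ht0) (Y : Set 𝓕) ≤
      s34x_lat A₀ O hAO (s18_chart1 t) E := by
    unfold s18a_posSpan
    rw [Submodule.span_le]
    rintro x ⟨i, y, hy, rfl⟩
    have hyM := hY y hy
    rw [s18h_coe_unit_zpow, smul_eq_mul]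
    show _ ∈ s34x_lat A₀ O hAO (s18_chart1 t) E
    rw [s34x_mem_lat] at hyM ⊢
    refine ⟨O.mul_mem (by rw [zpow_natCast]; exact O.pow_mem htO i) hyM.1, fun Q hQ => ?_⟩
    by_cases hy0 : y = 0
    · left; rw [hy0, mul_zero]
    right
    rw [s18h_ord_zpow_mul Q ht0 hy0]
    have h1 := (hyM.2 Q hQ).resolve_left hy0
    rw [s18h_mem_chart1_iff ht0] at hQ
    have : 0 ≤ (i : ℤ) * Q.ord t := mul_nonneg (Int.natCast_nonneg i) hQ
    omega
  intro y hy
  obtain ⟨k, hk⟩ := hH2 y hy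
  have h1 : t ^ (-(k : ℤ)) * (t ^ (k : ℤ) * y) ∈ s18a_zSpan A₀ (s18h_unit t ht0) (Y : Set 𝓕) :=
    s18h_zpow_mul_mem_zSpan A₀ t ht0 _ _ (hgen hk)
  rw [← mul_assoc, ← zpow_add₀ ht0, neg_add_cancel, zpow_zero, one_mul] at h1
  have h2 := hcov h1
  exact (sup_le_sup_left (sup_le_sup_right hpos _) G) h2



include hAO in
/-- `A₀[t] ⊆ B₁`. -/
theorem s34x_adjoin_le_ring (t : 𝓕) (htO : t ∈ O) {r : 𝓕}
    (hr : r ∈ Algebra.adjoin ↥A₀ {t}) : r ∈ s34x_ring O (s18_chart1 (L₀ := L₀) t) := by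
  induction hr using Algebra.adjoin_induction with
  | mem r hr =>
    rw [Set.mem_singleton_iff] at hr
    subst hr
    exact ⟨htO, fun Q hQ => hQ⟩
  | algebraMap a => exact ⟨hAO a, fun Q _ => Q.algebraMap_mem' _⟩
  | add r s _ _ hr hs => exact (s34x_ring O _).add_mem hr hs
  | mul r s _ _ hr hs => exact (s34x_ring O _).mul_mem hr hs

/-- The lattice as a submodule over `A₀[t]`. -/
def s34x_latT (t : 𝓕) (htO : t ∈ O) (E : Place L₀ 𝓕 → ℤ) :
    Submodule ↥(Algebra.adjoin ↥A₀ {t}) 𝓕 where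
  __ := s34x_latAdd O (s18_chart1 (L₀ := L₀) t) E
  smul_mem' := by
    rintro r y hy
    have hr := s34x_adjoin_le_ring A₀ O hAO t htO r.2
    have hr' : (r : 𝓕) ∈ s34x_latSet O (s18_chart1 (L₀ := L₀) t) (fun _ => 0) := by
      rw [← s34x_ringSet_eq_latSet_zero]; exact hr
    have := s34x_latSet_mul O _ _ _ hr' hy
    simp only [zero_add] at this
    exact this

theorem s34x_mem_latT (t : 𝓕) (htO : t ∈ O) (E : Place L₀ 𝓕 → ℤ) (y : 𝓕) :
    y ∈ s34x_latT A₀ O hAO t htO E ↔ y ∈ s34x_lat A₀ O hAO (s18_chart1 t) E := Iff.rfl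

/-- **[H], finite generation of `M₁` over `A₀[t]`.** -/
theorem s34x_exists_gen [IsNoetherianRing A₀] (t : 𝓕) (ht0 : t ≠ 0) (htO : t ∈ O)
    (E : Place L₀ 𝓕 → ℤ) (Z : Finset 𝓕)
    (hZ : ∀ b ∈ s34x_ring O (s18_chart1 (L₀ := L₀) t),
      b ∈ Submodule.span ↥(Algebra.adjoin ↥A₀ {t}) (Z : Set 𝓕))
    (c : 𝓕) (hc0 : c ≠ 0)
    (hcM : ∀ y ∈ s34x_lat A₀ O hAO (s18_chart1 t) E, c * y ∈ s34x_ring O (s18_chart1 (L₀ := L₀) t)) :
    ∃ Y : Finset 𝓕, (∀ y ∈ Y, y ∈ s34x_lat A₀ O hAO (s18_chart1 t) E) ∧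
      s34x_lat A₀ O hAO (s18_chart1 t) E ≤ s18a_posSpan A₀ (s18h_unit t ht0) (Y : Set 𝓕) := by
  classical
  have := s18h_isNoetherianRing_adjoin A₀ t
  -- the f.g. module `W = span_T (c⁻¹ Z)` contains `M₁`
  let W : Submodule ↥(Algebra.adjoin ↥A₀ {t}) 𝓕 :=
    Submodule.span _ ((Z.image fun z => c⁻¹ * z : Finset 𝓕) : Set 𝓕)
  have hWfg : W.FG := ⟨_, rfl⟩
  have hle : s34x_latT A₀ O hAO t htO E ≤ W := by
    intro y hy
    have h1 := hZ _ (hcM y hy)
    -- multiply by c⁻¹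
    have h2 : ∀ x ∈ Submodule.span ↥(Algebra.adjoin ↥A₀ {t}) (Z : Set 𝓕), c⁻¹ * x ∈ W := by
      intro x hx
      induction hx using Submodule.span_induction with
      | mem x hx =>
        apply Submodule.subset_span
        rw [Finset.coe_image]
        exact ⟨x, hx, rfl⟩
      | zero => rw [mul_zero]; exact Submodule.zero_mem _
      | add x y _ _ hx hy => rw [mul_add]; exact Submodule.add_mem _ hx hy
      | smul r x _ hx =>
        rw [mul_smul_comm]
        exact Submodule.smul_mem _ r hx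
    have h3 := h2 _ h1
    rwa [← mul_assoc, inv_mul_cancel₀ hc0, one_mul] at h3
  have : IsNoetherian ↥(Algebra.adjoin ↥A₀ {t}) W := isNoetherian_of_fg_of_noetherian W hWfg
  have hfg : (s34x_latT A₀ O hAO t htO E).FG := by
    have h1 : ((s34x_latT A₀ O hAO t htO E).comap W.subtype).FG :=
      IsNoetherian.noetherian _
    have h2 := h1.map W.subtype
    rwa [Submodule.map_comap_subtype, inf_eq_right.mpr hle] at h2
  obtain ⟨Y, hY⟩ := hfg
  refine ⟨Y, fun y hy => ?_, fun x hx => ?_⟩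
  · have : y ∈ s34x_latT A₀ O hAO t htO E := by
      rw [← hY]; exact Submodule.subset_span hy
    exact this
  · have hx' : x ∈ s34x_latT A₀ O hAO t htO E := hx
    rw [← hY] at hx'
    exact s18h_span_adjoin_le_posSpan A₀ t ht0 _ hx'

/-- A common denominator: if every place of the chart where `E < 0` carries a chart-regular
function of `O` vanishing there, and there are finitely many such places, some nonzero `c`
multiplies the lattice into the chart ring. -/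
theorem s34x_exists_den (t : 𝓕) (E : Place L₀ 𝓕 → ℤ)
    (hSfin : {Q : Place L₀ 𝓕 | Q ∈ s18_chart1 t ∧ E Q < 0}.Finite)
    (hreg : ∀ Q ∈ s18_chart1 (L₀ := L₀) t, ∃ a ∈ O, a ≠ 0 ∧
      (∀ Q' ∈ s18_chart1 (L₀ := L₀) t, 0 ≤ Q'.ord a) ∧ 0 < Q.ord a) :
    ∃ c : 𝓕, c ≠ 0 ∧ ∀ y ∈ s34x_latSet O (s18_chart1 (L₀ := L₀) t) E,
      c * y ∈ s34x_ring O (s18_chart1 (L₀ := L₀) t) := by
  classical
  -- build `c` by induction over a finite set of places
  have key : ∀ S : Finset (Place L₀ 𝓕), (∀ Q ∈ S, Q ∈ s18_chart1 (L₀ := L₀) t) →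
      ∃ c : 𝓕, c ≠ 0 ∧ c ∈ O ∧ (∀ Q' ∈ s18_chart1 (L₀ := L₀) t, 0 ≤ Q'.ord c) ∧
        ∀ Q ∈ S, -E Q ≤ Q.ord c := by
    intro S
    induction S using Finset.induction_on with
    | empty =>
      intro _
      exact ⟨1, one_ne_zero, O.one_mem, fun Q' _ => by simp, fun Q hQ => by simp at hQ⟩
    | insert Q₀ S hQ₀ ih =>
      intro hS
      obtain ⟨c, hc0, hcO, hcreg, hc⟩ := ih (fun Q hQ => hS Q (Finset.mem_insert_of_mem hQ))
      obtain ⟨a, haO, ha0, hareg, haQ⟩ := hreg Q₀ (hS Q₀ (Finset.mem_insert_self _ _))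
      set n : ℕ := (-E Q₀).toNat with hn
      have han0 : a ^ n ≠ 0 := pow_ne_zero _ ha0
      have hord : ∀ Q' : Place L₀ 𝓕, Q'.ord (a ^ n * c) = n * Q'.ord a + Q'.ord c := by
        intro Q'
        rw [Q'.ord_mul han0 hc0, ← zpow_natCast, Q'.ord_zpow]
      refine ⟨a ^ n * c, mul_ne_zero han0 hc0, O.mul_mem (O.pow_mem haO n) hcO, ?_, ?_⟩
      · intro Q' hQ'
        rw [hord]
        have h1 := hareg Q' hQ'
        have h2 := hcreg Q' hQ'
        have : 0 ≤ (n : ℤ) * Q'.ord a := mul_nonneg (Int.natCast_nonneg n) h1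
        omega
      · intro Q hQ
        rw [hord]
        rcases Finset.mem_insert.mp hQ with rfl | hQS
        · have h2 := hcreg Q (hS Q (Finset.mem_insert_self _ _))
          have h3 : -E Q ≤ (n : ℤ) := Int.self_le_toNat _
          have h4 : (n : ℤ) ≤ (n : ℤ) * Q.ord a := by
            have : (1 : ℤ) ≤ Q.ord a := haQ
            nlinarith [Int.natCast_nonneg n]
          omega
        · have h1 := hareg Q (hS Q (Finset.mem_insert_of_mem hQS))
          have h2 := hc Q hQS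
          have : 0 ≤ (n : ℤ) * Q.ord a := mul_nonneg (Int.natCast_nonneg n) h1
          omega
  obtain ⟨c, hc0, hcO, hcreg, hc⟩ := key hSfin.toFinset (fun Q hQ => by
    rw [Set.Finite.mem_toFinset] at hQ; exact hQ.1)
  refine ⟨c, hc0, fun y hy => ⟨O.mul_mem hcO hy.1, fun Q hQ => ?_⟩⟩
  by_cases hy0 : y = 0
  · rw [hy0, mul_zero]; exact Q.toValuationSubring.zero_mem
  rw [ff_mem_iff_ord_nonneg Q (mul_ne_zero hc0 hy0), Q.ord_mul hc0 hy0]
  have h1 := (hy.2 Q hQ).resolve_left hy0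
  by_cases hE : E Q < 0
  · have hQS : Q ∈ hSfin.toFinset := by
      rw [Set.Finite.mem_toFinset]; exact ⟨hQ, hE⟩
    have := hc Q hQS
    omega
  · have := hcreg Q hQ
    omega

/-- **[H], main form**: the hypothesis `hH` of `s18x_zero` from finiteness of the chart ring over
`A₀[t]`, a common denominator, and finiteness of the zeros and poles of `t`. -/
theorem s34x_hmain [IsNoetherianRing A₀] (t : 𝓕) (ht0 : t ≠ 0) (htO : t ∈ O) (htinvO : t⁻¹ ∈ O)
    (E : Place L₀ 𝓕 → ℤ)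
    (hzeros : {Q : Place L₀ 𝓕 | 0 < Q.ord t}.Finite)
    (hpoles : {Q : Place L₀ 𝓕 | Q.ord t < 0}.Finite)
    (Z : Finset 𝓕)
    (hZ : ∀ b ∈ s34x_ring O (s18_chart1 (L₀ := L₀) t),
      b ∈ Submodule.span ↥(Algebra.adjoin ↥A₀ {t}) (Z : Set 𝓕))
    (hSfin : {Q : Place L₀ 𝓕 | Q ∈ s18_chart1 t ∧ E Q < 0}.Finite)
    (hreg : ∀ Q ∈ s18_chart1 (L₀ := L₀) t, ∃ a ∈ O, a ≠ 0 ∧
      (∀ Q' ∈ s18_chart1 (L₀ := L₀) t, 0 ≤ Q'.ord a) ∧ 0 < Q.ord a) :
    ∃ G : Submodule A₀ 𝓕, G.FG ∧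
      s34x_lat A₀ O hAO (s18_chart12 t) E ≤
        G ⊔ (s34x_lat A₀ O hAO (s18_chart1 t) E ⊔ s34x_lat A₀ O hAO (s18_chart2 t) E) := by
  obtain ⟨c, hc0, hcM⟩ := s34x_exists_den O t E hSfin hreg
  obtain ⟨Y, hY, hgen⟩ := s34x_exists_gen A₀ O hAO t ht0 htO E Z hZ c hc0 hcM
  exact s34x_cover A₀ O hAO t ht0 htO htinvO E hzeros hpoles Y hY hgen

end Fermat.Agent.Lib.S34
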