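/-
S34 moonshot [X″]: Theorem X₀ of S18 (`Lib/S18/XCore.lean`, `XChart.lean`, `XZero.lean`) for an
arbitrary SUBRING `O` of the function field whose Jacobson radical contains the constant `π`
(hypothesis `hJ : ∀ y ∈ O, ∃ u ∈ O, (1 + π * y) * u = 1`; in the application `O = O_∞ ⊓ O_0` is the
intersection of two Gauss valuation rings and `π` is a non-unit of both).

`s34x_zero`: if `f ≡ 1 mod πO`, all orders of `f` are divisible by `m`, both chart lattices of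
`E = div(f)/m` contain an element `≡ 1 mod πO`, and the Čech `H¹` is finitely generated, there is
`x ≠ 0` in `O` with `ord_Q f ≤ m · ord_Q x` at every place.  (helper9; architect of S18: helper4)
-/
import Fermat.Agent.Lib.S34.XLat
import Fermat.Agent.Lib.S18.ACore2
import Fermat.Agent.Lib.S18.CNewton
import Fermat.Agent.Lib.S18.KApprox2

set_option autoImplicit false

noncomputable section

namespace Fermat.Agent.Lib.S34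

open AlgebraicCurve Fermat.Agent.Lib.FF Fermat.Agent.Lib.S18

variable {L₀ 𝓕 : Type*} [Field L₀] [Field 𝓕] [Algebra L₀ 𝓕]

/-- `π` lies in the Jacobson radical of the ring `O`. -/
theorem s34x_mem_jacobson (O : Subring 𝓕) (π : 𝓕) (hπO : π ∈ O)
    (hJ : ∀ y ∈ O, ∃ u ∈ O, (1 + π * y) * u = 1) :
    (⟨π, hπO⟩ : O) ∈ (⊥ : Ideal O).jacobson := by
  rw [Ideal.mem_jacobson_bot]
  intro y
  obtain ⟨u, hu, e⟩ := hJ (y : 𝓕) y.2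
  refine IsUnit.of_mul_eq_one (⟨u, hu⟩ : O) (Subtype.ext ?_)
  show (π * (y : 𝓕) + 1) * u = 1
  rw [add_comm]; exact e

/-- `π` is not a unit of `O` (as soon as `O` is a subring of a field: `1 ≠ 0`). -/
theorem s34x_not_unit (O : Subring 𝓕) (π : 𝓕)
    (hJ : ∀ y ∈ O, ∃ u ∈ O, (1 + π * y) * u = 1) : ¬ ∃ y ∈ O, (1 : 𝓕) = π * y := by
  rintro ⟨y, hy, e⟩
  obtain ⟨u, _, eu⟩ := hJ (-y) (O.neg_mem hy)
  have : (1 : 𝓕) + π * -y = 0 := by rw [mul_neg, ← e]; ring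
  rw [this, zero_mul] at eu
  exact zero_ne_one eu

/-- If `f ≡ 1 mod πO` then `f⁻¹ ∈ O`. -/
theorem s34x_inv_mem (O : Subring 𝓕) (π f : 𝓕)
    (hJ : ∀ y ∈ O, ∃ u ∈ O, (1 + π * y) * u = 1)
    (hf1 : ∃ y ∈ O, f - 1 = π * y) : f⁻¹ ∈ O := by
  obtain ⟨y, hy, e⟩ := hf1
  obtain ⟨u, hu, eu⟩ := hJ y hy
  have hf : f = 1 + π * y := by rw [← e]; ring
  have : f⁻¹ = u := by
    rw [hf]; exact inv_eq_of_mul_eq_one_right eu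
  rw [this]; exact hu

/-- Uniqueness of approximate `m`-th roots in `O`: pure algebra (`CNewton`). -/
theorem s34x_sub_mem (O : Subring 𝓕) (π : 𝓕) (hπO : π ∈ O)
    (hJ : ∀ y ∈ O, ∃ u ∈ O, (1 + π * y) * u = 1)
    (m : ℕ) (hm : ∃ u ∈ O, (m : 𝓕) * u = 1)
    {a₁ a₂ : 𝓕} (h₁ : ∃ y ∈ O, a₁ - 1 = π * y) (h₂ : ∃ y ∈ O, a₂ - 1 = π * y)
    (n : ℕ) (h : ∃ y ∈ O, a₁ ^ m - a₂ ^ m = π ^ n * y) : ∃ y ∈ O, a₁ - a₂ = π ^ n * y := by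
  obtain ⟨y₁, hy₁, e₁⟩ := h₁
  obtain ⟨y₂, hy₂, e₂⟩ := h₂
  obtain ⟨y, hy, e⟩ := h
  obtain ⟨u, hu, eu⟩ := hm
  have ha₁ : a₁ ∈ O := by
    have : a₁ = 1 + π * y₁ := by rw [← e₁]; ring
    rw [this]; exact O.add_mem O.one_mem (O.mul_mem hπO hy₁)
  have ha₂ : a₂ ∈ O := by
    have : a₂ = 1 + π * y₂ := by rw [← e₂]; ring
    rw [this]; exact O.add_mem O.one_mem (O.mul_mem hπO hy₂)
  have hπJ := s34x_mem_jacobson O π hπO hJ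
  have hmu : IsUnit ((m : ℕ) : O) := by
    refine IsUnit.of_mul_eq_one (⟨u, hu⟩ : O) ?_
    apply Subtype.ext
    simpa using eu
  have key := s18c_sub_mem_of_pow_sub_mem (B := O) ⟨π, hπO⟩ hπJ m hmu ⟨a₁, ha₁⟩ ⟨a₂, ha₂⟩
    (Ideal.mem_span_singleton'.mpr ⟨⟨y₁, hy₁⟩, by
      apply Subtype.ext
      show y₁ * π = a₁ - 1
      rw [e₁]; ring⟩)
    (Ideal.mem_span_singleton'.mpr ⟨⟨y₂, hy₂⟩, by
      apply Subtype.ext
      show y₂ * π = a₂ - 1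
      rw [e₂]; ring⟩) n
    (Ideal.mem_span_singleton'.mpr ⟨⟨y, hy⟩, by
      apply Subtype.ext
      show y * π ^ n = a₁ ^ m - a₂ ^ m
      rw [e]; ring⟩)
  obtain ⟨c, hc⟩ := Ideal.mem_span_singleton'.mp key
  refine ⟨c, c.2, ?_⟩
  have := congrArg Subtype.val hc
  have h2 : (c : 𝓕) * π ^ n = a₁ - a₂ := this
  rw [← h2]; ring

/-- **Abstract assembly** (copy of `s18x_exists_section` for a subring `O`). -/
theorem s34x_exists_section (A₀ : ValuationSubring L₀) [IsNoetherianRing A₀]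
    (O : Subring 𝓕) (hAO : ∀ a : A₀, algebraMap L₀ 𝓕 (a : L₀) ∈ O)
    (ϖ : A₀) (hϖ0 : (ϖ : L₀) ≠ 0)
    (hJ : ∀ y ∈ O, ∃ u ∈ O, (1 + algebraMap L₀ 𝓕 (ϖ : L₀) * y) * u = 1)
    (t f : 𝓕) (m : ℕ) (hm : ∃ u ∈ O, (m : 𝓕) * u = 1) (E : Place L₀ 𝓕 → ℤ)
    (h1 : ∀ n : ℕ, ∃ a ∈ s34x_latSet O (s18_chart1 t) E,
      (∃ y ∈ O, a - 1 = algebraMap L₀ 𝓕 (ϖ : L₀) * y) ∧
        ∃ y ∈ O, a ^ m - f = algebraMap L₀ 𝓕 (ϖ : L₀) ^ n * y)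
    (h2 : ∀ n : ℕ, ∃ a ∈ s34x_latSet O (s18_chart2 t) E,
      (∃ y ∈ O, a - 1 = algebraMap L₀ 𝓕 (ϖ : L₀) * y) ∧
        ∃ y ∈ O, a ^ m - f = algebraMap L₀ 𝓕 (ϖ : L₀) ^ n * y)
    (hH : ∃ G : Submodule A₀ 𝓕, G.FG ∧
      s34x_lat A₀ O hAO (s18_chart12 t) E ≤
        G ⊔ (s34x_lat A₀ O hAO (s18_chart1 t) E ⊔ s34x_lat A₀ O hAO (s18_chart2 t) E)) :
    ∃ x : 𝓕, x ≠ 0 ∧ x ∈ O ∧ ∀ Q : Place L₀ 𝓕, E Q ≤ Q.ord x := by
  set π : 𝓕 := algebraMap L₀ 𝓕 (ϖ : L₀) with hπdef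
  have hπO : π ∈ O := hAO ϖ
  have hϖ : ¬ ∃ y ∈ O, (1 : 𝓕) = π * y := s34x_not_unit O π hJ
  obtain ⟨G, hG, hcover⟩ := hH
  have hsmul : ∀ (n : ℕ) (c : 𝓕), (ϖ ^ n) • c = π ^ n * c := by
    intro n c
    rw [Algebra.smul_def, hπdef, ← map_pow]; rfl
  have hsmul1 : ∀ c : 𝓕, ϖ • c = π * c := by
    intro c
    rw [Algebra.smul_def]; rfl
  have h12_1 : s34x_lat A₀ O hAO (s18_chart1 t) E ≤ s34x_lat A₀ O hAO (s18_chart12 t) E :=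
    s34x_lat_mono A₀ O hAO Set.inter_subset_left E
  have h12_2 : s34x_lat A₀ O hAO (s18_chart2 t) E ≤ s34x_lat A₀ O hAO (s18_chart12 t) E :=
    s34x_lat_mono A₀ O hAO Set.inter_subset_right E
  obtain ⟨x, hx, hx0⟩ := s18a_core_fg ϖ (s34x_lat A₀ O hAO (s18_chart1 t) E)
    (s34x_lat A₀ O hAO (s18_chart2 t) E) (s34x_lat A₀ O hAO (s18_chart12 t) E) G h12_1 hG hcover
    (by
      intro n
      obtain ⟨a₁, ha₁, ha₁1, ha₁f⟩ := h1 n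
      obtain ⟨a₂, ha₂, ha₂1, ha₂f⟩ := h2 n
      refine ⟨a₁, ha₁, a₂, ha₂, ?_, ?_⟩
      · rintro ⟨y, hy, hay⟩
        obtain ⟨y', hy', e'⟩ := ha₁1
        apply hϖ
        refine ⟨y - y', O.sub_mem hy.1 hy', ?_⟩
        rw [hsmul1] at hay
        rw [mul_sub, ← hay, ← e']; ring
      · have hdiff : ∃ y ∈ O, a₁ ^ m - a₂ ^ m = π ^ n * y := by
          obtain ⟨y₁, hy₁, e₁⟩ := ha₁f
          obtain ⟨y₂, hy₂, e₂⟩ := ha₂f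
          refine ⟨y₁ - y₂, O.sub_mem hy₁ hy₂, ?_⟩
          rw [mul_sub, ← e₁, ← e₂]; ring
        obtain ⟨c, hc, hceq⟩ := s34x_sub_mem O π hπO hJ m hm ha₁1 ha₂1 n hdiff
        refine ⟨c, ?_, by rw [hsmul]; exact hceq⟩
        have hmem : a₁ - a₂ ∈ s34x_lat A₀ O hAO (s18_chart12 t) E :=
          Submodule.sub_mem _ (h12_1 ha₁) (h12_2 ha₂)
        have hpow : (ϖ : L₀) ^ n ≠ 0 := pow_ne_zero _ hϖ0
        exact s34x_lat_pure O (s18_chart12 t) E ((ϖ : L₀) ^ n) hpow hmem hc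
          (by rw [hceq, map_pow]))
  refine ⟨x, hx0, hx.1.1, fun Q => ?_⟩
  have hQ : Q ∈ s18_chart1 t ∪ s18_chart2 t := by
    rw [s18_chart1_union_chart2]; trivial
  rcases hQ with hQ | hQ
  · exact (hx.1.2 Q hQ).resolve_left hx0
  · exact (hx.2.2 Q hQ).resolve_left hx0

/-- Chart-wise approximation from an element of the lattice congruent to `1`
(copy of `s18x_chart_approx_of_one` for a subring `O`). -/
theorem s34x_chart_approx_of_one (A₀ : ValuationSubring L₀) (O : Subring 𝓕)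
    (hAO : ∀ a : A₀, algebraMap L₀ 𝓕 (a : L₀) ∈ O)
    (ϖ : A₀) (hϖ0 : (ϖ : L₀) ≠ 0)
    (hJ : ∀ y ∈ O, ∃ u ∈ O, (1 + algebraMap L₀ 𝓕 (ϖ : L₀) * y) * u = 1)
    (S : Set (Place L₀ 𝓕)) (f : 𝓕) (m : ℕ) (hm0 : m ≠ 0) (hmA : ((m : L₀))⁻¹ ∈ A₀)
    (hmL : (m : L₀) ≠ 0)
    (hdiv : ∀ Q : Place L₀ 𝓕, (m : ℤ) ∣ Q.ord f)
    (hf1 : ∃ y ∈ O, f - 1 = algebraMap L₀ 𝓕 (ϖ : L₀) * y)
    (hg : ∃ g ∈ s34x_latSet O S (s18_E f m), ∃ y ∈ O, g - 1 = algebraMap L₀ 𝓕 (ϖ : L₀) * y) :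
    ∀ n : ℕ, ∃ a ∈ s34x_latSet O S (s18_E f m),
      (∃ y ∈ O, a - 1 = algebraMap L₀ 𝓕 (ϖ : L₀) * y) ∧
        ∃ y ∈ O, a ^ m - f = algebraMap L₀ 𝓕 (ϖ : L₀) ^ n * y := by
  set π : 𝓕 := algebraMap L₀ 𝓕 (ϖ : L₀) with hπdef
  have hπO : π ∈ O := hAO ϖ
  have hϖ : ¬ ∃ y ∈ O, (1 : 𝓕) = π * y := s34x_not_unit O π hJ
  have hfO : f ∈ O := by
    obtain ⟨y, hy, e⟩ := hf1
    have : f = 1 + π * y := by rw [← e]; ring
    rw [this]; exact O.add_mem O.one_mem (O.mul_mem hπO hy)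
  have hfinv : f⁻¹ ∈ O := s34x_inv_mem O π f hJ hf1
  have hf0 : f ≠ 0 := by
    rintro rfl
    obtain ⟨y, hy, e⟩ := hf1
    exact hϖ ⟨-y, O.neg_mem hy, by rw [mul_neg, ← e]; ring⟩
  have hE : ∀ Q : Place L₀ 𝓕, (m : ℤ) * s18_E f m Q = Q.ord f := s18_E_mul f m hdiv
  have hconst : ∀ a : A₀, algebraMap L₀ 𝓕 (a : L₀) ∈ s34x_ring O S := fun a =>
    ⟨hAO a, fun Q _ => Q.algebraMap_mem' _⟩
  exact s18k_approx_of_one (𝓕 := 𝓕) O (s34x_ring O S) (s34x_ring_le O S) π f m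
    (s34x_latAdd O S (s18_E f m))
    (hconst ϖ) (fun a ha => ha.1)
    (by
      intro b hb a ha
      have hb' : b ∈ s34x_latSet O S (fun _ => 0) := by
        rw [← s34x_ringSet_eq_latSet_zero]; exact hb
      have := s34x_latSet_mul O S _ _ hb' ha
      simp only [zero_add] at this
      exact this)
    (by
      intro b hb ⟨x, hx, hbx⟩
      have hb' : b ∈ s34x_latSet O S (fun _ => 0) := by
        rw [← s34x_ringSet_eq_latSet_zero]; exact hb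
      have hx' := s34x_lat_pure O S (fun _ => 0) (ϖ : L₀) hϖ0 hb' hx hbx
      rw [← s34x_ringSet_eq_latSet_zero] at hx'
      exact ⟨x, hx', hbx⟩)
    hg
    (by
      intro a ha
      refine ⟨f⁻¹ * a ^ m, ?_, by rw [← mul_assoc, mul_inv_cancel₀ hf0, one_mul]⟩
      refine ⟨O.mul_mem hfinv (O.pow_mem ha.1 m), fun Q hQ => ?_⟩
      by_cases ha0 : a = 0
      · rw [ha0, zero_pow hm0, mul_zero]; exact Q.toValuationSubring.zero_mem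
      have hne : f⁻¹ * a ^ m ≠ 0 := mul_ne_zero (inv_ne_zero hf0) (pow_ne_zero _ ha0)
      rw [ff_mem_iff_ord_nonneg Q hne, Q.ord_mul (inv_ne_zero hf0) (pow_ne_zero _ ha0),
        Q.ord_inv, ← zpow_natCast, Q.ord_zpow, ← hE Q]
      have h := (ha.2 Q hQ).resolve_left ha0
      have hm' : (0 : ℤ) ≤ (m : ℤ) := Int.natCast_nonneg m
      nlinarith [mul_le_mul_of_nonneg_left h hm'])
    hfO hf1
    (by
      refine ⟨algebraMap L₀ 𝓕 ((m : L₀))⁻¹, hconst ⟨_, hmA⟩, ?_⟩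
      rw [← map_natCast (algebraMap L₀ 𝓕) m, ← map_mul, mul_inv_cancel₀ hmL, map_one])

/-- **Theorem X₀ for a subring `O`** (copy of `s18x_zero`), modulo the inputs `hg1`, `hg2`
(an element `≡ 1 mod πO` in each chart lattice of `E = div(f)/m`) and `hH` (Čech finiteness). -/
theorem s34x_zero (A₀ : ValuationSubring L₀) [IsNoetherianRing A₀]
    (O : Subring 𝓕) (hAO : ∀ a : A₀, algebraMap L₀ 𝓕 (a : L₀) ∈ O)
    (ϖ : A₀) (hϖ0 : (ϖ : L₀) ≠ 0)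
    (hJ : ∀ y ∈ O, ∃ u ∈ O, (1 + algebraMap L₀ 𝓕 (ϖ : L₀) * y) * u = 1)
    (t f : 𝓕) (m : ℕ) (hm0 : m ≠ 0) (hmA : ((m : L₀))⁻¹ ∈ A₀) (hmL : (m : L₀) ≠ 0)
    (hdiv : ∀ Q : Place L₀ 𝓕, (m : ℤ) ∣ Q.ord f)
    (hf1 : ∃ y ∈ O, f - 1 = algebraMap L₀ 𝓕 (ϖ : L₀) * y)
    (hg1 : ∃ g ∈ s34x_latSet O (s18_chart1 (L₀ := L₀) t) (s18_E f m),
      ∃ y ∈ O, g - 1 = algebraMap L₀ 𝓕 (ϖ : L₀) * y)
    (hg2 : ∃ g ∈ s34x_latSet O (s18_chart2 (L₀ := L₀) t) (s18_E f m),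
      ∃ y ∈ O, g - 1 = algebraMap L₀ 𝓕 (ϖ : L₀) * y)
    (hH : ∃ G : Submodule A₀ 𝓕, G.FG ∧
      s34x_lat A₀ O hAO (s18_chart12 t) (s18_E f m) ≤
        G ⊔ (s34x_lat A₀ O hAO (s18_chart1 t) (s18_E f m) ⊔
          s34x_lat A₀ O hAO (s18_chart2 t) (s18_E f m))) :
    ∃ x : 𝓕, x ≠ 0 ∧ x ∈ O ∧ ∀ Q : Place L₀ 𝓕, Q.ord f ≤ (m : ℤ) * Q.ord x := by
  have hmO : ∃ u ∈ O, (m : 𝓕) * u = 1 := by
    refine ⟨algebraMap L₀ 𝓕 ((m : L₀))⁻¹, hAO ⟨_, hmA⟩, ?_⟩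
    rw [← map_natCast (algebraMap L₀ 𝓕) m, ← map_mul, mul_inv_cancel₀ hmL, map_one]
  obtain ⟨x, hx0, hxO, hx⟩ := s34x_exists_section A₀ O hAO ϖ hϖ0 hJ t f m hmO (s18_E f m)
    (s34x_chart_approx_of_one A₀ O hAO ϖ hϖ0 hJ _ f m hm0 hmA hmL hdiv hf1 hg1)
    (s34x_chart_approx_of_one A₀ O hAO ϖ hϖ0 hJ _ f m hm0 hmA hmL hdiv hf1 hg2) hH
  refine ⟨x, hx0, hxO, fun Q => ?_⟩
  rw [← s18_E_mul f m hdiv Q]
  exact mul_le_mul_of_nonneg_left (hx Q) (Int.natCast_nonneg m)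

end Fermat.Agent.Lib.S34
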