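/-
S34 moonshot [X″]: the LOCAL-TO-GLOBAL step.  In S18 the element `g ≡ 1 mod πO` of the chart lattice
of `E = div(f)/m` (input `hg` of Theorem X₀) came from the ideal theory of the Dedekind special fibre
([I]+[S]).  On a nodal special fibre we get it instead from LOCAL generators: if for every maximal
ideal `𝔫 ∋ π` of the chart ring `B` there are `a` in the lattice and `s ∈ B ∖ 𝔫` with `a ≡ s mod πO`,
then the ideal `{b ∈ B | ∃ a ∈ lattice, a ≡ b mod πO}` contains `π` and lies in no maximal ideal,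
hence contains `1`.

`s34x_zero_of_local`: Theorem X₀ for a subring `O` from the local conditions (LOC₁), (LOC₂) and the
Čech finiteness (H).  (helper9)
-/
import Fermat.Agent.Lib.S34.XCore

set_option autoImplicit false

noncomputable section

namespace Fermat.Agent.Lib.S34

open AlgebraicCurve Fermat.Agent.Lib.FF Fermat.Agent.Lib.S18

variable {L₀ 𝓕 : Type*} [Field L₀] [Field 𝓕] [Algebra L₀ 𝓕]

/-- A constant of `L₀` lying in `O`, as an element of the chart ring. -/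
def s34x_const (O : Subring 𝓕) (S : Set (Place L₀ 𝓕)) (π : L₀) (hπO : algebraMap L₀ 𝓕 π ∈ O) :
    s34x_ring O S :=
  ⟨algebraMap L₀ 𝓕 π, hπO, fun Q _ => Q.algebraMap_mem' _⟩

@[simp]
theorem s34x_const_coe (O : Subring 𝓕) (S : Set (Place L₀ 𝓕)) (π : L₀)
    (hπO : algebraMap L₀ 𝓕 π ∈ O) : ((s34x_const O S π hπO : s34x_ring O S) : 𝓕) =
      algebraMap L₀ 𝓕 π := rfl

/-- The chart ring multiplies the lattice into itself. -/
theorem s34x_ring_mul_lat (O : Subring 𝓕) (S : Set (Place L₀ 𝓕)) (E : Place L₀ 𝓕 → ℤ)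
    {b a : 𝓕} (hb : b ∈ s34x_ring O S) (ha : a ∈ s34x_latSet O S E) :
    b * a ∈ s34x_latSet O S E := by
  have hb' : b ∈ s34x_latSet O S (fun _ => 0) := by
    rw [← s34x_ringSet_eq_latSet_zero]; exact hb
  have := s34x_latSet_mul O S _ _ hb' ha
  simp only [zero_add] at this
  exact this

/-- The ideal of the chart ring of all `b` congruent mod `πO` to an element of the lattice. -/
def s34x_congIdeal (O : Subring 𝓕) (S : Set (Place L₀ 𝓕)) (E : Place L₀ 𝓕 → ℤ) (π : 𝓕) :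
    Ideal (s34x_ring O S) where
  carrier := {b | ∃ a ∈ s34x_latSet O S E, ∃ y ∈ O, a - (b : 𝓕) = π * y}
  zero_mem' := ⟨0, (s34x_latAdd O S E).zero_mem, 0, O.zero_mem, by simp⟩
  add_mem' := by
    rintro b₁ b₂ ⟨a₁, ha₁, y₁, hy₁, e₁⟩ ⟨a₂, ha₂, y₂, hy₂, e₂⟩
    refine ⟨a₁ + a₂, (s34x_latAdd O S E).add_mem ha₁ ha₂, y₁ + y₂, O.add_mem hy₁ hy₂, ?_⟩
    push_cast
    rw [mul_add, ← e₁, ← e₂]; ring
  smul_mem' := by
    rintro r b ⟨a, ha, y, hy, e⟩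
    refine ⟨(r : 𝓕) * a, s34x_ring_mul_lat O S E r.2 ha, (r : 𝓕) * y, O.mul_mem r.2.1 hy, ?_⟩
    rw [smul_eq_mul]
    push_cast
    rw [← mul_sub, e]; ring

theorem s34x_mem_congIdeal (O : Subring 𝓕) (S : Set (Place L₀ 𝓕)) (E : Place L₀ 𝓕 → ℤ) (π : 𝓕)
    (b : s34x_ring O S) : b ∈ s34x_congIdeal O S E π ↔
      ∃ a ∈ s34x_latSet O S E, ∃ y ∈ O, a - (b : 𝓕) = π * y := Iff.rfl

/-- **Local to global.**  If at every maximal ideal `𝔫 ∋ π` of the chart ring some element of the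
lattice is congruent mod `πO` to an element of the chart ring outside `𝔫`, the lattice contains an
element `≡ 1 mod πO`. -/
theorem s34x_one_of_local (O : Subring 𝓕) (S : Set (Place L₀ 𝓕)) (E : Place L₀ 𝓕 → ℤ)
    (π : L₀) (hπO : algebraMap L₀ 𝓕 π ∈ O)
    (hloc : ∀ 𝔫 : Ideal (s34x_ring O S), 𝔫.IsMaximal → s34x_const O S π hπO ∈ 𝔫 →
      ∃ a ∈ s34x_latSet O S E, ∃ s : s34x_ring O S, s ∉ 𝔫 ∧
        ∃ y ∈ O, a - (s : 𝓕) = algebraMap L₀ 𝓕 π * y) :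
    ∃ g ∈ s34x_latSet O S E, ∃ y ∈ O, g - 1 = algebraMap L₀ 𝓕 π * y := by
  set 𝔞 := s34x_congIdeal O S E (algebraMap L₀ 𝓕 π) with h𝔞
  have hπ𝔞 : s34x_const O S π hπO ∈ 𝔞 := by
    refine ⟨0, (s34x_latAdd O S E).zero_mem, -1, O.neg_mem O.one_mem, ?_⟩
    rw [s34x_const_coe]; ring
  have htop : 𝔞 = ⊤ := by
    by_contra hne
    obtain ⟨𝔫, h𝔫, hle⟩ := Ideal.exists_le_maximal 𝔞 hne
    obtain ⟨a, ha, s, hs, y, hy, e⟩ := hloc 𝔫 h𝔫 (hle hπ𝔞)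
    exact hs (hle ⟨a, ha, y, hy, e⟩)
  have h1 : (1 : s34x_ring O S) ∈ 𝔞 := by rw [htop]; exact Submodule.mem_top
  obtain ⟨g, hg, y, hy, e⟩ := h1
  exact ⟨g, hg, y, hy, by simpa using e⟩

/-- **Theorem X₀ for a subring `O`, local form.**  `O` a subring of the function field containing
the constants of `A₀`, with `π` (the image of `ϖ ∈ A₀`) in its Jacobson radical (`hJ`); `f ≡ 1 mod πO`
with all orders divisible by `m`, `E = div(f)/m`.  If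
* (LOC₁), (LOC₂): at every maximal ideal `𝔫 ∋ π` of the ring of chart `i` some element of the lattice
  of `E` on chart `i` is congruent mod `πO` to an element of the chart ring outside `𝔫`,
* (H): the overlap lattice is covered by a f.g. `A₀`-module plus the two chart lattices,
then there is `x ≠ 0` in `O` with `ord_Q f ≤ m · ord_Q x` at every place `Q`. -/
theorem s34x_zero_of_local (A₀ : ValuationSubring L₀) [IsNoetherianRing A₀]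
    (O : Subring 𝓕) (hAO : ∀ a : A₀, algebraMap L₀ 𝓕 (a : L₀) ∈ O)
    (ϖ : A₀) (hϖ0 : (ϖ : L₀) ≠ 0)
    (hJ : ∀ y ∈ O, ∃ u ∈ O, (1 + algebraMap L₀ 𝓕 (ϖ : L₀) * y) * u = 1)
    (t f : 𝓕) (m : ℕ) (hm0 : m ≠ 0) (hmA : ((m : L₀))⁻¹ ∈ A₀) (hmL : (m : L₀) ≠ 0)
    (hdiv : ∀ Q : Place L₀ 𝓕, (m : ℤ) ∣ Q.ord f)
    (hf1 : ∃ y ∈ O, f - 1 = algebraMap L₀ 𝓕 (ϖ : L₀) * y)
    (hloc1 : ∀ 𝔫 : Ideal (s34x_ring O (s18_chart1 (L₀ := L₀) t)), 𝔫.IsMaximal →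
      s34x_const O (s18_chart1 (L₀ := L₀) t) (ϖ : L₀) (hAO ϖ) ∈ 𝔫 →
      ∃ a ∈ s34x_latSet O (s18_chart1 (L₀ := L₀) t) (s18_E f m),
        ∃ s : s34x_ring O (s18_chart1 (L₀ := L₀) t), s ∉ 𝔫 ∧
          ∃ y ∈ O, a - (s : 𝓕) = algebraMap L₀ 𝓕 (ϖ : L₀) * y)
    (hloc2 : ∀ 𝔫 : Ideal (s34x_ring O (s18_chart2 (L₀ := L₀) t)), 𝔫.IsMaximal →
      s34x_const O (s18_chart2 (L₀ := L₀) t) (ϖ : L₀) (hAO ϖ) ∈ 𝔫 →
      ∃ a ∈ s34x_latSet O (s18_chart2 (L₀ := L₀) t) (s18_E f m),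
        ∃ s : s34x_ring O (s18_chart2 (L₀ := L₀) t), s ∉ 𝔫 ∧
          ∃ y ∈ O, a - (s : 𝓕) = algebraMap L₀ 𝓕 (ϖ : L₀) * y)
    (hH : ∃ G : Submodule A₀ 𝓕, G.FG ∧
      s34x_lat A₀ O hAO (s18_chart12 t) (s18_E f m) ≤
        G ⊔ (s34x_lat A₀ O hAO (s18_chart1 t) (s18_E f m) ⊔
          s34x_lat A₀ O hAO (s18_chart2 t) (s18_E f m))) :
    ∃ x : 𝓕, x ≠ 0 ∧ x ∈ O ∧ ∀ Q : Place L₀ 𝓕, Q.ord f ≤ (m : ℤ) * Q.ord x :=
  s34x_zero A₀ O hAO ϖ hϖ0 hJ t f m hm0 hmA hmL hdiv hf1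
    (s34x_one_of_local O _ _ (ϖ : L₀) (hAO ϖ) hloc1)
    (s34x_one_of_local O _ _ (ϖ : L₀) (hAO ϖ) hloc2) hH

end Fermat.Agent.Lib.S34
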