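/-
S34 moonshot [X″]: the ring `O = ⨅ i, O i`, an intersection of valuation subrings of the function
field (in the application: the two Gauss valuation rings `O_∞`, `O_0`), as an instance of the subring
`O` of `Lib/S34/XCore.lean`:
* `s34x_inf_hJ`: if `π` is a non-unit of every `O i`, then `π` lies in the Jacobson radical of `⨅ O i`
  (in the elementwise form `hJ` used by `s34x_zero`);
* `s34x_inf_cong`: `f ≡ 1 mod π(⨅ O i)` iff `f ≡ 1 mod π(O i)` for every `i` (`π ≠ 0`);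
* `s34x_zero_inf`: Theorem X₀ in local form (`s34x_zero_of_local`) for `O = ⨅ O i`.  (helper9)
-/
import Fermat.Agent.Lib.S34.XLocal

set_option autoImplicit false

noncomputable section

namespace Fermat.Agent.Lib.S34

open AlgebraicCurve Fermat.Agent.Lib.FF Fermat.Agent.Lib.S18

variable {L₀ 𝓕 : Type*} [Field L₀] [Field 𝓕] [Algebra L₀ 𝓕]

/-- The intersection of a family of valuation subrings, as a subring. -/
def s34x_infRing {ι : Type*} (O : ι → ValuationSubring 𝓕) : Subring 𝓕 :=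
  ⨅ i, (O i).toSubring

theorem s34x_mem_infRing {ι : Type*} (O : ι → ValuationSubring 𝓕) (y : 𝓕) :
    y ∈ s34x_infRing O ↔ ∀ i, y ∈ O i := by
  unfold s34x_infRing
  rw [Subring.mem_iInf]
  rfl

/-- A non-unit `π` of a valuation ring: `1 + π y` is a unit for every `y` in the ring. -/
theorem s34x_val_one_add_inv_mem (V : ValuationSubring 𝓕) (π : 𝓕) (hπV : π ∈ V)
    (hπ : ¬ ∃ y ∈ V, (1 : 𝓕) = π * y) {y : 𝓕} (hy : y ∈ V) : (1 + π * y)⁻¹ ∈ V := by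
  rcases V.mem_or_inv_mem (1 + π * y) with h | h
  · by_contra hinv
    -- `1 + π y` is a non-unit of `V`, and so is `π y`: then `1` is a non-unit
    have hmem : 1 + π * y ∈ V := h
    have h1 : (⟨1 + π * y, hmem⟩ : V) ∈ IsLocalRing.maximalIdeal V := by
      rw [IsLocalRing.mem_maximalIdeal, mem_nonunits_iff]
      intro hu
      obtain ⟨v, hv⟩ := hu.exists_right_inv
      apply hinv
      have h1 : (1 + π * y) * (v : 𝓕) = 1 := congrArg Subtype.val hv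
      rw [inv_eq_of_mul_eq_one_right h1]; exact v.2
    have h2 : (⟨π, hπV⟩ : V) ∈ IsLocalRing.maximalIdeal V := by
      rw [IsLocalRing.mem_maximalIdeal, mem_nonunits_iff]
      intro hu
      obtain ⟨v, hv⟩ := hu.exists_right_inv
      exact hπ ⟨v, v.2, (congrArg Subtype.val hv).symm⟩
    have h3 : (1 : V) ∈ IsLocalRing.maximalIdeal V := by
      have : (1 : V) = ⟨1 + π * y, hmem⟩ - ⟨π, hπV⟩ * ⟨y, hy⟩ := by
        apply Subtype.ext
        show (1 : 𝓕) = 1 + π * y - π * y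
        ring
      rw [this]
      exact Ideal.sub_mem _ h1 (Ideal.mul_mem_right _ _ h2)
    exact (IsLocalRing.maximalIdeal.isMaximal V).ne_top ((Ideal.eq_top_iff_one _).mpr h3)
  · exact h

/-- **`hJ` for an intersection of valuation rings**: if `π` is a non-unit of each `O i` (non-empty
family), it lies in the Jacobson radical of `⨅ O i`. -/
theorem s34x_inf_hJ {ι : Type*} [Nonempty ι] (O : ι → ValuationSubring 𝓕) (π : 𝓕)
    (hπO : ∀ i, π ∈ O i) (hπ : ∀ i, ¬ ∃ y ∈ O i, (1 : 𝓕) = π * y) :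
    ∀ y ∈ s34x_infRing O, ∃ u ∈ s34x_infRing O, (1 + π * y) * u = 1 := by
  intro y hy
  rw [s34x_mem_infRing] at hy
  have h0 : 1 + π * y ≠ 0 := by
    intro h0
    obtain ⟨i⟩ := ‹Nonempty ι›
    apply hπ i
    refine ⟨-y, (O i).neg_mem _ (hy i), ?_⟩
    have : π * y = -1 := by linear_combination h0
    rw [mul_neg, this]; ring
  refine ⟨(1 + π * y)⁻¹, ?_, mul_inv_cancel₀ h0⟩
  rw [s34x_mem_infRing]
  intro i
  exact s34x_val_one_add_inv_mem (O i) π (hπO i) (hπ i) (hy i)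

/-- Congruences mod `π(⨅ O i)` are tested componentwise. -/
theorem s34x_inf_cong {ι : Type*} (O : ι → ValuationSubring 𝓕) (π : 𝓕) (hπ0 : π ≠ 0) (a : 𝓕) :
    (∃ y ∈ s34x_infRing O, a = π * y) ↔ ∀ i, ∃ y ∈ O i, a = π * y := by
  constructor
  · rintro ⟨y, hy, e⟩ i
    exact ⟨y, (s34x_mem_infRing O y).mp hy i, e⟩
  · intro h
    refine ⟨π⁻¹ * a, ?_, by rw [← mul_assoc, mul_inv_cancel₀ hπ0, one_mul]⟩
    rw [s34x_mem_infRing]
    intro i
    obtain ⟨y, hy, e⟩ := h i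
    rw [e, ← mul_assoc, inv_mul_cancel₀ hπ0, one_mul]
    exact hy

/-- constants of `A₀` lie in `⨅ O i`. -/
theorem s34x_inf_const_mem {ι : Type*} (O : ι → ValuationSubring 𝓕) (A₀ : ValuationSubring L₀)
    (hAO : ∀ i, ∀ a : A₀, algebraMap L₀ 𝓕 (a : L₀) ∈ O i) (a : A₀) :
    algebraMap L₀ 𝓕 (a : L₀) ∈ s34x_infRing O :=
  (s34x_mem_infRing O _).mpr fun i => hAO i a

/-- **Theorem X₀, local form, for `O = ⨅ O i`** (finite or not; in the application two Gauss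
valuation rings).  `ϖ` is a nonzero element of `A₀` which is a non-unit of every `O i`. -/
theorem s34x_zero_inf {ι : Type*} [Nonempty ι] (A₀ : ValuationSubring L₀) [IsNoetherianRing A₀]
    (O : ι → ValuationSubring 𝓕) (hAO : ∀ i, ∀ a : A₀, algebraMap L₀ 𝓕 (a : L₀) ∈ O i)
    (ϖ : A₀) (hϖ0 : (ϖ : L₀) ≠ 0)
    (hϖ : ∀ i, ¬ ∃ y ∈ O i, (1 : 𝓕) = algebraMap L₀ 𝓕 (ϖ : L₀) * y)
    (t f : 𝓕) (m : ℕ) (hm0 : m ≠ 0) (hmA : ((m : L₀))⁻¹ ∈ A₀) (hmL : (m : L₀) ≠ 0)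
    (hdiv : ∀ Q : Place L₀ 𝓕, (m : ℤ) ∣ Q.ord f)
    (hf1 : ∀ i, ∃ y ∈ O i, f - 1 = algebraMap L₀ 𝓕 (ϖ : L₀) * y)
    (hloc1 : ∀ 𝔫 : Ideal (s34x_ring (s34x_infRing O) (s18_chart1 (L₀ := L₀) t)), 𝔫.IsMaximal →
      s34x_const (s34x_infRing O) (s18_chart1 (L₀ := L₀) t) (ϖ : L₀) (s34x_inf_const_mem O A₀ hAO ϖ) ∈ 𝔫 →
      ∃ a ∈ s34x_latSet (s34x_infRing O) (s18_chart1 (L₀ := L₀) t) (s18_E f m),
        ∃ s : s34x_ring (s34x_infRing O) (s18_chart1 (L₀ := L₀) t), s ∉ 𝔫 ∧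
          ∃ y ∈ s34x_infRing O, a - (s : 𝓕) = algebraMap L₀ 𝓕 (ϖ : L₀) * y)
    (hloc2 : ∀ 𝔫 : Ideal (s34x_ring (s34x_infRing O) (s18_chart2 (L₀ := L₀) t)), 𝔫.IsMaximal →
      s34x_const (s34x_infRing O) (s18_chart2 (L₀ := L₀) t) (ϖ : L₀) (s34x_inf_const_mem O A₀ hAO ϖ) ∈ 𝔫 →
      ∃ a ∈ s34x_latSet (s34x_infRing O) (s18_chart2 (L₀ := L₀) t) (s18_E f m),
        ∃ s : s34x_ring (s34x_infRing O) (s18_chart2 (L₀ := L₀) t), s ∉ 𝔫 ∧
          ∃ y ∈ s34x_infRing O, a - (s : 𝓕) = algebraMap L₀ 𝓕 (ϖ : L₀) * y)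
    (hH : ∃ G : Submodule A₀ 𝓕, G.FG ∧
      s34x_lat A₀ (s34x_infRing O) (s34x_inf_const_mem O A₀ hAO) (s18_chart12 t) (s18_E f m) ≤
        G ⊔ (s34x_lat A₀ (s34x_infRing O) (s34x_inf_const_mem O A₀ hAO) (s18_chart1 t) (s18_E f m) ⊔
          s34x_lat A₀ (s34x_infRing O) (s34x_inf_const_mem O A₀ hAO) (s18_chart2 t) (s18_E f m))) :
    ∃ x : 𝓕, x ≠ 0 ∧ (∀ i, x ∈ O i) ∧ ∀ Q : Place L₀ 𝓕, Q.ord f ≤ (m : ℤ) * Q.ord x := by
  have hπ0 : algebraMap L₀ 𝓕 (ϖ : L₀) ≠ 0 := by simpa using hϖ0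
  obtain ⟨x, hx0, hxO, hx⟩ := s34x_zero_of_local A₀ (s34x_infRing O) (s34x_inf_const_mem O A₀ hAO) ϖ hϖ0
    (s34x_inf_hJ O _ (fun i => hAO i ϖ) hϖ) t f m hm0 hmA hmL hdiv
    ((s34x_inf_cong O _ hπ0 _).mpr hf1) hloc1 hloc2 hH
  exact ⟨x, hx0, (s34x_mem_infRing O x).mp hxO, hx⟩

end Fermat.Agent.Lib.S34
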