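/-
S34 moonshot [X″], package [B] for `O = ⨅ i, O i`: the chart ring `s34x_ring O (chart1 w)` is the
integral closure of `A[w]` in `𝓕`, hence a noetherian ring, finite over `A[w]`, and contained in the
`A[w]`-span of a finite set (= hypothesis `hZ` of `s34x_hmain`).  Copy-generalisation of S18's
`BInt.lean` (Main section), `BFin.lean`, `BSpan.lean` from the single Gauss valuation ring
`s18g_V G 𝓕 h𝓕` to an intersection of valuation subrings.  The hard inclusion needs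

  (α)  ∀ y ∈ ⨅ O i, ∃ s ∈ A[X], s mod ϖ ≠ 0, s(w) · y integral over A[w],

which says that the `O i` are ALL the extensions to `𝓕` of the Gauss valuation of `K(w)`.  (helper9)
-/
import Fermat.Agent.Lib.S34.XCech
import Fermat.Agent.Lib.S34.XInf
import Fermat.Agent.Lib.S18.BSpan

set_option autoImplicit false
set_option linter.unusedSectionVars false
set_option linter.style.haveILetI false

noncomputable section

namespace Fermat.Agent.Lib.S34

open Polynomial AlgebraicCurve Fermat.Agent.Lib.FF Fermat.Agent.Lib.S18 ModularCurve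

variable {K : Type*} [Field K] {κ : Type*} [Field κ] (G : s18g_GaussData K κ)
variable (𝓕 : IntermediateField K (LaurentSeries K)) (w : 𝓕)
variable {ι : Type*} (O : ι → ValuationSubring 𝓕)

/-- (B1), easy inclusion: elements integral over `A[w]` lie in the chart ring. -/
theorem s34x_mem_ring_of_isIntegralElem
    (hAO : ∀ i, ∀ a : G.A, algebraMap K 𝓕 (a : K) ∈ O i) (hwO : ∀ i, w ∈ O i) (y : 𝓕)
    (hy : (s18b_ev G 𝓕 w).IsIntegralElem y) :
    y ∈ s34x_ring (L₀ := K) (s34x_infRing O) (s18_chart1 w) := by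
  refine ⟨(s34x_mem_infRing O y).mpr fun i =>
    s18b_mem_of_isIntegralElem G 𝓕 w (O i) (hAO i) (hwO i) y hy, fun Q hQ => ?_⟩
  exact s18b_mem_of_isIntegralElem G 𝓕 w _ (fun a => Q.algebraMap_mem' _) hQ y hy

variable [CharZero K] [IsDiscreteValuationRing G.A]

/-- (B1), hard inclusion: under (α), elements of the chart ring are integral over `A[w]`. -/
theorem s34x_isIntegralElem_of_mem_ring [FFGen K w]
    (hα : ∀ y ∈ s34x_infRing O, ∃ s : G.A[X], s.map G.π ≠ 0 ∧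
      (s18b_ev G 𝓕 w).IsIntegralElem (s18b_ev G 𝓕 w s * y))
    (y : 𝓕) (hy : y ∈ s34x_ring (L₀ := K) (s34x_infRing O) (s18_chart1 w)) :
    (s18b_ev G 𝓕 w).IsIntegralElem y := by
  obtain ⟨s, hs, hsy⟩ := hα y hy.1
  have hK := s18b_isIntegralElem_of_mem_chart (K := K) w y hy.2
  exact s18b_isIntegralElem_descent (A := G.A) (K := K) FFGen.transc (s18b_prime_unif G)
    (s18b_exists_pow_mul_unit G) s (fun h => hs ((s18b_C_unif_dvd_iff G s).mp h)) y hK hsy

/-- **(B1)**: the chart ring is exactly the set of elements integral over `A[w]`. -/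
theorem s34x_mem_ring_iff [FFGen K w]
    (hAO : ∀ i, ∀ a : G.A, algebraMap K 𝓕 (a : K) ∈ O i) (hwO : ∀ i, w ∈ O i)
    (hα : ∀ y ∈ s34x_infRing O, ∃ s : G.A[X], s.map G.π ≠ 0 ∧
      (s18b_ev G 𝓕 w).IsIntegralElem (s18b_ev G 𝓕 w s * y))
    (y : 𝓕) :
    y ∈ s34x_ring (L₀ := K) (s34x_infRing O) (s18_chart1 w) ↔
      (s18b_ev G 𝓕 w).IsIntegralElem y :=
  ⟨s34x_isIntegralElem_of_mem_ring G 𝓕 w O hα y,
    s34x_mem_ring_of_isIntegralElem G 𝓕 w O hAO hwO y⟩

/-- **(B3)**: the chart ring is a noetherian ring. -/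
theorem s34x_isNoetherianRing_ring [FFGen K w]
    (hAO : ∀ i, ∀ a : G.A, algebraMap K 𝓕 (a : K) ∈ O i) (hwO : ∀ i, w ∈ O i)
    (hα : ∀ y ∈ s34x_infRing O, ∃ s : G.A[X], s.map G.π ≠ 0 ∧
      (s18b_ev G 𝓕 w).IsIntegralElem (s18b_ev G 𝓕 w s * y)) :
    IsNoetherianRing ↥(s34x_ring (L₀ := K) (s34x_infRing O) (s18_chart1 w)) := by
  letI alg : Algebra G.A[X] 𝓕 := (s18b_ev G 𝓕 w).toAlgebra
  have hN : IsNoetherian G.A[X] (integralClosure G.A[X] 𝓕) :=
    s18b_isNoetherian_integralClosure G 𝓕 w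
  haveI : IsNoetherianRing (integralClosure G.A[X] 𝓕) :=
    isNoetherianRing_iff.mpr (isNoetherian_of_tower G.A[X] hN)
  have hiff : ∀ y : 𝓕, y ∈ integralClosure G.A[X] 𝓕 ↔
      y ∈ s34x_ring (L₀ := K) (s34x_infRing O) (s18_chart1 w) := fun y =>
    (s34x_mem_ring_iff G 𝓕 w O hAO hwO hα y).symm
  let e : (integralClosure G.A[X] 𝓕) ≃+*
      ↥(s34x_ring (L₀ := K) (s34x_infRing O) (s18_chart1 w)) :=
    { toFun := fun x => ⟨x.1, (hiff x.1).mp x.2⟩
      invFun := fun y => ⟨y.1, (hiff y.1).mpr y.2⟩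
      left_inv := fun _ => rfl
      right_inv := fun _ => rfl
      map_mul' := fun _ _ => rfl
      map_add' := fun _ _ => rfl }
  exact isNoetherianRing_of_ringEquiv _ e

/-- **(B2)**: every additive subgroup of the chart ring which is stable under multiplication by
`A[w]` is generated over `A[w]` by finitely many elements. -/
theorem s34x_fg_of_le_ring [FFGen K w]
    (hAO : ∀ i, ∀ a : G.A, algebraMap K 𝓕 (a : K) ∈ O i) (hwO : ∀ i, w ∈ O i)
    (hα : ∀ y ∈ s34x_infRing O, ∃ s : G.A[X], s.map G.π ≠ 0 ∧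
      (s18b_ev G 𝓕 w).IsIntegralElem (s18b_ev G 𝓕 w s * y))
    (M : AddSubgroup 𝓕) (hM : ∀ (p : G.A[X]), ∀ x ∈ M, s18b_ev G 𝓕 w p * x ∈ M)
    (hMB : ∀ x ∈ M, x ∈ s34x_ring (L₀ := K) (s34x_infRing O) (s18_chart1 w)) :
    ∃ (r : ℕ) (b : Fin r → 𝓕), (∀ i, b i ∈ M) ∧
      ∀ x ∈ M, ∃ c : Fin r → G.A[X], x = ∑ i, s18b_ev G 𝓕 w (c i) * b i := by
  letI alg : Algebra G.A[X] 𝓕 := (s18b_ev G 𝓕 w).toAlgebra
  have hN : IsNoetherian G.A[X] (integralClosure G.A[X] 𝓕) :=
    s18b_isNoetherian_integralClosure G 𝓕 w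
  have hN' : IsNoetherian G.A[X] ↥(Subalgebra.toSubmodule (integralClosure G.A[X] 𝓕)) := hN
  let M' : Submodule G.A[X] 𝓕 :=
    { carrier := M
      zero_mem' := M.zero_mem
      add_mem' := fun ha hb => M.add_mem ha hb
      smul_mem' := fun p x hx => by
        show p • x ∈ M
        rw [Algebra.smul_def]
        exact hM p x hx }
  have hle : M' ≤ Subalgebra.toSubmodule (integralClosure G.A[X] 𝓕) := by
    intro x hx
    exact (s34x_mem_ring_iff G 𝓕 w O hAO hwO hα x).mp (hMB x hx)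
  have hfg : M'.FG := (isNoetherian_submodule.mp hN') M' hle
  obtain ⟨r, b, hb⟩ := Submodule.fg_iff_exists_fin_generating_family.mp hfg
  refine ⟨r, b, fun i => ?_, fun x hx => ?_⟩
  · have : b i ∈ M' := by rw [← hb]; exact Submodule.subset_span ⟨i, rfl⟩
    exact this
  · have hx' : x ∈ Submodule.span G.A[X] (Set.range b) := by rw [hb]; exact hx
    obtain ⟨c, hc⟩ := (Submodule.mem_span_range_iff_exists_fun G.A[X]).mp hx'
    refine ⟨c, ?_⟩
    rw [← hc]
    refine Finset.sum_congr rfl fun i _ => ?_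
    rw [Algebra.smul_def]
    rfl

/-- **(B2'')**: the chart ring is contained in the `A[w]`-span of a finite set
(= hypothesis `hZ` of `s34x_exists_gen` / `s34x_hmain`). -/
theorem s34x_exists_span_adjoin [FFGen K w]
    (hAO : ∀ i, ∀ a : G.A, algebraMap K 𝓕 (a : K) ∈ O i) (hwO : ∀ i, w ∈ O i)
    (hα : ∀ y ∈ s34x_infRing O, ∃ s : G.A[X], s.map G.π ≠ 0 ∧
      (s18b_ev G 𝓕 w).IsIntegralElem (s18b_ev G 𝓕 w s * y)) :
    ∃ Z : Finset 𝓕, (∀ z ∈ Z, z ∈ s34x_ring (L₀ := K) (s34x_infRing O) (s18_chart1 w)) ∧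
      ∀ b ∈ s34x_ring (L₀ := K) (s34x_infRing O) (s18_chart1 w),
        b ∈ Submodule.span ↥(Algebra.adjoin ↥G.A {w}) (Z : Set 𝓕) := by
  classical
  obtain ⟨r, b, hb, hspan⟩ := s34x_fg_of_le_ring G 𝓕 w O hAO hwO hα
    (s34x_ring (L₀ := K) (s34x_infRing O) (s18_chart1 w)).toAddSubgroup
    (fun p x hx => (s34x_ring (L₀ := K) (s34x_infRing O) (s18_chart1 w)).mul_mem
      (s34x_mem_ring_of_isIntegralElem G 𝓕 w O hAO hwO _
        ((s18b_ev G 𝓕 w).isIntegralElem_map)) hx)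
    (fun x hx => hx)
  refine ⟨Finset.univ.image b, fun z hz => ?_, fun x hx => ?_⟩
  · obtain ⟨i, _, rfl⟩ := Finset.mem_image.mp hz
    exact hb i
  · obtain ⟨c, rfl⟩ := hspan x hx
    refine Submodule.sum_mem _ fun i _ => ?_
    have h1 : s18b_ev G 𝓕 w (c i) * b i =
        (⟨s18b_ev G 𝓕 w (c i), s18b_ev_mem_adjoin G 𝓕 w (c i)⟩ : Algebra.adjoin ↥G.A {w}) • b i :=
      rfl
    rw [h1]
    exact Submodule.smul_mem _ _ (Submodule.subset_span (by simp))

end Fermat.Agent.Lib.S34
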