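/-
S34 moonshot, package [C] (helper4): the CHARTS and the ČECH INPUT `hH` of `s34x_zero_inf`.

* abstract part (`L₀`, `𝓕`, a finite family `O i` of valuation subrings in which every element has a
  `ϖ`-power multiple): `s34c_hO_inf`, `s34c_hreg` (every place of chart 1 carries a function of the
  chart ring vanishing there), `s34c_hH_inf` (the Čech covering `hH` from the finiteness `hZ` of
  the chart ring over `A₀[t]`);
* concrete part (level `M * q`, `t = j`, `O = {V_∞, V_0}` of `MVal.lean`): `j, j⁻¹ ∈ V_∞ ⊓ V_0`,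
  constants, and **`s34c_hH`**: `hH` for `f` from the hypothesis (α) of `XFin.lean`.
-/
import Fermat.Agent.Lib.S34.MVal
import Fermat.Agent.Lib.S34.XCech
import Fermat.Agent.Lib.S34.XFin
import Fermat.Agent.Lib.S18.FGeo
import Fermat.Agent.Lib.S18.BGen

set_option autoImplicit false
set_option linter.style.haveILetI false
set_option linter.unusedSectionVars false

noncomputable section

namespace Fermat.Agent.Lib.S34

open AlgebraicCurve ModularCurve HahnSeries Polynomial Fermat.Agent.Lib.FF Fermat.Agent.Lib.S18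
  Fermat.Agent.Lib.S37

section Abstract

variable {L₀ 𝓕 : Type*} [Field L₀] [CharZero L₀] [Field 𝓕] [Algebra L₀ 𝓕]
variable {ι : Type*} [Finite ι] (O : ι → ValuationSubring 𝓕) (ϖ : L₀)

omit [CharZero L₀] in
/-- every element has a `ϖ`-power multiple in the intersection `⨅ O i`. -/
theorem s34c_hO_inf (hϖO : ∀ i, algebraMap L₀ 𝓕 ϖ ∈ O i)
    (hU : ∀ i, ∀ f : 𝓕, ∃ k : ℕ, algebraMap L₀ 𝓕 ϖ ^ k * f ∈ O i) (f : 𝓕) :
    ∃ k : ℕ, algebraMap L₀ 𝓕 ϖ ^ k * f ∈ s34x_infRing O := by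
  classical
  haveI := Fintype.ofFinite ι
  choose k hk using fun i => hU i f
  refine ⟨Finset.univ.sup k, ?_⟩
  rw [s34x_mem_infRing]
  intro i
  have hle : k i ≤ Finset.univ.sup k := Finset.le_sup (Finset.mem_univ i)
  have e : algebraMap L₀ 𝓕 ϖ ^ Finset.univ.sup k * f =
      algebraMap L₀ 𝓕 ϖ ^ (Finset.univ.sup k - k i) * (algebraMap L₀ 𝓕 ϖ ^ k i * f) := by
    rw [← mul_assoc, ← _root_.pow_add, Nat.sub_add_cancel hle]
  rw [e]
  exact (O i).mul_mem _ _ ((O i).pow_mem (hϖO i) _) (hk i)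

variable (t : 𝓕) [FFGen L₀ t]

/-- **`hreg`**: every place of chart 1 carries a nonzero function of `⨅ O i`, regular on chart 1,
vanishing there. -/
theorem s34c_hreg [Nonempty ι] (hϖ0 : ϖ ≠ 0) (hϖO : ∀ i, algebraMap L₀ 𝓕 ϖ ∈ O i)
    (hU : ∀ i, ∀ f : 𝓕, ∃ k : ℕ, algebraMap L₀ 𝓕 ϖ ^ k * f ∈ O i)
    (Q : Place L₀ 𝓕) (hQ : Q ∈ s18_chart1 (L₀ := L₀) t) :
    ∃ a ∈ s34x_infRing O, a ≠ 0 ∧
      (∀ Q' ∈ s18_chart1 (L₀ := L₀) t, 0 ≤ Q'.ord a) ∧ 0 < Q.ord a := by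
  obtain ⟨i₀⟩ := ‹Nonempty ι›
  obtain ⟨u, huB, hu⟩ := s18f_exists_unif t (O i₀) ϖ hϖ0 (hU i₀) Q hQ
  have hu0 : u ≠ 0 := by
    rintro rfl
    simp at hu
  obtain ⟨k, hk⟩ := s34c_hO_inf O ϖ hϖO hU u
  have hπ0 : algebraMap L₀ 𝓕 ϖ ≠ 0 := by simpa using hϖ0
  have hpow0 : algebraMap L₀ 𝓕 ϖ ^ k ≠ 0 := pow_ne_zero _ hπ0
  have hord : ∀ Q' : Place L₀ 𝓕, Q'.ord (algebraMap L₀ 𝓕 ϖ ^ k * u) = Q'.ord u := by
    intro Q'
    rw [Q'.ord_mul hpow0 hu0, ← map_pow, ff_ord_algebraMap, zero_add]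
  refine ⟨_, hk, mul_ne_zero hpow0 hu0, fun Q' hQ' => ?_, ?_⟩
  · rw [hord]
    exact s18f_ord_nonneg_of_mem_ring (O i₀) huB hu0 Q' hQ'
  · rw [hord, hu]
    exact one_pos

/-- **The Čech input `hH`** for `O = ⨅ O i` from the finiteness of the chart ring over `A₀[t]`. -/
theorem s34c_hH_inf [Nonempty ι] (A₀ : ValuationSubring L₀) [IsNoetherianRing A₀]
    (hAO : ∀ i, ∀ a : A₀, algebraMap L₀ 𝓕 (a : L₀) ∈ O i)
    (hϖ0 : ϖ ≠ 0) (hϖO : ∀ i, algebraMap L₀ 𝓕 ϖ ∈ O i)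
    (hU : ∀ i, ∀ f : 𝓕, ∃ k : ℕ, algebraMap L₀ 𝓕 ϖ ^ k * f ∈ O i)
    (ht0 : t ≠ 0) (htO : ∀ i, t ∈ O i) (htinvO : ∀ i, t⁻¹ ∈ O i)
    (Z : Finset 𝓕)
    (hZ : ∀ b ∈ s34x_ring (s34x_infRing O) (s18_chart1 (L₀ := L₀) t),
      b ∈ Submodule.span ↥(Algebra.adjoin ↥A₀ {t}) (Z : Set 𝓕))
    {f : 𝓕} (hf0 : f ≠ 0) (m : ℕ) :
    ∃ G : Submodule A₀ 𝓕, G.FG ∧
      s34x_lat A₀ (s34x_infRing O) (s34x_inf_const_mem O A₀ hAO) (s18_chart12 t) (s18_E f m) ≤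
        G ⊔ (s34x_lat A₀ (s34x_infRing O) (s34x_inf_const_mem O A₀ hAO) (s18_chart1 t)
              (s18_E f m) ⊔
          s34x_lat A₀ (s34x_infRing O) (s34x_inf_const_mem O A₀ hAO) (s18_chart2 t)
              (s18_E f m)) := by
  haveI : FFGen L₀ t⁻¹ := s18f_ffGen_inv t
  have hzeros : {Q : Place L₀ 𝓕 | 0 < Q.ord t}.Finite := by
    refine (s18f_finite_ord_ne_zero t ht0).subset fun Q hQ => ⟨?_, ?_⟩
    · exact (s18h_mem_chart1_iff ht0 Q).mpr (le_of_lt hQ)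
    · exact (ne_of_gt hQ)
  have hpoles : {Q : Place L₀ 𝓕 | Q.ord t < 0}.Finite := by
    refine (s18f_finite_ord_ne_zero t⁻¹ ht0).subset fun Q hQ => ⟨?_, ?_⟩
    · exact (s18h_mem_chart2_iff ht0 Q).mpr (le_of_lt hQ)
    · exact (ne_of_lt hQ)
  exact s34x_hmain A₀ (s34x_infRing O) (s34x_inf_const_mem O A₀ hAO) t ht0
    ((s34x_mem_infRing O t).mpr htO) ((s34x_mem_infRing O t⁻¹).mpr htinvO) (s18_E f m)
    hzeros hpoles Z hZ (s18f_finite_E_neg t hf0 m)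
    (fun Q hQ => s34c_hreg O ϖ t hϖ0 hϖO hU Q hQ)

end Abstract

section Concrete

local notation "Kb" => AlgebraicClosure ℚ

variable {K₀ : Type*} [Field K₀] [Algebra ℚ K₀] {κ : Type*} [Field κ] (G : s18g_GaussData K₀ κ)
  (φ : K₀ →+* Kb) (M q : ℕ) [NeZero M] [NeZero q]

/-- constants of `A` lie in both valuation rings. -/
theorem s34c_const_mem_VV (hq : q.Prime) (hqM : ¬ q ∣ M) (i : Bool) (a : G.A) :
    algebraMap K₀ (s34m_F K₀ (M * q)) (a : K₀) ∈ s34m_VV G φ M q hq hqM i := by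
  cases i
  · show _ ∈ s34m_Vzero G φ M q hq hqM
    rw [s34m_mem_Vzero, AlgEquiv.commutes]
    exact (s18g_algebraMap_mem_V_iff G _ (s34m_hF G (M * q)) _).mpr a.2
  · exact (s18g_algebraMap_mem_V_iff G _ (s34m_hF G (M * q)) _).mpr a.2

/-- `j` of level `M q` is `α(j)`. -/
theorem s34c_jF_eq_alpha :
    s18g_jF (K := K₀) (M * q) = heckeAlphaBar K₀ M q (s18g_jF (K := K₀) M) :=
  Subtype.ext (by rw [coe_heckeAlphaBar]; rfl)

/-- `w j = β j`. -/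
theorem s34c_al_jF (hq : q.Prime) (hqM : ¬ q ∣ M) :
    s34m_al φ M q hq hqM (s18g_jF (K := K₀) (M * q)) =
      heckeBetaBar K₀ M q (s18g_jF (K := K₀) M) := by
  rw [s34c_jF_eq_alpha, s34m_al_alpha]

theorem s34c_coe_al_jF (hq : q.Prime) (hqM : ¬ q ∣ M) :
    ((s34m_al φ M q hq hqM (s18g_jF (K := K₀) (M * q)) : s34m_F K₀ (M * q)) :
      LaurentSeries K₀) = qExpand K₀ q (jqModC K₀) := by
  rw [s34c_al_jF, coe_heckeBetaBar]
  rfl

/-- `j ∈ V_∞ ⊓ V_0`. -/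
theorem s34c_jF_mem_VV (hq : q.Prime) (hqM : ¬ q ∣ M) (i : Bool) :
    s18g_jF (K := K₀) (M * q) ∈ s34m_VV G φ M q hq hqM i := by
  cases i
  · show _ ∈ s34m_Vzero G φ M q hq hqM
    rw [s34m_mem_Vzero, s34m_mem_Vinf, s34c_coe_al_jF]
    exact s18g_jqN_mem_O G q
  · exact s18g_jF_mem_V G (M * q) (s34m_hF G (M * q))

/-- `j⁻¹ ∈ V_∞ ⊓ V_0`. -/
theorem s34c_jF_inv_mem_VV (hq : q.Prime) (hqM : ¬ q ∣ M) (i : Bool) :
    (s18g_jF (K := K₀) (M * q))⁻¹ ∈ s34m_VV G φ M q hq hqM i := by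
  cases i
  · show _ ∈ s34m_Vzero G φ M q hq hqM
    rw [s34m_mem_Vzero, map_inv₀, s34m_mem_Vinf, IntermediateField.coe_inv, s34c_coe_al_jF,
      ← s18g_iota_jqN G q]
    refine s18g_inv_iota_mem_O G _ ?_
    rw [s18g_rho_jqN]
    intro h
    exact jqModC_ne_zero_of_nontrivial κ (qExpand_injective (R := κ) (N := q)
      (by rw [h, map_zero]))
  · exact s18g_jF_inv_mem_V G (M * q) (s34m_hF G (M * q))

/-- every function has a `ϖ`-power multiple in `V_i`. -/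
theorem s34c_hU_VV (hq : q.Prime) (hqM : ¬ q ∣ M) (i : Bool) (f : s34m_F K₀ (M * q)) :
    ∃ k : ℕ, algebraMap K₀ (s34m_F K₀ (M * q)) ((G.ϖ : G.A) : K₀) ^ k * f ∈
      s34m_VV G φ M q hq hqM i := by
  rcases eq_or_ne f 0 with rfl | hf
  · exact ⟨0, by rw [mul_zero]; exact (s34m_VV G φ M q hq hqM i).zero_mem⟩
  obtain ⟨n, u, hu, -, e⟩ := s34m_exists_zpow_VV G φ M q hq hqM i f hf
  have hϖ : algebraMap K₀ (s34m_F K₀ (M * q)) ((G.ϖ : G.A) : K₀) = s34m_unif G (M * q) := rfl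
  have hϖ0 := s34m_unif_ne_zero G (M * q)
  refine ⟨(-n).toNat, ?_⟩
  rw [hϖ, e, ← mul_assoc, ← zpow_natCast, ← zpow_add₀ hϖ0]
  have hnn : 0 ≤ ((-n).toNat : ℤ) + n := by
    have := Int.self_le_toNat (-n)
    omega
  obtain ⟨k, hk⟩ := Int.eq_ofNat_of_zero_le hnn
  rw [hk, zpow_natCast]
  exact (s34m_VV G φ M q hq hqM i).mul_mem _ _
    ((s34m_VV G φ M q hq hqM i).pow_mem (s34m_unif_mem_VV G φ M q hq hqM i) _) hu

variable [CharZero K₀] [IsDiscreteValuationRing G.A]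

/-- **The Čech input `hH` of `s34x_zero_inf`** for the two Gauss valuations at level `M q` and the
base function `j`, from the hypothesis (α) of `XFin.lean`. -/
theorem s34c_hH (hq : q.Prime) (hqM : ¬ q ∣ M) [FFGen K₀ (s18g_jF (K := K₀) (M * q))]
    (hα : ∀ y ∈ s34x_infRing (s34m_VV G φ M q hq hqM), ∃ s : G.A[X], s.map G.π ≠ 0 ∧
      (s18b_ev G (laurentBaseChange K₀ (modularFunctionFieldFull (M * q)))
        (s18g_jF (K := K₀) (M * q))).IsIntegralElem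
        (s18b_ev G (laurentBaseChange K₀ (modularFunctionFieldFull (M * q)))
          (s18g_jF (K := K₀) (M * q)) s * y))
    {f : s34m_F K₀ (M * q)} (hf0 : f ≠ 0) (m : ℕ) :
    ∃ H : Submodule G.A (s34m_F K₀ (M * q)), H.FG ∧
      s34x_lat G.A (s34x_infRing (s34m_VV G φ M q hq hqM))
          (s34x_inf_const_mem (s34m_VV G φ M q hq hqM) G.A (s34c_const_mem_VV G φ M q hq hqM))
          (s18_chart12 (s18g_jF (K := K₀) (M * q))) (s18_E f m) ≤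
        H ⊔ (s34x_lat G.A (s34x_infRing (s34m_VV G φ M q hq hqM))
              (s34x_inf_const_mem (s34m_VV G φ M q hq hqM) G.A (s34c_const_mem_VV G φ M q hq hqM))
              (s18_chart1 (s18g_jF (K := K₀) (M * q))) (s18_E f m) ⊔
          s34x_lat G.A (s34x_infRing (s34m_VV G φ M q hq hqM))
              (s34x_inf_const_mem (s34m_VV G φ M q hq hqM) G.A (s34c_const_mem_VV G φ M q hq hqM))
              (s18_chart2 (s18g_jF (K := K₀) (M * q))) (s18_E f m)) := by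
  haveI : IsNoetherianRing G.A := inferInstance
  obtain ⟨Z, -, hZ⟩ := s34x_exists_span_adjoin G
    (laurentBaseChange K₀ (modularFunctionFieldFull (M * q))) (s18g_jF (K := K₀) (M * q))
    (s34m_VV G φ M q hq hqM) (s34c_const_mem_VV G φ M q hq hqM)
    (s34c_jF_mem_VV G φ M q hq hqM) hα
  exact s34c_hH_inf (s34m_VV G φ M q hq hqM) ((G.ϖ : G.A) : K₀) (s18g_jF (K := K₀) (M * q)) G.A
    (s34c_const_mem_VV G φ M q hq hqM) (s18g_unifK_ne_zero G)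
    (fun i => s34m_unif_mem_VV G φ M q hq hqM i) (s34c_hU_VV G φ M q hq hqM)
    (s18g_jF_ne_zero (M * q)) (s34c_jF_mem_VV G φ M q hq hqM)
    (s34c_jF_inv_mem_VV G φ M q hq hqM) Z hZ hf0 m

end Concrete

end Fermat.Agent.Lib.S34
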