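/-
S34 moonshot ([SS] ⇒ S34), package [R] (helper5), part 1: from `Pic⁰` to the Kummer form.

For a semilinear automorphism `g` of a function field `F/K` and `m ≠ 0`:

  `s34r_KummerSq g m` : every `f ≠ 0` whose divisor is divisible by `m` satisfies
      `(g • g • f) * f = c * x ^ m * (g • f) ^ 2`  for some constant `c` and some `x ∈ F`,

implies that `(g - 1) ^ 2` kills the `m`-torsion of `Pic⁰(F)` (`s34r_sq_of_kummer`).  Specialised
to `J₀(N)` and the coefficientwise Galois action: `s34r_KummerSS N σ m` and `s34r_top`.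
No hypothesis on `σ`, the level or `m` enters here.
-/
import Mathlib
import Fermat.Prelude.Def_ModularCurve_ArithmeticGalois
import Fermat.Agent.Lib.FF.FFBasicPlace

set_option autoImplicit false

noncomputable section

namespace Fermat.Agent.Lib.S34

open AlgebraicCurve ModularCurve Fermat.Agent.Lib.FF

section Generic

variable {K F : Type*} [Field K] [Field F] [Algebra K F]

/-- **Kummer form** of "`(g - 1) ^ 2` kills the `m`-torsion of `Pic⁰`". -/
def s34r_KummerSq (g : SemilinearAut K F) (m : ℕ) : Prop :=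
  ∀ f : F, f ≠ 0 → (∀ P : Place K F, (m : ℤ) ∣ P.ord f) →
    ∃ (c : K) (x : F), (g • g • f) * f = algebraMap K F c * x ^ m * (g • f) ^ 2

/-- The order of `g • f` at `v` is the order of `f` at `g⁻¹ • v`. -/
theorem s34r_ord_smul (g : SemilinearAut K F) (v : Place K F) (f : F) :
    v.ord (g • f) = (g⁻¹ • v).ord f := by
  have h := SemilinearAut.ord_smul g (g⁻¹ • v) f
  rwa [smul_inv_smul] at h

theorem s34r_smul_ne_zero (g : SemilinearAut K F) {f : F} (hf : f ≠ 0) : g • f ≠ 0 := by
  intro h
  apply hf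
  have := congrArg (g⁻¹ • ·) h
  simpa using this

/-- If `m • D = div f`, then `m • (g • D) = div (g • f)`. -/
theorem s34r_div_smul (g : SemilinearAut K F) (m : ℤ) (D : Divisor K F) (f : F)
    (hD : ∀ v : Place K F, m * D v = v.ord f) (v : Place K F) :
    m * (g • D) v = v.ord (g • f) := by
  rw [s34r_ord_smul, SemilinearAut.divisor_smul_apply, hD]

/-- **From the Kummer form to `Pic⁰`.** -/
theorem s34r_sq_of_kummer (g : SemilinearAut K F) (m : ℕ) (hm : m ≠ 0)
    (h : s34r_KummerSq g m) (z : Pic0 K F) (hz : m • z = 0) :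
    g • g • z - 2 • (g • z) + z = 0 := by
  obtain ⟨D, rfl⟩ := Pic0.mk_surjective z
  -- `m • D` is principal
  have hmD : Pic0.mk (m • D) = 0 := by
    rw [← hz]
    exact map_nsmul (QuotientAddGroup.mk' _) m D
  have hmD' : ((m • D : Divisor.degZero (K := K) (F := F)) : Divisor K F) ∈
      Divisor.principal (K := K) (F := F) := by
    have := (QuotientAddGroup.eq_zero_iff (m • D)).mp hmD
    exact this
  obtain ⟨f, hf, hfD⟩ := hmD'
  have hfD' : ∀ v : Place K F, (m : ℤ) * (D : Divisor K F) v = v.ord f := by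
    intro v
    rw [← hfD v, AddSubgroupClass.coe_nsmul, Finsupp.smul_apply, nsmul_eq_mul]
  -- the Kummer form
  obtain ⟨c, x, hcx⟩ := h f hf (fun P => ⟨_, (hfD' P).symm⟩)
  have hgf : g • f ≠ 0 := s34r_smul_ne_zero g hf
  have hggf : g • g • f ≠ 0 := s34r_smul_ne_zero g hgf
  have hlhs : (g • g • f) * f ≠ 0 := mul_ne_zero hggf hf
  have hc : algebraMap K F c ≠ 0 := by
    intro h0
    rw [h0, zero_mul, zero_mul] at hcx
    exact hlhs hcx
  have hx : x ≠ 0 := by
    intro h0
    rw [h0, zero_pow hm, mul_zero, zero_mul] at hcx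
    exact hlhs hcx
  -- the divisor `g • g • D - 2 • g • D + D` is the divisor of `x`
  have key : ∀ v : Place K F,
      ((g • g • (D : Divisor K F)) - 2 • (g • (D : Divisor K F)) + (D : Divisor K F)) v =
        v.ord x := by
    intro v
    have h1 := congrArg v.ord hcx
    rw [v.ord_mul hggf hf, v.ord_mul (mul_ne_zero hc (pow_ne_zero m hx)) (pow_ne_zero 2 hgf),
      v.ord_mul hc (pow_ne_zero m hx), ff_ord_algebraMap, zero_add, ← zpow_natCast x m,
      v.ord_zpow, ← zpow_natCast (g • f) 2, v.ord_zpow,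
      ← s34r_div_smul g m _ _ (s34r_div_smul g m _ _ hfD') v,
      ← s34r_div_smul g m _ _ hfD' v, ← hfD' v] at h1
    have hm' : (m : ℤ) ≠ 0 := by exact_mod_cast hm
    have h2 : (m : ℤ) * ((g • g • (D : Divisor K F)) v - 2 * (g • (D : Divisor K F)) v +
        (D : Divisor K F) v) = (m : ℤ) * v.ord x := by
      push_cast at h1 ⊢
      linarith
    have h3 := mul_left_cancel₀ hm' h2
    rw [Finsupp.add_apply, Finsupp.sub_apply, Finsupp.smul_apply, nsmul_eq_mul]
    exact_mod_cast h3
  -- conclusion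
  have hE : g • g • Pic0.mk D - 2 • (g • Pic0.mk D) + Pic0.mk D =
      Pic0.mk (SemilinearAut.degZeroSMulHom g (SemilinearAut.degZeroSMulHom g D) -
        2 • SemilinearAut.degZeroSMulHom g D + D) := by
    rw [SemilinearAut.pic0_smul_mk, SemilinearAut.pic0_smul_mk]
    rfl
  rw [hE]
  refine (QuotientAddGroup.eq_zero_iff _).mpr ?_
  show ((SemilinearAut.degZeroSMulHom g (SemilinearAut.degZeroSMulHom g D) -
        2 • SemilinearAut.degZeroSMulHom g D + D : Divisor.degZero (K := K) (F := F)) :
          Divisor K F) ∈ Divisor.principal (K := K) (F := F)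
  refine ⟨x, hx, fun v => ?_⟩
  rw [← key v]
  rfl

end Generic

/-! ### The modular instance -/

local notation "Γℚ" => (AlgebraicClosure ℚ ≃ₐ[ℚ] AlgebraicClosure ℚ)

/-- **Kummer form of [SS]** at level `N`, for `σ ∈ G_ℚ` and `m`. -/
def s34r_KummerSS (N : ℕ) (σ : Γℚ) (m : ℕ) : Prop :=
  s34r_KummerSq (arithmeticGalois (L := AlgebraicClosure ℚ) (modularFunctionFieldFull N) σ) m

theorem s34r_kummerSS_iff (N : ℕ) (σ : Γℚ) (m : ℕ) :
    s34r_KummerSS N σ m ↔
      ∀ f : modularFunctionFieldBar N, f ≠ 0 →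
        (∀ P : Place (AlgebraicClosure ℚ) (modularFunctionFieldBar N), (m : ℤ) ∣ P.ord f) →
        ∃ (c : AlgebraicClosure ℚ) (x : modularFunctionFieldBar N),
          (arithmeticGalois (modularFunctionFieldFull N) σ •
              arithmeticGalois (modularFunctionFieldFull N) σ • f) * f =
            algebraMap (AlgebraicClosure ℚ) (modularFunctionFieldBar N) c * x ^ m *
              (arithmeticGalois (modularFunctionFieldFull N) σ • f) ^ 2 :=
  Iff.rfl

/-- **[R1]**: the statement `(σ - 1)² = 0` on `J₀(N)[m]` from its Kummer form. -/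
theorem s34r_top (N : ℕ) (σ : Γℚ) (m : ℕ) (hm : m ≠ 0) (h : s34r_KummerSS N σ m)
    (z : JZero N) (hz : m • z = 0) : σ • σ • z - 2 • (σ • z) + z = 0 :=
  s34r_sq_of_kummer (arithmeticGalois (modularFunctionFieldFull N) σ) m hm h z hz

end Fermat.Agent.Lib.S34
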