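/-
S34 (Plan S), package [R2] (helper7), part 1: descent of the Kummer form to a subfield of `ℚ̄` —
the generic part (no hypothesis on `σ`, on the level or on `m`).

* `s34q_map_smul`  : the coefficientwise Galois actions are compatible with the base-change maps
                     `s18q_map φ F₀ : F_{K₀} → F_K` (for `φ ∘ σ₀ = σ ∘ φ`).
* `s34q_f2 g f`    : the second difference `(g • g • f) * f / (g • f) ^ 2`.
* `s34q_kummer_of_descent` : if `f = φ_* f₀` and some `x₀ ≠ 0` in `F_{K₀}` satisfies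
                     `ord_Q (f₂ f₀) ≤ m · ord_Q x₀` at all places `Q` of `F_{K₀}`, then
                     `(σ σ f) · f = c · x ^ m · (σ f) ^ 2` over `ℚ̄`.
* `s34q_kummerSS_of_cofinal` : hence `s34r_KummerSS N σ m` from the "cofinal" number-field
                     statement `s34q_Cofinal N σ m`.
-/
import Mathlib
import Fermat.Agent.Lib.S34.RTop
import Fermat.Agent.Lib.S18.QGen
import Fermat.Agent.Lib.S18.XGeo
import Fermat.Agent.Lib.S18.EConst

set_option autoImplicit false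

noncomputable section

namespace Fermat.Agent.Lib.S34

open AlgebraicCurve ModularCurve Fermat.Agent.Lib.S18 Fermat.Agent.Lib.FF

local notation "Qbar" => AlgebraicClosure ℚ
local notation "Γℚ" => (AlgebraicClosure ℚ ≃ₐ[ℚ] AlgebraicClosure ℚ)

section Compat

variable {K₀ K : Type*} [Field K₀] [Field K] [Algebra ℚ K₀] [Algebra ℚ K]
variable (F₀ : IntermediateField ℚ (LaurentSeries ℚ))

/-- The coefficientwise Galois actions are compatible with the base-change maps. -/
theorem s34q_map_smul (φ : K₀ →+* K) (σ₀ : K₀ ≃ₐ[ℚ] K₀) (σ : K ≃ₐ[ℚ] K)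
    (h : ∀ a : K₀, φ (σ₀ a) = σ (φ a)) (x : ↥(laurentBaseChange K₀ F₀)) :
    s18q_map φ F₀ (arithmeticGalois F₀ σ₀ • x) = arithmeticGalois F₀ σ • s18q_map φ F₀ x := by
  apply Subtype.ext
  rw [s18q_map_coe, coe_arithmeticGalois_smul, coe_arithmeticGalois_smul, s18q_map_coe,
    coeffMap_coeffMap, coeffMap_coeffMap]
  exact coeffMap_congr (RingHom.ext fun a => h a) _

end Compat

section F2

variable {K F : Type*} [Field K] [Field F] [Algebra K F]

/-- The second difference `σ²f · f / (σf)²`. -/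
def s34q_f2 (g : SemilinearAut K F) (f : F) : F := (g • g • f) * f / (g • f) ^ 2

theorem s34q_f2_ne_zero (g : SemilinearAut K F) {f : F} (hf : f ≠ 0) : s34q_f2 g f ≠ 0 := by
  have h1 := s34r_smul_ne_zero g hf
  have h2 := s34r_smul_ne_zero g h1
  exact div_ne_zero (mul_ne_zero h2 hf) (pow_ne_zero 2 h1)

theorem s34q_f2_mul (g : SemilinearAut K F) {f : F} (hf : f ≠ 0) :
    s34q_f2 g f * (g • f) ^ 2 = (g • g • f) * f :=
  div_mul_cancel₀ _ (pow_ne_zero 2 (s34r_smul_ne_zero g hf))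

end F2

section Descent

variable (N : ℕ) [NeZero N]

/-- **Descent, generic form.**  If `f = φ_* f₀` for an embedding `φ : K₀ → ℚ̄` compatible with
`σ₀` and `σ`, and `x₀ ≠ 0` in `F_{K₀}` satisfies `ord_Q (f₂ f₀) ≤ m · ord_Q x₀` at all places of
`F_{K₀}`, then the Kummer form holds for `f` over `ℚ̄`. -/
theorem s34q_kummer_of_descent (σ : Γℚ) (m : ℕ) {K₀ : Type*} [Field K₀] [Algebra ℚ K₀]
    (φ : K₀ →+* Qbar) (σ₀ : K₀ ≃ₐ[ℚ] K₀) (h : ∀ a : K₀, φ (σ₀ a) = σ (φ a))
    (f₀ x₀ : ↥(laurentBaseChange K₀ (modularFunctionFieldFull N))) (hf₀ : f₀ ≠ 0) (hx₀ : x₀ ≠ 0)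
    (hx : ∀ Q : Place K₀ ↥(laurentBaseChange K₀ (modularFunctionFieldFull N)),
      Q.ord (s34q_f2 (arithmeticGalois (modularFunctionFieldFull N) σ₀) f₀) ≤ (m : ℤ) * Q.ord x₀) :
    ∃ (c : Qbar) (x : modularFunctionFieldBar N),
      (arithmeticGalois (modularFunctionFieldFull N) σ •
          arithmeticGalois (modularFunctionFieldFull N) σ •
            s18q_map φ (modularFunctionFieldFull N) f₀) *
          s18q_map φ (modularFunctionFieldFull N) f₀ =
        algebraMap Qbar (modularFunctionFieldBar N) c * x ^ m *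
          (arithmeticGalois (modularFunctionFieldFull N) σ •
            s18q_map φ (modularFunctionFieldFull N) f₀) ^ 2 := by
  obtain ⟨ρ, -, hord⟩ := s18q_restrict_gen_bar φ (modularFunctionFieldFull N)
  obtain ⟨c, hc⟩ := s18x_endgame (s18q_map φ (modularFunctionFieldFull N)) ρ hord
    (fun g hg => s18e_const_of_ord_nonpos N g hg) _ x₀ m hx₀
    (s34q_f2_ne_zero (arithmeticGalois (modularFunctionFieldFull N) σ₀) hf₀) hx
  refine ⟨c, s18q_map φ (modularFunctionFieldFull N) x₀, ?_⟩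
  rw [← hc]
  have hmul := congrArg (s18q_map φ (modularFunctionFieldFull N))
    (s34q_f2_mul (arithmeticGalois (modularFunctionFieldFull N) σ₀) hf₀)
  rw [map_mul, map_pow, map_mul, s34q_map_smul _ φ σ₀ σ h, s34q_map_smul _ φ σ₀ σ h,
    s34q_map_smul _ φ σ₀ σ h] at hmul
  exact hmul.symm

/-- **The cofinal number-field statement**: every `f ∈ F_{ℚ̄}^×` with `m ∣ div f` comes from a
subfield `K₀ → ℚ̄` carrying a compatible `σ₀`, over which the second difference of `f₀` is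
"`≤ m · div x₀`". -/
def s34q_Cofinal (σ : Γℚ) (m : ℕ) : Prop :=
  ∀ f : modularFunctionFieldBar N, f ≠ 0 →
    (∀ P : Place Qbar (modularFunctionFieldBar N), (m : ℤ) ∣ P.ord f) →
    ∃ (K₀ : Type) (_ : Field K₀) (_ : Algebra ℚ K₀) (φ : K₀ →+* Qbar) (σ₀ : K₀ ≃ₐ[ℚ] K₀)
      (f₀ x₀ : ↥(laurentBaseChange K₀ (modularFunctionFieldFull N))),
      (∀ a : K₀, φ (σ₀ a) = σ (φ a)) ∧ s18q_map φ (modularFunctionFieldFull N) f₀ = f ∧
        x₀ ≠ 0 ∧
        ∀ Q : Place K₀ ↥(laurentBaseChange K₀ (modularFunctionFieldFull N)),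
          Q.ord (s34q_f2 (arithmeticGalois (modularFunctionFieldFull N) σ₀) f₀) ≤
            (m : ℤ) * Q.ord x₀

theorem s34q_kummerSS_of_cofinal (σ : Γℚ) (m : ℕ) (h : s34q_Cofinal N σ m) :
    s34r_KummerSS N σ m := by
  intro f hf hdiv
  obtain ⟨K₀, _, _, φ, σ₀, f₀, x₀, hφ, rfl, hx₀, hx⟩ := h f hf hdiv
  have hf₀ : f₀ ≠ 0 := by
    rintro rfl
    exact hf (map_zero _)
  exact s34q_kummer_of_descent N σ m φ σ₀ hφ f₀ x₀ hf₀ hx₀ hx

end Descent

end Fermat.Agent.Lib.S34
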