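/-
S34 (Plan S), package [R2] (helper7), part 2: after enlarging the number field, all zeros and poles
of a given function are RATIONAL points (places of degree one).

* `s34q_smul_incl`            : functions defined over `L` are fixed by `Gal(ℚ̄/L)`.
* `s34q_exists_field_fixing`  : for `f ≠ 0` in `F_{ℚ̄}` there is a number field `L₂ ⊆ ℚ̄` such that
                                `Gal(ℚ̄/L₂)` fixes every place in the support of `div f`.
* `s34q_deg_restrict_eq_one`  : a place `P` of `F_{ℚ̄}` fixed by `Gal(ℚ̄/L₀)` restricts to a place of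
                                degree one of `F_{L₀}`.
* `s34q_exists_field_rat`     : hence over every `L₀ ⊇ L₂` all places of `F_{L₀}` in the support of
                                `f` have degree one.
* `s34q_exists_const_of_deg_one` : at a place of degree one every integral function is congruent
                                to a constant.
-/
import Mathlib
import Fermat.Agent.Lib.S34.RDesc
import Fermat.Agent.Lib.S18.QPlace
import Fermat.Agent.Lib.S18.RData

set_option autoImplicit false
set_option linter.style.haveILetI false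
set_option synthInstance.maxHeartbeats 400000

noncomputable section

namespace Fermat.Agent.Lib.S34

open AlgebraicCurve ModularCurve Fermat.Agent.Lib.S18 Fermat.Agent.Lib.FF
open scoped Pointwise

local notation "Qbar" => AlgebraicClosure ℚ
local notation "Γℚ" => (AlgebraicClosure ℚ ≃ₐ[ℚ] AlgebraicClosure ℚ)

variable (N : ℕ)

/-- Functions defined over `L` are fixed by every `τ ∈ Gal(ℚ̄/L)`. -/
theorem s34q_smul_incl (L : IntermediateField ℚ Qbar) (τ : Γℚ) (hτ : ∀ a ∈ L, τ a = a)
    (y : ↥(laurentBaseChange ↥L (modularFunctionFieldFull N))) :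
    arithmeticGalois (modularFunctionFieldFull N) τ • s18q_incl N L y = s18q_incl N L y := by
  have h := s34q_map_smul (modularFunctionFieldFull N) (algebraMap ↥L Qbar) (1 : ↥L ≃ₐ[ℚ] ↥L) τ
    (fun a => (hτ _ a.2).symm) y
  rw [map_one, one_smul] at h
  exact h.symm

variable [NeZero N]

/-- For `f ≠ 0` there is a number field `L₂` such that `Gal(ℚ̄/L₂)` fixes every zero and pole
of `f`. -/
theorem s34q_exists_field_fixing (f : modularFunctionFieldBar N) (hf : f ≠ 0) :
    ∃ L₂ : IntermediateField ℚ Qbar, FiniteDimensional ℚ L₂ ∧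
      ∀ τ : Γℚ, (∀ a ∈ L₂, τ a = a) →
        ∀ P : Place Qbar (modularFunctionFieldBar N), P.ord f ≠ 0 →
          arithmeticGalois (modularFunctionFieldFull N) τ • P = P := by
  classical
  -- finiteness of the support
  have hfin : {P : Place Qbar (modularFunctionFieldBar N) | P.ord f ≠ 0}.Finite := by
    obtain ⟨D, hD, -⟩ := (s18r_hasPrincipalDivisors N).exists_divisor f hf
    refine Set.Finite.subset D.support.finite_toSet ?_
    intro P hP
    rw [Finset.mem_coe, Finsupp.mem_support_iff, hD]
    exact hP
  -- separating functions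
  have hsep : ∀ P P' : Place Qbar (modularFunctionFieldBar N), P ≠ P' →
      ∃ g : modularFunctionFieldBar N, g ∈ P.toValuationSubring ∧ g ∉ P'.toValuationSubring := by
    intro P P' hne
    by_contra hcon
    push Not at hcon
    exact hne (ff_place_eq_of_le (fun g hg => hcon g hg))
  choose! sep hsep using hsep
  set S := hfin.toFinset with hS
  set T : Finset (modularFunctionFieldBar N) :=
    insert f ((S ×ˢ S).image (fun pp => sep pp.1 pp.2)) with hT
  obtain ⟨L₂, hfd, hL₂⟩ := s18q_exists_field N T
  refine ⟨L₂, hfd, ?_⟩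
  intro τ hτ P hP
  have hfix : ∀ g ∈ T, arithmeticGalois (modularFunctionFieldFull N) τ • g = g := by
    intro g hg
    obtain ⟨g₀, rfl⟩ := hL₂ g hg
    exact s34q_smul_incl N L₂ τ hτ g₀
  have hP' : (arithmeticGalois (modularFunctionFieldFull N) τ • P).ord f ≠ 0 := by
    have h := SemilinearAut.ord_smul (arithmeticGalois (modularFunctionFieldFull N) τ) P f
    rw [hfix f (Finset.mem_insert_self _ _)] at h
    rw [h]
    exact hP
  by_contra hne
  have hne' : P ≠ arithmeticGalois (modularFunctionFieldFull N) τ • P := fun h => hne h.symm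
  obtain ⟨h1, h2⟩ := hsep P _ hne'
  have hg : sep P (arithmeticGalois (modularFunctionFieldFull N) τ • P) ∈ T := by
    refine Finset.mem_insert_of_mem (Finset.mem_image.mpr ⟨(P, _), ?_, rfl⟩)
    rw [Finset.mem_product]
    exact ⟨(Set.Finite.mem_toFinset hfin).mpr hP, (Set.Finite.mem_toFinset hfin).mpr hP'⟩
  apply h2
  have h3 := ValuationSubring.smul_mem_pointwise_smul
    (arithmeticGalois (modularFunctionFieldFull N) τ) _ P.toValuationSubring h1
  rw [hfix _ hg] at h3
  exact h3

/-- A place of `F_{ℚ̄}` fixed by `Gal(ℚ̄/L₀)` restricts to a place of `F_{L₀}` at which every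
integral function is congruent to a constant of `L₀`. -/
theorem s34q_exists_const_restrict (L₀ : IntermediateField ℚ Qbar)
    (P : Place Qbar (modularFunctionFieldBar N))
    (hP : ∀ τ : Γℚ, (∀ a ∈ L₀, τ a = a) →
      arithmeticGalois (modularFunctionFieldFull N) τ • P = P)
    (y : ↥(laurentBaseChange ↥L₀ (modularFunctionFieldFull N)))
    (hy : y ∈ (s18q_restrict N L₀ P).toValuationSubring) :
    ∃ c₀ : ↥L₀, y = algebraMap ↥L₀ _ c₀ ∨
      0 < (s18q_restrict N L₀ P).ord (y - algebraMap ↥L₀ _ c₀) := by
  haveI := s18e_ffGen N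
  have hy' : s18q_incl N L₀ y ∈ P.toValuationSubring := (s18q_mem_restrict N L₀ P y).mp hy
  obtain ⟨c, hc⟩ := ff_exists_const_sub_mem ffi_K (ffd_jBar N) P hy'
  -- `c` is fixed by `Gal(ℚ̄/L₀)`
  have hcfix : ∀ τ : Γℚ, (∀ a ∈ L₀, τ a = a) → τ c = c := by
    intro τ hτ
    have hτy := s34q_smul_incl N L₀ τ hτ y
    have hτc : arithmeticGalois (modularFunctionFieldFull N) τ •
        algebraMap Qbar (modularFunctionFieldBar N) c =
        algebraMap Qbar (modularFunctionFieldBar N) (τ c) :=
      SemilinearAut.smul_algebraMap _ c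
    rcases hc with hc | hc
    · have h1 : algebraMap Qbar (modularFunctionFieldBar N) (τ c) =
          algebraMap Qbar (modularFunctionFieldBar N) c := by
        rw [← hτc, ← hc, hτy]
      exact (algebraMap Qbar (modularFunctionFieldBar N)).injective h1
    · have h1 := SemilinearAut.ord_smul (arithmeticGalois (modularFunctionFieldFull N) τ) P
        (s18q_incl N L₀ y - algebraMap Qbar (modularFunctionFieldBar N) c)
      rw [hP τ hτ, smul_sub, hτy, hτc] at h1
      have h2 : 0 < P.ord (s18q_incl N L₀ y -
          algebraMap Qbar (modularFunctionFieldBar N) (τ c)) := by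
        rw [h1]
        exact hc
      exact ff_ord_sub_pos_unique P h2 hc
  have hcL : c ∈ L₀ := by
    haveI : IsAlgClosure ℚ Qbar := ⟨inferInstance, s18q_isAlgebraic_bar⟩
    haveI : IsGalois ℚ Qbar := IsAlgClosure.isGalois ℚ Qbar
    rw [← InfiniteGalois.fixedField_fixingSubgroup L₀, IntermediateField.mem_fixedField_iff]
    intro τ hτ
    exact hcfix τ (fun a ha => (IntermediateField.mem_fixingSubgroup_iff L₀ τ).mp hτ a ha)
  refine ⟨⟨c, hcL⟩, ?_⟩
  have hcc : s18q_incl N L₀ (algebraMap ↥L₀ _ (⟨c, hcL⟩ : ↥L₀)) =
      algebraMap Qbar (modularFunctionFieldBar N) c := s18q_incl_algebraMap N L₀ ⟨c, hcL⟩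
  rcases hc with hc | hc
  · left
    apply s18q_incl_injective N L₀
    rw [hcc]
    exact hc
  · right
    rw [← s18q_ord_restrict, map_sub, hcc]
    exact hc

/-- At a place where every integral function is congruent to a constant, the degree is one. -/
theorem s34q_deg_eq_one_of_const {K F : Type*} [Field K] [Field F] [Algebra K F]
    (v : Place K F)
    (h : ∀ y ∈ v.toValuationSubring, ∃ c : K, y = algebraMap K F c ∨
      0 < v.ord (y - algebraMap K F c)) : v.deg = 1 := by
  have hsurj : Function.Surjective (algebraMap K v.ResidueField) := by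
    intro z
    obtain ⟨y, rfl⟩ := IsLocalRing.residue_surjective z
    obtain ⟨a, ha | ha⟩ := h y y.2
    · refine ⟨a, ?_⟩
      rw [IsScalarTower.algebraMap_apply K v.toValuationSubring v.ResidueField]
      congr 1
      apply Subtype.ext
      rw [Place.coe_algebraMap]
      exact ha.symm
    · refine ⟨a, ?_⟩
      rw [IsScalarTower.algebraMap_apply K v.toValuationSubring v.ResidueField]
      symm
      rw [← sub_eq_zero]
      show IsLocalRing.residue _ y - IsLocalRing.residue _ (algebraMap K v.toValuationSubring a) = 0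
      rw [← map_sub, IsLocalRing.residue_eq_zero_iff, IsLocalRing.mem_maximalIdeal,
        mem_nonunits_iff]
      intro hu
      have hne : ((y - algebraMap K v.toValuationSubring a : v.toValuationSubring) : F) ≠ 0 := by
        intro h0
        have : y - algebraMap K v.toValuationSubring a = 0 := Subtype.ext h0
        rw [this] at hu
        exact not_isUnit_zero hu
      have hinv := ff_inv_mem_of_isUnit v hu
      have := (ff_ord_pos_iff v hne).mp (by simpa using ha)
      exact this.2 hinv
  have hbij : Function.Bijective (algebraMap K v.ResidueField) :=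
    ⟨(algebraMap K v.ResidueField).injective, hsurj⟩
  have e : K ≃ₗ[K] v.ResidueField :=
    LinearEquiv.ofBijective (Algebra.linearMap K v.ResidueField) hbij
  rw [Place.deg, ← e.finrank_eq, Module.finrank_self]

/-- A place of `F_{ℚ̄}` fixed by `Gal(ℚ̄/L₀)` restricts to a place of degree one of `F_{L₀}`. -/
theorem s34q_deg_restrict_eq_one (L₀ : IntermediateField ℚ Qbar)
    (P : Place Qbar (modularFunctionFieldBar N))
    (hP : ∀ τ : Γℚ, (∀ a ∈ L₀, τ a = a) →
      arithmeticGalois (modularFunctionFieldFull N) τ • P = P) :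
    (s18q_restrict N L₀ P).deg = 1 :=
  s34q_deg_eq_one_of_const _ (fun y hy => s34q_exists_const_restrict N L₀ P hP y hy)

/-- **Rationality of the support.**  For `f ≠ 0` in `F_{ℚ̄}` there is a number field `L₂ ⊆ ℚ̄` such
that over every `L₀ ⊇ L₂` all zeros and poles of (any model `f₀` of) `f` are places of degree
one. -/
theorem s34q_exists_field_rat (f : modularFunctionFieldBar N) (hf : f ≠ 0) :
    ∃ L₂ : IntermediateField ℚ Qbar, FiniteDimensional ℚ L₂ ∧
      ∀ L₀ : IntermediateField ℚ Qbar, L₂ ≤ L₀ →
        ∀ f₀ : ↥(laurentBaseChange ↥L₀ (modularFunctionFieldFull N)), s18q_incl N L₀ f₀ = f →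
          ∀ Q : Place ↥L₀ ↥(laurentBaseChange ↥L₀ (modularFunctionFieldFull N)),
            Q.ord f₀ ≠ 0 → Q.deg = 1 := by
  obtain ⟨L₂, hfd, hL₂⟩ := s34q_exists_field_fixing N f hf
  refine ⟨L₂, hfd, ?_⟩
  intro L₀ hle f₀ hf₀ Q hQ
  obtain ⟨P, rfl⟩ := s18q_restrict_surjective N L₀ Q
  rw [← s18q_ord_restrict, hf₀] at hQ
  exact s34q_deg_restrict_eq_one N L₀ P
    (fun τ hτ => hL₂ τ (fun a ha => hτ a (hle ha)) P hQ)

/-- At a place of degree one every integral function is congruent to a constant. -/
theorem s34q_exists_const_of_deg_one {K F : Type*} [Field K] [Field F] [Algebra K F]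
    (v : Place K F) (hv : v.deg = 1) (y : F) (hy : y ∈ v.toValuationSubring) :
    ∃ c : K, y = algebraMap K F c ∨ 0 < v.ord (y - algebraMap K F c) := by
  have hsurj : Function.Surjective (algebraMap K v.ResidueField) := by
    have h1 : Module.finrank K v.ResidueField = 1 := hv
    have hfin : Module.Finite K v.ResidueField := Module.finite_of_finrank_eq_succ h1
    have hbot : (⊥ : Subalgebra K v.ResidueField) = ⊤ :=
      Subalgebra.bot_eq_top_of_finrank_eq_one h1
    intro z
    have hz : z ∈ (⊥ : Subalgebra K v.ResidueField) := by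
      rw [hbot]
      exact Algebra.mem_top
    exact Algebra.mem_bot.mp hz
  obtain ⟨c, hc⟩ := hsurj (IsLocalRing.residue _ ⟨y, hy⟩)
  refine ⟨c, ?_⟩
  by_cases h0 : y = algebraMap K F c
  · exact Or.inl h0
  · right
    have hne : y - algebraMap K F c ≠ 0 := sub_ne_zero.mpr h0
    rw [ff_ord_pos_iff v hne]
    have hmem : y - algebraMap K F c ∈ v.toValuationSubring :=
      sub_mem hy (v.algebraMap_mem' c)
    refine ⟨hmem, ?_⟩
    intro hinv
    -- then `y - c` is a unit of `O_v`, but its residue is zero
    have hres : IsLocalRing.residue v.toValuationSubring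
        (⟨y - algebraMap K F c, hmem⟩ : v.toValuationSubring) = 0 := by
      have h2 : (⟨y - algebraMap K F c, hmem⟩ : v.toValuationSubring) =
          ⟨y, hy⟩ - algebraMap K v.toValuationSubring c := Subtype.ext rfl
      rw [h2, map_sub, ← hc,
        IsScalarTower.algebraMap_apply K v.toValuationSubring v.ResidueField]
      exact sub_self _
    rw [IsLocalRing.residue_eq_zero_iff, IsLocalRing.mem_maximalIdeal, mem_nonunits_iff] at hres
    apply hres
    refine IsUnit.of_mul_eq_one (⟨(y - algebraMap K F c)⁻¹, hinv⟩ : v.toValuationSubring)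
      (Subtype.ext ?_)
    exact mul_inv_cancel₀ hne

end Fermat.Agent.Lib.S34
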