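/-
S34 (Plan S), TARGET CONTRACT (helper3, for the lead / architect helper4):

  **[SS]** semistable reduction of `J₀(N)` at a prime `q ∥ N`, in Grothendieck's Galois-theoretic
  form: for every `σ` in an inertia group at `q` and every torsion point `z ∈ J₀(N)(ℚ̄)` of order
  prime to `q`,   `(σ - 1)² z = 0`,   i.e.   `σ • σ • z - 2 • σ • z + z = 0`.

`s34_SS`  : the statement for all `m` prime to `q` (`m • z = 0`, `ℕ`-scalar multiplication);
`s34_SSp` : the statement for prime powers `m = p ^ k`, `p ≠ q` — this is what the Plan-M wiring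
            (`Lib/S34/Top.lean`) consumes;  `s34_SSp_of_SS : s34_SS → s34_SSp`.
Only `Lib/S29/KIface` (= Mathlib + three Prelude definition modules) is imported.
-/
import Mathlib
import Fermat.Agent.Lib.S29.KIface

set_option autoImplicit false

open ModularCurve AlgebraicCurve

namespace Fermat.Agent.Lib.S34

open Fermat.Agent.Lib.S29

/-- **[SS]**: inertia at `q ∥ N` acts on the prime-to-`q` torsion of `J₀(N)(ℚ̄)` through
endomorphisms `σ` with `(σ - 1)² = 0`. -/
def s34_SS : Prop :=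
  ∀ (N : ℕ) [NeZero N] (q : ℕ), q.Prime → q ∣ N → ¬ q ^ 2 ∣ N →
    ∀ P : ValuationSubring (AlgebraicClosure ℚ), P.LiesOverPrime q →
      ∀ σ : s29k_G, σ ∈ P.inertiaSubgroupIn ℚ →
        ∀ m : ℕ, ¬ q ∣ m → ∀ z : JZero N, m • z = 0 →
          σ • σ • z - 2 • σ • z + z = 0

/-- **[SS]**, prime-power form. -/
def s34_SSp : Prop :=
  ∀ (N : ℕ) [NeZero N] (q : ℕ), q.Prime → q ∣ N → ¬ q ^ 2 ∣ N →
    ∀ P : ValuationSubring (AlgebraicClosure ℚ), P.LiesOverPrime q →
      ∀ σ : s29k_G, σ ∈ P.inertiaSubgroupIn ℚ →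
        ∀ p : ℕ, p.Prime → p ≠ q → ∀ (k : ℕ) (z : JZero N), p ^ k • z = 0 →
          σ • σ • z - 2 • σ • z + z = 0

theorem s34_SSp_of_SS (h : s34_SS) : s34_SSp := by
  intro N _ q hq hqN hq2 P hP σ hσ p hp hpq k z hz
  refine h N q hq hqN hq2 P hP σ hσ (p ^ k) (fun hdvd => hpq ?_) z hz
  exact ((Nat.prime_dvd_prime_iff_eq hq hp).mp (hq.dvd_of_dvd_pow hdvd)).symm

end Fermat.Agent.Lib.S34
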