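/-
S34 (Plan S), adapter (helper3): the TARGET CONTRACT `s34_SSp` (`Lib/S34/SSIface.lean`) from its
Kummer form (`s34r_KummerSS`, `Lib/S34/RTop.lean`, helper5).

`s34k_KSS` : for `q ∥ N`, `σ` in an inertia group at `q`, `p ≠ q` prime and all `k`:
             `s34r_KummerSS N σ (p ^ k)`, i.e. every `f ∈ ℚ̄(X₀(N))^×` with `p ^ k ∣ div f` satisfies
             `σσf · f = c · x ^ (p ^ k) · (σf)²`.
`s34k_SSp_of_KSS : s34k_KSS → s34_SSp`.

So the S34 project is now literally: **prove `s34k_KSS`**.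
-/
import Mathlib
import Fermat.Agent.Lib.S34.SSIface
import Fermat.Agent.Lib.S34.RTop

set_option autoImplicit false

open ModularCurve AlgebraicCurve

namespace Fermat.Agent.Lib.S34

open Fermat.Agent.Lib.S29

/-- **[SS], Kummer form**: the exact hypothesis which the packages [R]/[M]/[L]/[X″] must
deliver. -/
def s34k_KSS : Prop :=
  ∀ (N : ℕ) [NeZero N] (q : ℕ), q.Prime → q ∣ N → ¬ q ^ 2 ∣ N →
    ∀ P : ValuationSubring (AlgebraicClosure ℚ), P.LiesOverPrime q →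
      ∀ σ : s29k_G, σ ∈ P.inertiaSubgroupIn ℚ →
        ∀ p : ℕ, p.Prime → p ≠ q → ∀ k : ℕ, s34r_KummerSS N σ (p ^ k)

theorem s34k_SSp_of_KSS (h : s34k_KSS) : s34_SSp := by
  intro N _ q hq hqN hq2 P hP σ hσ p hp hpq k z hz
  exact s34r_top N σ (p ^ k) (pow_ne_zero k hp.ne_zero)
    (h N q hq hqN hq2 P hP σ hσ p hp hpq k) z hz

end Fermat.Agent.Lib.S34
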