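/-
S34 (Plan S), package [R2] (helper7), part 3: the NUMBER-FIELD CONTRACT `s34q_NFKummer` and the
descent theorem `s34q_kummerSS_of_nf`:

  `s34q_NFKummer N q m` ⟹ for every valuation ring `A ⊆ ℚ̄` over `q` and every `σ` in its inertia
  group: `s34r_KummerSS N σ m`.

The contract is a statement about an ABSTRACT number field `K₀`, Galois over `ℚ`, in which a
polynomial `g ∈ ℚ[X]` chosen by the prover of the contract splits (so `K₀` contains any wanted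
roots of unity, roots of `q`, ...), a discrete valuation ring `A₀ ⊆ K₀` over `q`, an element `σ₀`
of the inertia group of `A₀` in `Gal(K₀/ℚ)`, and a function `f₀ ∈ K₀(X₀(N))^×` with `m ∣ div f₀`
ALL OF WHOSE ZEROS AND POLES ARE `K₀`-RATIONAL (places of degree one); it asks for `x₀ ≠ 0` with
`div (σ₀²f₀ · f₀ / (σ₀f₀)²) ≤ m · div x₀`.
-/
import Mathlib
import Fermat.Agent.Lib.S34.RDescRat
import Fermat.Agent.Lib.S34.SSKummer
import Fermat.Agent.Lib.S18.QDvr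
import Fermat.Agent.Lib.Frey.OrdInertia

set_option autoImplicit false
set_option linter.style.haveILetI false
set_option synthInstance.maxHeartbeats 400000

noncomputable section

namespace Fermat.Agent.Lib.S34

open AlgebraicCurve ModularCurve Polynomial Fermat.Agent.Lib.S18 Fermat.Agent.Lib.FF
  Fermat.Agent.Lib.Frey

local notation "Qbar" => AlgebraicClosure ℚ
local notation "Γℚ" => (AlgebraicClosure ℚ ≃ₐ[ℚ] AlgebraicClosure ℚ)

/-- **The number-field contract** for `(N, q, m)`: what the geometric packages [M]/[L]/[X″] must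
deliver. -/
def s34q_NFKummer (N q m : ℕ) : Prop :=
  ∃ g : ℚ[X], g ≠ 0 ∧
    ∀ (K₀ : Type) [Field K₀] [NumberField K₀] [IsGalois ℚ K₀],
      (g.map (algebraMap ℚ K₀)).Splits →
      ∀ (A₀ : ValuationSubring K₀) [IsDiscreteValuationRing ↥A₀], (q : K₀) ∈ A₀.nonunits →
      ∀ σ₀ : K₀ ≃ₐ[ℚ] K₀, (∀ a : K₀, σ₀ a ∈ A₀ ↔ a ∈ A₀) →
        (∀ a ∈ A₀, σ₀ a - a ∈ A₀.nonunits) →
      ∀ f₀ : ↥(laurentBaseChange K₀ (modularFunctionFieldFull N)), f₀ ≠ 0 →
        (∀ Q : Place K₀ ↥(laurentBaseChange K₀ (modularFunctionFieldFull N)),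
          (m : ℤ) ∣ Q.ord f₀) →
        (∀ Q : Place K₀ ↥(laurentBaseChange K₀ (modularFunctionFieldFull N)),
          Q.ord f₀ ≠ 0 → Q.deg = 1) →
        ∃ x₀ : ↥(laurentBaseChange K₀ (modularFunctionFieldFull N)), x₀ ≠ 0 ∧
          ∀ Q : Place K₀ ↥(laurentBaseChange K₀ (modularFunctionFieldFull N)),
            Q.ord (s34q_f2 (arithmeticGalois (modularFunctionFieldFull N) σ₀) f₀) ≤
              (m : ℤ) * Q.ord x₀

section Aux

/-- `ℚ̄` is an algebraic closure of `ℚ` (for the `ℚ`-algebra structure in force). -/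
theorem s34q_isAlgClosure_bar : IsAlgClosure ℚ Qbar := ⟨inferInstance, s18q_isAlgebraic_bar⟩

/-- Non-units of `A ∩ L₀`. -/
theorem s34q_mem_nonunits_comap {L₀ L : Type*} [Field L₀] [Field L] (φ : L₀ →+* L)
    (A : ValuationSubring L) (x : L₀) : x ∈ (A.comap φ).nonunits ↔ φ x ∈ A.nonunits := by
  rw [ValuationSubring.mem_nonunits_iff_or, ValuationSubring.mem_nonunits_iff_or,
    ValuationSubring.mem_comap, map_inv₀, map_eq_zero]

end Aux

variable (N : ℕ) [NeZero N]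

/-- **Descent to a number field.** -/
theorem s34q_kummerSS_of_nf (q : ℕ) (hq : q.Prime) (m : ℕ) (hNF : s34q_NFKummer N q m)
    (A : ValuationSubring Qbar) (hA : A.LiesOverPrime q) (σ : Γℚ)
    (hσ : σ ∈ A.inertiaSubgroupIn ℚ) : s34r_KummerSS N σ m := by
  classical
  haveI : Fact q.Prime := ⟨hq⟩
  haveI := s34q_isAlgClosure_bar
  haveI : Normal ℚ Qbar := IsAlgClosure.normal ℚ Qbar
  obtain ⟨g, hg0, hNF⟩ := hNF
  intro f hf hdiv
  -- the three fields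
  obtain ⟨L₁, hfd₁, hL₁⟩ := s18q_exists_field N {f}
  obtain ⟨L₂, hfd₂, hL₂⟩ := s34q_exists_field_rat N f hf
  let L₃ : IntermediateField ℚ Qbar := IntermediateField.adjoin ℚ (g.rootSet Qbar)
  haveI : Finite ↑(g.rootSet Qbar) := (rootSet_finite g Qbar).to_subtype
  haveI hfd₃ : FiniteDimensional ℚ L₃ :=
    IntermediateField.finiteDimensional_adjoin
      (fun x _ => (s18q_isAlgebraic_bar.isAlgebraic x).isIntegral)
  let L₄ : IntermediateField ℚ Qbar := L₁ ⊔ L₂ ⊔ L₃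
  haveI hfd₄ : FiniteDimensional ℚ L₄ := by
    show FiniteDimensional ℚ ↥(L₁ ⊔ L₂ ⊔ L₃)
    infer_instance
  let L₀ : IntermediateField ℚ Qbar := IntermediateField.normalClosure ℚ ↥L₄ Qbar
  have hL₄₀ : L₄ ≤ L₀ := IntermediateField.le_normalClosure L₄
  haveI hfd₀ : FiniteDimensional ℚ L₀ := normalClosure.is_finiteDimensional ℚ ↥L₄ Qbar
  haveI hnorm : Normal ℚ ↥L₀ := normalClosure.normal ℚ ↥L₄ Qbar
  haveI hnf : NumberField ↥L₀ := ⟨⟩
  haveI hgal : IsGalois ℚ ↥L₀ := IsGalois.mk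
  have hL₁₀ : L₁ ≤ L₀ := le_trans (le_trans le_sup_left le_sup_left) hL₄₀
  have hL₂₀ : L₂ ≤ L₀ := le_trans (le_trans le_sup_right le_sup_left) hL₄₀
  have hL₃₀ : L₃ ≤ L₀ := le_trans le_sup_right hL₄₀
  -- `g` splits in `L₀`
  have hsplit : (g.map (algebraMap ℚ ↥L₀)).Splits := by
    refine IntermediateField.splits_of_splits (IsAlgClosed.splits _) ?_
    intro x hx
    exact hL₃₀ (IntermediateField.subset_adjoin ℚ _ hx)
  -- the model of `f`
  obtain ⟨f₀, hf₀⟩ := s18q_incl_range_mono N hL₁₀ (hL₁ f (Finset.mem_singleton_self f))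
  have hf₀0 : f₀ ≠ 0 := by
    rintro rfl
    exact hf (by rw [← hf₀, map_zero])
  -- the valuation ring
  haveI hdvr : IsDiscreteValuationRing ↥(A.comap (algebraMap ↥L₀ Qbar)) := s18q_A0_dvr A L₀ hA
  have hqA₀ : ((q : ℕ) : ↥L₀) ∈ (A.comap (algebraMap ↥L₀ Qbar)).nonunits := by
    rw [s34q_mem_nonunits_comap, map_natCast]
    exact hA
  -- the automorphism
  let σ₀ : ↥L₀ ≃ₐ[ℚ] ↥L₀ := σ.restrictNormal ↥L₀
  have hσ₀ : ∀ a : ↥L₀, algebraMap ↥L₀ Qbar (σ₀ a) = σ (algebraMap ↥L₀ Qbar a) :=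
    fun a => AlgEquiv.restrictNormal_commutes σ ↥L₀ a
  obtain ⟨hD, hI⟩ := ford_inertia_spec A σ hσ
  have hDinv : σ⁻¹ ∈ A.decompositionSubgroup ℚ := inv_mem hD
  have hσ₀A : ∀ a : ↥L₀, σ₀ a ∈ A.comap (algebraMap ↥L₀ Qbar) ↔
      a ∈ A.comap (algebraMap ↥L₀ Qbar) := by
    intro a
    rw [ValuationSubring.mem_comap, ValuationSubring.mem_comap, hσ₀]
    constructor
    · intro h
      have h2 := ford_decomposition_mem A σ⁻¹ hDinv _ h
      have h3 : σ⁻¹ (σ (algebraMap ↥L₀ Qbar a)) = algebraMap ↥L₀ Qbar a :=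
        σ.symm_apply_apply _
      rwa [h3] at h2
    · exact ford_decomposition_mem A σ hD _
  have hσ₀I : ∀ a ∈ A.comap (algebraMap ↥L₀ Qbar),
      σ₀ a - a ∈ (A.comap (algebraMap ↥L₀ Qbar)).nonunits := by
    intro a ha
    rw [s34q_mem_nonunits_comap, map_sub, hσ₀]
    exact hI _ ha
  -- divisibility and rationality over `L₀`
  have hdiv₀ : ∀ Q : Place ↥L₀ ↥(laurentBaseChange ↥L₀ (modularFunctionFieldFull N)),
      (m : ℤ) ∣ Q.ord f₀ :=
    s18q_dvd_ord_descend N L₀ m f₀ (fun P => by rw [hf₀]; exact hdiv P)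
  have hrat : ∀ Q : Place ↥L₀ ↥(laurentBaseChange ↥L₀ (modularFunctionFieldFull N)),
      Q.ord f₀ ≠ 0 → Q.deg = 1 := hL₂ L₀ hL₂₀ f₀ hf₀
  -- the contract
  obtain ⟨x₀, hx₀, hx⟩ := hNF ↥L₀ hsplit (A.comap (algebraMap ↥L₀ Qbar)) hqA₀ σ₀ hσ₀A hσ₀I f₀
    hf₀0 hdiv₀ hrat
  have key := s34q_kummer_of_descent N σ m (algebraMap ↥L₀ Qbar) σ₀ hσ₀ f₀ x₀ hf₀0 hx₀ hx
  have hincl : s18q_map (algebraMap ↥L₀ Qbar) (modularFunctionFieldFull N) f₀ = f := hf₀
  rw [hincl] at key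
  exact key

/-- **[R2]**: the Kummer form of [SS] (`s34k_KSS`, helper3's `SSKummer.lean`) from the
number-field contract at all `(N, q, p ^ k)`. -/
theorem s34q_KSS_of_nf
    (h : ∀ (N : ℕ) [NeZero N] (q : ℕ), q.Prime → q ∣ N → ¬ q ^ 2 ∣ N →
      ∀ p : ℕ, p.Prime → p ≠ q → ∀ k : ℕ, s34q_NFKummer N q (p ^ k)) : s34k_KSS := by
  intro N _ q hq hqN hq2 P hP σ hσ p hp hpq k
  exact s34q_kummerSS_of_nf N q hq (p ^ k) (h N q hq hqN hq2 p hp hpq k) P hP σ hσ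

end Fermat.Agent.Lib.S34
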