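/-
S34 moonshot ([SS] ⇒ S34), package [R] (helper5), part 3: change of level for the Kummer form.

For a prime `p ∤ N` and `m` prime to `p + 1`, the Kummer form `s34r_KummerSS` at level `p * N`
implies the Kummer form at level `N` (`s34r_levelChange`): orders of a function of the small field
stay divisible by `m` at the places of the big field, the Galois action is coefficientwise on both
fields, and an `m`-th root in the big field descends because the degree `p + 1` is prime to `m` and
all roots of unity are constants (S18's package (LC), re-used by import).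
Consequence `s34r_kummerSS_of_good`: it suffices to prove the Kummer form at levels which are
"good" for the residue characteristic `q` in the sense of S18 (`q ≥ 5`, or `q = 3` and `2 ∣ N`, or
`q = 2` and `3 ∣ N`).
-/
import Fermat.Agent.Lib.S34.RTop
import Fermat.Agent.Lib.S18.LChange

set_option autoImplicit false
set_option linter.style.haveILetI false

noncomputable section

namespace Fermat.Agent.Lib.S34

open ModularCurve AlgebraicCurve IntermediateField Fermat.Agent.Lib.FF Fermat.Agent.Lib.S18 Module

local notation "Γℚ" => (AlgebraicClosure ℚ ≃ₐ[ℚ] AlgebraicClosure ℚ)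

section Generic

variable {K F F' : Type*} [Field K] [Field F] [Field F'] [Algebra K F] [Algebra K F']
  [Algebra F F'] [IsScalarTower K F F'] [FiniteDimensional F F']

/-- **Descent of the Kummer form** along a finite extension `F'/F` of function fields of degree
prime to `m`, for compatible semilinear automorphisms. -/
theorem s34r_kummerSq_descend (g : SemilinearAut K F) (g' : SemilinearAut K F')
    (hequiv : ∀ y : F, algebraMap F F' (g • y) = g' • algebraMap F F' y)
    (m : ℕ) (hm : m ≠ 0) (hcop : (finrank F F').Coprime m)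
    (hroots : ∀ ζ : F', ζ ^ m = 1 → ζ ∈ (algebraMap F F').range)
    (h : s34r_KummerSq g' m) : s34r_KummerSq g m := by
  haveI : Algebra.IsAlgebraic F F' := Algebra.IsAlgebraic.of_finite _ _
  intro f hf hord
  have hf' : algebraMap F F' f ≠ 0 := (map_ne_zero _).mpr hf
  obtain ⟨c, x', hx'⟩ := h (algebraMap F F' f) hf'
    (fun P' => s18l_dvd_ord_of_forall (m : ℤ) f hord P')
  have hgf : g • f ≠ 0 := s34r_smul_ne_zero g hf
  have hggf : g • g • f ≠ 0 := s34r_smul_ne_zero g hgf
  rw [← hequiv, ← hequiv] at hx'
  have hgf' : algebraMap F F' (g • f) ≠ 0 := (map_ne_zero _).mpr hgf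
  have hggf' : algebraMap F F' (g • g • f) ≠ 0 := (map_ne_zero _).mpr hggf
  -- `c ≠ 0`
  have hc : c ≠ 0 := by
    rintro rfl
    rw [map_zero, zero_mul, zero_mul] at hx'
    exact mul_ne_zero hggf' hf' hx'
  have hc' : algebraMap K F' c ≠ 0 := (map_ne_zero _).mpr hc
  -- `x' ^ m` lies in the small field
  have hxpow : x' ^ m ∈ (algebraMap F F').range := by
    refine ⟨algebraMap K F c⁻¹ * ((g • g • f) * f * ((g • f) ^ 2)⁻¹), ?_⟩
    simp only [map_mul, map_inv₀, map_pow]
    rw [hx', ← IsScalarTower.algebraMap_apply]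
    have h2 : (algebraMap F F' (g • f)) ^ 2 ≠ 0 := pow_ne_zero 2 hgf'
    rw [mul_assoc (algebraMap K F' c * x' ^ m), mul_inv_cancel₀ h2, mul_one, ← mul_assoc,
      inv_mul_cancel₀ hc', one_mul]
  obtain ⟨x, rfl⟩ := s18l_mem_of_pow_mem m hm hcop hroots x' hxpow
  refine ⟨c, x, ?_⟩
  apply (algebraMap F F').injective
  rw [map_mul, hx', map_mul, map_mul, map_pow, map_pow, ← IsScalarTower.algebraMap_apply]

end Generic

/-- The coefficientwise Galois action commutes with the inclusion of levels. -/
theorem s34r_inclusion_smul {N M : ℕ}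
    (hle : modularFunctionFieldBar N ≤ modularFunctionFieldBar M) (σ : Γℚ)
    (y : modularFunctionFieldBar N) :
    IntermediateField.inclusion hle
        (arithmeticGalois (L := AlgebraicClosure ℚ) (modularFunctionFieldFull N) σ • y) =
      arithmeticGalois (L := AlgebraicClosure ℚ) (modularFunctionFieldFull M) σ •
        IntermediateField.inclusion hle y := by
  apply Subtype.ext
  rw [IntermediateField.coe_inclusion, coe_arithmeticGalois_smul, coe_arithmeticGalois_smul,
    IntermediateField.coe_inclusion]

/-- **Change of level for the Kummer form of [SS].** -/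
theorem s34r_levelChange (N : ℕ) [NeZero N] (p : ℕ) (hp : p.Prime) (hpN : ¬ p ∣ N) (m : ℕ)
    (hm : m ≠ 0) (hcop : (p + 1).Coprime m) (σ : Γℚ) (h : s34r_KummerSS (p * N) σ m) :
    s34r_KummerSS N σ m := by
  haveI : NeZero (p * N) := ⟨mul_ne_zero hp.ne_zero (NeZero.ne N)⟩
  have hle : modularFunctionFieldBar N ≤ modularFunctionFieldBar (p * N) :=
    s18l_bar_mono (dvd_mul_left N p)
  letI : Algebra ↥(modularFunctionFieldBar N) ↥(modularFunctionFieldBar (p * N)) :=
    (IntermediateField.inclusion hle).toRingHom.toAlgebra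
  haveI : IsScalarTower (AlgebraicClosure ℚ) ↥(modularFunctionFieldBar N)
      ↥(modularFunctionFieldBar (p * N)) :=
    IsScalarTower.of_algebraMap_eq fun x => ((IntermediateField.inclusion hle).commutes x).symm
  -- the degree
  have hfin : finrank ↥(modularFunctionFieldBar N) ↥(modularFunctionFieldBar (p * N)) = p + 1 := by
    have h1 := IntermediateField.relfinrank_eq_finrank_of_le hle
    rw [s18l_relfinrank_level N p hp hpN] at h1
    let e : ↥(modularFunctionFieldBar (p * N)) ≃ₗ[↥(modularFunctionFieldBar N)]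
        ↥(IntermediateField.extendScalars hle) :=
      { toFun := fun x => ⟨x.1, x.2⟩
        invFun := fun x => ⟨x.1, x.2⟩
        map_add' := fun _ _ => rfl
        map_smul' := fun a x => by
          apply Subtype.ext
          rfl
        left_inv := fun _ => rfl
        right_inv := fun _ => rfl }
    rw [e.finrank_eq, ← h1]
  haveI : FiniteDimensional ↥(modularFunctionFieldBar N) ↥(modularFunctionFieldBar (p * N)) :=
    FiniteDimensional.of_finrank_pos (by rw [hfin]; omega)
  have hroots : ∀ ζ : ↥(modularFunctionFieldBar (p * N)), ζ ^ m = 1 →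
      ζ ∈ (algebraMap ↥(modularFunctionFieldBar N) ↥(modularFunctionFieldBar (p * N))).range := by
    intro ζ hζ
    obtain ⟨μ, hμ⟩ := s18l_root_of_unity_const m hm (ζ : LaurentSeries (AlgebraicClosure ℚ)) (by
      have := congrArg Subtype.val hζ
      simpa using this)
    refine ⟨algebraMap (AlgebraicClosure ℚ) ↥(modularFunctionFieldBar N) μ, ?_⟩
    rw [← IsScalarTower.algebraMap_apply]
    exact Subtype.ext hμ
  exact s34r_kummerSq_descend
    (arithmeticGalois (L := AlgebraicClosure ℚ) (modularFunctionFieldFull N) σ)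
    (arithmeticGalois (L := AlgebraicClosure ℚ) (modularFunctionFieldFull (p * N)) σ)
    (fun y => s34r_inclusion_smul hle σ y) m hm (by rw [hfin]; exact hcop) hroots h

/-- It suffices to prove the Kummer form of [SS] at the levels which are good for `q` in the sense
of S18. -/
theorem s34r_kummerSS_of_good (q : ℕ) (hq : q.Prime) (σ : Γℚ) (m : ℕ) (hm : ¬ q ∣ m)
    (h : ∀ (N : ℕ) [NeZero N], q ∣ N → ¬ q ^ 2 ∣ N →
      (5 ≤ q ∨ (q = 3 ∧ 2 ∣ N) ∨ (q = 2 ∧ 3 ∣ N)) → s34r_KummerSS N σ m)
    (N : ℕ) [NeZero N] (hqN : q ∣ N) (hq2N : ¬ q ^ 2 ∣ N) : s34r_KummerSS N σ m := by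
  have hm0 : m ≠ 0 := by
    rintro rfl
    exact hm (dvd_zero q)
  by_cases h5 : 5 ≤ q
  · exact h N hqN hq2N (Or.inl h5)
  · have hq23 : q = 2 ∨ q = 3 := by
      have h2 := hq.two_le
      have : q ≠ 4 := by rintro rfl; exact absurd hq (by decide)
      omega
    rcases hq23 with rfl | rfl
    · -- `q = 2`: adjoin the prime `3` to the level
      by_cases h3 : 3 ∣ N
      · exact h N hqN hq2N (Or.inr (Or.inr ⟨rfl, h3⟩))
      · haveI : NeZero (3 * N) := ⟨mul_ne_zero (by norm_num) (NeZero.ne N)⟩
        refine s34r_levelChange N 3 (by norm_num) h3 m hm0 ?_ σ ?_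
        · have h2 : Nat.Coprime 2 m := (Nat.Prime.coprime_iff_not_dvd Nat.prime_two).mpr hm
          exact Nat.Coprime.pow_left 2 h2
        · refine h (3 * N) (Dvd.dvd.mul_left hqN 3) ?_ (Or.inr (Or.inr ⟨rfl, dvd_mul_right 3 N⟩))
          intro hdvd
          have hcop : Nat.Coprime (2 ^ 2) 3 := by norm_num
          exact hq2N (hcop.dvd_of_dvd_mul_left hdvd)
    · -- `q = 3`: adjoin the prime `2` to the level
      by_cases h2 : 2 ∣ N
      · exact h N hqN hq2N (Or.inr (Or.inl ⟨rfl, h2⟩))
      · haveI : NeZero (2 * N) := ⟨mul_ne_zero (by norm_num) (NeZero.ne N)⟩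
        refine s34r_levelChange N 2 (by norm_num) h2 m hm0 ?_ σ ?_
        · exact (Nat.Prime.coprime_iff_not_dvd Nat.prime_three).mpr hm
        · refine h (2 * N) (Dvd.dvd.mul_left hqN 2) ?_ (Or.inr (Or.inl ⟨rfl, dvd_mul_right 2 N⟩))
          intro hdvd
          have hcop : Nat.Coprime (3 ^ 2) 2 := by norm_num
          exact hq2N (hcop.dvd_of_dvd_mul_left hdvd)

end Fermat.Agent.Lib.S34
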