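/-
S34 moonshot ([SS] ⇒ S34), package [R] (helper5), part 4: the bottom of [R].

`s34r_KSS_of_nf_good`: the Kummer form `s34k_KSS` of [SS] follows from the number-field contract
`s34q_NFKummer N q (p ^ k)` (helper7, RDescNF) at the levels `N` which are GOOD for `q` in the
sense of S18 only (`q ∥ N`, and `q ≥ 5`, or `q = 3 ∧ 2 ∣ N`, or `q = 2 ∧ 3 ∣ N`): descent
(`s34q_kummerSS_of_nf`) followed by the change of level (`s34r_kummerSS_of_good`).
Hence `s34r_S34_input : (∀ good (N, q), ∀ p ≠ q, ∀ k, s34q_NFKummer N q (p ^ k)) → s34_SSp`.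
-/
import Fermat.Agent.Lib.S34.RLevel
import Fermat.Agent.Lib.S34.RDescNF

set_option autoImplicit false

noncomputable section

namespace Fermat.Agent.Lib.S34

/-- Levels `N` with `q ∥ N` at which the geometric inputs of S18 are available in residue
characteristic `q`. -/
def s34r_GoodLevel (q N : ℕ) : Prop :=
  q ∣ N ∧ ¬ q ^ 2 ∣ N ∧ (5 ≤ q ∨ (q = 3 ∧ 2 ∣ N) ∨ (q = 2 ∧ 3 ∣ N))

/-- **Bottom of [R]**: `s34k_KSS` from the number-field contract at the good levels. -/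
theorem s34r_KSS_of_nf_good
    (h : ∀ (N : ℕ) [NeZero N] (q : ℕ), q.Prime → s34r_GoodLevel q N →
      ∀ p : ℕ, p.Prime → p ≠ q → ∀ k : ℕ, s34q_NFKummer N q (p ^ k)) : s34k_KSS := by
  intro N _ q hq hqN hq2 P hP σ hσ p hp hpq k
  have hm : ¬ q ∣ p ^ k := by
    intro hdvd
    exact hpq ((Nat.prime_dvd_prime_iff_eq hq hp).mp (hq.dvd_of_dvd_pow hdvd)).symm
  refine s34r_kummerSS_of_good q hq σ (p ^ k) hm ?_ N hqN hq2
  intro N' _ hqN' hq2' hgood
  exact s34q_kummerSS_of_nf N' q hq (p ^ k) (h N' q hq ⟨hqN', hq2', hgood⟩ p hp hpq k) P hP σ hσ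

/-- The contract `s34_SSp` consumed by `Top.lean`, from the number-field contract at the good
levels. -/
theorem s34r_SSp_of_nf_good
    (h : ∀ (N : ℕ) [NeZero N] (q : ℕ), q.Prime → s34r_GoodLevel q N →
      ∀ p : ℕ, p.Prime → p ≠ q → ∀ k : ℕ, s34q_NFKummer N q (p ^ k)) : s34_SSp :=
  s34k_SSp_of_KSS (s34r_KSS_of_nf_good h)

end Fermat.Agent.Lib.S34
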