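/-
S34 moonshot, package [F′] (helper3), part 7: FINAL ASSEMBLY of the number-field contract.

`s34f_Geo M q hq hqM` is what the geometric packages ([D] = smooth/weak-node structure of the two
chart rings, (α) ⇒ noetherian + Čech input [C]/[H], dictionary facts (F1)–(F3)) must deliver at the
level `M * q`, `q ∤ M`, for every Gauss datum `G` over a number field `K₀` (in which a polynomial
`g ∈ ℚ[X]` chosen by the geometric side splits) and every `σ₀` in the inertia group of `G.A`: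
a base function `t`, the two chart contracts `s34f_ChartContract` for `t`, and the Čech input `hH`.

`s34f_NFKummer_of_geo : s34f_Geo M q hq hqM → ¬ q ∣ m → s34q_NFKummer (M * q) q m` (helper7's
contract), via the generic assembly `s34f_zero` and helper6's valuation package MVal, and
`s34f_SSp_of_geo`: the contract `s34_SSp` consumed by `Top.lean` from `s34f_Geo` at the levels which
are good for `q` (S18's `s18_GoodLevel q M`).
-/
import Fermat.Agent.Lib.S34.FAssembly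
import Fermat.Agent.Lib.S34.CChart
import Fermat.Agent.Lib.S34.RGood
import Fermat.Agent.Lib.S18.XFinal
import Fermat.Agent.Lib.S18.GDegree

set_option autoImplicit false
set_option linter.style.haveILetI false
set_option synthInstance.maxHeartbeats 400000

noncomputable section

namespace Fermat.Agent.Lib.S34

open AlgebraicCurve ModularCurve Polynomial Fermat.Agent.Lib.FF Fermat.Agent.Lib.S18 IsLocalRing

local notation "Qbar" => AlgebraicClosure ℚ

section Geo

variable (M q : ℕ) [NeZero M] [NeZero q] (hq : q.Prime) (hqM : ¬ q ∣ M)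

/-- **The geometric contract at level `M * q`**: a polynomial `g ∈ ℚ[X]` such that over every
number field `K₀` in which `g` splits, for every Gauss datum `G` on `K₀` (residue field perfect of
characteristic `q`, reduction map surjective) and every `σ₀` in the inertia group of `G.A`, there is
a base function `t` with the two chart contracts and the Čech input. -/
def s34f_Geo : Prop :=
  ∃ g : ℚ[X], g ≠ 0 ∧
    ∀ (K₀ : Type) [Field K₀] [NumberField K₀] [IsGalois ℚ K₀],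
      (g.map (algebraMap ℚ K₀)).Splits → ∀ (φ : K₀ →+* Qbar)
      (κ : Type) [Field κ] [CharP κ q] [PerfectField κ]
      (G : s18g_GaussData K₀ κ) [IsDiscreteValuationRing G.A], Function.Surjective G.π →
      ∀ (σ₀ : K₀ ≃ₐ[ℚ] K₀) (hσA : ∀ a : K₀, a ∈ G.A → (σ₀ : K₀ ≃+* K₀) a ∈ G.A)
        (_ : ∀ a : K₀, a ∈ G.A → (σ₀.symm : K₀ ≃+* K₀) a ∈ G.A)
        (_ : ∀ a : G.A, G.π (s34m_sigmaA G (σ₀ : K₀ ≃+* K₀) hσA a) = G.π a),
      ∃ t : s34m_F K₀ (M * q),
        s34f_ChartContract G.A (s34m_VV G φ M q hq hqM) (s34c_const_mem_VV G φ M q hq hqM) G.ϖ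
          (s18_chart1 (L₀ := K₀) t) (arithmeticGalois (modularFunctionFieldFull (M * q)) σ₀) ∧
        s34f_ChartContract G.A (s34m_VV G φ M q hq hqM) (s34c_const_mem_VV G φ M q hq hqM) G.ϖ
          (s18_chart2 (L₀ := K₀) t) (arithmeticGalois (modularFunctionFieldFull (M * q)) σ₀) ∧
        ∀ f : s34m_F K₀ (M * q), f ≠ 0 → ∀ m : ℕ,
          ∃ H : Submodule G.A (s34m_F K₀ (M * q)), H.FG ∧
            s34x_lat G.A (s34x_infRing (s34m_VV G φ M q hq hqM))
                (s34x_inf_const_mem (s34m_VV G φ M q hq hqM) G.A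
                  (s34c_const_mem_VV G φ M q hq hqM))
                (s18_chart12 t) (s18_E f m) ≤
              H ⊔ (s34x_lat G.A (s34x_infRing (s34m_VV G φ M q hq hqM))
                    (s34x_inf_const_mem (s34m_VV G φ M q hq hqM) G.A
                      (s34c_const_mem_VV G φ M q hq hqM))
                    (s18_chart1 t) (s18_E f m) ⊔
                s34x_lat G.A (s34x_infRing (s34m_VV G φ M q hq hqM))
                    (s34x_inf_const_mem (s34m_VV G φ M q hq hqM) G.A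
                      (s34c_const_mem_VV G φ M q hq hqM))
                    (s18_chart2 t) (s18_E f m))

end Geo

section Glue

variable {K₀ : Type*} [Field K₀] [Algebra ℚ K₀] {κ : Type*} [Field κ] (G : s18g_GaussData K₀ κ)
  (φ : K₀ →+* Qbar) (M q : ℕ) [NeZero M] [NeZero q]

/-- The uniformiser is not a unit of `V_∞` nor of `V_0`. -/
theorem s34f_unif_not_unit_VV (hq : q.Prime) (hqM : ¬ q ∣ M) (i : Bool) :
    ¬ ∃ y ∈ s34m_VV G φ M q hq hqM i,
      (1 : s34m_F K₀ (M * q)) = algebraMap K₀ (s34m_F K₀ (M * q)) ((G.ϖ : G.A) : K₀) * y := by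
  have key : ∀ y ∈ s34m_Vinf G (M * q),
      (1 : s34m_F K₀ (M * q)) ≠ algebraMap K₀ (s34m_F K₀ (M * q)) ((G.ϖ : G.A) : K₀) * y := by
    intro y hy e
    apply s18g_not_isUnit_unifV G (laurentBaseChange K₀ (modularFunctionFieldFull (M * q)))
      (s34m_hF G (M * q))
    refine isUnit_iff_exists_inv.mpr ⟨⟨y, hy⟩, ?_⟩
    apply Subtype.ext
    exact e.symm
  rintro ⟨y, hy, e⟩
  cases i
  · -- `V_0`
    have h1 := congrArg (s34m_al φ M q hq hqM) e
    rw [map_one, map_mul] at h1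
    have h2 : s34m_al φ M q hq hqM
        (algebraMap K₀ (s34m_F K₀ (M * q)) ((G.ϖ : G.A) : K₀)) =
        algebraMap K₀ (s34m_F K₀ (M * q)) ((G.ϖ : G.A) : K₀) := s34m_al_unif G φ M q hq hqM
    rw [h2] at h1
    exact key _ ((s34m_mem_Vzero G φ M q hq hqM y).mp hy) h1
  · exact key y hy e

end Glue


section Main

variable (M q : ℕ) [NeZero M] [NeZero q] (hq : q.Prime) (hqM : ¬ q ∣ M)

/-- `m` prime to the residue characteristic is invertible in the valuation ring. -/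
theorem s34f_natCast_inv_mem {K₀ : Type*} [Field K₀] (A₀ : ValuationSubring K₀) {q : ℕ}
    (hq : q.Prime) (hA : (q : K₀) ∈ A₀.nonunits) (m : ℕ) (hm : ¬ q ∣ m) :
    ((m : K₀))⁻¹ ∈ A₀ := by
  by_contra hcon
  have hmem : (m : K₀) ∈ A₀.nonunits := by
    rw [ValuationSubring.mem_nonunits_iff_or]
    right
    exact hcon
  have hcop : Nat.Coprime q m := (Nat.Prime.coprime_iff_not_dvd hq).mpr hm
  -- `1 = a q + b m` lies in the maximal ideal
  have h1 : (1 : K₀) ∈ A₀.nonunits := by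
    have hb := Nat.gcd_eq_gcd_ab q m
    rw [hcop] at hb
    have hb' : (1 : K₀) = (q : K₀) * ((Nat.gcdA q m : ℤ) : K₀) +
        (m : K₀) * ((Nat.gcdB q m : ℤ) : K₀) := by
      have := congrArg (fun z : ℤ => (z : K₀)) hb
      simpa using this
    obtain ⟨hqm, hqmax⟩ := (A₀.mem_nonunits_iff_exists_mem_maximalIdeal).mp hA
    obtain ⟨hmm, hmmax⟩ := (A₀.mem_nonunits_iff_exists_mem_maximalIdeal).mp hmem
    rw [A₀.mem_nonunits_iff_exists_mem_maximalIdeal]
    have hz : ∀ z : ℤ, (z : K₀) ∈ A₀ := fun z => by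
      have : ((z : A₀) : K₀) = (z : K₀) := by simp
      rw [← this]; exact (z : A₀).2
    refine ⟨A₀.one_mem, ?_⟩
    have e : (⟨1, A₀.one_mem⟩ : A₀) = ⟨(q : K₀), hqm⟩ * ⟨_, hz (Nat.gcdA q m)⟩ +
        ⟨(m : K₀), hmm⟩ * ⟨_, hz (Nat.gcdB q m)⟩ := Subtype.ext hb'
    rw [e]
    exact Ideal.add_mem _ (Ideal.mul_mem_right _ _ hqmax) (Ideal.mul_mem_right _ _ hmmax)
  rw [ValuationSubring.mem_nonunits_iff_or] at h1
  rcases h1 with h1 | h1
  · exact one_ne_zero h1
  · exact h1 (by rw [inv_one]; exact A₀.one_mem)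

include hq hqM in
/-- **The number-field contract from the geometric contract.** -/
theorem s34f_NFKummer_of_geo (hgeo : s34f_Geo M q hq hqM) (m : ℕ) (hm0 : m ≠ 0)
    (hqm : ¬ q ∣ m) : s34q_NFKummer (M * q) q m := by
  classical
  obtain ⟨g, hg0, hgeo⟩ := hgeo
  refine ⟨g, hg0, ?_⟩
  intro K₀ _ _ _ hsplit A₀ _ hqA σ₀ hσiff hσres f₀ hf₀ hdiv hdeg
  -- the embedding into `ℚ̄`
  haveI : Algebra.IsAlgebraic ℚ K₀ := Algebra.IsAlgebraic.of_finite ℚ K₀
  let φ : K₀ →+* Qbar := (IsAlgClosed.lift (R := ℚ) (S := K₀) (M := Qbar) : K₀ →ₐ[ℚ] Qbar)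
  -- the Gauss datum
  obtain ⟨ϖ, hϖ⟩ := IsDiscreteValuationRing.exists_irreducible A₀
  let G : s18g_GaussData K₀ (ResidueField A₀) := s18g_GaussData.ofResidue A₀ ϖ hϖ
  haveI hdvr : IsDiscreteValuationRing G.A := ‹IsDiscreteValuationRing A₀›
  haveI hchar : CharP (ResidueField A₀) q := s18x_charP_residueField A₀ hq hqA
  haveI hperf : PerfectField (ResidueField A₀) := s18x_perfectField_residue A₀ hq hqA
  have hσA : ∀ a : K₀, a ∈ G.A → (σ₀ : K₀ ≃+* K₀) a ∈ G.A := fun a ha => (hσiff a).mpr ha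
  have hσA' : ∀ a : K₀, a ∈ G.A → (σ₀.symm : K₀ ≃+* K₀) a ∈ G.A := by
    intro a ha
    have := hσiff (σ₀.symm a)
    rw [σ₀.apply_symm_apply] at this
    exact this.mp ha
  have hσπ : ∀ a : G.A, G.π (s34m_sigmaA G (σ₀ : K₀ ≃+* K₀) hσA a) = G.π a := by
    intro a
    have hsub := hσres (a : K₀) a.2
    obtain ⟨hmem, hmax⟩ := (A₀.mem_nonunits_iff_exists_mem_maximalIdeal).mp hsub
    have e : s34m_sigmaA G (σ₀ : K₀ ≃+* K₀) hσA a - a = (⟨σ₀ (a : K₀) - a, hmem⟩ : G.A) :=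
      Subtype.ext rfl
    have h0 : G.π (s34m_sigmaA G (σ₀ : K₀ ≃+* K₀) hσA a - a) = 0 := by
      rw [e]
      exact (residue_eq_zero_iff _).mpr hmax
    rw [map_sub, sub_eq_zero] at h0
    exact h0
  obtain ⟨t, hC1, hC2, hH⟩ := hgeo K₀ hsplit φ (ResidueField A₀) G residue_surjective σ₀ hσA hσA'
    hσπ
  set gσ : SemilinearAut K₀ (s34m_F K₀ (M * q)) :=
    arithmeticGalois (modularFunctionFieldFull (M * q)) σ₀ with hgσ
  have hsmul : ∀ y : s34m_F K₀ (M * q),
      gσ • y = arithmeticRingAut (modularFunctionFieldFull (M * q)) σ₀ y := fun _ => rfl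
  have hsymm : ∀ y : s34m_F K₀ (M * q),
      arithmeticRingAut (modularFunctionFieldFull (M * q)) σ₀.symm (gσ • y) = y := by
    intro y
    have h1 : arithmeticGalois (modularFunctionFieldFull (M * q)) σ₀.symm • (gσ • y) = y := by
      rw [hgσ, ← mul_smul, ← map_mul]
      have : σ₀.symm * σ₀ = 1 := by
        ext a
        exact σ₀.symm_apply_apply a
      rw [this, map_one, one_smul]
    exact h1
  have hmA : ((m : K₀))⁻¹ ∈ G.A := s34f_natCast_inv_mem A₀ hq hqA m hqm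
  have hmL : (m : K₀) ≠ 0 := Nat.cast_ne_zero.mpr hm0
  obtain ⟨x, hx0, -, hx⟩ := s34f_zero (ι := Bool) G.A (s34m_VV G φ M q hq hqM)
    (s34c_const_mem_VV G φ M q hq hqM) G.ϖ hϖ
    (fun i => s34f_unif_not_unit_VV G φ M q hq hqM i)
    (fun i y => s34c_hU_VV G φ M q hq hqM i y) gσ
    (fun i y => ⟨fun hy => s34m_galois_mem_VV G φ M q σ₀ hσA hσπ hq hqM i hy, fun hy => by
      have := s34m_galois_mem_VV G φ M q σ₀.symm hσA'
        (s34m_symm_res G σ₀ hσA hσA' hσπ) hq hqM i hy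
      rw [hsymm] at this
      exact this⟩)
    (fun i y hy => s34m_galois_sub_mem_VV G φ M q σ₀ hσA hσπ hq hqM i hy)
    (fun i U hU => s34m_second_diff_VV G φ M q σ₀ hσA hσA' hσπ hq hqM i U hU)
    t hC1 hC2 f₀ hf₀ m hm0 hmA hmL hdiv hdeg
    (hH (s34q_f2 gσ f₀) (s34q_f2_ne_zero gσ hf₀) m)
  exact ⟨x, hx0, hx⟩

end Main


section BranchJ

variable (M q : ℕ) [NeZero M] [NeZero q] (hq : q.Prime) (hqM : ¬ q ∣ M)

/-- **The branch with base `j`** (`q ≥ 5`): the geometric contract from (α) for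
`s34x_infRing (s34m_VV …)` w.r.t. `j` (helper6's MValAlpha) and the two chart contracts for `j`
([D], dictionary).  `FFGen K₀ j` and the Čech input `hH` (helper4's CChart) are discharged. -/
theorem s34f_geo_of_j (g : ℚ[X]) (hg0 : g ≠ 0)
    (h : ∀ (K₀ : Type) [Field K₀] [NumberField K₀] [IsGalois ℚ K₀],
      (g.map (algebraMap ℚ K₀)).Splits → ∀ (φ : K₀ →+* Qbar)
      (κ : Type) [Field κ] [CharP κ q] [PerfectField κ]
      (G : s18g_GaussData K₀ κ) [IsDiscreteValuationRing G.A], Function.Surjective G.π →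
      ∀ (σ₀ : K₀ ≃ₐ[ℚ] K₀) (hσA : ∀ a : K₀, a ∈ G.A → (σ₀ : K₀ ≃+* K₀) a ∈ G.A)
        (_ : ∀ a : K₀, a ∈ G.A → (σ₀.symm : K₀ ≃+* K₀) a ∈ G.A)
        (_ : ∀ a : G.A, G.π (s34m_sigmaA G (σ₀ : K₀ ≃+* K₀) hσA a) = G.π a),
        (∀ y ∈ s34x_infRing (s34m_VV G φ M q hq hqM), ∃ s : G.A[X], s.map G.π ≠ 0 ∧
          (s18b_ev G (laurentBaseChange K₀ (modularFunctionFieldFull (M * q)))
            (s18g_jF (K := K₀) (M * q))).IsIntegralElem
            (s18b_ev G (laurentBaseChange K₀ (modularFunctionFieldFull (M * q)))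
              (s18g_jF (K := K₀) (M * q)) s * y)) ∧
        s34f_ChartContract G.A (s34m_VV G φ M q hq hqM) (s34c_const_mem_VV G φ M q hq hqM) G.ϖ
          (s18_chart1 (L₀ := K₀) (s18g_jF (K := K₀) (M * q)))
          (arithmeticGalois (modularFunctionFieldFull (M * q)) σ₀) ∧
        s34f_ChartContract G.A (s34m_VV G φ M q hq hqM) (s34c_const_mem_VV G φ M q hq hqM) G.ϖ
          (s18_chart2 (L₀ := K₀) (s18g_jF (K := K₀) (M * q)))
          (arithmeticGalois (modularFunctionFieldFull (M * q)) σ₀)) :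
    s34f_Geo M q hq hqM := by
  refine ⟨g, hg0, ?_⟩
  intro K₀ _ _ _ hsplit φ κ _ _ _ G _ hπ σ₀ hσA hσA' hσπ
  obtain ⟨hα, hC1, hC2⟩ := h K₀ hsplit φ κ G hπ σ₀ hσA hσA' hσπ
  have hdeg : s18g_HDeg K₀ (M * q) := fun n b hb hn => s18g_exists_relation (M * q) φ hn b hb
  haveI : FFGen K₀ (s18g_jF (K := K₀) (M * q)) := s18b_ffGen_jF (M * q) hdeg
  exact ⟨s18g_jF (K := K₀) (M * q), hC1, hC2,
    fun f hf0 m => s34c_hH G φ M q hq hqM hα hf0 m⟩

end BranchJ

/-- **`s34_SSp` from the geometric contract** at the levels `M * q`, `q ∤ M`, which are good for `q`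
(`q ≥ 5`, or `q = 3 ∧ 2 ∣ M`, or `q = 2 ∧ 3 ∣ M`). -/
theorem s34f_SSp_of_geo
    (h : ∀ (M q : ℕ) [NeZero M] [NeZero q] (hq : q.Prime) (hqM : ¬ q ∣ M),
      (5 ≤ q ∨ (q = 3 ∧ 2 ∣ M) ∨ (q = 2 ∧ 3 ∣ M)) → s34f_Geo M q hq hqM) : s34_SSp := by
  refine s34r_SSp_of_nf_good ?_
  intro N hN q hq hgood p hp hpq k
  obtain ⟨hqN, hq2, hbranch⟩ := hgood
  obtain ⟨M, rfl⟩ : ∃ M, N = M * q := by
    obtain ⟨M, hM⟩ := hqN
    exact ⟨M, by rw [hM, Nat.mul_comm]⟩
  have hM0 : M ≠ 0 := by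
    rintro rfl
    exact hN.out (Nat.zero_mul q)
  haveI : NeZero M := ⟨hM0⟩
  haveI : NeZero q := ⟨hq.ne_zero⟩
  have hqM : ¬ q ∣ M := by
    rintro ⟨c, rfl⟩
    exact hq2 ⟨c, by ring⟩
  have hbranch' : 5 ≤ q ∨ (q = 3 ∧ 2 ∣ M) ∨ (q = 2 ∧ 3 ∣ M) := by
    rcases hbranch with h5 | ⟨rfl, h2⟩ | ⟨rfl, h3⟩
    · exact Or.inl h5
    · refine Or.inr (Or.inl ⟨rfl, ?_⟩)
      exact (Nat.Coprime.dvd_of_dvd_mul_right (by norm_num) h2)
    · refine Or.inr (Or.inr ⟨rfl, ?_⟩)
      exact (Nat.Coprime.dvd_of_dvd_mul_right (by norm_num) h3)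
  have hqm : ¬ q ∣ p ^ k := by
    intro hdvd
    exact hpq ((Nat.prime_dvd_prime_iff_eq hq hp).mp (hq.dvd_of_dvd_pow hdvd)).symm
  exact s34f_NFKummer_of_geo M q hq hqM (h M q hq hqM hbranch') (p ^ k)
    (pow_ne_zero k hp.ne_zero) hqm

end Fermat.Agent.Lib.S34
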