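/-
S34 moonshot, package [F′] (helper3), part 1: EVALUATION at a place of degree one.

For a place `Q` of a function field `𝓕 / L₀` with `Q.deg = 1` the residue field is `L₀`, so every
function regular at `Q` has a value in `L₀`:

* `s34f_van Q y`        : `y` vanishes at `Q` (`y = 0 ∨ 0 < ord_Q y`);
* `s34f_evK Q hdeg`     : the ring homomorphism `O_Q → L₀`, `y ↦ y(Q)`;
* `s34f_evK_spec`       : `y - y(Q)` vanishes at `Q`;  `s34f_evK_eq_iff` : `y(Q) = c ↔ y - c` vanishes
  at `Q`;  `s34f_evK_algebraMap`, `s34f_evK_eq_zero_iff`.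
-/
import Mathlib
import Fermat.Agent.Lib.FF.FFBasicPlace

set_option autoImplicit false

noncomputable section

namespace Fermat.Agent.Lib.S34

open AlgebraicCurve Fermat.Agent.Lib.FF

variable {L₀ 𝓕 : Type*} [Field L₀] [Field 𝓕] [Algebra L₀ 𝓕]

/-- `y` vanishes at `Q`. -/
def s34f_van (Q : Place L₀ 𝓕) (y : 𝓕) : Prop := y = 0 ∨ 0 < Q.ord y

theorem s34f_van_zero (Q : Place L₀ 𝓕) : s34f_van Q 0 := Or.inl rfl

/-- membership in the maximal ideal of `O_Q` in terms of the order. -/
theorem s34f_mem_maximalIdeal_iff (Q : Place L₀ 𝓕) (y : Q.toValuationSubring) :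
    y ∈ IsLocalRing.maximalIdeal Q.toValuationSubring ↔ s34f_van Q (y : 𝓕) := by
  rw [IsLocalRing.mem_maximalIdeal, mem_nonunits_iff, ← Q.adicValuation_coe_eq_one_iff, s34f_van]
  by_cases hy : (y : 𝓕) = 0
  · simp [hy]
  · have h0 : 0 ≤ Q.ord (y : 𝓕) := (ff_mem_iff_ord_nonneg Q hy).mp y.2
    have hv : Q.adicValuation (y : 𝓕) = WithZero.exp (-(Q.ord (y : 𝓕))) :=
      ff_adicValuation_eq_exp Q hy
    constructor
    · intro h
      right
      rcases h0.lt_or_eq with h1 | h1
      · exact h1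
      · exfalso
        apply h
        rw [hv, ← h1]
        simp
    · rintro (h | h)
      · exact absurd h hy
      · intro h1
        rw [hv] at h1
        have : -(Q.ord (y : 𝓕)) = 0 := by
          have h2 : WithZero.exp (-(Q.ord (y : 𝓕))) = WithZero.exp (0 : ℤ) := by
            rw [h1]; simp
          exact WithZero.exp_injective h2
        omega

theorem s34f_van_add (Q : Place L₀ 𝓕) {x y : 𝓕} (hx : s34f_van Q x) (hy : s34f_van Q y) :
    s34f_van Q (x + y) := by
  by_cases hxy : x + y = 0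
  · exact Or.inl hxy
  right
  by_cases hx0 : x = 0
  · rw [hx0, zero_add] at hxy ⊢
    exact hy.resolve_left hxy
  by_cases hy0 : y = 0
  · rw [hy0, add_zero] at hxy ⊢
    exact hx.resolve_left hxy
  exact lt_of_lt_of_le (lt_min (hx.resolve_left hx0) (hy.resolve_left hy0))
    (ff_ord_add_ge Q hx0 hy0 hxy)

theorem s34f_van_neg (Q : Place L₀ 𝓕) {x : 𝓕} (hx : s34f_van Q x) : s34f_van Q (-x) := by
  rcases hx with h | h
  · exact Or.inl (by rw [h, neg_zero])
  · right
    have hx0 : x ≠ 0 := by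
      rintro rfl
      simp at h
    have h1 : (-x) = (algebraMap L₀ 𝓕 (-1)) * x := by rw [map_neg, map_one]; ring
    rw [h1, Q.ord_mul (by rw [map_neg, map_one]; exact neg_ne_zero.mpr one_ne_zero) hx0,
      ff_ord_algebraMap, zero_add]
    exact h

theorem s34f_van_sub (Q : Place L₀ 𝓕) {x y : 𝓕} (hx : s34f_van Q x) (hy : s34f_van Q y) :
    s34f_van Q (x - y) := by
  rw [sub_eq_add_neg]
  exact s34f_van_add Q hx (s34f_van_neg Q hy)

/-- a function regular at `Q` times a function vanishing at `Q` vanishes at `Q`. -/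
theorem s34f_van_mul (Q : Place L₀ 𝓕) {x y : 𝓕} (hx : x ∈ Q.toValuationSubring)
    (hy : s34f_van Q y) : s34f_van Q (x * y) := by
  rcases hy with h | h
  · exact Or.inl (by rw [h, mul_zero])
  · by_cases hx0 : x = 0
    · exact Or.inl (by rw [hx0, zero_mul])
    right
    have hy0 : y ≠ 0 := by
      rintro rfl
      simp at h
    rw [Q.ord_mul hx0 hy0]
    have := (ff_mem_iff_ord_nonneg Q hx0).mp hx
    omega

/-- a nonzero constant does not vanish. -/
theorem s34f_not_van_algebraMap (Q : Place L₀ 𝓕) {c : L₀} (hc : c ≠ 0) :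
    ¬ s34f_van Q (algebraMap L₀ 𝓕 c) := by
  rintro (h | h)
  · exact hc (by simpa using h)
  · rw [ff_ord_algebraMap] at h
    exact lt_irrefl _ h

/-- a function vanishing at `Q` is regular at `Q`. -/
theorem s34f_mem_of_van (Q : Place L₀ 𝓕) {y : 𝓕} (hy : s34f_van Q y) :
    y ∈ Q.toValuationSubring := by
  rcases hy with h | h
  · rw [h]; exact Q.toValuationSubring.zero_mem
  · have hy0 : y ≠ 0 := by
      rintro rfl
      simp at h
    exact (ff_mem_iff_ord_nonneg Q hy0).mpr h.le

section DegOne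

variable (Q : Place L₀ 𝓕) (hdeg : Q.deg = 1)

include hdeg in
theorem s34f_algebraMap_bijective :
    Function.Bijective (algebraMap L₀ Q.ResidueField) := by
  refine ⟨(algebraMap L₀ Q.ResidueField).injective, fun w => ?_⟩
  obtain ⟨c, hc⟩ := (finrank_eq_one_iff_of_nonzero' (1 : Q.ResidueField) one_ne_zero).mp hdeg w
  exact ⟨c, by rw [← hc, Algebra.smul_def, mul_one]⟩

/-- **Evaluation at a place of degree one.** -/
def s34f_evK : Q.toValuationSubring →+* L₀ :=
  ((RingEquiv.ofBijective (algebraMap L₀ Q.ResidueField)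
    (s34f_algebraMap_bijective Q hdeg)).symm : Q.ResidueField →+* L₀).comp
    (IsLocalRing.residue Q.toValuationSubring)

theorem s34f_algebraMap_evK (y : Q.toValuationSubring) :
    algebraMap L₀ Q.ResidueField (s34f_evK Q hdeg y) = IsLocalRing.residue _ y := by
  have := (RingEquiv.ofBijective (algebraMap L₀ Q.ResidueField)
    (s34f_algebraMap_bijective Q hdeg)).apply_symm_apply (IsLocalRing.residue _ y)
  exact this

/-- `y - y(Q)` vanishes at `Q`. -/
theorem s34f_evK_spec (y : Q.toValuationSubring) :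
    s34f_van Q ((y : 𝓕) - algebraMap L₀ 𝓕 (s34f_evK Q hdeg y)) := by
  have h1 : IsLocalRing.residue Q.toValuationSubring
      (y - algebraMap L₀ Q.toValuationSubring (s34f_evK Q hdeg y)) = 0 := by
    rw [map_sub, ← s34f_algebraMap_evK Q hdeg y]
    exact sub_self _
  rw [IsLocalRing.residue_eq_zero_iff, s34f_mem_maximalIdeal_iff] at h1
  exact h1

/-- characterisation of the value. -/
theorem s34f_evK_eq_iff (y : Q.toValuationSubring) (c : L₀) :
    s34f_evK Q hdeg y = c ↔ s34f_van Q ((y : 𝓕) - algebraMap L₀ 𝓕 c) := by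
  constructor
  · rintro rfl
    exact s34f_evK_spec Q hdeg y
  · intro h
    have h2 := s34f_van_sub Q h (s34f_evK_spec Q hdeg y)
    have h3 : (y : 𝓕) - algebraMap L₀ 𝓕 c - ((y : 𝓕) - algebraMap L₀ 𝓕 (s34f_evK Q hdeg y)) =
        algebraMap L₀ 𝓕 (s34f_evK Q hdeg y - c) := by
      rw [map_sub]; ring
    rw [h3] at h2
    by_contra hne
    exact s34f_not_van_algebraMap Q (sub_ne_zero.mpr hne) h2

theorem s34f_evK_algebraMap (c : L₀) :
    s34f_evK Q hdeg (algebraMap L₀ Q.toValuationSubring c) = c := by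
  rw [s34f_evK_eq_iff]
  left
  rw [Place.coe_algebraMap, sub_self]

theorem s34f_evK_eq_zero_iff (y : Q.toValuationSubring) :
    s34f_evK Q hdeg y = 0 ↔ s34f_van Q (y : 𝓕) := by
  rw [s34f_evK_eq_iff, map_zero, sub_zero]

end DegOne

end Fermat.Agent.Lib.S34
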