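/-
S34 moonshot [X″]: **(LOC) from a local generator** (pure prime avoidance, no geometry).

`O = ⨅ i, O i` a finite intersection of valuation subrings ("components"), `B = s34x_ring O S` the
ring of a chart `S`, `𝔫` a prime (in the application: maximal) ideal of `B`.  A place `Q ∈ S` passes
THROUGH `𝔫` if every `b ∈ B` vanishing at `Q` lies in `𝔫`; a component `i` passes THROUGH `𝔫` if every
`b ∈ B ∩ π(O i)` lies in `𝔫`.  If `g ≠ 0` satisfies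
* `E Q ≤ ord_Q g` at every place `Q ∈ S` through `𝔫`,
* `g ≡ 1 mod π(O i)` for every component `i` through `𝔫`,
* `ord_Q g < E Q` for only finitely many `Q ∈ S`,
then there are `a` in the lattice of `E` and `s ∈ B ∖ 𝔫` with `a ≡ s mod πO`: this is the local
hypothesis (LOC) of `s34x_one_of_local` / `s34x_zero_of_local` / `s34x_zero_inf`.  (helper9)
-/
import Fermat.Agent.Lib.S34.XInf

set_option autoImplicit false

noncomputable section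

namespace Fermat.Agent.Lib.S34

open AlgebraicCurve Fermat.Agent.Lib.FF Fermat.Agent.Lib.S18

variable {L₀ 𝓕 : Type*} [Field L₀] [Field 𝓕] [Algebra L₀ 𝓕]

/-- Elements of the chart ring have non-negative order at the places of the chart. -/
theorem s34x_ord_nonneg_of_mem_ring (O : Subring 𝓕) (S : Set (Place L₀ 𝓕))
    (b : s34x_ring O S) (Q : Place L₀ 𝓕) (hQ : Q ∈ S) : 0 ≤ Q.ord (b : 𝓕) := by
  by_cases hb : (b : 𝓕) = 0
  · rw [hb, Place.ord_zero]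
  · exact (ff_mem_iff_ord_nonneg Q hb).mp (b.2.2 Q hQ)

/-- Killing finitely many places not through `𝔫`. -/
theorem s34x_exists_kill_places (O : Subring 𝓕) (S : Set (Place L₀ 𝓕))
    (𝔫 : Ideal (s34x_ring O S)) [h𝔫 : 𝔫.IsPrime] (n : Place L₀ 𝓕 → ℤ)
    (T : Finset (Place L₀ 𝓕))
    (hT : ∀ Q ∈ T, Q ∈ S ∧ ∃ b : s34x_ring O S, (b : 𝓕) ≠ 0 ∧ 0 < Q.ord (b : 𝓕) ∧ b ∉ 𝔫) :
    ∃ s : s34x_ring O S, s ∉ 𝔫 ∧ (s : 𝓕) ≠ 0 ∧ ∀ Q ∈ T, n Q ≤ Q.ord (s : 𝓕) := by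
  classical
  induction T using Finset.induction_on with
  | empty =>
    refine ⟨1, ?_, by simp, fun Q hQ => by simp at hQ⟩
    exact fun h => h𝔫.ne_top ((Ideal.eq_top_iff_one _).mpr h)
  | insert Q₀ T hQ₀ ih =>
    obtain ⟨s, hs𝔫, hs0, hs⟩ := ih (fun Q hQ => hT Q (Finset.mem_insert_of_mem hQ))
    obtain ⟨hQ₀S, b, hb0, hbpos, hb𝔫⟩ := hT Q₀ (Finset.mem_insert_self _ _)
    set k : ℕ := (n Q₀).toNat with hk
    have hbk0 : ((b : 𝓕)) ^ k ≠ 0 := pow_ne_zero _ hb0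
    refine ⟨b ^ k * s, ?_, ?_, ?_⟩
    · intro hmem
      rcases h𝔫.mem_or_mem hmem with h | h
      · exact hb𝔫 (h𝔫.mem_of_pow_mem k h)
      · exact hs𝔫 h
    · push_cast
      exact mul_ne_zero hbk0 hs0
    · intro Q hQ
      have hQS : Q ∈ S := (hT Q hQ).1
      have hord : Q.ord (((b ^ k * s : s34x_ring O S)) : 𝓕) =
          (k : ℤ) * Q.ord (b : 𝓕) + Q.ord (s : 𝓕) := by
        push_cast
        rw [Q.ord_mul hbk0 hs0, ← zpow_natCast, Q.ord_zpow]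
      rw [hord]
      have hbQ : 0 ≤ Q.ord (b : 𝓕) := s34x_ord_nonneg_of_mem_ring O S b Q hQS
      have hsQ : 0 ≤ Q.ord (s : 𝓕) := s34x_ord_nonneg_of_mem_ring O S s Q hQS
      rcases Finset.mem_insert.mp hQ with rfl | hQT
      · have h1 : n Q ≤ (k : ℤ) := Int.self_le_toNat _
        have h2 : (k : ℤ) ≤ (k : ℤ) * Q.ord (b : 𝓕) := by
          have : (1 : ℤ) ≤ Q.ord (b : 𝓕) := hbpos
          nlinarith [Int.natCast_nonneg k]
        omega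
      · have h1 := hs Q hQT
        have h2 : 0 ≤ (k : ℤ) * Q.ord (b : 𝓕) := mul_nonneg (Int.natCast_nonneg k) hbQ
        omega

/-- Killing finitely many components not through `𝔫`. -/
theorem s34x_exists_kill_comps {ι : Type*} (O : ι → ValuationSubring 𝓕) (S : Set (Place L₀ 𝓕))
    (π : 𝓕)
    (hU : ∀ i, ∀ y : 𝓕, ∃ k : ℕ, π ^ k * y ∈ O i)
    (𝔫 : Ideal (s34x_ring (s34x_infRing O) S)) [h𝔫 : 𝔫.IsPrime] (g : 𝓕)
    (I : Finset ι)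
    (hI : ∀ i ∈ I, ∃ b : s34x_ring (s34x_infRing O) S, (∃ y ∈ O i, (b : 𝓕) = π * y) ∧ b ∉ 𝔫) :
    ∃ s : s34x_ring (s34x_infRing O) S, s ∉ 𝔫 ∧
      ∀ i ∈ I, (∃ y ∈ O i, (s : 𝓕) = π * y) ∧ ∃ y ∈ O i, (s : 𝓕) * g = π * y := by
  classical
  have hBO : ∀ (b : s34x_ring (s34x_infRing O) S) (i : ι), (b : 𝓕) ∈ O i := fun b i =>
    (s34x_mem_infRing O _).mp b.2.1 i
  induction I using Finset.induction_on with
  | empty =>
    refine ⟨1, ?_, fun i hi => by simp at hi⟩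
    exact fun h => h𝔫.ne_top ((Ideal.eq_top_iff_one _).mpr h)
  | insert i₀ I hi₀ ih =>
    obtain ⟨s, hs𝔫, hs⟩ := ih (fun i hi => hI i (Finset.mem_insert_of_mem hi))
    obtain ⟨b, ⟨yb, hyb, eb⟩, hb𝔫⟩ := hI i₀ (Finset.mem_insert_self _ _)
    obtain ⟨k, hk⟩ := hU i₀ g
    refine ⟨b ^ (k + 1) * s, ?_, ?_⟩
    · intro hmem
      rcases h𝔫.mem_or_mem hmem with h | h
      · exact hb𝔫 (h𝔫.mem_of_pow_mem _ h)
      · exact hs𝔫 h
    · intro i hi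
      rcases Finset.mem_insert.mp hi with rfl | hiI
      · constructor
        · refine ⟨yb * (b : 𝓕) ^ k * (s : 𝓕), (O i).mul_mem _ _ ((O i).mul_mem _ _ hyb
            ((O i).pow_mem (hBO b i) k)) (hBO s i), ?_⟩
          push_cast
          rw [pow_succ, eb]; ring
        · refine ⟨yb ^ (k + 1) * (s : 𝓕) * (π ^ k * g), (O i).mul_mem _ _ ((O i).mul_mem _ _
            ((O i).pow_mem hyb _) (hBO s i)) hk, ?_⟩
          push_cast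
          rw [eb]; ring
      · obtain ⟨⟨y₁, hy₁, e₁⟩, ⟨y₂, hy₂, e₂⟩⟩ := hs i hiI
        constructor
        · refine ⟨(b : 𝓕) ^ (k + 1) * y₁, (O i).mul_mem _ _ ((O i).pow_mem (hBO b i) _) hy₁, ?_⟩
          push_cast
          rw [e₁]; ring
        · refine ⟨(b : 𝓕) ^ (k + 1) * y₂, (O i).mul_mem _ _ ((O i).pow_mem (hBO b i) _) hy₂, ?_⟩
          push_cast
          rw [mul_assoc, e₂]; ring

/-- **(LOC) from a local generator.** -/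
theorem s34x_loc_of_gen {ι : Type*} [Fintype ι] (O : ι → ValuationSubring 𝓕)
    (S : Set (Place L₀ 𝓕)) (E : Place L₀ 𝓕 → ℤ) (π : 𝓕) (hπ0 : π ≠ 0) (hπO : ∀ i, π ∈ O i)
    (hU : ∀ i, ∀ y : 𝓕, ∃ k : ℕ, π ^ k * y ∈ O i)
    (𝔫 : Ideal (s34x_ring (s34x_infRing O) S)) [h𝔫 : 𝔫.IsPrime]
    (g : 𝓕) (hg0 : g ≠ 0)
    (hgQ : ∀ Q ∈ S, (∀ b : s34x_ring (s34x_infRing O) S, (b : 𝓕) ≠ 0 → 0 < Q.ord (b : 𝓕) → b ∈ 𝔫) →
      E Q ≤ Q.ord g)
    (hgC : ∀ i, (∀ b : s34x_ring (s34x_infRing O) S, (∃ y ∈ O i, (b : 𝓕) = π * y) → b ∈ 𝔫) →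
      ∃ y ∈ O i, g - 1 = π * y)
    (hfin : {Q : Place L₀ 𝓕 | Q ∈ S ∧ Q.ord g < E Q}.Finite) :
    ∃ a ∈ s34x_latSet (s34x_infRing O) S E, ∃ s : s34x_ring (s34x_infRing O) S, s ∉ 𝔫 ∧
      ∃ y ∈ s34x_infRing O, a - (s : 𝓕) = π * y := by
  classical
  have hBO : ∀ (b : s34x_ring (s34x_infRing O) S) (i : ι), (b : 𝓕) ∈ O i := fun b i =>
    (s34x_mem_infRing O _).mp b.2.1 i
  -- the bad places are not through `𝔫`
  obtain ⟨s₁, hs₁𝔫, hs₁0, hs₁⟩ := s34x_exists_kill_places (s34x_infRing O) S 𝔫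
    (fun Q => E Q - Q.ord g) hfin.toFinset (by
      intro Q hQ
      rw [Set.Finite.mem_toFinset] at hQ
      refine ⟨hQ.1, ?_⟩
      by_contra hcon
      push Not at hcon
      have := hgQ Q hQ.1 (fun b hb0 hbpos => hcon b hb0 hbpos)
      exact absurd hQ.2 (not_lt.mpr this))
  -- the components not through `𝔫`
  let I : Finset ι := Finset.univ.filter fun i =>
    ∃ b : s34x_ring (s34x_infRing O) S, (∃ y ∈ O i, (b : 𝓕) = π * y) ∧ b ∉ 𝔫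
  obtain ⟨s₂, hs₂𝔫, hs₂⟩ := s34x_exists_kill_comps O S π hU 𝔫 g I (by
    intro i hi
    exact (Finset.mem_filter.mp hi).2)
  have hs𝔫 : s₁ * s₂ ∉ 𝔫 := fun hmem => (h𝔫.mem_or_mem hmem).elim hs₁𝔫 hs₂𝔫
  have hs₂0 : (s₂ : 𝓕) ≠ 0 := by
    intro h0
    apply hs₂𝔫
    have : s₂ = 0 := Subtype.ext h0
    rw [this]; exact 𝔫.zero_mem
  -- componentwise statements for `s = s₁ s₂`
  have hcomp : ∀ i, (s₁ : 𝓕) * s₂ * g ∈ O i ∧ ∃ y' ∈ O i,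
      (s₁ : 𝓕) * s₂ * g - (s₁ : 𝓕) * s₂ = π * y' := by
    intro i
    by_cases hi : i ∈ I
    · obtain ⟨⟨y₁, hy₁, e₁⟩, ⟨y₂, hy₂, e₂⟩⟩ := hs₂ i hi
      refine ⟨?_, (s₁ : 𝓕) * y₂ - (s₁ : 𝓕) * y₁, (O i).sub_mem
        ((O i).mul_mem _ _ (hBO s₁ i) hy₂) ((O i).mul_mem _ _ (hBO s₁ i) hy₁), ?_⟩
      · rw [mul_assoc, e₂]
        exact (O i).mul_mem _ _ (hBO s₁ i) ((O i).mul_mem _ _ (hπO i) hy₂)
      · rw [mul_assoc, e₂, e₁]; ring
    · -- through `𝔫`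
      have hthrough : ∀ b : s34x_ring (s34x_infRing O) S,
          (∃ y ∈ O i, (b : 𝓕) = π * y) → b ∈ 𝔫 := by
        intro b hb
        by_contra hb𝔫
        exact hi (Finset.mem_filter.mpr ⟨Finset.mem_univ _, b, hb, hb𝔫⟩)
      obtain ⟨y, hy, e⟩ := hgC i hthrough
      have hg : g = 1 + π * y := by rw [← e]; ring
      have hgO : g ∈ O i := by
        rw [hg]; exact (O i).add_mem _ _ (O i).one_mem ((O i).mul_mem _ _ (hπO i) hy)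
      refine ⟨(O i).mul_mem _ _ ((O i).mul_mem _ _ (hBO s₁ i) (hBO s₂ i)) hgO,
        (s₁ : 𝓕) * s₂ * y, (O i).mul_mem _ _ ((O i).mul_mem _ _ (hBO s₁ i) (hBO s₂ i)) hy, ?_⟩
      rw [hg]; ring
  have hsg0 : (s₁ : 𝓕) * s₂ * g ≠ 0 := mul_ne_zero (mul_ne_zero hs₁0 hs₂0) hg0
  refine ⟨(s₁ : 𝓕) * s₂ * g, ⟨?_, ?_⟩, s₁ * s₂, hs𝔫, ?_⟩
  · rw [s34x_mem_infRing]
    exact fun i => (hcomp i).1
  · intro Q hQ
    right
    rw [Q.ord_mul (mul_ne_zero hs₁0 hs₂0) hg0, Q.ord_mul hs₁0 hs₂0]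
    have h1 : 0 ≤ Q.ord (s₁ : 𝓕) := s34x_ord_nonneg_of_mem_ring _ S s₁ Q hQ
    have h2 : 0 ≤ Q.ord (s₂ : 𝓕) := s34x_ord_nonneg_of_mem_ring _ S s₂ Q hQ
    by_cases hbad : Q.ord g < E Q
    · have := hs₁ Q ((Set.Finite.mem_toFinset hfin).mpr ⟨hQ, hbad⟩)
      omega
    · omega
  · have hcoe : ((s₁ * s₂ : s34x_ring (s34x_infRing O) S) : 𝓕) = (s₁ : 𝓕) * s₂ := by
      push_cast; rfl
    rw [hcoe]
    exact (s34x_inf_cong O π hπ0 _).mpr fun i => (hcomp i).2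

end Fermat.Agent.Lib.S34
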