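/-
S34 moonshot, package [F′] (helper3), interface: the LOCAL CONTRACT at a prime `𝔫` of a chart ring,
in the language of places.  It is what the bridge (ring-form node algebra `NSec.lean` ⟶ places)
delivers and what the construction of the local generator `g_x = σ²φ·φ/(σφ)²` consumes.

* `s34f_through O S 𝔫 Q` : the place `Q` passes through `𝔫` (every `b ∈ B` vanishing at `Q` lies in
  `𝔫`) — literally the condition appearing in helper9's `s34x_loc_of_gen`;
* `s34f_LocEq O S 𝔫 Q`   : `Q` has a LOCAL EQUATION at `𝔫`: a function `φ ≠ 0` with `ord_Q φ = 1` and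
  `ord_Q' φ = 0` at all other places `Q' ∈ S` through `𝔫` (NO condition on the vertical valuations);
* `s34f_LocContract O S 𝔫 g` : every place of degree one through `𝔫` has a local equation, except
  possibly the "bad" ones; there is at most one bad place, and badness is stable under the
  semilinear automorphism `g` (so the bad place, if any, is `g`-fixed).
-/
import Fermat.Agent.Lib.S34.XLocGen
import Fermat.Prelude.Def_AlgebraicCurve_BaseChangeGalois

set_option autoImplicit false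

noncomputable section

namespace Fermat.Agent.Lib.S34

open AlgebraicCurve Fermat.Agent.Lib.FF Fermat.Agent.Lib.S18

variable {L₀ 𝓕 : Type*} [Field L₀] [Field 𝓕] [Algebra L₀ 𝓕]

/-- The place `Q` passes through the prime `𝔫` of the chart ring `s34x_ring O S`. -/
def s34f_through (O : Subring 𝓕) (S : Set (Place L₀ 𝓕)) (𝔫 : Ideal (s34x_ring O S))
    (Q : Place L₀ 𝓕) : Prop :=
  ∀ b : s34x_ring O S, (b : 𝓕) ≠ 0 → 0 < Q.ord (b : 𝓕) → b ∈ 𝔫

/-- `Q` has a local equation at `𝔫`. -/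
def s34f_LocEq (O : Subring 𝓕) (S : Set (Place L₀ 𝓕)) (𝔫 : Ideal (s34x_ring O S))
    (Q : Place L₀ 𝓕) : Prop :=
  ∃ φ : 𝓕, φ ≠ 0 ∧ Q.ord φ = 1 ∧
    ∀ Q' ∈ S, Q' ≠ Q → s34f_through O S 𝔫 Q' → Q'.ord φ = 0

/-- **The local contract at `𝔫`.** -/
def s34f_LocContract (O : Subring 𝓕) (S : Set (Place L₀ 𝓕)) (𝔫 : Ideal (s34x_ring O S))
    (g : SemilinearAut L₀ 𝓕) : Prop :=
  ∃ bad : Place L₀ 𝓕 → Prop,
    (∀ Q ∈ S, s34f_through O S 𝔫 Q → Q.deg = 1 → ¬ bad Q → s34f_LocEq O S 𝔫 Q) ∧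
    (∀ Q ∈ S, ∀ Q' ∈ S, s34f_through O S 𝔫 Q → s34f_through O S 𝔫 Q' → Q.deg = 1 → Q'.deg = 1 →
      bad Q → bad Q' → Q = Q') ∧
    (∀ Q ∈ S, s34f_through O S 𝔫 Q → Q.deg = 1 → bad Q → bad (g • Q))

/-- If every place of degree one through `𝔫` has a local equation, the contract holds (no bad
place): the case of a smooth point, or of a node with `u * w = ϖ ^ j * unit`. -/
theorem s34f_locContract_of_forall (O : Subring 𝓕) (S : Set (Place L₀ 𝓕))
    (𝔫 : Ideal (s34x_ring O S)) (g : SemilinearAut L₀ 𝓕)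
    (h : ∀ Q ∈ S, s34f_through O S 𝔫 Q → Q.deg = 1 → s34f_LocEq O S 𝔫 Q) :
    s34f_LocContract O S 𝔫 g :=
  ⟨fun _ => False, fun Q hQ hth hd _ => h Q hQ hth hd, fun _ _ _ _ _ _ _ _ hb => hb.elim,
    fun _ _ _ _ hb => hb.elim⟩

end Fermat.Agent.Lib.S34
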