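/-
S34 moonshot, package [F′] (helper3), part 2: the SECTION of the chart ring attached to a place of
degree one through a prime `𝔫 ∋ ϖ`.

`B = s34x_ring O S` the chart ring, `A₀ ⊆ L₀` a discrete valuation ring of the constant field with
uniformiser `ϖ`, constants of `A₀` lying in `O`.

* `s34f_constHom`  : `A₀ →+* B`;
* `s34f_evL`       : evaluation `B →+* L₀` at a place `Q ∈ S` of degree one;
* `s34f_evL_mem`   : if `Q` passes through a prime `𝔫 ∋ ϖ` then the values lie in `A₀`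
  (a discrete valuation ring is a maximal subring);
* `s34f_evB`       : the resulting `B →+* A₀`; it is the identity on constants, its kernel is the
  set of functions vanishing at `Q`, and it maps `B ∖ 𝔫` to units.
-/
import Fermat.Agent.Lib.S34.FEval
import Fermat.Agent.Lib.S34.FIface

set_option autoImplicit false

noncomputable section

namespace Fermat.Agent.Lib.S34

open AlgebraicCurve Fermat.Agent.Lib.FF Fermat.Agent.Lib.S18

variable {L₀ 𝓕 : Type*} [Field L₀] [Field 𝓕] [Algebra L₀ 𝓕]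

section Const

variable (A₀ : ValuationSubring L₀) (O : Subring 𝓕)
  (hAO : ∀ a : A₀, algebraMap L₀ 𝓕 (a : L₀) ∈ O) (S : Set (Place L₀ 𝓕))

/-- The constants `A₀ → B`. -/
def s34f_constHom : A₀ →+* s34x_ring O S where
  toFun a := ⟨algebraMap L₀ 𝓕 (a : L₀), hAO a, fun Q _ => Q.algebraMap_mem' _⟩
  map_one' := by
    apply Subtype.ext
    show algebraMap L₀ 𝓕 ((1 : A₀) : L₀) = 1
    simp
  map_mul' a b := by
    apply Subtype.ext
    show algebraMap L₀ 𝓕 ((a * b : A₀) : L₀) = algebraMap L₀ 𝓕 a * algebraMap L₀ 𝓕 b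
    simp
  map_zero' := by
    apply Subtype.ext
    show algebraMap L₀ 𝓕 ((0 : A₀) : L₀) = 0
    simp
  map_add' a b := by
    apply Subtype.ext
    show algebraMap L₀ 𝓕 ((a + b : A₀) : L₀) = algebraMap L₀ 𝓕 a + algebraMap L₀ 𝓕 b
    simp

@[simp]
theorem s34f_constHom_coe (a : A₀) :
    ((s34f_constHom A₀ O hAO S a : s34x_ring O S) : 𝓕) = algebraMap L₀ 𝓕 (a : L₀) := rfl

end Const

section Eval

variable (O : Subring 𝓕) (S : Set (Place L₀ 𝓕)) (Q : Place L₀ 𝓕) (hQS : Q ∈ S)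
  (hdeg : Q.deg = 1)

/-- The inclusion of the chart ring into the valuation ring of a place of the chart. -/
def s34f_inclQ : s34x_ring O S →+* Q.toValuationSubring where
  toFun b := ⟨(b : 𝓕), b.2.2 Q hQS⟩
  map_one' := rfl
  map_mul' _ _ := rfl
  map_zero' := rfl
  map_add' _ _ := rfl

@[simp]
theorem s34f_inclQ_coe (b : s34x_ring O S) : ((s34f_inclQ O S Q hQS b : Q.toValuationSubring) : 𝓕) =
    (b : 𝓕) := rfl

/-- Evaluation of the chart ring at a place of degree one. -/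
def s34f_evL : s34x_ring O S →+* L₀ := (s34f_evK Q hdeg).comp (s34f_inclQ O S Q hQS)

theorem s34f_evL_spec (b : s34x_ring O S) :
    s34f_van Q ((b : 𝓕) - algebraMap L₀ 𝓕 (s34f_evL O S Q hQS hdeg b)) :=
  s34f_evK_spec Q hdeg (s34f_inclQ O S Q hQS b)

theorem s34f_evL_eq_iff (b : s34x_ring O S) (c : L₀) :
    s34f_evL O S Q hQS hdeg b = c ↔ s34f_van Q ((b : 𝓕) - algebraMap L₀ 𝓕 c) :=
  s34f_evK_eq_iff Q hdeg (s34f_inclQ O S Q hQS b) c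

theorem s34f_evL_eq_zero_iff (b : s34x_ring O S) :
    s34f_evL O S Q hQS hdeg b = 0 ↔ s34f_van Q (b : 𝓕) :=
  s34f_evK_eq_zero_iff Q hdeg (s34f_inclQ O S Q hQS b)

variable (A₀ : ValuationSubring L₀) (hAO : ∀ a : A₀, algebraMap L₀ 𝓕 (a : L₀) ∈ O)

theorem s34f_evL_const (a : A₀) :
    s34f_evL O S Q hQS hdeg (s34f_constHom A₀ O hAO S a) = (a : L₀) := by
  rw [s34f_evL_eq_iff]
  left
  rw [s34f_constHom_coe, sub_self]

variable [IsDiscreteValuationRing A₀] (ϖ : A₀) (hϖ : Irreducible ϖ)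
  (𝔫 : Ideal (s34x_ring O S)) (h𝔫 : 𝔫 ≠ ⊤) (hπ𝔫 : s34f_constHom A₀ O hAO S ϖ ∈ 𝔫)
  (hth : s34f_through O S 𝔫 Q)

include hϖ in
/-- a non-unit of `A₀` is a multiple of the uniformiser. -/
theorem s34f_exists_eq_mul_of_not_isUnit {a : A₀} (ha : ¬ IsUnit a) : ∃ a' : A₀, a = ϖ * a' := by
  have h1 : a ∈ IsLocalRing.maximalIdeal A₀ := by
    rw [IsLocalRing.mem_maximalIdeal, mem_nonunits_iff]
    exact ha
  rw [hϖ.maximalIdeal_eq, Ideal.mem_span_singleton'] at h1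
  obtain ⟨a', ha'⟩ := h1
  exact ⟨a', by rw [← ha', mul_comm]⟩

include h𝔫 hπ𝔫 hth in
/-- a function of `B` vanishing at `Q` lies in `𝔫`. -/
theorem s34f_mem_of_van_of_through {b : s34x_ring O S} (hb : s34f_van Q (b : 𝓕)) : b ∈ 𝔫 := by
  rcases hb with h | h
  · have : b = 0 := Subtype.ext h
    rw [this]; exact 𝔫.zero_mem
  · apply hth b _ h
    rintro h0
    rw [h0, Place.ord_zero] at h
    exact lt_irrefl _ h

include hϖ h𝔫 hπ𝔫 hth in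
/-- **The values at a place through `𝔫 ∋ ϖ` are integral.** -/
theorem s34f_evL_mem (b : s34x_ring O S) : s34f_evL O S Q hQS hdeg b ∈ A₀ := by
  set c := s34f_evL O S Q hQS hdeg b with hc
  by_contra hcA
  have hc0 : c ≠ 0 := by
    rintro h0
    rw [h0] at hcA
    exact hcA A₀.zero_mem
  have hinv : c⁻¹ ∈ A₀ := (A₀.mem_or_inv_mem c).resolve_left hcA
  have hnu : ¬ IsUnit (⟨c⁻¹, hinv⟩ : A₀) := by
    intro hu
    obtain ⟨v, hv⟩ := hu
    apply hcA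
    have h1 : ((v⁻¹ : A₀ˣ) : A₀) * (⟨c⁻¹, hinv⟩ : A₀) = 1 := by rw [← hv]; simp
    have h2 : (((v⁻¹ : A₀ˣ) : A₀) : L₀) * c⁻¹ = 1 := by
      have := congrArg (fun z : A₀ => (z : L₀)) h1
      simpa using this
    have h3 : (((v⁻¹ : A₀ˣ) : A₀) : L₀) = c := by
      field_simp at h2
      exact h2
    rw [← h3]
    exact ((v⁻¹ : A₀ˣ) : A₀).2
  obtain ⟨a', ha'⟩ := s34f_exists_eq_mul_of_not_isUnit A₀ ϖ hϖ hnu
  -- `e = c⁻¹ b ∈ 𝔫`
  set e : s34x_ring O S := s34f_constHom A₀ O hAO S ⟨c⁻¹, hinv⟩ * b with he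
  have he𝔫 : e ∈ 𝔫 := by
    rw [he, ha', map_mul, mul_assoc]
    exact 𝔫.mul_mem_right _ hπ𝔫
  have hvan : s34f_van Q (((1 - e : s34x_ring O S)) : 𝓕) := by
    have h1 : (((1 - e : s34x_ring O S)) : 𝓕) =
        algebraMap L₀ 𝓕 (-c⁻¹) * ((b : 𝓕) - algebraMap L₀ 𝓕 c) := by
      have hcc : algebraMap L₀ 𝓕 c⁻¹ * algebraMap L₀ 𝓕 c = 1 := by
        rw [← map_mul, inv_mul_cancel₀ hc0, map_one]
      have h0 : (((1 - e : s34x_ring O S)) : 𝓕) = 1 - algebraMap L₀ 𝓕 c⁻¹ * (b : 𝓕) := rfl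
      rw [h0, map_neg]
      linear_combination (-1 : 𝓕) * hcc
    rw [h1]
    exact s34f_van_mul Q (Q.algebraMap_mem' _) (s34f_evL_spec O S Q hQS hdeg b)
  have h1 : (1 - e) ∈ 𝔫 := s34f_mem_of_van_of_through O S Q A₀ hAO ϖ 𝔫 h𝔫 hπ𝔫 hth hvan
  have h2 : (1 : s34x_ring O S) ∈ 𝔫 := by
    have := 𝔫.add_mem h1 he𝔫
    rwa [sub_add_cancel] at this
  exact h𝔫 ((Ideal.eq_top_iff_one _).mpr h2)

/-- **The section `B → A₀`** attached to a place of degree one through `𝔫 ∋ ϖ`. -/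
def s34f_evB : s34x_ring O S →+* A₀ :=
  (s34f_evL O S Q hQS hdeg).codRestrict A₀
    (s34f_evL_mem O S Q hQS hdeg A₀ hAO ϖ hϖ 𝔫 h𝔫 hπ𝔫 hth)

@[simp]
theorem s34f_evB_coe (b : s34x_ring O S) :
    ((s34f_evB O S Q hQS hdeg A₀ hAO ϖ hϖ 𝔫 h𝔫 hπ𝔫 hth b : A₀) : L₀) =
      s34f_evL O S Q hQS hdeg b := rfl

theorem s34f_evB_const (a : A₀) :
    s34f_evB O S Q hQS hdeg A₀ hAO ϖ hϖ 𝔫 h𝔫 hπ𝔫 hth (s34f_constHom A₀ O hAO S a) = a := by
  apply Subtype.ext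
  rw [s34f_evB_coe, s34f_evL_const]

theorem s34f_evB_eq_zero_iff (b : s34x_ring O S) :
    s34f_evB O S Q hQS hdeg A₀ hAO ϖ hϖ 𝔫 h𝔫 hπ𝔫 hth b = 0 ↔ s34f_van Q (b : 𝓕) := by
  rw [← s34f_evL_eq_zero_iff O S Q hQS hdeg b, ← s34f_evB_coe O S Q hQS hdeg A₀ hAO ϖ hϖ 𝔫 h𝔫 hπ𝔫 hth]
  constructor
  · intro h; rw [h]; rfl
  · intro h; exact Subtype.ext h

/-- `b - b(Q)` vanishes at `Q`. -/
theorem s34f_evB_spec (b : s34x_ring O S) :
    s34f_van Q (((b - s34f_constHom A₀ O hAO S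
      (s34f_evB O S Q hQS hdeg A₀ hAO ϖ hϖ 𝔫 h𝔫 hπ𝔫 hth b) : s34x_ring O S)) : 𝓕) := by
  have := s34f_evL_spec O S Q hQS hdeg b
  push_cast
  rwa [s34f_constHom_coe, s34f_evB_coe]

/-- the section maps `B ∖ 𝔫` to units. -/
theorem s34f_isUnit_evB {s : s34x_ring O S} (hs : s ∉ 𝔫) :
    IsUnit (s34f_evB O S Q hQS hdeg A₀ hAO ϖ hϖ 𝔫 h𝔫 hπ𝔫 hth s) := by
  by_contra hnu
  obtain ⟨a', ha'⟩ := s34f_exists_eq_mul_of_not_isUnit A₀ ϖ hϖ hnu
  apply hs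
  have h1 := s34f_mem_of_van_of_through O S Q A₀ hAO ϖ 𝔫 h𝔫 hπ𝔫 hth
    (s34f_evB_spec O S Q hQS hdeg A₀ hAO ϖ hϖ 𝔫 h𝔫 hπ𝔫 hth s)
  have h2 : s34f_constHom A₀ O hAO S
      (s34f_evB O S Q hQS hdeg A₀ hAO ϖ hϖ 𝔫 h𝔫 hπ𝔫 hth s) ∈ 𝔫 := by
    rw [ha', map_mul]
    exact 𝔫.mul_mem_right _ hπ𝔫
  have := 𝔫.add_mem h1 h2
  rwa [sub_add_cancel] at this

end Eval

end Fermat.Agent.Lib.S34
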