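/-
S34 moonshot ([SS] ⇒ S34), package [N] (helper8): ABSTRACT NODE ALGEBRA.

Setting: `A` a discrete valuation ring with uniformiser `ϖ`, `R` a local `A`-algebra (the local
ring `B_x` of the normal model at a closed point `x` of the special fibre).  `u w : R` lift the two
branch parameters of a node: `𝔪_R = (u, w, ϖ)` and `u * w ∈ ϖ R`.  A *section* is an `A`-algebra
homomorphism `ev : R →ₐ[A] A` (evaluation at an `L₀`-rational place specialising to `x`).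

* `s34n_lemmaN`   : Lemma N.  If `u * w = ϖ ^ j * β`, `a = ϖ ^ r * unit`, `r < j`, `a * b = ϖ ^ j * c`
  and `β - c ∈ (u - a, w - b)`, then `ϖ ^ r * unit' * (w - b) ∈ (u - a)`.
* `s34n_step`     : the successive approximation step `(u - ϖ^j γ)(w - ϖ^j α) = ϖ^(j+1) (…)`.
No completion, no normal form `u w = c`, no thickness.
-/
import Mathlib

set_option autoImplicit false

namespace Fermat.Agent.Lib.S34

/-- **Lemma N** (any commutative ring, `ϖ` in the Jacobson radical). -/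
theorem s34n_lemmaN {R : Type*} [CommRing R] {ϖ u w β a b c a₀ lam mu : R} {r j : ℕ}
    (hϖ : ϖ ∈ (⊥ : Ideal R).jacobson) (hrj : r < j) (huw : u * w = ϖ ^ j * β)
    (ha : a = ϖ ^ r * a₀) (ha₀ : IsUnit a₀) (hab : a * b = ϖ ^ j * c)
    (hβ : β - c = lam * (u - a) + mu * (w - b)) :
    ∃ ε : R, IsUnit ε ∧ ϖ ^ r * ε * (w - b) = (ϖ ^ j * lam - w) * (u - a) := by
  obtain ⟨k, rfl⟩ : ∃ k, j = r + (k + 1) := ⟨j - r - 1, by omega⟩
  refine ⟨a₀ - ϖ ^ (k + 1) * mu, ?_, ?_⟩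
  · -- `a₀ - ϖ^(k+1) μ` is a unit
    obtain ⟨v, rfl⟩ := ha₀
    have hmem : ϖ ^ (k + 1) * mu * (-(↑v⁻¹ : R)) ∈ (⊥ : Ideal R).jacobson := by
      rw [pow_succ]
      have : ϖ ^ k * ϖ * mu * (-(↑v⁻¹ : R)) = (ϖ ^ k * mu * (-(↑v⁻¹ : R))) * ϖ := by ring
      rw [this]
      exact Ideal.mul_mem_left _ _ hϖ
    have h1 := (Ideal.mem_jacobson_bot.mp hmem) 1
    rw [mul_one] at h1
    have : (↑v : R) - ϖ ^ (k + 1) * mu = ↑v * (ϖ ^ (k + 1) * mu * (-(↑v⁻¹ : R)) + 1) := by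
      have hv : (↑v : R) * ↑v⁻¹ = 1 := Units.mul_inv v
      calc (↑v : R) - ϖ ^ (k + 1) * mu = ↑v - (↑v * ↑v⁻¹) * (ϖ ^ (k + 1) * mu) := by rw [hv, one_mul]
        _ = ↑v * (ϖ ^ (k + 1) * mu * (-(↑v⁻¹ : R)) + 1) := by ring
    rw [this]
    exact v.isUnit.mul h1
  · -- the identity
    have e1 : a * (w - b) = ϖ ^ (r + (k + 1)) * (β - c) - w * (u - a) := by
      linear_combination huw - hab
    rw [hβ] at e1
    have e2 : ϖ ^ r * (a₀ - ϖ ^ (k + 1) * mu) * (w - b) =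
        a * (w - b) - ϖ ^ (r + (k + 1)) * mu * (w - b) := by
      rw [ha, pow_add]; ring
    rw [e2, e1]; ring

/-- **The approximation step.** -/
theorem s34n_step {R : Type*} [CommRing R] {ϖ u w β α γ δ : R} {j : ℕ} (hj : 1 ≤ j)
    (huw : u * w = ϖ ^ j * β) (hβ : β = α * u + γ * w + δ * ϖ) :
    (u - ϖ ^ j * γ) * (w - ϖ ^ j * α) = ϖ ^ (j + 1) * (δ + ϖ ^ (j - 1) * α * γ) := by
  obtain ⟨k, rfl⟩ : ∃ k, j = k + 1 := ⟨j - 1, by omega⟩
  rw [Nat.add_sub_cancel]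
  subst hβ
  linear_combination (1 : R) * huw

end Fermat.Agent.Lib.S34
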