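/-
S34 moonshot ([SS] ⇒ S34), package [N] (helper8), part 2: SECTIONS of a node.

`A` a discrete valuation ring with uniformiser `ϖ`; `R` a Noetherian local `A`-algebra with
`𝔪_R = (u₀, w₀, ϖ)` and `u₀ * w₀ ∈ ϖ R` (the local ring of the normal model at a node of the
special fibre).  A *section* is `ev : R →ₐ[A] A` (evaluation at a rational place specialising to the
node).  A *stage-`j` pair* is `(u, w)` with `u ≡ u₀`, `w ≡ w₀ mod ϖ` and `u * w ∈ ϖ ^ j R`.

* `s34n_ker_eq_span_pair` : `ker ev = (u - ev u, w - ev w)` for every pair;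
* `s34n_LN_of_not_dvd`    : **(LN) at a node**: if `ϖ ^ j ∤ ev u` for a stage-`j` pair `(u, w)` then
  `ϖ ^ r • ker ev ≤ (u - ev u)` for some `r` (so `u - ev u` cuts out the place, up to vertical
  components);
* `s34n_bad_unique`       : at most ONE section is bad (= no pair as above exists);
* `s34n_ker_eq_span_smooth` : the smooth case `𝔪_R = (t, ϖ)`: `ker ev = (t - ev t)`.
-/
import Fermat.Agent.Lib.S34.NAlg

set_option autoImplicit false
set_option linter.unusedSectionVars false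

namespace Fermat.Agent.Lib.S34

open IsLocalRing

section Basic

variable {A R : Type*} [CommRing A] [IsDomain A] [IsDiscreteValuationRing A]
  [CommRing R] [IsLocalRing R] [Algebra A R]

/-- A section maps non-units to non-units. -/
theorem s34n_ev_mem_maximalIdeal (ev : R →ₐ[A] A) {x : R} (hx : x ∈ maximalIdeal R) :
    ev x ∈ maximalIdeal A := by
  rw [mem_maximalIdeal, mem_nonunits_iff] at hx ⊢
  intro hu
  apply hx
  obtain ⟨v, hv⟩ := hu
  -- `x * algebraMap v⁻¹ - 1 ∈ ker ev ⊆ 𝔪`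
  have hker : ev (x * algebraMap A R (↑v⁻¹ : A) - 1) = 0 := by
    rw [map_sub, map_mul, map_one, AlgHom.commutes, ← hv]
    simp
  have hmem : x * algebraMap A R (↑v⁻¹ : A) - 1 ∈ maximalIdeal R := by
    rw [mem_maximalIdeal, mem_nonunits_iff]
    intro hunit
    have := hunit.map ev
    rw [hker] at this
    exact not_isUnit_zero this
  have h1 : IsUnit (x * algebraMap A R (↑v⁻¹ : A)) := by
    by_contra hnot
    have h2 : x * algebraMap A R (↑v⁻¹ : A) ∈ maximalIdeal R := by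
      rwa [mem_maximalIdeal, mem_nonunits_iff]
    have h3 : (1 : R) ∈ maximalIdeal R := by
      have h4 := (maximalIdeal R).sub_mem h2 hmem
      rwa [sub_sub_cancel] at h4
    exact (Ideal.ne_top_iff_one _).mp (maximalIdeal.isMaximal R).ne_top h3
  exact isUnit_of_mul_isUnit_left h1

/-- A section kills exactly `ker ev ≤ 𝔪_R`. -/
theorem s34n_ker_le_maximalIdeal (ev : R →ₐ[A] A) : RingHom.ker (ev : R →+* A) ≤ maximalIdeal R := by
  apply le_maximalIdeal
  exact RingHom.ker_ne_top _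

theorem s34n_irreducible_dvd_ev (ev : R →ₐ[A] A) {ϖ : A} (hϖ : Irreducible ϖ) {x : R}
    (hx : x ∈ maximalIdeal R) : ϖ ∣ ev x := by
  have := s34n_ev_mem_maximalIdeal ev hx
  rw [hϖ.maximalIdeal_eq, Ideal.mem_span_singleton] at this
  exact this

end Basic

section Span

variable {R : Type*} [CommRing R]

theorem s34n_mem_span_triple {x a b c : R} :
    x ∈ Ideal.span ({a, b, c} : Set R) ↔ ∃ l m n, x = l * a + m * b + n * c := by
  rw [Ideal.mem_span_insert]
  constructor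
  · rintro ⟨l, z, hz, rfl⟩
    rw [Ideal.mem_span_pair] at hz
    obtain ⟨m, n, rfl⟩ := hz
    exact ⟨l, m, n, by ring⟩
  · rintro ⟨l, m, n, rfl⟩
    exact ⟨l, m * b + n * c, Ideal.mem_span_pair.mpr ⟨m, n, rfl⟩, by ring⟩

theorem s34n_span_triple_congr {a b c a' b' x y : R} (ha : a' - a = c * x) (hb : b' - b = c * y) :
    Ideal.span ({a', b', c} : Set R) = Ideal.span ({a, b, c} : Set R) := by
  have ha' : a' = a + c * x := by rw [← ha]; ring
  have hb' : b' = b + c * y := by rw [← hb]; ring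
  apply le_antisymm
  · intro z hz
    rw [s34n_mem_span_triple] at hz ⊢
    obtain ⟨l, m, n, rfl⟩ := hz
    exact ⟨l, m, n + l * x + m * y, by rw [ha', hb']; ring⟩
  · intro z hz
    rw [s34n_mem_span_triple] at hz ⊢
    obtain ⟨l, m, n, rfl⟩ := hz
    exact ⟨l, m, n - l * x - m * y, by rw [ha', hb']; ring⟩

end Span

section Node

variable {A R : Type*} [CommRing A] [IsDomain A] [IsDiscreteValuationRing A]
  [CommRing R] [IsLocalRing R] [IsNoetherianRing R] [Algebra A R]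

/-- A stage-`j` pair relative to the base pair `(u₀, w₀)`. -/
def s34n_IsPair (ϖ : A) (u₀ w₀ : R) (j : ℕ) (u w : R) : Prop :=
  (∃ x, u - u₀ = algebraMap A R ϖ * x) ∧ (∃ y, w - w₀ = algebraMap A R ϖ * y) ∧
    ∃ β, u * w = algebraMap A R ϖ ^ j * β

theorem s34n_maximalIdeal_eq_of_pair {ϖ : A} {u₀ w₀ : R}
    (hm : maximalIdeal R = Ideal.span {u₀, w₀, algebraMap A R ϖ}) {j : ℕ} {u w : R}
    (hp : s34n_IsPair ϖ u₀ w₀ j u w) :
    maximalIdeal R = Ideal.span {u, w, algebraMap A R ϖ} := by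
  obtain ⟨⟨x, hx⟩, ⟨y, hy⟩, -⟩ := hp
  rw [hm, s34n_span_triple_congr hx hy]

/-- `ker ev = (u - ev u, w - ev w)` for every pair. -/
theorem s34n_ker_eq_span_pair {ϖ : A} (hϖ : Irreducible ϖ) {u₀ w₀ : R}
    (hm : maximalIdeal R = Ideal.span {u₀, w₀, algebraMap A R ϖ}) (ev : R →ₐ[A] A)
    {j : ℕ} {u w : R} (hp : s34n_IsPair ϖ u₀ w₀ j u w) :
    RingHom.ker (ev : R →+* A) =
      Ideal.span {u - algebraMap A R (ev u), w - algebraMap A R (ev w)} := by
  have hm' := s34n_maximalIdeal_eq_of_pair hm hp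
  have hu : u ∈ maximalIdeal R := by
    rw [hm']; exact Ideal.subset_span (by simp)
  have hw : w ∈ maximalIdeal R := by
    rw [hm']; exact Ideal.subset_span (by simp)
  obtain ⟨a', ha'⟩ := s34n_irreducible_dvd_ev ev hϖ hu
  obtain ⟨b', hb'⟩ := s34n_irreducible_dvd_ev ev hϖ hw
  set 𝔮 := RingHom.ker (ev : R →+* A) with h𝔮
  set 𝔮₀ := Ideal.span {u - algebraMap A R (ev u), w - algebraMap A R (ev w)} with h𝔮₀
  have hle : 𝔮₀ ≤ 𝔮 := by
    rw [h𝔮₀, Ideal.span_le]
    rintro z (rfl | rfl)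
    · show (ev : R →+* A) _ = 0
      simp
    · show (ev : R →+* A) _ = 0
      simp
  apply le_antisymm _ hle
  have hϖjac : Ideal.span {algebraMap A R ϖ} ≤ (⊥ : Ideal R).jacobson := by
    rw [IsLocalRing.jacobson_eq_maximalIdeal ⊥ bot_ne_top, Ideal.span_le]
    rintro z rfl
    rw [hm']; exact Ideal.subset_span (by simp)
  refine Submodule.le_of_le_smul_of_le_jacobson_bot (IsNoetherian.noetherian 𝔮) hϖjac ?_
  intro y hy
  have hy𝔪 : y ∈ maximalIdeal R := s34n_ker_le_maximalIdeal ev hy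
  rw [hm', s34n_mem_span_triple] at hy𝔪
  obtain ⟨l, m, n, rfl⟩ := hy𝔪
  -- the `ϖ`-part lies in `𝔮`
  set ν := l * algebraMap A R a' + m * algebraMap A R b' + n with hν
  have hdecomp : l * u + m * w + n * algebraMap A R ϖ =
      (l * (u - algebraMap A R (ev u)) + m * (w - algebraMap A R (ev w))) +
        algebraMap A R ϖ * ν := by
    rw [hν, ha', hb', map_mul, map_mul]; ring
  have hνker : ν ∈ 𝔮 := by
    have h0 : (ev : R →+* A) (l * u + m * w + n * algebraMap A R ϖ) = 0 := hy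
    rw [hdecomp, map_add] at h0
    have h1 : (ev : R →+* A) (l * (u - algebraMap A R (ev u)) +
        m * (w - algebraMap A R (ev w))) = 0 := by
      simp
    rw [h1, zero_add, map_mul] at h0
    have h2 : (ev : R →+* A) (algebraMap A R ϖ) = ϖ := by simp
    rw [h2] at h0
    rcases mul_eq_zero.mp h0 with h | h
    · exact absurd h hϖ.ne_zero
    · exact h
  rw [hdecomp]
  refine Submodule.add_mem_sup ?_ ?_
  · exact Ideal.add_mem _ (Ideal.mul_mem_left _ _ (Ideal.subset_span (by simp)))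
      (Ideal.mul_mem_left _ _ (Ideal.subset_span (by simp)))
  · rw [smul_eq_mul]
    exact Ideal.mul_mem_mul (Ideal.subset_span rfl) hνker

/-- **(LN) at a node.**  If `ϖ ^ j ∤ ev u` for a stage-`j` pair `(u, w)`, then `u - ev u` generates
`ker ev` up to a power of `ϖ`. -/
theorem s34n_LN_of_not_dvd {ϖ : A} (hϖ : Irreducible ϖ) {u₀ w₀ : R}
    (hm : maximalIdeal R = Ideal.span {u₀, w₀, algebraMap A R ϖ}) (ev : R →ₐ[A] A)
    {j : ℕ} {u w : R} (hp : s34n_IsPair ϖ u₀ w₀ j u w) (hnd : ¬ ϖ ^ j ∣ ev u) :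
    ∃ r : ℕ, ∀ y ∈ RingHom.ker (ev : R →+* A),
      ∃ z, algebraMap A R ϖ ^ r * y = (u - algebraMap A R (ev u)) * z := by
  have hker := s34n_ker_eq_span_pair hϖ hm ev hp
  have hm' := s34n_maximalIdeal_eq_of_pair hm hp
  obtain ⟨-, -, β, huw⟩ := hp
  have ha0 : ev u ≠ 0 := by
    intro h; rw [h] at hnd; exact hnd (dvd_zero _)
  obtain ⟨r, v, hv⟩ := IsDiscreteValuationRing.eq_unit_mul_pow_irreducible ha0 hϖ
  have hrj : r < j := by
    by_contra hle
    rw [not_lt] at hle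
    apply hnd
    rw [hv]
    exact Dvd.dvd.mul_left (pow_dvd_pow ϖ hle) _
  have hϖjac : algebraMap A R ϖ ∈ (⊥ : Ideal R).jacobson := by
    rw [IsLocalRing.jacobson_eq_maximalIdeal ⊥ bot_ne_top, hm']
    exact Ideal.subset_span (by simp)
  -- the value relation
  have hab : algebraMap A R (ev u) * algebraMap A R (ev w) =
      algebraMap A R ϖ ^ j * algebraMap A R (ev β) := by
    have h1 : ev u * ev w = ϖ ^ j * ev β := by
      rw [← map_mul, huw, map_mul, map_pow, AlgHom.commutes]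
      rfl
    rw [← map_mul, h1, map_mul, map_pow]
  have hβker : β - algebraMap A R (ev β) ∈ RingHom.ker (ev : R →+* A) := by
    show (ev : R →+* A) _ = 0
    simp
  rw [hker, Ideal.mem_span_pair] at hβker
  obtain ⟨lam, mu, hlm⟩ := hβker
  obtain ⟨ε, hε, hN⟩ := s34n_lemmaN (ϖ := algebraMap A R ϖ) (u := u) (w := w) (β := β)
    (a := algebraMap A R (ev u)) (b := algebraMap A R (ev w)) (c := algebraMap A R (ev β))
    (a₀ := algebraMap A R (↑v : A)) (lam := lam) (mu := mu) (r := r) (j := j) hϖjac hrj huw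
    (by rw [hv, map_mul, map_pow]; ring) (v.isUnit.map _) hab hlm.symm
  obtain ⟨εu, rfl⟩ := hε
  refine ⟨r, fun y hy => ?_⟩
  rw [hker, Ideal.mem_span_pair] at hy
  obtain ⟨l, m, rfl⟩ := hy
  refine ⟨algebraMap A R ϖ ^ r * l +
    m * (↑εu⁻¹ : R) * (algebraMap A R ϖ ^ j * lam - w), ?_⟩
  have hinv : (↑εu : R) * ↑εu⁻¹ = 1 := Units.mul_inv εu
  have hkey : algebraMap A R ϖ ^ r * (w - algebraMap A R (ev w)) =
      (↑εu⁻¹ : R) * ((algebraMap A R ϖ ^ j * lam - w) * (u - algebraMap A R (ev u))) := by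
    rw [← hN]
    calc algebraMap A R ϖ ^ r * (w - algebraMap A R (ev w))
        = ((↑εu : R) * ↑εu⁻¹) * (algebraMap A R ϖ ^ r * (w - algebraMap A R (ev w))) := by
          rw [hinv, one_mul]
      _ = _ := by ring
  calc algebraMap A R ϖ ^ r * (l * (u - algebraMap A R (ev u)) + m * (w - algebraMap A R (ev w)))
      = algebraMap A R ϖ ^ r * l * (u - algebraMap A R (ev u)) +
          m * (algebraMap A R ϖ ^ r * (w - algebraMap A R (ev w))) := by ring
    _ = _ := by rw [hkey]; ring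

/-- The symmetric form of (LN) at a node. -/
theorem s34n_LN_of_not_dvd' {ϖ : A} (hϖ : Irreducible ϖ) {u₀ w₀ : R}
    (hm : maximalIdeal R = Ideal.span {u₀, w₀, algebraMap A R ϖ}) (ev : R →ₐ[A] A)
    {j : ℕ} {u w : R} (hp : s34n_IsPair ϖ u₀ w₀ j u w) (hnd : ¬ ϖ ^ j ∣ ev w) :
    ∃ r : ℕ, ∀ y ∈ RingHom.ker (ev : R →+* A),
      ∃ z, algebraMap A R ϖ ^ r * y = (w - algebraMap A R (ev w)) * z := by
  have hm2 : maximalIdeal R = Ideal.span {w₀, u₀, algebraMap A R ϖ} := by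
    rw [hm]; congr 1; ext z; simp only [Set.mem_insert_iff, Set.mem_singleton_iff]; tauto
  have hp2 : s34n_IsPair ϖ w₀ u₀ j w u := by
    obtain ⟨h1, h2, β, h3⟩ := hp
    exact ⟨h2, h1, β, by rw [mul_comm, h3]⟩
  exact s34n_LN_of_not_dvd hϖ hm2 ev hp2 hnd

/-- A section is GOOD if some stage-`j` pair separates it from the "crossing section". -/
def s34n_Good (ϖ : A) (u₀ w₀ : R) (ev : R →ₐ[A] A) : Prop :=
  ∃ (j : ℕ) (u w : R), s34n_IsPair ϖ u₀ w₀ j u w ∧ (¬ ϖ ^ j ∣ ev u ∨ ¬ ϖ ^ j ∣ ev w)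

/-- **(LN) for good sections of a node.** -/
theorem s34n_LN_of_good {ϖ : A} (hϖ : Irreducible ϖ) {u₀ w₀ : R}
    (hm : maximalIdeal R = Ideal.span {u₀, w₀, algebraMap A R ϖ}) (ev : R →ₐ[A] A)
    (hg : s34n_Good ϖ u₀ w₀ ev) :
    ∃ φ ∈ RingHom.ker (ev : R →+* A), ∃ r : ℕ, ∀ y ∈ RingHom.ker (ev : R →+* A),
      ∃ z, algebraMap A R ϖ ^ r * y = φ * z := by
  obtain ⟨j, u, w, hp, h | h⟩ := hg
  · obtain ⟨r, hr⟩ := s34n_LN_of_not_dvd hϖ hm ev hp h
    exact ⟨u - algebraMap A R (ev u), by show (ev : R →+* A) _ = 0; simp, r, hr⟩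
  · obtain ⟨r, hr⟩ := s34n_LN_of_not_dvd' hϖ hm ev hp h
    exact ⟨w - algebraMap A R (ev w), by show (ev : R →+* A) _ = 0; simp, r, hr⟩

/-- In a DVR, an element divisible by all powers of the uniformiser is zero. -/
theorem s34n_eq_zero_of_forall_pow_dvd {ϖ : A} (hϖ : Irreducible ϖ) {a : A}
    (h : ∀ j : ℕ, ϖ ^ j ∣ a) : a = 0 := by
  by_contra ha
  obtain ⟨n, v, hv⟩ := IsDiscreteValuationRing.eq_unit_mul_pow_irreducible ha hϖ
  obtain ⟨c, hc⟩ := h (n + 1)
  rw [hv, pow_succ] at hc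
  have h1 : ϖ ^ n * (↑v : A) = ϖ ^ n * (ϖ * c) := by rw [mul_comm, hc]; ring
  have h2 := mul_left_cancel₀ (pow_ne_zero n hϖ.ne_zero) h1
  have : IsUnit ϖ := isUnit_of_mul_isUnit_left (h2 ▸ v.isUnit)
  exact hϖ.not_isUnit this

/-- If a section is not good, there are stage-`j` pairs inside its kernel for all `j ≥ 1`. -/
theorem s34n_exists_pair_in_ker {ϖ : A} (hϖ : Irreducible ϖ) {u₀ w₀ : R}
    (hm : maximalIdeal R = Ideal.span {u₀, w₀, algebraMap A R ϖ})
    (h0 : ∃ β, u₀ * w₀ = algebraMap A R ϖ * β) (ev : R →ₐ[A] A)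
    (hbad : ¬ s34n_Good ϖ u₀ w₀ ev) (j : ℕ) :
    ∃ ξ η : R, s34n_IsPair ϖ u₀ w₀ (j + 1) ξ η ∧ ev ξ = 0 ∧ ev η = 0 := by
  induction j with
  | zero =>
    obtain ⟨β₀, hβ₀⟩ := h0
    have hu : u₀ ∈ maximalIdeal R := by rw [hm]; exact Ideal.subset_span (by simp)
    have hw : w₀ ∈ maximalIdeal R := by rw [hm]; exact Ideal.subset_span (by simp)
    obtain ⟨a', ha'⟩ := s34n_irreducible_dvd_ev ev hϖ hu
    obtain ⟨b', hb'⟩ := s34n_irreducible_dvd_ev ev hϖ hw
    refine ⟨u₀ - algebraMap A R (ev u₀), w₀ - algebraMap A R (ev w₀),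
      ⟨⟨-algebraMap A R a', by rw [ha', map_mul]; ring⟩,
        ⟨-algebraMap A R b', by rw [hb', map_mul]; ring⟩,
        ⟨β₀ - algebraMap A R a' * w₀ - algebraMap A R b' * u₀ +
          algebraMap A R ϖ * algebraMap A R a' * algebraMap A R b', ?_⟩⟩, by simp, by simp⟩
    rw [ha', hb', map_mul, map_mul, zero_add, pow_one]
    linear_combination hβ₀
  | succ j ih =>
    obtain ⟨ξ, η, hp, hξ, hη⟩ := ih
    have hm' := s34n_maximalIdeal_eq_of_pair hm hp
    obtain ⟨⟨x, hx⟩, ⟨y, hy⟩, β, hξη⟩ := hp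
    -- `β ∈ ker ev ≤ 𝔪`
    have hβ0 : ev β = 0 := by
      have h1 : ev ξ * ev η = ϖ ^ (j + 1) * ev β := by
        rw [← map_mul, hξη, map_mul, map_pow, AlgHom.commutes]
        rfl
      rw [hξ, zero_mul] at h1
      rcases mul_eq_zero.mp h1.symm with h | h
      · exact absurd h (pow_ne_zero _ hϖ.ne_zero)
      · exact h
    have hβ𝔪 : β ∈ maximalIdeal R := s34n_ker_le_maximalIdeal ev hβ0
    rw [hm', s34n_mem_span_triple] at hβ𝔪
    obtain ⟨α, γ, δ, hβ⟩ := hβ𝔪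
    have hstep := s34n_step (ϖ := algebraMap A R ϖ) (j := j + 1) (by omega) hξη hβ
    set ξ' := ξ - algebraMap A R ϖ ^ (j + 1) * γ with hξ'
    set η' := η - algebraMap A R ϖ ^ (j + 1) * α with hη'
    have hp' : s34n_IsPair ϖ u₀ w₀ (j + 1 + 1) ξ' η' := by
      refine ⟨⟨x - algebraMap A R ϖ ^ j * γ, ?_⟩, ⟨y - algebraMap A R ϖ ^ j * α, ?_⟩, _, hstep⟩
      · rw [hξ', pow_succ]; linear_combination hx
      · rw [hη', pow_succ]; linear_combination hy
    -- not good: both values are divisible by `ϖ ^ (j+2)`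
    have hdvd : ϖ ^ (j + 1 + 1) ∣ ev ξ' ∧ ϖ ^ (j + 1 + 1) ∣ ev η' := by
      by_contra hcon
      apply hbad
      refine ⟨j + 1 + 1, ξ', η', hp', ?_⟩
      by_cases h1 : ϖ ^ (j + 1 + 1) ∣ ev ξ'
      · right
        intro h2
        exact hcon ⟨h1, h2⟩
      · left; exact h1
    obtain ⟨⟨c, hc⟩, ⟨d, hd⟩⟩ := hdvd
    obtain ⟨⟨x', hx'⟩, ⟨y', hy'⟩, β', hξη'⟩ := hp'
    refine ⟨ξ' - algebraMap A R (ev ξ'), η' - algebraMap A R (ev η'),
      ⟨⟨x' - algebraMap A R ϖ ^ (j + 1) * algebraMap A R c, ?_⟩,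
        ⟨y' - algebraMap A R ϖ ^ (j + 1) * algebraMap A R d, ?_⟩,
        ⟨β' - algebraMap A R c * η' - algebraMap A R d * ξ' +
          algebraMap A R ϖ ^ (j + 1 + 1) * algebraMap A R c * algebraMap A R d, ?_⟩⟩,
      by simp, by simp⟩
    · rw [hc, map_mul, map_pow, pow_succ (algebraMap A R ϖ) (j + 1)]
      linear_combination hx'
    · rw [hd, map_mul, map_pow, pow_succ (algebraMap A R ϖ) (j + 1)]
      linear_combination hy'
    · rw [hc, hd, map_mul, map_mul, map_pow]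
      linear_combination hξη'

/-- **At most one section of a node is bad.** -/
theorem s34n_bad_unique {ϖ : A} (hϖ : Irreducible ϖ) {u₀ w₀ : R}
    (hm : maximalIdeal R = Ideal.span {u₀, w₀, algebraMap A R ϖ})
    (h0 : ∃ β, u₀ * w₀ = algebraMap A R ϖ * β) (ev ev' : R →ₐ[A] A)
    (hbad : ¬ s34n_Good ϖ u₀ w₀ ev) (hbad' : ¬ s34n_Good ϖ u₀ w₀ ev') : ev = ev' := by
  -- `ker ev ≤ ker ev'`
  have hker : ∀ y : R, ev y = 0 → ev' y = 0 := by
    intro y hy
    apply s34n_eq_zero_of_forall_pow_dvd hϖ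
    intro j
    obtain ⟨ξ, η, hp, hξ, hη⟩ := s34n_exists_pair_in_ker hϖ hm h0 ev hbad j
    have hk := s34n_ker_eq_span_pair hϖ hm ev hp
    rw [hξ, hη, map_zero, sub_zero, sub_zero] at hk
    have hy' : y ∈ RingHom.ker (ev : R →+* A) := hy
    rw [hk, Ideal.mem_span_pair] at hy'
    obtain ⟨l, m, rfl⟩ := hy'
    have hd : ϖ ^ (j + 1) ∣ ev' ξ ∧ ϖ ^ (j + 1) ∣ ev' η := by
      by_contra hcon
      apply hbad'
      refine ⟨j + 1, ξ, η, hp, ?_⟩
      by_cases h1 : ϖ ^ (j + 1) ∣ ev' ξ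
      · right
        intro h2
        exact hcon ⟨h1, h2⟩
      · left; exact h1
    rw [map_add, map_mul, map_mul]
    exact (dvd_trans (pow_dvd_pow ϖ (Nat.le_succ j))
      (dvd_add (Dvd.dvd.mul_left hd.1 _) (Dvd.dvd.mul_left hd.2 _)))
  ext y
  have h1 : ev (y - algebraMap A R (ev y)) = 0 := by simp
  have h2 := hker _ h1
  rw [map_sub, AlgHom.commutes, sub_eq_zero] at h2
  exact h2.symm

end Node

section Smooth

variable {A R : Type*} [CommRing A] [IsDomain A] [IsDiscreteValuationRing A]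
  [CommRing R] [IsLocalRing R] [IsNoetherianRing R] [Algebra A R]

/-- **The smooth case**: if `𝔪_R = (t, ϖ)` then `ker ev = (t - ev t)`. -/
theorem s34n_ker_eq_span_smooth {ϖ : A} (hϖ : Irreducible ϖ) {t : R}
    (hm : maximalIdeal R = Ideal.span {t, algebraMap A R ϖ}) (ev : R →ₐ[A] A) :
    RingHom.ker (ev : R →+* A) = Ideal.span {t - algebraMap A R (ev t)} := by
  have ht : t ∈ maximalIdeal R := by rw [hm]; exact Ideal.subset_span (by simp)
  obtain ⟨a', ha'⟩ := s34n_irreducible_dvd_ev ev hϖ ht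
  have hle : Ideal.span {t - algebraMap A R (ev t)} ≤ RingHom.ker (ev : R →+* A) := by
    rw [Ideal.span_le]
    rintro z rfl
    show (ev : R →+* A) _ = 0
    simp
  apply le_antisymm _ hle
  have hϖjac : Ideal.span {algebraMap A R ϖ} ≤ (⊥ : Ideal R).jacobson := by
    rw [IsLocalRing.jacobson_eq_maximalIdeal ⊥ bot_ne_top, Ideal.span_le]
    rintro z rfl
    rw [hm]; exact Ideal.subset_span (by simp)
  refine Submodule.le_of_le_smul_of_le_jacobson_bot
    (IsNoetherian.noetherian (RingHom.ker (ev : R →+* A))) hϖjac ?_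
  intro y hy
  have hy𝔪 : y ∈ maximalIdeal R := s34n_ker_le_maximalIdeal ev hy
  rw [hm, Ideal.mem_span_pair] at hy𝔪
  obtain ⟨l, n, rfl⟩ := hy𝔪
  set ν := l * algebraMap A R a' + n with hν
  have hdecomp : l * t + n * algebraMap A R ϖ =
      l * (t - algebraMap A R (ev t)) + algebraMap A R ϖ * ν := by
    rw [hν, ha', map_mul]; ring
  have hνker : ν ∈ RingHom.ker (ev : R →+* A) := by
    have h0 : (ev : R →+* A) (l * t + n * algebraMap A R ϖ) = 0 := hy
    rw [hdecomp, map_add] at h0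
    have h1 : (ev : R →+* A) (l * (t - algebraMap A R (ev t))) = 0 := by simp
    rw [h1, zero_add, map_mul] at h0
    have h2 : (ev : R →+* A) (algebraMap A R ϖ) = ϖ := by simp
    rw [h2] at h0
    rcases mul_eq_zero.mp h0 with h | h
    · exact absurd h hϖ.ne_zero
    · exact h
  rw [hdecomp]
  refine Submodule.add_mem_sup ?_ ?_
  · exact Ideal.mul_mem_left _ _ (Ideal.subset_span rfl)
  · rw [smul_eq_mul]
    exact Ideal.mul_mem_mul (Ideal.subset_span rfl) hνker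

end Smooth

end Fermat.Agent.Lib.S34
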