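/-
S34 moonshot, package [F′] (helper3), part 3: from the ring-form node algebra (`NSec.lean`, helper8)
to LOCAL EQUATIONS of places.

`B = s34x_ring O S`, `𝔫` a prime of `B` containing the uniformiser `ϖ` of `A₀`,
`R = Localization.AtPrime 𝔫` (a local ring, an `A₀`-algebra through the constants, embedded in `𝓕`
by `s34f_iota`).  A place `Q ∈ S` of degree one through `𝔫` gives the section
`s34f_evR : R →+* A₀`.

* `s34f_locEq_of_LN`     : if `ϖ ^ r • ker ev_Q ⊆ (φ)` for some `φ ∈ ker ev_Q` then `ι φ` is a local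
  equation of `Q` at `𝔫` (`s34f_LocEq`), given a uniformiser of `Q` in `B` (F1) and separation of
  places by `B` (F2);
* `s34f_locEq_of_smooth` : the case `𝔪_R = (t, ϖ)`;
* `s34f_locEq_of_good`   : the case `𝔪_R = (u₀, w₀, ϖ)` for a GOOD section;
* `s34f_bad_unique`      : two bad places through a node coincide.
-/
import Fermat.Agent.Lib.S34.FSection
import Fermat.Agent.Lib.S34.NSec

set_option autoImplicit false
set_option linter.style.haveILetI false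

noncomputable section

namespace Fermat.Agent.Lib.S34

open AlgebraicCurve Fermat.Agent.Lib.FF Fermat.Agent.Lib.S18 IsLocalRing

variable {L₀ 𝓕 : Type*} [Field L₀] [Field 𝓕] [Algebra L₀ 𝓕]

section Loc

variable (A₀ : ValuationSubring L₀) (O : Subring 𝓕)
  (hAO : ∀ a : A₀, algebraMap L₀ 𝓕 (a : L₀) ∈ O) (S : Set (Place L₀ 𝓕))
  (𝔫 : Ideal (s34x_ring O S)) [h𝔫 : 𝔫.IsPrime]

/-- The `A₀`-algebra structure of the local ring `B_𝔫`. -/
@[reducible] def s34f_algR : Algebra A₀ (Localization.AtPrime 𝔫) :=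
  ((algebraMap (s34x_ring O S) (Localization.AtPrime 𝔫)).comp (s34f_constHom A₀ O hAO S)).toAlgebra

/-- The embedding of the local ring `B_𝔫` into the function field. -/
def s34f_iota : Localization.AtPrime 𝔫 →+* 𝓕 :=
  IsLocalization.lift (M := 𝔫.primeCompl) (g := (s34x_ring O S).subtype) (fun y => by
    have h0 : ((y : s34x_ring O S) : 𝓕) ≠ 0 := by
      intro h
      apply y.2
      have : (y : s34x_ring O S) = 0 := Subtype.ext h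
      rw [this]
      exact 𝔫.zero_mem
    exact IsUnit.mk0 _ h0)

@[simp]
theorem s34f_iota_algebraMap (b : s34x_ring O S) :
    s34f_iota O S 𝔫 (algebraMap (s34x_ring O S) (Localization.AtPrime 𝔫) b) = (b : 𝓕) := by
  rw [s34f_iota, IsLocalization.lift_eq]
  rfl

/-- every element of `B_𝔫` is a fraction `b / s` with `s ∉ 𝔫`. -/
theorem s34f_exists_frac (x : Localization.AtPrime 𝔫) :
    ∃ (b s : s34x_ring O S), s ∉ 𝔫 ∧
      x * algebraMap (s34x_ring O S) (Localization.AtPrime 𝔫) s =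
        algebraMap (s34x_ring O S) (Localization.AtPrime 𝔫) b := by
  obtain ⟨⟨b, s⟩, h⟩ := IsLocalization.surj 𝔫.primeCompl x
  exact ⟨b, s, s.2, h⟩

theorem s34f_iota_injective : Function.Injective (s34f_iota O S 𝔫) := by
  rw [injective_iff_map_eq_zero]
  intro x hx
  obtain ⟨b, s, hs, h⟩ := s34f_exists_frac O S 𝔫 x
  have h1 := congrArg (s34f_iota O S 𝔫) h
  rw [map_mul, hx, zero_mul, s34f_iota_algebraMap] at h1
  have hb : b = 0 := Subtype.ext h1.symm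
  rw [hb, map_zero] at h
  have hu : IsUnit (algebraMap (s34x_ring O S) (Localization.AtPrime 𝔫) s) :=
    IsLocalization.map_units (Localization.AtPrime 𝔫) (⟨s, hs⟩ : 𝔫.primeCompl)
  exact (hu.mul_left_eq_zero).mp h

/-- elements of `B_𝔫` are regular at the places through `𝔫`. -/
theorem s34f_iota_ord_nonneg (x : Localization.AtPrime 𝔫) (Q' : Place L₀ 𝓕) (hQ'S : Q' ∈ S)
    (hth' : s34f_through O S 𝔫 Q') : 0 ≤ Q'.ord (s34f_iota O S 𝔫 x) := by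
  obtain ⟨b, s, hs, h⟩ := s34f_exists_frac O S 𝔫 x
  have h1 := congrArg (s34f_iota O S 𝔫) h
  rw [map_mul, s34f_iota_algebraMap, s34f_iota_algebraMap] at h1
  by_cases hx0 : s34f_iota O S 𝔫 x = 0
  · rw [hx0, Place.ord_zero]
  have hs0 : (s : 𝓕) ≠ 0 := by
    intro h0
    apply hs
    have : s = 0 := Subtype.ext h0
    rw [this]; exact 𝔫.zero_mem
  have hsord : Q'.ord (s : 𝓕) = 0 := by
    have hge := s34x_ord_nonneg_of_mem_ring O S s Q' hQ'S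
    by_contra hne
    exact hs (hth' s hs0 (lt_of_le_of_ne hge (Ne.symm hne)))
  have hb0 : (b : 𝓕) ≠ 0 := by rw [← h1]; exact mul_ne_zero hx0 hs0
  have hbord := s34x_ord_nonneg_of_mem_ring O S b Q' hQ'S
  have := Q'.ord_mul hx0 hs0
  rw [h1, hsord, add_zero] at this
  rw [← this]
  exact hbord

variable [IsDiscreteValuationRing A₀] (ϖ : A₀) (hϖ : Irreducible ϖ)
  (hπ𝔫 : s34f_constHom A₀ O hAO S ϖ ∈ 𝔫)
  (Q : Place L₀ 𝓕) (hQS : Q ∈ S) (hdeg : Q.deg = 1) (hth : s34f_through O S 𝔫 Q)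

/-- **The section of `B_𝔫`** attached to a place of degree one through `𝔫`. -/
def s34f_evR : Localization.AtPrime 𝔫 →+* A₀ :=
  IsLocalization.lift (M := 𝔫.primeCompl)
    (g := s34f_evB O S Q hQS hdeg A₀ hAO ϖ hϖ 𝔫 h𝔫.ne_top hπ𝔫 hth)
    (fun y => s34f_isUnit_evB O S Q hQS hdeg A₀ hAO ϖ hϖ 𝔫 h𝔫.ne_top hπ𝔫 hth y.2)

@[simp]
theorem s34f_evR_algebraMap (b : s34x_ring O S) :
    s34f_evR A₀ O hAO S 𝔫 ϖ hϖ hπ𝔫 Q hQS hdeg hth
      (algebraMap (s34x_ring O S) (Localization.AtPrime 𝔫) b) =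
      s34f_evB O S Q hQS hdeg A₀ hAO ϖ hϖ 𝔫 h𝔫.ne_top hπ𝔫 hth b := by
  rw [s34f_evR, IsLocalization.lift_eq]

/-- The section as an `A₀`-algebra homomorphism. -/
def s34f_evA :
    letI := s34f_algR A₀ O hAO S 𝔫
    Localization.AtPrime 𝔫 →ₐ[A₀] A₀ :=
  letI := s34f_algR A₀ O hAO S 𝔫
  { s34f_evR A₀ O hAO S 𝔫 ϖ hϖ hπ𝔫 Q hQS hdeg hth with
    commutes' := fun a => by
      show s34f_evR A₀ O hAO S 𝔫 ϖ hϖ hπ𝔫 Q hQS hdeg hth
        (algebraMap (s34x_ring O S) (Localization.AtPrime 𝔫) (s34f_constHom A₀ O hAO S a)) = a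
      rw [s34f_evR_algebraMap, s34f_evB_const] }

/-- the kernel of the section consists of the functions vanishing at `Q`. -/
theorem s34f_evR_eq_zero_iff (x : Localization.AtPrime 𝔫) :
    s34f_evR A₀ O hAO S 𝔫 ϖ hϖ hπ𝔫 Q hQS hdeg hth x = 0 ↔ s34f_van Q (s34f_iota O S 𝔫 x) := by
  obtain ⟨b, s, hs, h⟩ := s34f_exists_frac O S 𝔫 x
  have h1 := congrArg (s34f_iota O S 𝔫) h
  rw [map_mul, s34f_iota_algebraMap, s34f_iota_algebraMap] at h1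
  have h2 := congrArg (s34f_evR A₀ O hAO S 𝔫 ϖ hϖ hπ𝔫 Q hQS hdeg hth) h
  rw [map_mul, s34f_evR_algebraMap, s34f_evR_algebraMap] at h2
  have hsu := s34f_isUnit_evB O S Q hQS hdeg A₀ hAO ϖ hϖ 𝔫 h𝔫.ne_top hπ𝔫 hth hs
  have hs0 : (s : 𝓕) ≠ 0 := by
    intro h0
    apply hs
    have : s = 0 := Subtype.ext h0
    rw [this]; exact 𝔫.zero_mem
  have hsQ : (s : 𝓕) ∈ Q.toValuationSubring := s.2.2 Q hQS
  have hsord : Q.ord (s : 𝓕) = 0 := by
    have hge := s34x_ord_nonneg_of_mem_ring O S s Q hQS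
    by_contra hne
    exact hs (hth s hs0 (lt_of_le_of_ne hge (Ne.symm hne)))
  have hb : s34f_evB O S Q hQS hdeg A₀ hAO ϖ hϖ 𝔫 h𝔫.ne_top hπ𝔫 hth b = 0 ↔
      s34f_van Q (b : 𝓕) := s34f_evB_eq_zero_iff O S Q hQS hdeg A₀ hAO ϖ hϖ 𝔫 h𝔫.ne_top hπ𝔫 hth b
  constructor
  · intro hx
    rw [hx, zero_mul] at h2
    have hvb := hb.mp h2.symm
    rw [← h1] at hvb
    rcases hvb with h0 | hpos
    · left
      exact (mul_eq_zero.mp h0).resolve_right hs0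
    · by_cases hx0 : s34f_iota O S 𝔫 x = 0
      · exact Or.inl hx0
      right
      rwa [Q.ord_mul hx0 hs0, hsord, add_zero] at hpos
  · intro hx
    have hvb : s34f_van Q (b : 𝓕) := by
      rw [← h1, mul_comm]
      exact s34f_van_mul Q hsQ hx
    have := hb.mpr hvb
    rw [this] at h2
    exact (hsu.mul_left_eq_zero).mp h2

include hϖ in
theorem s34f_unif_ne_zero : algebraMap L₀ 𝓕 ((ϖ : A₀) : L₀) ≠ 0 := by
  have h1 : (ϖ : A₀) ≠ 0 := hϖ.ne_zero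
  have h2 : ((ϖ : A₀) : L₀) ≠ 0 := fun h => h1 (Subtype.ext h)
  simpa using h2

/-- **From (LN) in ring form to a local equation of the place.**
(F1) a uniformiser of `Q` in `B`; (F2) separation of `Q` from the other places of the chart. -/
theorem s34f_locEq_of_LN
    (F1 : ∃ u : s34x_ring O S, Q.ord (u : 𝓕) = 1)
    (F2 : ∀ Q' ∈ S, Q' ≠ Q → ∃ y : s34x_ring O S, 0 < Q.ord (y : 𝓕) ∧ Q'.ord (y : 𝓕) = 0)
    (φ : Localization.AtPrime 𝔫)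
    (hφ : s34f_evR A₀ O hAO S 𝔫 ϖ hϖ hπ𝔫 Q hQS hdeg hth φ = 0) (r : ℕ)
    (hr : ∀ y : Localization.AtPrime 𝔫, s34f_evR A₀ O hAO S 𝔫 ϖ hϖ hπ𝔫 Q hQS hdeg hth y = 0 →
      ∃ z, algebraMap (s34x_ring O S) (Localization.AtPrime 𝔫) (s34f_constHom A₀ O hAO S ϖ) ^ r * y =
        φ * z) :
    s34f_LocEq O S 𝔫 Q := by
  have hπ0 := s34f_unif_ne_zero (𝓕 := 𝓕) A₀ ϖ hϖ
  have hπr0 : algebraMap L₀ 𝓕 ((ϖ : A₀) : L₀) ^ r ≠ 0 := pow_ne_zero _ hπ0
  have hordπ : ∀ Q'' : Place L₀ 𝓕, Q''.ord (algebraMap L₀ 𝓕 ((ϖ : A₀) : L₀) ^ r) = 0 := by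
    intro Q''
    rw [← map_pow, ff_ord_algebraMap]
  -- transport of `hr` to the function field, for elements of `B` vanishing at `Q`
  have key : ∀ y : s34x_ring O S, s34f_van Q (y : 𝓕) →
      ∃ z : Localization.AtPrime 𝔫,
        algebraMap L₀ 𝓕 ((ϖ : A₀) : L₀) ^ r * (y : 𝓕) = s34f_iota O S 𝔫 φ * s34f_iota O S 𝔫 z := by
    intro y hy
    have h1 : s34f_evR A₀ O hAO S 𝔫 ϖ hϖ hπ𝔫 Q hQS hdeg hth
        (algebraMap (s34x_ring O S) (Localization.AtPrime 𝔫) y) = 0 := by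
      rw [s34f_evR_algebraMap]
      exact (s34f_evB_eq_zero_iff O S Q hQS hdeg A₀ hAO ϖ hϖ 𝔫 h𝔫.ne_top hπ𝔫 hth y).mpr hy
    obtain ⟨z, hz⟩ := hr _ h1
    refine ⟨z, ?_⟩
    have h2 := congrArg (s34f_iota O S 𝔫) hz
    rw [map_mul, map_pow, s34f_iota_algebraMap, s34f_iota_algebraMap, map_mul,
      s34f_constHom_coe] at h2
    exact h2
  obtain ⟨u, hu⟩ := F1
  have hu0 : (u : 𝓕) ≠ 0 := by
    intro h
    rw [h, Place.ord_zero] at hu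
    exact zero_ne_one hu
  obtain ⟨z, hz⟩ := key u (Or.inr (by rw [hu]; exact zero_lt_one))
  have hlhs0 : algebraMap L₀ 𝓕 ((ϖ : A₀) : L₀) ^ r * (u : 𝓕) ≠ 0 := mul_ne_zero hπr0 hu0
  have hφ0 : s34f_iota O S 𝔫 φ ≠ 0 := by
    intro h
    rw [h, zero_mul] at hz
    exact hlhs0 hz
  have hz0 : s34f_iota O S 𝔫 z ≠ 0 := by
    intro h
    rw [h, mul_zero] at hz
    exact hlhs0 hz
  refine ⟨s34f_iota O S 𝔫 φ, hφ0, ?_, ?_⟩
  · have h1 : Q.ord (algebraMap L₀ 𝓕 ((ϖ : A₀) : L₀) ^ r * (u : 𝓕)) = 1 := by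
      rw [Q.ord_mul hπr0 hu0, hordπ, hu, zero_add]
    rw [hz, Q.ord_mul hφ0 hz0] at h1
    have h2 : 0 < Q.ord (s34f_iota O S 𝔫 φ) :=
      ((s34f_evR_eq_zero_iff A₀ O hAO S 𝔫 ϖ hϖ hπ𝔫 Q hQS hdeg hth φ).mp hφ).resolve_left hφ0
    have h3 := s34f_iota_ord_nonneg O S 𝔫 z Q hQS hth
    omega
  · intro Q' hQ'S hne hth'
    obtain ⟨y, hy1, hy2⟩ := F2 Q' hQ'S hne
    have hy0 : (y : 𝓕) ≠ 0 := by
      intro h
      rw [h, Place.ord_zero] at hy1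
      exact lt_irrefl _ hy1
    obtain ⟨z', hz'⟩ := key y (Or.inr hy1)
    have hz'0 : s34f_iota O S 𝔫 z' ≠ 0 := by
      intro h
      rw [h, mul_zero] at hz'
      exact (mul_ne_zero hπr0 hy0) hz'
    have h1 : Q'.ord (algebraMap L₀ 𝓕 ((ϖ : A₀) : L₀) ^ r * (y : 𝓕)) = 0 := by
      rw [Q'.ord_mul hπr0 hy0, hordπ, hy2, zero_add]
    rw [hz', Q'.ord_mul hφ0 hz'0] at h1
    have h2 := s34f_iota_ord_nonneg O S 𝔫 φ Q' hQ'S hth'
    have h3 := s34f_iota_ord_nonneg O S 𝔫 z' Q' hQ'S hth'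
    omega

variable [hB : IsNoetherianRing (s34x_ring O S)]

include hϖ hπ𝔫 hQS hdeg hth in
/-- **Smooth point**: if `𝔪_R = (t, ϖ)` every place of degree one through `𝔫` has a local
equation. -/
theorem s34f_locEq_of_smooth (t : s34x_ring O S)
    (hm : maximalIdeal (Localization.AtPrime 𝔫) =
      Ideal.span {algebraMap (s34x_ring O S) (Localization.AtPrime 𝔫) t,
        algebraMap (s34x_ring O S) (Localization.AtPrime 𝔫) (s34f_constHom A₀ O hAO S ϖ)})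
    (F1 : ∃ u : s34x_ring O S, Q.ord (u : 𝓕) = 1)
    (F2 : ∀ Q' ∈ S, Q' ≠ Q → ∃ y : s34x_ring O S, 0 < Q.ord (y : 𝓕) ∧ Q'.ord (y : 𝓕) = 0) :
    s34f_LocEq O S 𝔫 Q := by
  letI := s34f_algR A₀ O hAO S 𝔫
  haveI : IsNoetherianRing (Localization.AtPrime 𝔫) :=
    IsLocalization.isNoetherianRing 𝔫.primeCompl _ hB
  have hker := s34n_ker_eq_span_smooth (A := A₀) (R := Localization.AtPrime 𝔫) hϖ
    (t := algebraMap (s34x_ring O S) (Localization.AtPrime 𝔫) t) hm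
    (s34f_evA A₀ O hAO S 𝔫 ϖ hϖ hπ𝔫 Q hQS hdeg hth)
  set φ := algebraMap (s34x_ring O S) (Localization.AtPrime 𝔫) t -
    algebraMap A₀ (Localization.AtPrime 𝔫) ((s34f_evA A₀ O hAO S 𝔫 ϖ hϖ hπ𝔫 Q hQS hdeg hth)
      (algebraMap (s34x_ring O S) (Localization.AtPrime 𝔫) t)) with hφdef
  have hmemker : ∀ y : Localization.AtPrime 𝔫,
      s34f_evR A₀ O hAO S 𝔫 ϖ hϖ hπ𝔫 Q hQS hdeg hth y = 0 ↔
        y ∈ RingHom.ker ((s34f_evA A₀ O hAO S 𝔫 ϖ hϖ hπ𝔫 Q hQS hdeg hth :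
          Localization.AtPrime 𝔫 →ₐ[A₀] A₀) : Localization.AtPrime 𝔫 →+* A₀) := fun y => Iff.rfl
  refine s34f_locEq_of_LN A₀ O hAO S 𝔫 ϖ hϖ hπ𝔫 Q hQS hdeg hth F1 F2 φ ?_ 0 ?_
  · rw [hmemker, hker]
    exact Ideal.subset_span rfl
  · intro y hy
    rw [hmemker, hker, Ideal.mem_span_singleton'] at hy
    obtain ⟨z, hz⟩ := hy
    exact ⟨z, by rw [pow_zero, one_mul, ← hz, mul_comm]⟩

/-- A place of degree one through the node `𝔫` (`𝔪_R = (u₀, w₀, ϖ)`) is GOOD if its section is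
good in the sense of `NSec.lean`. -/
def s34f_Good (u₀ w₀ : s34x_ring O S) : Prop :=
  letI := s34f_algR A₀ O hAO S 𝔫
  s34n_Good ϖ (algebraMap (s34x_ring O S) (Localization.AtPrime 𝔫) u₀)
    (algebraMap (s34x_ring O S) (Localization.AtPrime 𝔫) w₀)
    (s34f_evA A₀ O hAO S 𝔫 ϖ hϖ hπ𝔫 Q hQS hdeg hth)

/-- **Node, good place**: a local equation exists. -/
theorem s34f_locEq_of_good (u₀ w₀ : s34x_ring O S)
    (hm : maximalIdeal (Localization.AtPrime 𝔫) =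
      Ideal.span {algebraMap (s34x_ring O S) (Localization.AtPrime 𝔫) u₀,
        algebraMap (s34x_ring O S) (Localization.AtPrime 𝔫) w₀,
        algebraMap (s34x_ring O S) (Localization.AtPrime 𝔫) (s34f_constHom A₀ O hAO S ϖ)})
    (hgood : s34f_Good A₀ O hAO S 𝔫 ϖ hϖ hπ𝔫 Q hQS hdeg hth u₀ w₀)
    (F1 : ∃ u : s34x_ring O S, Q.ord (u : 𝓕) = 1)
    (F2 : ∀ Q' ∈ S, Q' ≠ Q → ∃ y : s34x_ring O S, 0 < Q.ord (y : 𝓕) ∧ Q'.ord (y : 𝓕) = 0) :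
    s34f_LocEq O S 𝔫 Q := by
  letI := s34f_algR A₀ O hAO S 𝔫
  haveI : IsNoetherianRing (Localization.AtPrime 𝔫) :=
    IsLocalization.isNoetherianRing 𝔫.primeCompl _ hB
  obtain ⟨φ, hφ, r, hr⟩ := s34n_LN_of_good (A := A₀) (R := Localization.AtPrime 𝔫) hϖ hm
    (s34f_evA A₀ O hAO S 𝔫 ϖ hϖ hπ𝔫 Q hQS hdeg hth) hgood
  exact s34f_locEq_of_LN A₀ O hAO S 𝔫 ϖ hϖ hπ𝔫 Q hQS hdeg hth F1 F2 φ hφ r
    (fun y hy => hr y hy)

/-- **Node: two bad places coincide.** -/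
theorem s34f_bad_unique (u₀ w₀ : s34x_ring O S)
    (hm : maximalIdeal (Localization.AtPrime 𝔫) =
      Ideal.span {algebraMap (s34x_ring O S) (Localization.AtPrime 𝔫) u₀,
        algebraMap (s34x_ring O S) (Localization.AtPrime 𝔫) w₀,
        algebraMap (s34x_ring O S) (Localization.AtPrime 𝔫) (s34f_constHom A₀ O hAO S ϖ)})
    (h0 : ∃ β, algebraMap (s34x_ring O S) (Localization.AtPrime 𝔫) u₀ *
      algebraMap (s34x_ring O S) (Localization.AtPrime 𝔫) w₀ =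
        algebraMap (s34x_ring O S) (Localization.AtPrime 𝔫) (s34f_constHom A₀ O hAO S ϖ) * β)
    (Q' : Place L₀ 𝓕) (hQ'S : Q' ∈ S) (hdeg' : Q'.deg = 1) (hth' : s34f_through O S 𝔫 Q')
    (F2 : Q' ≠ Q → ∃ y : s34x_ring O S, 0 < Q.ord (y : 𝓕) ∧ Q'.ord (y : 𝓕) = 0)
    (hbad : ¬ s34f_Good A₀ O hAO S 𝔫 ϖ hϖ hπ𝔫 Q hQS hdeg hth u₀ w₀)
    (hbad' : ¬ s34f_Good A₀ O hAO S 𝔫 ϖ hϖ hπ𝔫 Q' hQ'S hdeg' hth' u₀ w₀) : Q' = Q := by
  letI := s34f_algR A₀ O hAO S 𝔫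
  haveI : IsNoetherianRing (Localization.AtPrime 𝔫) :=
    IsLocalization.isNoetherianRing 𝔫.primeCompl _ hB
  have heq := s34n_bad_unique (A := A₀) (R := Localization.AtPrime 𝔫) hϖ hm h0
    (s34f_evA A₀ O hAO S 𝔫 ϖ hϖ hπ𝔫 Q hQS hdeg hth)
    (s34f_evA A₀ O hAO S 𝔫 ϖ hϖ hπ𝔫 Q' hQ'S hdeg' hth') hbad hbad'
  by_contra hne
  obtain ⟨y, hy1, hy2⟩ := F2 hne
  have hy0 : (y : 𝓕) ≠ 0 := by
    intro h
    rw [h, Place.ord_zero] at hy1
    exact lt_irrefl _ hy1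
  have h1 : s34f_evR A₀ O hAO S 𝔫 ϖ hϖ hπ𝔫 Q hQS hdeg hth
      (algebraMap (s34x_ring O S) (Localization.AtPrime 𝔫) y) = 0 := by
    rw [s34f_evR_algebraMap]
    exact (s34f_evB_eq_zero_iff O S Q hQS hdeg A₀ hAO ϖ hϖ 𝔫 h𝔫.ne_top hπ𝔫 hth y).mpr (Or.inr hy1)
  have h2 : s34f_evR A₀ O hAO S 𝔫 ϖ hϖ hπ𝔫 Q' hQ'S hdeg' hth'
      (algebraMap (s34x_ring O S) (Localization.AtPrime 𝔫) y) = 0 := by
    have := congrArg (fun e : Localization.AtPrime 𝔫 →ₐ[A₀] A₀ =>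
      e (algebraMap (s34x_ring O S) (Localization.AtPrime 𝔫) y)) heq
    have h3 : (s34f_evA A₀ O hAO S 𝔫 ϖ hϖ hπ𝔫 Q' hQ'S hdeg' hth')
        (algebraMap (s34x_ring O S) (Localization.AtPrime 𝔫) y) =
        (s34f_evA A₀ O hAO S 𝔫 ϖ hϖ hπ𝔫 Q hQS hdeg hth)
        (algebraMap (s34x_ring O S) (Localization.AtPrime 𝔫) y) := this.symm
    exact h3.trans h1
  rw [s34f_evR_algebraMap] at h2
  have h4 := (s34f_evB_eq_zero_iff O S Q' hQ'S hdeg' A₀ hAO ϖ hϖ 𝔫 h𝔫.ne_top hπ𝔫 hth' y).mp h2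
  rcases h4 with h | h
  · exact hy0 h
  · rw [hy2] at h
    exact lt_irrefl _ h

end Loc

end Fermat.Agent.Lib.S34
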