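/-
S34 moonshot, package [F′] (helper3), part 4: the LOCAL CONTRACT at a closed point of the special
fibre of a chart, from the element-form structure of the local ring (`DNode`/`MGoursat` output):

* `s34f_AlmostAll O S 𝔫` : at most ONE place of degree one through `𝔫` has no local equation;
* `s34f_almostAll_of_smooth` : `𝔪_R = (t, ϖ)` ⇒ every place of degree one through `𝔫` has a local
  equation;
* `s34f_almostAll_of_node`   : `𝔪_R = (u, w, ϖ)`, `ϖ ∣ u * w` ⇒ `s34f_AlmostAll`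
  (good places have local equations by `s34n_LN_of_good`; two bad places coincide by
  `s34n_bad_unique`).

`R = Localization.AtPrime 𝔫`; (F1) = every place of the chart has a uniformiser in `B`,
(F2) = `B` separates the places of the chart.
-/
import Fermat.Agent.Lib.S34.FLocal

set_option autoImplicit false
set_option linter.style.haveILetI false

noncomputable section

namespace Fermat.Agent.Lib.S34

open AlgebraicCurve Fermat.Agent.Lib.FF Fermat.Agent.Lib.S18 IsLocalRing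

variable {L₀ 𝓕 : Type*} [Field L₀] [Field 𝓕] [Algebra L₀ 𝓕]

/-- At most one place of degree one through `𝔫` has no local equation at `𝔫`. -/
def s34f_AlmostAll (O : Subring 𝓕) (S : Set (Place L₀ 𝓕)) (𝔫 : Ideal (s34x_ring O S)) : Prop :=
  ∀ Q ∈ S, ∀ Q' ∈ S, s34f_through O S 𝔫 Q → s34f_through O S 𝔫 Q' → Q.deg = 1 → Q'.deg = 1 →
    ¬ s34f_LocEq O S 𝔫 Q → ¬ s34f_LocEq O S 𝔫 Q' → Q = Q'

section

variable (A₀ : ValuationSubring L₀) [IsDiscreteValuationRing A₀] (O : Subring 𝓕)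
  (hAO : ∀ a : A₀, algebraMap L₀ 𝓕 (a : L₀) ∈ O) (S : Set (Place L₀ 𝓕))
  [IsNoetherianRing (s34x_ring O S)]
  (ϖ : A₀) (hϖ : Irreducible ϖ)
  (𝔫 : Ideal (s34x_ring O S)) [h𝔫 : 𝔫.IsPrime] (hπ𝔫 : s34f_constHom A₀ O hAO S ϖ ∈ 𝔫)
  (F1 : ∀ Q ∈ S, ∃ u : s34x_ring O S, Q.ord (u : 𝓕) = 1)
  (F2 : ∀ Q ∈ S, ∀ Q' ∈ S, Q' ≠ Q →
    ∃ y : s34x_ring O S, 0 < Q.ord (y : 𝓕) ∧ Q'.ord (y : 𝓕) = 0)

include hϖ hπ𝔫 F1 F2 in
/-- **Smooth point.** -/
theorem s34f_almostAll_of_smooth (t : s34x_ring O S)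
    (hm : maximalIdeal (Localization.AtPrime 𝔫) =
      Ideal.span {algebraMap (s34x_ring O S) (Localization.AtPrime 𝔫) t,
        algebraMap (s34x_ring O S) (Localization.AtPrime 𝔫) (s34f_constHom A₀ O hAO S ϖ)}) :
    s34f_AlmostAll O S 𝔫 := by
  intro Q hQS Q' _ hth _ hdeg _ hno _
  exact absurd (s34f_locEq_of_smooth A₀ O hAO S 𝔫 ϖ hϖ hπ𝔫 Q hQS hdeg hth t hm (F1 Q hQS)
    (F2 Q hQS)) hno

include hϖ hπ𝔫 F1 F2 in
/-- **Node.** -/
theorem s34f_almostAll_of_node (u₀ w₀ : s34x_ring O S)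
    (hm : maximalIdeal (Localization.AtPrime 𝔫) =
      Ideal.span {algebraMap (s34x_ring O S) (Localization.AtPrime 𝔫) u₀,
        algebraMap (s34x_ring O S) (Localization.AtPrime 𝔫) w₀,
        algebraMap (s34x_ring O S) (Localization.AtPrime 𝔫) (s34f_constHom A₀ O hAO S ϖ)})
    (h0 : ∃ β : s34x_ring O S, u₀ * w₀ = s34f_constHom A₀ O hAO S ϖ * β) :
    s34f_AlmostAll O S 𝔫 := by
  intro Q hQS Q' hQ'S hth hth' hdeg hdeg' hno hno'
  have hbad : ¬ s34f_Good A₀ O hAO S 𝔫 ϖ hϖ hπ𝔫 Q hQS hdeg hth u₀ w₀ := fun hg =>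
    hno (s34f_locEq_of_good A₀ O hAO S 𝔫 ϖ hϖ hπ𝔫 Q hQS hdeg hth u₀ w₀ hm hg (F1 Q hQS) (F2 Q hQS))
  have hbad' : ¬ s34f_Good A₀ O hAO S 𝔫 ϖ hϖ hπ𝔫 Q' hQ'S hdeg' hth' u₀ w₀ := fun hg =>
    hno' (s34f_locEq_of_good A₀ O hAO S 𝔫 ϖ hϖ hπ𝔫 Q' hQ'S hdeg' hth' u₀ w₀ hm hg (F1 Q' hQ'S)
      (F2 Q' hQ'S))
  have h0' : ∃ β, algebraMap (s34x_ring O S) (Localization.AtPrime 𝔫) u₀ *
      algebraMap (s34x_ring O S) (Localization.AtPrime 𝔫) w₀ =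
        algebraMap (s34x_ring O S) (Localization.AtPrime 𝔫) (s34f_constHom A₀ O hAO S ϖ) * β := by
    obtain ⟨β, hβ⟩ := h0
    exact ⟨algebraMap _ _ β, by rw [← map_mul, hβ, map_mul]⟩
  exact (s34f_bad_unique A₀ O hAO S 𝔫 ϖ hϖ hπ𝔫 Q hQS hdeg hth u₀ w₀ hm h0' Q' hQ'S hdeg' hth'
    (fun hne => F2 Q hQS Q' hQ'S hne) hbad hbad').symm

end

end Fermat.Agent.Lib.S34
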