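/-
S34 moonshot ([SS] ⇒ S34), package [M](D) (helper1): THE NODAL STRUCTURE OF A TWO-COMPONENT SPECIAL
FIBRE, abstractly (Mathlib only, no completions, no Goursat, no rationality of the crossing points).

Setting: `B` a commutative ring (the chart ring of `X₀(qM)` over the DVR `A₀`), `ϖ ∈ B`,
`r₁ : B →+* κ₁`, `r₂ : B →+* κ₂` two ring homomorphisms into FIELDS (the reductions at the two
vertical valuations `v_∞`, `v_0`; NOT assumed surjective) with `ker r₁ ∩ ker r₂ = ϖB` (purity).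

* `s34d_LocGenAt r 𝔫 t` : `t ∈ 𝔫` and `𝔫 = (t)` locally at `𝔫` modulo `ker r`
  (`∀ y ∈ 𝔫, ∃ c ∉ 𝔫, ∃ z, r (c y) = r (z t)`).
* `s34d_locGenAt_sub_pow` : TRANSVERSALITY / Frobenius-graph lemma: if `t` is such a local generator,
  `b ∈ 𝔫` and `2 ≤ q`, then `t - b ^ q` is again a local generator.
* `s34d_exists_locGenAt` : if the field `κ` is the fraction field of a DEDEKIND domain `D'` all of
  whose elements lift to `B` (so `r(B)` is an overring of `D'`), every prime `𝔫 ⊇ ker r` of `B` has a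
  local generator modulo `ker r` which is a lift of an element of `D'`.
* `s34d_smooth`, `s34d_node` : the local presentations `𝔫 B_𝔫 = (t, ϖ)` resp. `(u, w, ϖ)`,
  `ϖ ∣ u w`, elementwise.
* `s34d_dichotomy` : THE DICHOTOMY: if `κ_i = Frac D'_i`, `D'_i` Dedekind, elements of `D'_1` lift to
  `g ∈ B` with `r₂ g ∈ r₂(B)^q` and elements of `D'_2` lift to `g ∈ B` with `r₁ g ∈ r₁(B)^q`
  (`α(g) ↦ (ḡ, Φḡ)`, `β(g) ↦ (Φḡ, ḡ)`, `Φ` a `q`-Frobenius), every prime `𝔫 ∋ ϖ` of `B` is a smooth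
  point or a weak node.
* `s34d_maximalIdeal_eq_span_pair/triple` : the same in `Localization.AtPrime 𝔫`, in the shape of
  helper8's `NSec.lean` (`maximalIdeal R = span {u, w, ϖ}`, `u * w = ϖ * β`).
-/
import Mathlib

set_option autoImplicit false

namespace Fermat.Agent.Lib.S34

open IsDedekindDomain

section LocGen

variable {B κ : Type*} [CommRing B] [CommRing κ]

/-- `t ∈ 𝔫` generates `𝔫` locally at `𝔫`, modulo the kernel of `r`. -/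
def s34d_LocGenAt (r : B →+* κ) (𝔫 : Ideal B) (t : B) : Prop :=
  t ∈ 𝔫 ∧ ∀ y ∈ 𝔫, ∃ c, c ∉ 𝔫 ∧ ∃ z, r (c * y) = r (z * t)

/-- **Transversality (Frobenius-graph lemma).**  A local generator stays a local generator after
subtracting a `q`-th power (`q ≥ 2`) of an element of `𝔫`. -/
theorem s34d_locGenAt_sub_pow {r : B →+* κ} {𝔫 : Ideal B} [h𝔫 : 𝔫.IsPrime] {t b : B}
    (ht : s34d_LocGenAt r 𝔫 t) (hb : b ∈ 𝔫) {q : ℕ} (hq : 2 ≤ q) :
    s34d_LocGenAt r 𝔫 (t - b ^ q) := by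
  obtain ⟨k, rfl⟩ : ∃ k, q = k + 1 + 1 := ⟨q - 2, by omega⟩
  obtain ⟨htn, hgen⟩ := ht
  refine ⟨𝔫.sub_mem htn (𝔫.pow_mem_of_mem hb _ (by omega)), ?_⟩
  obtain ⟨c, hc, z, hcz⟩ := hgen b hb
  -- the unit `c' = c ^ q - z ^ q t ^ (q - 1)`
  have hc' : c ^ (k + 1 + 1) - z ^ (k + 1 + 1) * t ^ (k + 1) ∉ 𝔫 := by
    intro h
    have h1 : z ^ (k + 1 + 1) * t ^ (k + 1) ∈ 𝔫 :=
      𝔫.mul_mem_left _ (𝔫.pow_mem_of_mem htn _ (by omega))
    have h2 : c ^ (k + 1 + 1) ∈ 𝔫 := by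
      have := 𝔫.add_mem h h1
      rwa [sub_add_cancel] at this
    exact hc (h𝔫.mem_of_pow_mem _ h2)
  intro y hy
  obtain ⟨c₁, hc₁, z₁, h₁⟩ := hgen y hy
  refine ⟨(c ^ (k + 1 + 1) - z ^ (k + 1 + 1) * t ^ (k + 1)) * c₁, ?_, z₁ * c ^ (k + 1 + 1), ?_⟩
  · intro h
    rcases h𝔫.mem_or_mem h with h | h
    · exact hc' h
    · exact hc₁ h
  · have e1 : r c * r b = r z * r t := by rw [← map_mul, ← map_mul]; exact hcz
    have e2 : r c₁ * r y = r z₁ * r t := by rw [← map_mul, ← map_mul]; exact h₁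
    simp only [map_mul, map_sub, map_pow]
    have e3 : (r c * r b) ^ (k + 1 + 1) = (r z * r t) ^ (k + 1 + 1) := by rw [e1]
    linear_combination (r c ^ (k + 1 + 1) - r z ^ (k + 1 + 1) * r t ^ (k + 1)) * e2 + r z₁ * e3

end LocGen

section Dedekind

variable {B κ D' : Type*} [CommRing B] [Field κ] [CommRing D'] [IsDedekindDomain D']
  [Algebra D' κ] [IsFractionRing D' κ]

/-- **Overrings of a Dedekind domain are locally principal.**  `κ = Frac D'`, `D'` Dedekind,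
`r : B →+* κ` with every element of `D'` in its image; `𝔫 ⊇ ker r` a prime of `B`.  Then `𝔫` has a
local generator modulo `ker r`, which can be taken to be ANY lift of a suitable element of `D'`. -/
theorem s34d_exists_locGenAt (r : B →+* κ) (hlift : ∀ d : D', ∃ g : B, r g = algebraMap D' κ d)
    (𝔫 : Ideal B) [h𝔫 : 𝔫.IsPrime] (hker : RingHom.ker r ≤ 𝔫) :
    ∃ d : D', ∀ t : B, r t = algebraMap D' κ d → s34d_LocGenAt r 𝔫 t := by
  classical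
  -- membership in `𝔫` only depends on the image under `r`
  have hmem : ∀ {g g' : B}, r g = r g' → g ∈ 𝔫 → g' ∈ 𝔫 := by
    intro g g' h hg
    have : g' - g ∈ 𝔫 := hker (by rw [RingHom.mem_ker, map_sub, h, sub_self])
    have := 𝔫.add_mem this hg
    rwa [sub_add_cancel] at this
  -- the contraction of `𝔫` to `D'`
  let 𝔪 : Ideal D' :=
    { carrier := {d | ∀ g : B, r g = algebraMap D' κ d → g ∈ 𝔫}
      zero_mem' := by
        intro g hg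
        rw [map_zero] at hg
        exact hker hg
      add_mem' := by
        intro a b ha hb g hg
        obtain ⟨ga, hga⟩ := hlift a
        obtain ⟨gb, hgb⟩ := hlift b
        refine hmem (g := ga + gb) ?_ (𝔫.add_mem (ha ga hga) (hb gb hgb))
        rw [map_add, hga, hgb, hg, map_add]
      smul_mem' := by
        intro c a ha g hg
        obtain ⟨ga, hga⟩ := hlift a
        obtain ⟨gc, hgc⟩ := hlift c
        refine hmem (g := gc * ga) ?_ (𝔫.mul_mem_left _ (ha ga hga))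
        rw [map_mul, hga, hgc, hg, smul_eq_mul, map_mul] }
  have h𝔪 : ∀ d : D', d ∈ 𝔪 ↔ ∀ g : B, r g = algebraMap D' κ d → g ∈ 𝔫 := fun _ => Iff.rfl
  have h𝔪' : ∀ (d : D') (g : B), r g = algebraMap D' κ d → (d ∈ 𝔪 ↔ g ∈ 𝔫) := by
    intro d g hg
    refine ⟨fun h => h g hg, fun h g' hg' => hmem (hg.trans hg'.symm) h⟩
  have h𝔪prime : 𝔪.IsPrime := by
    refine ⟨?_, ?_⟩
    · intro htop
      have h1 : (1 : D') ∈ 𝔪 := by rw [htop]; exact Submodule.mem_top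
      exact h𝔫.ne_top ((Ideal.eq_top_iff_one _).mpr (h1 1 (by rw [map_one, map_one])))
    · intro a b hab
      obtain ⟨ga, hga⟩ := hlift a
      obtain ⟨gb, hgb⟩ := hlift b
      have : ga * gb ∈ 𝔫 := hab (ga * gb) (by rw [map_mul, hga, hgb, map_mul])
      rcases h𝔫.mem_or_mem this with h | h
      · exact Or.inl ((h𝔪' a ga hga).mpr h)
      · exact Or.inr ((h𝔪' b gb hgb).mpr h)
  by_cases hbot : 𝔪 = ⊥
  · -- `𝔫` is the kernel of `r` locally: `t = ` any lift of `0`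
    refine ⟨0, fun t ht => ⟨hker (by rw [RingHom.mem_ker, ht, map_zero]), fun y hy => ?_⟩⟩
    obtain ⟨a, s, hs, e⟩ := IsFractionRing.div_surjective (A := D') (r y)
    have hs0 : algebraMap D' κ s ≠ 0 :=
      IsFractionRing.to_map_ne_zero_of_mem_nonZeroDivisors hs
    obtain ⟨gs, hgs⟩ := hlift s
    obtain ⟨ga, hga⟩ := hlift a
    have hsy : r (gs * y) = r ga := by
      rw [map_mul, hgs, hga, ← e]; field_simp
    have hga𝔫 : ga ∈ 𝔫 := hmem hsy (𝔫.mul_mem_left _ hy)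
    have ha0 : a = 0 := by
      have : a ∈ 𝔪 := (h𝔪' a ga hga).mpr hga𝔫
      rwa [hbot, Ideal.mem_bot] at this
    refine ⟨gs, ?_, 0, ?_⟩
    · intro h
      have : s ∈ 𝔪 := (h𝔪' s gs hgs).mpr h
      rw [hbot, Ideal.mem_bot] at this
      rw [this, map_zero] at hs0
      exact hs0 rfl
    · rw [hsy, hga, ha0, map_zero, zero_mul, map_zero]
  · -- the DVR case
    let v : HeightOneSpectrum D' := ⟨𝔪, h𝔪prime, hbot⟩
    have hmax : 𝔪.IsMaximal := h𝔪prime.isMaximal hbot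
    obtain ⟨t₀, ht₀, ht₀'⟩ := Ideal.exists_mem_pow_notMem_pow_succ 𝔪 hbot h𝔪prime.ne_top 1
    rw [pow_one] at ht₀
    -- local principality of `𝔪` in `D'`
    have hloc : ∀ a ∈ 𝔪, ∃ c, c ∉ 𝔪 ∧ ∃ z, c * a = z * t₀ := by
      intro a ha
      have ht₀0 : algebraMap D' κ t₀ ≠ 0 := by
        intro h0
        have : t₀ = 0 := (IsFractionRing.injective D' κ) (by rw [h0, map_zero])
        apply ht₀'
        rw [this]; exact Ideal.zero_mem _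
      obtain ⟨n, d, h | h⟩ := v.exists_primeCompl_mul_eq_or_mul_eq
        (algebraMap D' κ a / algebraMap D' κ t₀)
      · refine ⟨d, d.2, n, ?_⟩
        apply IsFractionRing.injective D' κ
        rw [map_mul, map_mul]
        field_simp at h
        linear_combination h
      · -- `a n = d t₀` with `d ∉ 𝔪`, `a ∈ 𝔪`, `t₀ ∉ 𝔪²` forces `n ∉ 𝔪`
        have e : a * n = (d : D') * t₀ := by
          apply IsFractionRing.injective D' κ
          rw [map_mul, map_mul]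
          field_simp at h
          linear_combination h
        refine ⟨n, ?_, d, by rw [mul_comm, e]⟩
        intro hn
        apply ht₀'
        -- `d` is invertible modulo `𝔪`
        have hd : (d : D') ∉ 𝔪 := d.2
        obtain ⟨e', m', hm', hem⟩ := hmax.exists_inv hd
        have h1 : t₀ = e' * ((d : D') * t₀) + m' * t₀ := by linear_combination (-t₀) * hem
        rw [h1, ← e, pow_succ, pow_one]
        exact Ideal.add_mem _ (Ideal.mul_mem_left _ _ (Ideal.mul_mem_mul ha hn))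
          (Ideal.mul_mem_mul hm' ht₀)
    refine ⟨t₀, fun t ht => ⟨(h𝔪' t₀ t ht).mp ht₀, fun y hy => ?_⟩⟩
    obtain ⟨n, d, h | h⟩ := v.exists_primeCompl_mul_eq_or_mul_eq (r y)
    · obtain ⟨gd, hgd⟩ := hlift d
      obtain ⟨gn, hgn⟩ := hlift n
      have hyd : r (y * gd) = r gn := by rw [map_mul, hgd, hgn]; exact h
      have hgn𝔫 : gn ∈ 𝔫 := hmem hyd (𝔫.mul_mem_right _ hy)
      have hn : n ∈ 𝔪 := (h𝔪' n gn hgn).mpr hgn𝔫
      obtain ⟨c, hc, z, hcz⟩ := hloc n hn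
      obtain ⟨gc, hgc⟩ := hlift c
      obtain ⟨gz, hgz⟩ := hlift z
      refine ⟨gc * gd, ?_, gz, ?_⟩
      · intro hmul
        rcases h𝔫.mem_or_mem hmul with h' | h'
        · exact hc ((h𝔪' c gc hgc).mpr h')
        · exact d.2 ((h𝔪' d gd hgd).mpr h')
      · have : r (gc * gd * y) = r gc * r (y * gd) := by
          simp only [map_mul]; ring
        rw [this, hyd, hgc, hgn, map_mul, hgz, ht, ← map_mul, ← map_mul, hcz]
    · exfalso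
      obtain ⟨gd, hgd⟩ := hlift d
      obtain ⟨gn, hgn⟩ := hlift n
      have hyn : r (y * gn) = r gd := by rw [map_mul, hgd, hgn]; exact h
      have : gd ∈ 𝔫 := hmem hyn (𝔫.mul_mem_right _ hy)
      exact d.2 ((h𝔪' d gd hgd).mpr this)

end Dedekind

section Two

variable {B κ₁ κ₂ : Type*} [CommRing B] [CommRing κ₁] [CommRing κ₂]
  (ϖ : B) (r₁ : B →+* κ₁) (r₂ : B →+* κ₂)

/-- **Smooth point**: `𝔫` lies on the first component only (`s ∈ ker r₂ ∖ 𝔫`); a local generator `t`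
of `𝔫` modulo `ker r₁` gives `𝔫 B_𝔫 = (t, ϖ)`. -/
theorem s34d_smooth (hker : ∀ b, r₁ b = 0 → r₂ b = 0 → ϖ ∣ b) (𝔫 : Ideal B) [h𝔫 : 𝔫.IsPrime]
    {s : B} (hs₂ : r₂ s = 0) (hs : s ∉ 𝔫) {t : B} (ht : s34d_LocGenAt r₁ 𝔫 t) :
    ∀ y ∈ 𝔫, ∃ c, c ∉ 𝔫 ∧ ∃ z b, c * y = z * t + b * ϖ := by
  intro y hy
  obtain ⟨c, hc, z, hcz⟩ := ht.2 y hy
  obtain ⟨b, hb⟩ := hker (s * (c * y - z * t))
    (by rw [map_mul, map_sub, hcz, sub_self, mul_zero]) (by rw [map_mul, hs₂, zero_mul])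
  refine ⟨s * c, fun h => (h𝔫.mem_or_mem h).elim hs hc, s * z, b, ?_⟩
  linear_combination hb

/-- **Weak node**: `u ∈ ker r₂` a local generator of `𝔫` modulo `ker r₁`, `w ∈ ker r₁` a local generator
modulo `ker r₂`: then `ϖ ∣ u w` and `𝔫 B_𝔫 = (u, w, ϖ)`. -/
theorem s34d_node (hker : ∀ b, r₁ b = 0 → r₂ b = 0 → ϖ ∣ b) (𝔫 : Ideal B) [h𝔫 : 𝔫.IsPrime]
    {u w : B} (hu : s34d_LocGenAt r₁ 𝔫 u) (hu₂ : r₂ u = 0)
    (hw : s34d_LocGenAt r₂ 𝔫 w) (hw₁ : r₁ w = 0) :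
    ϖ ∣ u * w ∧ ∀ y ∈ 𝔫, ∃ c, c ∉ 𝔫 ∧ ∃ z z' b, c * y = z * u + z' * w + b * ϖ := by
  refine ⟨hker _ (by rw [map_mul, hw₁, mul_zero]) (by rw [map_mul, hu₂, zero_mul]), ?_⟩
  intro y hy
  obtain ⟨c, hc, z, hcz⟩ := hu.2 y hy
  have hy₁ : c * y - z * u ∈ 𝔫 := 𝔫.sub_mem (𝔫.mul_mem_left _ hy) (𝔫.mul_mem_left _ hu.1)
  obtain ⟨c', hc', z', hcz'⟩ := hw.2 _ hy₁
  obtain ⟨b, hb⟩ := hker (c' * (c * y - z * u) - z' * w)
    (by rw [map_sub, map_mul, map_sub, hcz, sub_self, mul_zero, map_mul, hw₁, mul_zero, sub_zero])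
    (by rw [map_sub, hcz', sub_self])
  refine ⟨c' * c, fun h => (h𝔫.mem_or_mem h).elim hc' hc, c' * z, z', b, ?_⟩
  linear_combination hb

end Two

section Dichotomy

variable {B κ₁ κ₂ D₁ D₂ : Type*} [CommRing B] [Field κ₁] [Field κ₂]
  [CommRing D₁] [IsDedekindDomain D₁] [Algebra D₁ κ₁] [IsFractionRing D₁ κ₁]
  [CommRing D₂] [IsDedekindDomain D₂] [Algebra D₂ κ₂] [IsFractionRing D₂ κ₂]

/-- **The dichotomy.**  `r₁ : B → κ₁`, `r₂ : B → κ₂` with `ker r₁ ∩ ker r₂ ⊆ ϖB`; `κ_i = Frac D_i` with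
`D_i` Dedekind; every `d ∈ D₁` lifts to `g ∈ B` (`r₁ g = d`) whose second reduction is a `q`-th power
in `r₂(B)`, and symmetrically (`q ≥ 2`).  Then every prime `𝔫 ∋ ϖ` of `B` is
* a SMOOTH point: `𝔫 B_𝔫 = (t, ϖ)`, or
* a WEAK NODE: `𝔫 B_𝔫 = (u, w, ϖ)` with `ϖ ∣ u w`. -/
theorem s34d_dichotomy (ϖ : B) (r₁ : B →+* κ₁) (r₂ : B →+* κ₂)
    (hker : ∀ b, r₁ b = 0 → r₂ b = 0 → ϖ ∣ b) (q : ℕ) (hq : 2 ≤ q)
    (hα : ∀ d : D₁, ∃ g : B, r₁ g = algebraMap D₁ κ₁ d ∧ ∃ b : B, r₂ g = r₂ b ^ q)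
    (hβ : ∀ d : D₂, ∃ g : B, r₂ g = algebraMap D₂ κ₂ d ∧ ∃ b : B, r₁ g = r₁ b ^ q)
    (𝔫 : Ideal B) [h𝔫 : 𝔫.IsPrime] (hϖ𝔫 : ϖ ∈ 𝔫) :
    (∃ t ∈ 𝔫, ∀ y ∈ 𝔫, ∃ c, c ∉ 𝔫 ∧ ∃ z b, c * y = z * t + b * ϖ) ∨
    (∃ u ∈ 𝔫, ∃ w ∈ 𝔫, ϖ ∣ u * w ∧
      ∀ y ∈ 𝔫, ∃ c, c ∉ 𝔫 ∧ ∃ z z' b, c * y = z * u + z' * w + b * ϖ) := by
  have hker' : ∀ b, r₂ b = 0 → r₁ b = 0 → ϖ ∣ b := fun b h2 h1 => hker b h1 h2
  have hboth : ∀ b, r₁ b = 0 → r₂ b = 0 → b ∈ 𝔫 := by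
    intro b h1 h2
    obtain ⟨c, rfl⟩ := hker b h1 h2
    exact 𝔫.mul_mem_right _ hϖ𝔫
  have hl₁ : ∀ d : D₁, ∃ g : B, r₁ g = algebraMap D₁ κ₁ d := fun d => (hα d).imp fun _ h => h.1
  have hl₂ : ∀ d : D₂, ∃ g : B, r₂ g = algebraMap D₂ κ₂ d := fun d => (hβ d).imp fun _ h => h.1
  by_cases h2 : RingHom.ker r₂ ≤ 𝔫
  · by_cases h1 : RingHom.ker r₁ ≤ 𝔫
    · -- a crossing point
      right
      obtain ⟨d₁, hd₁⟩ := s34d_exists_locGenAt r₁ hl₁ 𝔫 h1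
      obtain ⟨d₂, hd₂⟩ := s34d_exists_locGenAt r₂ hl₂ 𝔫 h2
      obtain ⟨g₁, hg₁, b₁, hb₁⟩ := hα d₁
      obtain ⟨g₂, hg₂, b₂, hb₂⟩ := hβ d₂
      have hG₁ := hd₁ g₁ hg₁
      have hG₂ := hd₂ g₂ hg₂
      have hu₂ : r₂ (g₁ - b₁ ^ q) = 0 := by rw [map_sub, map_pow, hb₁, sub_self]
      have hw₁ : r₁ (g₂ - b₂ ^ q) = 0 := by rw [map_sub, map_pow, hb₂, sub_self]
      have hq0 : q ≠ 0 := by omega
      have hb₁𝔫 : b₁ ∈ 𝔫 := by
        have h : g₁ - b₁ ^ q ∈ 𝔫 := h2 hu₂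
        have h' : b₁ ^ q ∈ 𝔫 := by
          have := 𝔫.sub_mem hG₁.1 h
          rwa [sub_sub_cancel] at this
        exact h𝔫.mem_of_pow_mem _ h'
      have hb₂𝔫 : b₂ ∈ 𝔫 := by
        have h : g₂ - b₂ ^ q ∈ 𝔫 := h1 hw₁
        have h' : b₂ ^ q ∈ 𝔫 := by
          have := 𝔫.sub_mem hG₂.1 h
          rwa [sub_sub_cancel] at this
        exact h𝔫.mem_of_pow_mem _ h'
      have hU := s34d_locGenAt_sub_pow hG₁ hb₁𝔫 hq
      have hW := s34d_locGenAt_sub_pow hG₂ hb₂𝔫 hq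
      obtain ⟨hdvd, hgen⟩ := s34d_node ϖ r₁ r₂ hker 𝔫 hU hu₂ hW hw₁
      exact ⟨_, hU.1, _, hW.1, hdvd, hgen⟩
    · -- on the second component only
      left
      obtain ⟨s, hs, hs𝔫⟩ := SetLike.not_le_iff_exists.mp h1
      obtain ⟨d₂, hd₂⟩ := s34d_exists_locGenAt r₂ hl₂ 𝔫 h2
      obtain ⟨g₂, hg₂⟩ := hl₂ d₂
      have hG₂ := hd₂ g₂ hg₂
      exact ⟨g₂, hG₂.1, s34d_smooth ϖ r₂ r₁ hker' 𝔫 hs hs𝔫 hG₂⟩
  · -- on the first component only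
    left
    obtain ⟨s, hs, hs𝔫⟩ := SetLike.not_le_iff_exists.mp h2
    have h1 : RingHom.ker r₁ ≤ 𝔫 := by
      intro a ha
      have : a * s ∈ 𝔫 := hboth _ (by rw [map_mul, ha, zero_mul]) (by rw [map_mul, hs, mul_zero])
      exact (h𝔫.mem_or_mem this).resolve_right hs𝔫
    obtain ⟨d₁, hd₁⟩ := s34d_exists_locGenAt r₁ hl₁ 𝔫 h1
    obtain ⟨g₁, hg₁⟩ := hl₁ d₁
    have hG₁ := hd₁ g₁ hg₁
    exact ⟨g₁, hG₁.1, s34d_smooth ϖ r₁ r₂ hker 𝔫 hs hs𝔫 hG₁⟩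

end Dichotomy

section Localization

variable {B : Type*} [CommRing B]

/-- Local generation, in the localization: if every `y ∈ 𝔫` is moved into `span T` (`T ⊆ 𝔫`) by some
`c ∉ 𝔫`, the maximal ideal of `B_𝔫` is generated by the image of `T`. -/
theorem s34d_maximalIdeal_eq_span (𝔫 : Ideal B) [h𝔫 : 𝔫.IsPrime] (T : Set B) (hT : T ⊆ 𝔫)
    (h : ∀ y ∈ 𝔫, ∃ c, c ∉ 𝔫 ∧ c * y ∈ Ideal.span T) :
    IsLocalRing.maximalIdeal (Localization.AtPrime 𝔫) =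
      Ideal.span (algebraMap B (Localization.AtPrime 𝔫) '' T) := by
  rw [← Localization.AtPrime.map_eq_maximalIdeal, ← Ideal.map_span]
  apply le_antisymm
  · rw [Ideal.map_le_iff_le_comap]
    intro y hy
    obtain ⟨c, hc, hcy⟩ := h y hy
    rw [Ideal.mem_comap]
    have hu : IsUnit (algebraMap B (Localization.AtPrime 𝔫) c) :=
      IsLocalization.map_units (Localization.AtPrime 𝔫) (⟨c, hc⟩ : 𝔫.primeCompl)
    have hmem : algebraMap B (Localization.AtPrime 𝔫) (c * y) ∈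
        Ideal.map (algebraMap B (Localization.AtPrime 𝔫)) (Ideal.span T) :=
      Ideal.mem_map_of_mem _ hcy
    rw [map_mul] at hmem
    exact (Ideal.unit_mul_mem_iff_mem _ hu).mp hmem
  · exact Ideal.map_mono (Ideal.span_le.mpr hT)

/-- smooth point, in the shape of helper8's `s34n_ker_eq_span_smooth`. -/
theorem s34d_maximalIdeal_eq_span_pair (𝔫 : Ideal B) [h𝔫 : 𝔫.IsPrime] {t ϖ : B} (ht : t ∈ 𝔫)
    (hϖ : ϖ ∈ 𝔫) (h : ∀ y ∈ 𝔫, ∃ c, c ∉ 𝔫 ∧ ∃ z b, c * y = z * t + b * ϖ) :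
    IsLocalRing.maximalIdeal (Localization.AtPrime 𝔫) =
      Ideal.span {algebraMap B (Localization.AtPrime 𝔫) t,
        algebraMap B (Localization.AtPrime 𝔫) ϖ} := by
  rw [s34d_maximalIdeal_eq_span 𝔫 {t, ϖ}
    (by intro x hx; rcases hx with rfl | rfl <;> assumption)
    (by
      intro y hy
      obtain ⟨c, hc, z, b, e⟩ := h y hy
      exact ⟨c, hc, by rw [e, Ideal.mem_span_pair]; exact ⟨z, b, rfl⟩⟩)]
  rw [Set.image_pair]

/-- weak node, in the shape of helper8's `s34n_IsPair`/`hm`. -/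
theorem s34d_maximalIdeal_eq_span_triple (𝔫 : Ideal B) [h𝔫 : 𝔫.IsPrime] {u w ϖ : B} (hu : u ∈ 𝔫)
    (hw : w ∈ 𝔫) (hϖ : ϖ ∈ 𝔫)
    (h : ∀ y ∈ 𝔫, ∃ c, c ∉ 𝔫 ∧ ∃ z z' b, c * y = z * u + z' * w + b * ϖ) :
    IsLocalRing.maximalIdeal (Localization.AtPrime 𝔫) =
      Ideal.span {algebraMap B (Localization.AtPrime 𝔫) u,
        algebraMap B (Localization.AtPrime 𝔫) w, algebraMap B (Localization.AtPrime 𝔫) ϖ} := by
  rw [s34d_maximalIdeal_eq_span 𝔫 {u, w, ϖ}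
    (by intro x hx; rcases hx with rfl | rfl | rfl <;> assumption)
    (by
      intro y hy
      obtain ⟨c, hc, z, z', b, e⟩ := h y hy
      refine ⟨c, hc, ?_⟩
      rw [e, Ideal.mem_span_insert]
      exact ⟨z, z' * w + b * ϖ, Ideal.mem_span_pair.mpr ⟨z', b, rfl⟩, by ring⟩)]
  rw [Set.image_insert_eq, Set.image_pair]

end Localization

end Fermat.Agent.Lib.S34
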