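/-
S34 moonshot, package [M]/(E) (helper6), part 4 = (V4): THE TWO REDUCTIONS `red_∞`, `red_0` and the
Kronecker pairs.

`red_∞ := s18g_redV : V_∞ →+* κ((T))`, `red_0 := red_∞ ∘ w_q : V_0 →+* κ((T))`, `Φ := qExpand κ q`
(`T ↦ T^q`).  For `r ∈ V_M` (Gauss ring of level `M`):

* `α r ∈ V_∞ ⊓ V_0`, `red_∞ (α r) = red_M r`, `red_0 (α r) = Φ (red_M r)`;
* `β r ∈ V_∞ ⊓ V_0`, `red_∞ (β r) = Φ (red_M r)`, `red_0 (β r) = red_M r`;
* `s34m_mem_unif_mul_of_red`: `y ∈ V_∞ ⊓ V_0` with `red_∞ y = 0 = red_0 y` lies in `ϖ (V_∞ ⊓ V_0)`.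
-/
import Fermat.Agent.Lib.S34.MVal

set_option autoImplicit false
set_option linter.unusedSectionVars false

noncomputable section

namespace Fermat.Agent.Lib.S34

open ModularCurve AlgebraicCurve HahnSeries Fermat.Agent.Lib.FF Fermat.Agent.Lib.S18
  Fermat.Agent.Lib.S37

local notation "Kb" => AlgebraicClosure ℚ

variable {K₀ : Type*} [Field K₀] [Algebra ℚ K₀] {κ : Type*} [Field κ] (G : s18g_GaussData K₀ κ)

/-! ### `T ↦ T^n` on the Gauss ring -/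

theorem s34m_iota_qExpand (n : ℕ) [NeZero n] (P : LaurentSeries G.A) :
    s18g_iota G (qExpand G.A n P) = qExpand K₀ n (s18g_iota G P) :=
  ffb_coeffMap_qExpand (d := n) G.A.subtype P

theorem s34m_rho_qExpand (n : ℕ) [NeZero n] (P : LaurentSeries G.A) :
    s18g_rho G (qExpand G.A n P) = qExpand κ n (s18g_rho G P) :=
  ffb_coeffMap_qExpand (d := n) G.π P

theorem s34m_qExpand_injective (R : Type*) [CommRing R] (n : ℕ) [NeZero n] :
    Function.Injective (qExpand R n) := by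
  intro f g h
  ext k
  have := congrArg (fun x => x.coeff ((n : ℤ) * k)) h
  simpa using this

/-- `T ↦ T^n` preserves the Gauss ring. -/
theorem s34m_qExpand_mem_O (n : ℕ) [NeZero n] {f : LaurentSeries K₀} (hf : f ∈ s18g_O G) :
    qExpand K₀ n f ∈ s18g_O G := by
  obtain ⟨P, Q, hQ, h⟩ := hf
  refine ⟨qExpand G.A n P, qExpand G.A n Q, ?_, ?_⟩
  · rw [s34m_rho_qExpand]
    exact fun h0 => hQ (s34m_qExpand_injective κ n (by rw [h0, map_zero]))
  · rw [s34m_iota_qExpand, s34m_iota_qExpand, ← h, map_mul]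

/-- `T ↦ T^n` commutes with the Gauss reduction. -/
theorem s34m_red_qExpand (n : ℕ) [NeZero n] (f : s18g_O G) :
    s18g_red G ⟨qExpand K₀ n (f : LaurentSeries K₀), s34m_qExpand_mem_O G n f.2⟩ =
      qExpand κ n (s18g_red G f) := by
  obtain ⟨P, Q, hQ, h⟩ := f.2
  have hQ' : s18g_rho G (qExpand G.A n Q) ≠ 0 := by
    rw [s34m_rho_qExpand]
    exact fun h0 => hQ (s34m_qExpand_injective κ n (by rw [h0, map_zero]))
  rw [s18g_red_eq G f P Q hQ h,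
    s18g_red_eq G _ (qExpand G.A n P) (qExpand G.A n Q) hQ'
      (by
        show s18g_iota G _ * qExpand K₀ n (f : LaurentSeries K₀) = _
        rw [s34m_iota_qExpand, s34m_iota_qExpand, ← h, map_mul]),
    s34m_rho_qExpand, s34m_rho_qExpand, map_div₀]

/-! ### The reductions -/

/-- **`red_∞`**. -/
def s34m_redInf (N : ℕ) [NeZero N] : s34m_Vinf G N →+* LaurentSeries κ :=
  s18g_redV G (laurentBaseChange K₀ (modularFunctionFieldFull N)) (s34m_hF G N)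

theorem s34m_redInf_apply (N : ℕ) [NeZero N] (y : s34m_Vinf G N) :
    s34m_redInf G N y = s18g_red G ⟨((y : s34m_F K₀ N) : LaurentSeries K₀), y.2⟩ := rfl

theorem s34m_redInf_eq_zero_iff (N : ℕ) [NeZero N] (y : s34m_Vinf G N) :
    s34m_redInf G N y = 0 ↔ ∃ z ∈ s34m_Vinf G N, (y : s34m_F K₀ N) = s34m_unif G N * z := by
  refine (s18g_redV_eq_zero_iff G _ (s34m_hF G N) y).trans ?_
  constructor
  · rintro ⟨g, hg⟩
    exact ⟨g, g.2, by rw [hg]; rfl⟩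
  · rintro ⟨z, hz, e⟩
    exact ⟨⟨z, hz⟩, Subtype.ext e⟩

variable (φ : K₀ →+* Kb) (M q : ℕ) [NeZero M] [NeZero q]

/-- `w_q` as a ring homomorphism `V_0 → V_∞`. -/
def s34m_alV (hq : q.Prime) (hqM : ¬ q ∣ M) :
    s34m_Vzero G φ M q hq hqM →+* s34m_Vinf G (M * q) where
  toFun y := ⟨s34m_al φ M q hq hqM y, y.2⟩
  map_one' := Subtype.ext (map_one _)
  map_mul' _ _ := Subtype.ext (map_mul (s34m_al φ M q hq hqM) _ _)
  map_zero' := Subtype.ext (map_zero _)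
  map_add' _ _ := Subtype.ext (map_add (s34m_al φ M q hq hqM) _ _)

/-- **`red_0 := red_∞ ∘ w_q`**. -/
def s34m_redZero (hq : q.Prime) (hqM : ¬ q ∣ M) :
    s34m_Vzero G φ M q hq hqM →+* LaurentSeries κ :=
  (s34m_redInf G (M * q)).comp (s34m_alV G φ M q hq hqM)

theorem s34m_redZero_apply (hq : q.Prime) (hqM : ¬ q ∣ M) (y : s34m_Vzero G φ M q hq hqM) :
    s34m_redZero G φ M q hq hqM y =
      s34m_redInf G (M * q) ⟨s34m_al φ M q hq hqM y, y.2⟩ := rfl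

theorem s34m_redZero_eq_zero_iff (hq : q.Prime) (hqM : ¬ q ∣ M)
    (y : s34m_Vzero G φ M q hq hqM) :
    s34m_redZero G φ M q hq hqM y = 0 ↔
      ∃ z ∈ s34m_Vzero G φ M q hq hqM, (y : s34m_F K₀ (M * q)) = s34m_unif G (M * q) * z := by
  rw [s34m_redZero_apply, s34m_redInf_eq_zero_iff]
  constructor
  · rintro ⟨z, hz, e⟩
    refine ⟨s34m_al φ M q hq hqM z, (s34m_al_mem_Vinf_iff G φ M q hq hqM z).mpr hz, ?_⟩
    have := congrArg (s34m_al φ M q hq hqM) e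
    rw [s34m_al_al, map_mul, s34m_al_unif] at this
    exact this
  · rintro ⟨z, hz, e⟩
    refine ⟨s34m_al φ M q hq hqM z, hz, ?_⟩
    show s34m_al φ M q hq hqM (y : s34m_F K₀ (M * q)) = _
    rw [e, map_mul, s34m_al_unif]

/-- **Purity**: an element of `V_∞ ⊓ V_0` killed by both reductions lies in `ϖ (V_∞ ⊓ V_0)`. -/
theorem s34m_mem_unif_mul_of_red (hq : q.Prime) (hqM : ¬ q ∣ M) (y : s34m_F K₀ (M * q))
    (hyI : y ∈ s34m_Vinf G (M * q)) (hy0 : y ∈ s34m_Vzero G φ M q hq hqM)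
    (hI : s34m_redInf G (M * q) ⟨y, hyI⟩ = 0) (h0 : s34m_redZero G φ M q hq hqM ⟨y, hy0⟩ = 0) :
    ∃ z, z ∈ s34m_Vinf G (M * q) ∧ z ∈ s34m_Vzero G φ M q hq hqM ∧
      y = s34m_unif G (M * q) * z := by
  obtain ⟨z, hz, e⟩ := (s34m_redInf_eq_zero_iff G (M * q) _).mp hI
  obtain ⟨z', hz', e'⟩ := (s34m_redZero_eq_zero_iff G φ M q hq hqM _).mp h0
  have e1 : y = s34m_unif G (M * q) * z := e
  have e2 : y = s34m_unif G (M * q) * z' := e'
  have : z = z' := mul_left_cancel₀ (s34m_unif_ne_zero G (M * q)) (e1.symm.trans e2)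
  exact ⟨z, hz, this ▸ hz', e1⟩

/-! ### The Kronecker pairs -/

/-- `α r ∈ V_∞`. -/
theorem s34m_alpha_mem_Vinf {r : s34m_F K₀ M} (hr : r ∈ s34m_Vinf G M) :
    heckeAlphaBar K₀ M q r ∈ s34m_Vinf G (M * q) := by
  rw [s34m_mem_Vinf, coe_heckeAlphaBar]
  exact hr

/-- `β r ∈ V_∞`. -/
theorem s34m_beta_mem_Vinf {r : s34m_F K₀ M} (hr : r ∈ s34m_Vinf G M) :
    heckeBetaBar K₀ M q r ∈ s34m_Vinf G (M * q) := by
  rw [s34m_mem_Vinf, coe_heckeBetaBar]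
  exact s34m_qExpand_mem_O G q hr

/-- `α r ∈ V_0`. -/
theorem s34m_alpha_mem_Vzero (hq : q.Prime) (hqM : ¬ q ∣ M) {r : s34m_F K₀ M}
    (hr : r ∈ s34m_Vinf G M) : heckeAlphaBar K₀ M q r ∈ s34m_Vzero G φ M q hq hqM := by
  rw [s34m_mem_Vzero, s34m_al_alpha]
  exact s34m_beta_mem_Vinf G M q hr

/-- `β r ∈ V_0`. -/
theorem s34m_beta_mem_Vzero (hq : q.Prime) (hqM : ¬ q ∣ M) {r : s34m_F K₀ M}
    (hr : r ∈ s34m_Vinf G M) : heckeBetaBar K₀ M q r ∈ s34m_Vzero G φ M q hq hqM := by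
  rw [s34m_mem_Vzero, s34m_al_beta]
  exact s34m_alpha_mem_Vinf G M q hr

/-- **`red_∞ ∘ α = red_M`.** -/
theorem s34m_redInf_alpha (r : s34m_Vinf G M) :
    s34m_redInf G (M * q) ⟨heckeAlphaBar K₀ M q r, s34m_alpha_mem_Vinf G M q r.2⟩ =
      s34m_redInf G M r := by
  rw [s34m_redInf_apply, s34m_redInf_apply]
  exact congrArg (s18g_red G) (Subtype.ext (coe_heckeAlphaBar M q (r : s34m_F K₀ M)))

/-- **`red_∞ ∘ β = Φ ∘ red_M`**, `Φ = (T ↦ T^q)`. -/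
theorem s34m_redInf_beta (r : s34m_Vinf G M) :
    s34m_redInf G (M * q) ⟨heckeBetaBar K₀ M q r, s34m_beta_mem_Vinf G M q r.2⟩ =
      qExpand κ q (s34m_redInf G M r) := by
  rw [s34m_redInf_apply, s34m_redInf_apply, ← s34m_red_qExpand]
  exact congrArg (s18g_red G) (Subtype.ext (coe_heckeBetaBar M q (r : s34m_F K₀ M)))

/-- **`red_0 ∘ α = Φ ∘ red_M`.** -/
theorem s34m_redZero_alpha (hq : q.Prime) (hqM : ¬ q ∣ M) (r : s34m_Vinf G M) :
    s34m_redZero G φ M q hq hqM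
        ⟨heckeAlphaBar K₀ M q r, s34m_alpha_mem_Vzero G φ M q hq hqM r.2⟩ =
      qExpand κ q (s34m_redInf G M r) := by
  rw [s34m_redZero_apply, ← s34m_redInf_beta G M q r]
  exact congrArg (s34m_redInf G (M * q)) (Subtype.ext (s34m_al_alpha φ M q hq hqM r))

/-- **`red_0 ∘ β = red_M`.** -/
theorem s34m_redZero_beta (hq : q.Prime) (hqM : ¬ q ∣ M) (r : s34m_Vinf G M) :
    s34m_redZero G φ M q hq hqM
        ⟨heckeBetaBar K₀ M q r, s34m_beta_mem_Vzero G φ M q hq hqM r.2⟩ =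
      s34m_redInf G M r := by
  rw [s34m_redZero_apply, ← s34m_redInf_alpha G M q r]
  exact congrArg (s34m_redInf G (M * q)) (Subtype.ext (s34m_al_beta φ M q hq hqM r))

end Fermat.Agent.Lib.S34
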