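/-
S34 moonshot ([SS] ⇒ S34), package [D] (helper8), part 1: THE CONCRETE TWO-COMPONENT FIBRE.

Setting = helper6's `MVal*`: `G` a Gauss datum on `K₀`, `𝓕 = 𝓕_{Mq}(K₀)`, `V_∞ = s34m_Vinf G (M q)`,
`V_0 = s34m_Vzero …`, `O₂ = V_∞ ⊓ V_0 = s34x_infRing (s34m_VV …)`, `S` ANY chart (set of places) and
`B = s34x_ring O₂ S` its chart ring.  The two reductions

  `s34df_r1 = red_∞|_B`,  `s34df_r2 = red_0|_B = (red_∞ ∘ w_q)|_B : B →+* κ((T))`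

satisfy purity (`s34df_purity`: `ker r₁ ∩ ker r₂ = ϖ B`, from `s34m_mem_unif_mul_of_red`), and
together with the Kronecker pairs of `MValRed.lean` they feed helper1's abstract dichotomy
`s34d_dichotomy` (`DNode.lean`):

* `s34df_dichotomy` : let `F̄ ⊂ κ((T))` be a subfield containing `r₁(B)`, `r₂(B)`, the fraction field
  of a Dedekind domain `D`; let `BM ⊆ V_M` be a set of level-`M` functions (in the application the
  chart ring `B_{M,i}`) with `α(BM) ⊆ B`, `β(BM) ⊆ B + ϖ O₂`, such that every element of `D` is the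
  reduction of an element of `BM` (S18's `hmain`), and `Φ(D) ⊆ D^q` (`Φ = (T ↦ T^q)`; `κ` perfect).
  Then every prime `𝔫 ∋ ϖ` of `B` is a SMOOTH point (`𝔫 B_𝔫 = (t, ϖ)`) or a WEAK NODE
  (`𝔫 B_𝔫 = (u, w, ϖ)`, `ϖ ∣ u w`);
* `s34df_loc` : the same for `IsLocalRing.maximalIdeal (Localization.AtPrime 𝔫)`, i.e. verbatim the
  hypotheses `hm` (+ `h0`) of helper3's `s34f_locEq_of_smooth` / `s34f_locEq_of_good` /
  `s34f_bad_unique` (`FLocal.lean`) and of `NSec.lean`.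
-/
import Fermat.Agent.Lib.S34.MValRed
import Fermat.Agent.Lib.S34.DNode
import Fermat.Agent.Lib.S34.XInf

set_option autoImplicit false
set_option linter.unusedSectionVars false

noncomputable section

namespace Fermat.Agent.Lib.S34

open ModularCurve AlgebraicCurve HahnSeries Fermat.Agent.Lib.FF Fermat.Agent.Lib.S18
  Fermat.Agent.Lib.S37

local notation "Kb" => AlgebraicClosure ℚ

variable {K₀ : Type*} [Field K₀] [Algebra ℚ K₀] {κ : Type*} [Field κ] (G : s18g_GaussData K₀ κ)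
variable (φ : K₀ →+* Kb) (M q : ℕ) [NeZero M] [NeZero q] (hq : q.Prime) (hqM : ¬ q ∣ M)

/-! ### `O₂ = V_∞ ⊓ V_0` -/

theorem s34df_mem_O_iff (y : s34m_F K₀ (M * q)) :
    y ∈ s34x_infRing (s34m_VV G φ M q hq hqM) ↔
      y ∈ s34m_Vinf G (M * q) ∧ y ∈ s34m_Vzero G φ M q hq hqM := by
  rw [s34x_mem_infRing]
  constructor
  · intro h
    exact ⟨h true, h false⟩
  · rintro ⟨h1, h0⟩ i
    cases i
    · exact h0
    · exact h1

variable (S : Set (Place K₀ (s34m_F K₀ (M * q))))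

/-- The inclusion of the chart ring into `V_∞`. -/
def s34df_toVinf :
    s34x_ring (s34x_infRing (s34m_VV G φ M q hq hqM)) S →+* s34m_Vinf G (M * q) where
  toFun b := ⟨(b : s34m_F K₀ (M * q)), ((s34df_mem_O_iff G φ M q hq hqM _).mp b.2.1).1⟩
  map_one' := rfl
  map_mul' _ _ := rfl
  map_zero' := rfl
  map_add' _ _ := rfl

/-- The inclusion of the chart ring into `V_0`. -/
def s34df_toVzero :
    s34x_ring (s34x_infRing (s34m_VV G φ M q hq hqM)) S →+* s34m_Vzero G φ M q hq hqM where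
  toFun b := ⟨(b : s34m_F K₀ (M * q)), ((s34df_mem_O_iff G φ M q hq hqM _).mp b.2.1).2⟩
  map_one' := rfl
  map_mul' _ _ := rfl
  map_zero' := rfl
  map_add' _ _ := rfl

/-- **`r₁ = red_∞`** on the chart ring. -/
def s34df_r1 : s34x_ring (s34x_infRing (s34m_VV G φ M q hq hqM)) S →+* LaurentSeries κ :=
  (s34m_redInf G (M * q)).comp (s34df_toVinf G φ M q hq hqM S)

/-- **`r₂ = red_0 = red_∞ ∘ w_q`** on the chart ring. -/
def s34df_r2 : s34x_ring (s34x_infRing (s34m_VV G φ M q hq hqM)) S →+* LaurentSeries κ :=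
  (s34m_redZero G φ M q hq hqM).comp (s34df_toVzero G φ M q hq hqM S)

theorem s34df_r1_apply (b : s34x_ring (s34x_infRing (s34m_VV G φ M q hq hqM)) S) :
    s34df_r1 G φ M q hq hqM S b = s34m_redInf G (M * q)
      ⟨(b : s34m_F K₀ (M * q)), ((s34df_mem_O_iff G φ M q hq hqM _).mp b.2.1).1⟩ := rfl

theorem s34df_r2_apply (b : s34x_ring (s34x_infRing (s34m_VV G φ M q hq hqM)) S) :
    s34df_r2 G φ M q hq hqM S b = s34m_redZero G φ M q hq hqM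
      ⟨(b : s34m_F K₀ (M * q)), ((s34df_mem_O_iff G φ M q hq hqM _).mp b.2.1).2⟩ := rfl

/-- `r₁` only depends on the underlying function. -/
theorem s34df_r1_eq (b : s34x_ring (s34x_infRing (s34m_VV G φ M q hq hqM)) S)
    (y : s34m_F K₀ (M * q)) (hy : y ∈ s34m_Vinf G (M * q)) (e : (b : s34m_F K₀ (M * q)) = y) :
    s34df_r1 G φ M q hq hqM S b = s34m_redInf G (M * q) ⟨y, hy⟩ := by
  rw [s34df_r1_apply]
  exact congrArg (s34m_redInf G (M * q)) (Subtype.ext e)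

/-- `r₂` only depends on the underlying function. -/
theorem s34df_r2_eq (b : s34x_ring (s34x_infRing (s34m_VV G φ M q hq hqM)) S)
    (y : s34m_F K₀ (M * q)) (hy : y ∈ s34m_Vzero G φ M q hq hqM)
    (e : (b : s34m_F K₀ (M * q)) = y) :
    s34df_r2 G φ M q hq hqM S b = s34m_redZero G φ M q hq hqM ⟨y, hy⟩ := by
  rw [s34df_r2_apply]
  exact congrArg (s34m_redZero G φ M q hq hqM) (Subtype.ext e)

/-- Reductions are insensitive to `ϖ O₂`: `red_∞`. -/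
theorem s34df_redInf_congr {y y' z : s34m_F K₀ (M * q)} (hy : y ∈ s34m_Vinf G (M * q))
    (hy' : y' ∈ s34m_Vinf G (M * q)) (hz : z ∈ s34m_Vinf G (M * q))
    (e : y - y' = s34m_unif G (M * q) * z) :
    s34m_redInf G (M * q) ⟨y, hy⟩ = s34m_redInf G (M * q) ⟨y', hy'⟩ := by
  have h0 : s34m_redInf G (M * q) (⟨y, hy⟩ - ⟨y', hy'⟩) = 0 := by
    rw [s34m_redInf_eq_zero_iff]
    exact ⟨z, hz, e⟩
  rw [map_sub, sub_eq_zero] at h0
  exact h0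

/-- Reductions are insensitive to `ϖ O₂`: `red_0`. -/
theorem s34df_redZero_congr {y y' z : s34m_F K₀ (M * q)}
    (hy : y ∈ s34m_Vzero G φ M q hq hqM) (hy' : y' ∈ s34m_Vzero G φ M q hq hqM)
    (hz : z ∈ s34m_Vzero G φ M q hq hqM) (e : y - y' = s34m_unif G (M * q) * z) :
    s34m_redZero G φ M q hq hqM ⟨y, hy⟩ = s34m_redZero G φ M q hq hqM ⟨y', hy'⟩ := by
  have h0 : s34m_redZero G φ M q hq hqM (⟨y, hy⟩ - ⟨y', hy'⟩) = 0 := by
    rw [s34m_redZero_eq_zero_iff]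
    exact ⟨z, hz, e⟩
  rw [map_sub, sub_eq_zero] at h0
  exact h0

/-- **Purity**: `ker r₁ ∩ ker r₂ = ϖ B` (for ANY chart). -/
theorem s34df_purity (ϖB : s34x_ring (s34x_infRing (s34m_VV G φ M q hq hqM)) S)
    (hϖB : (ϖB : s34m_F K₀ (M * q)) = s34m_unif G (M * q))
    (b : s34x_ring (s34x_infRing (s34m_VV G φ M q hq hqM)) S)
    (h1 : s34df_r1 G φ M q hq hqM S b = 0) (h2 : s34df_r2 G φ M q hq hqM S b = 0) : ϖB ∣ b := by
  obtain ⟨z, hzI, hz0, e⟩ := s34m_mem_unif_mul_of_red G φ M q hq hqM (b : s34m_F K₀ (M * q))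
    ((s34df_mem_O_iff G φ M q hq hqM _).mp b.2.1).1
    ((s34df_mem_O_iff G φ M q hq hqM _).mp b.2.1).2 h1 h2
  have hϖ0 : ((G.ϖ : G.A) : K₀) ≠ 0 := s18g_unifK_ne_zero G
  have hzB : z ∈ s34x_ring (s34x_infRing (s34m_VV G φ M q hq hqM)) S := by
    refine ⟨(s34df_mem_O_iff G φ M q hq hqM z).mpr ⟨hzI, hz0⟩, fun Q hQ => ?_⟩
    have hz : z = algebraMap K₀ (s34m_F K₀ (M * q)) (((G.ϖ : G.A) : K₀)⁻¹) *
        (b : s34m_F K₀ (M * q)) := by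
      rw [e, s34m_unif, ← mul_assoc, ← map_mul, inv_mul_cancel₀ hϖ0, map_one, one_mul]
    rw [hz]
    exact Q.toValuationSubring.mul_mem _ _ (Q.algebraMap_mem' _) (b.2.2 Q hQ)
  exact ⟨⟨z, hzB⟩, Subtype.ext (by rw [e, ← hϖB]; rfl)⟩

/-! ### The dichotomy -/

section Dichotomy

variable (Fb : IntermediateField κ (LaurentSeries κ))
  {D₁ D₂ : Type*} [CommRing D₁] [IsDedekindDomain D₁] [Algebra D₁ Fb] [IsFractionRing D₁ Fb]
  [CommRing D₂] [IsDedekindDomain D₂] [Algebra D₂ Fb] [IsFractionRing D₂ Fb]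

/-- **The concrete dichotomy** (element form).  `Fb ⊂ κ((T))` a subfield containing the two
reductions of the chart ring `B`; `D₁`, `D₂` Dedekind domains with fraction field `Fb` (in the
application both are S18's `D_{M,i}`, the integral closure of `κ[t̄]` in `F̄_M`);
`BM ⊆ V_M` a set of level-`M` functions with `α(BM) ⊆ B` and `β(BM) ⊆ B + ϖ O₂` such that every
element of `D₁`, `D₂` is the reduction of an element of `BM`; `Φ D₁ ⊆ D₂^q`, `Φ D₂ ⊆ D₁^q`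
(`Φ = qExpand κ q`).  Then every prime `𝔫 ∋ ϖ` of `B` is a smooth point or a weak node. -/
theorem s34df_dichotomy
    (hF₁ : ∀ b, s34df_r1 G φ M q hq hqM S b ∈ Fb) (hF₂ : ∀ b, s34df_r2 G φ M q hq hqM S b ∈ Fb)
    (ϖB : s34x_ring (s34x_infRing (s34m_VV G φ M q hq hqM)) S)
    (hϖB : (ϖB : s34m_F K₀ (M * q)) = s34m_unif G (M * q))
    (BM : Set (s34m_F K₀ M)) (hBMV : ∀ g ∈ BM, g ∈ s34m_Vinf G M)
    (hαB : ∀ g ∈ BM, heckeAlphaBar K₀ M q g ∈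
      s34x_ring (s34x_infRing (s34m_VV G φ M q hq hqM)) S)
    (hβB : ∀ g ∈ BM, ∃ b' ∈ s34x_ring (s34x_infRing (s34m_VV G φ M q hq hqM)) S,
      ∃ z, z ∈ s34m_Vinf G (M * q) ∧ z ∈ s34m_Vzero G φ M q hq hqM ∧
        b' - heckeBetaBar K₀ M q g = s34m_unif G (M * q) * z)
    (hlift₁ : ∀ d : D₁, ∃ g, ∃ hg : g ∈ BM,
      s34m_redInf G M ⟨g, hBMV g hg⟩ = ((algebraMap D₁ Fb d : Fb) : LaurentSeries κ))
    (hlift₂ : ∀ d : D₂, ∃ g, ∃ hg : g ∈ BM,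
      s34m_redInf G M ⟨g, hBMV g hg⟩ = ((algebraMap D₂ Fb d : Fb) : LaurentSeries κ))
    (htw₁ : ∀ d : D₁, ∃ d' : D₂, qExpand κ q ((algebraMap D₁ Fb d : Fb) : LaurentSeries κ) =
      ((algebraMap D₂ Fb d' : Fb) : LaurentSeries κ) ^ q)
    (htw₂ : ∀ d : D₂, ∃ d' : D₁, qExpand κ q ((algebraMap D₂ Fb d : Fb) : LaurentSeries κ) =
      ((algebraMap D₁ Fb d' : Fb) : LaurentSeries κ) ^ q)
    (𝔫 : Ideal (s34x_ring (s34x_infRing (s34m_VV G φ M q hq hqM)) S)) [h𝔫 : 𝔫.IsPrime]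
    (hϖ𝔫 : ϖB ∈ 𝔫) :
    (∃ t ∈ 𝔫, ∀ y ∈ 𝔫, ∃ c, c ∉ 𝔫 ∧ ∃ z b, c * y = z * t + b * ϖB) ∨
    (∃ u ∈ 𝔫, ∃ w ∈ 𝔫, ϖB ∣ u * w ∧
      ∀ y ∈ 𝔫, ∃ c, c ∉ 𝔫 ∧ ∃ z z' b, c * y = z * u + z' * w + b * ϖB) := by
  -- the two reductions with values in the field `Fb`
  set r₁ : s34x_ring (s34x_infRing (s34m_VV G φ M q hq hqM)) S →+* Fb :=
    (s34df_r1 G φ M q hq hqM S).codRestrict Fb hF₁ with hr₁
  set r₂ : s34x_ring (s34x_infRing (s34m_VV G φ M q hq hqM)) S →+* Fb :=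
    (s34df_r2 G φ M q hq hqM S).codRestrict Fb hF₂ with hr₂
  have hr₁c : ∀ b, ((r₁ b : Fb) : LaurentSeries κ) = s34df_r1 G φ M q hq hqM S b := fun _ => rfl
  have hr₂c : ∀ b, ((r₂ b : Fb) : LaurentSeries κ) = s34df_r2 G φ M q hq hqM S b := fun _ => rfl
  -- the reductions of `α g`, and of the correction `b'` of `β g`
  have hα₁ : ∀ g (hg : g ∈ BM), s34df_r1 G φ M q hq hqM S ⟨_, hαB g hg⟩ =
      s34m_redInf G M ⟨g, hBMV g hg⟩ := fun g hg =>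
    (s34df_r1_eq G φ M q hq hqM S _ _ (s34m_alpha_mem_Vinf G M q (hBMV g hg)) rfl).trans
      (s34m_redInf_alpha G M q ⟨g, hBMV g hg⟩)
  have hα₂ : ∀ g (hg : g ∈ BM), s34df_r2 G φ M q hq hqM S ⟨_, hαB g hg⟩ =
      qExpand κ q (s34m_redInf G M ⟨g, hBMV g hg⟩) := fun g hg =>
    (s34df_r2_eq G φ M q hq hqM S _ _ (s34m_alpha_mem_Vzero G φ M q hq hqM (hBMV g hg)) rfl).trans
      (s34m_redZero_alpha G φ M q hq hqM ⟨g, hBMV g hg⟩)
  have hβ₁ : ∀ g (hg : g ∈ BM) (b' : s34m_F K₀ (M * q))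
      (hb' : b' ∈ s34x_ring (s34x_infRing (s34m_VV G φ M q hq hqM)) S)
      (z : s34m_F K₀ (M * q)), z ∈ s34m_Vinf G (M * q) →
      b' - heckeBetaBar K₀ M q g = s34m_unif G (M * q) * z →
      s34df_r1 G φ M q hq hqM S ⟨b', hb'⟩ = qExpand κ q (s34m_redInf G M ⟨g, hBMV g hg⟩) := by
    intro g hg b' hb' z hz e
    rw [s34df_r1_apply, ← s34m_redInf_beta G M q ⟨g, hBMV g hg⟩]
    exact s34df_redInf_congr G M q _ _ hz e
  have hβ₂ : ∀ g (hg : g ∈ BM) (b' : s34m_F K₀ (M * q))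
      (hb' : b' ∈ s34x_ring (s34x_infRing (s34m_VV G φ M q hq hqM)) S)
      (z : s34m_F K₀ (M * q)), z ∈ s34m_Vzero G φ M q hq hqM →
      b' - heckeBetaBar K₀ M q g = s34m_unif G (M * q) * z →
      s34df_r2 G φ M q hq hqM S ⟨b', hb'⟩ = s34m_redInf G M ⟨g, hBMV g hg⟩ := by
    intro g hg b' hb' z hz e
    rw [s34df_r2_apply, ← s34m_redZero_beta G φ M q hq hqM ⟨g, hBMV g hg⟩]
    exact s34df_redZero_congr G φ M q hq hqM _ _ hz e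
  refine s34d_dichotomy (D₁ := D₁) (D₂ := D₂) ϖB r₁ r₂ ?_ q hq.two_le ?_ ?_ 𝔫 hϖ𝔫
  · intro b h1 h2
    refine s34df_purity G φ M q hq hqM S ϖB hϖB b ?_ ?_
    · rw [← hr₁c, h1]; rfl
    · rw [← hr₂c, h2]; rfl
  · intro d
    obtain ⟨g₀, hg₀, e₀⟩ := hlift₁ d
    obtain ⟨d', hd'⟩ := htw₁ d
    obtain ⟨g₁, hg₁, e₁⟩ := hlift₂ d'
    obtain ⟨b', hb', z, hzI, hz0, ez⟩ := hβB g₁ hg₁
    refine ⟨⟨_, hαB g₀ hg₀⟩, Subtype.ext ?_, ⟨b', hb'⟩, Subtype.ext ?_⟩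
    · rw [hr₁c, hα₁ g₀ hg₀, e₀]
    · rw [hr₂c, hα₂ g₀ hg₀, e₀, hd', SubmonoidClass.coe_pow, hr₂c, hβ₂ g₁ hg₁ b' hb' z hz0 ez, e₁]
  · intro d
    obtain ⟨g₀, hg₀, e₀⟩ := hlift₂ d
    obtain ⟨d', hd'⟩ := htw₂ d
    obtain ⟨g₁, hg₁, e₁⟩ := hlift₁ d'
    obtain ⟨b', hb', z, hzI, hz0, ez⟩ := hβB g₀ hg₀
    refine ⟨⟨b', hb'⟩, Subtype.ext ?_, ⟨_, hαB g₁ hg₁⟩, Subtype.ext ?_⟩
    · rw [hr₂c, hβ₂ g₀ hg₀ b' hb' z hz0 ez, e₀]
    · rw [hr₁c, hβ₁ g₀ hg₀ b' hb' z hzI ez, e₀, hd', SubmonoidClass.coe_pow, hr₁c, hα₁ g₁ hg₁, e₁]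

/-- **The concrete dichotomy, `Localization.AtPrime` form** = the hypotheses `hm`, `h0` of
`NSec.lean` / `FLocal.lean`. -/
theorem s34df_loc
    (hF₁ : ∀ b, s34df_r1 G φ M q hq hqM S b ∈ Fb) (hF₂ : ∀ b, s34df_r2 G φ M q hq hqM S b ∈ Fb)
    (ϖB : s34x_ring (s34x_infRing (s34m_VV G φ M q hq hqM)) S)
    (hϖB : (ϖB : s34m_F K₀ (M * q)) = s34m_unif G (M * q))
    (BM : Set (s34m_F K₀ M)) (hBMV : ∀ g ∈ BM, g ∈ s34m_Vinf G M)
    (hαB : ∀ g ∈ BM, heckeAlphaBar K₀ M q g ∈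
      s34x_ring (s34x_infRing (s34m_VV G φ M q hq hqM)) S)
    (hβB : ∀ g ∈ BM, ∃ b' ∈ s34x_ring (s34x_infRing (s34m_VV G φ M q hq hqM)) S,
      ∃ z, z ∈ s34m_Vinf G (M * q) ∧ z ∈ s34m_Vzero G φ M q hq hqM ∧
        b' - heckeBetaBar K₀ M q g = s34m_unif G (M * q) * z)
    (hlift₁ : ∀ d : D₁, ∃ g, ∃ hg : g ∈ BM,
      s34m_redInf G M ⟨g, hBMV g hg⟩ = ((algebraMap D₁ Fb d : Fb) : LaurentSeries κ))
    (hlift₂ : ∀ d : D₂, ∃ g, ∃ hg : g ∈ BM,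
      s34m_redInf G M ⟨g, hBMV g hg⟩ = ((algebraMap D₂ Fb d : Fb) : LaurentSeries κ))
    (htw₁ : ∀ d : D₁, ∃ d' : D₂, qExpand κ q ((algebraMap D₁ Fb d : Fb) : LaurentSeries κ) =
      ((algebraMap D₂ Fb d' : Fb) : LaurentSeries κ) ^ q)
    (htw₂ : ∀ d : D₂, ∃ d' : D₁, qExpand κ q ((algebraMap D₂ Fb d : Fb) : LaurentSeries κ) =
      ((algebraMap D₁ Fb d' : Fb) : LaurentSeries κ) ^ q)
    (𝔫 : Ideal (s34x_ring (s34x_infRing (s34m_VV G φ M q hq hqM)) S)) [h𝔫 : 𝔫.IsPrime]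
    (hϖ𝔫 : ϖB ∈ 𝔫) :
    (∃ t : s34x_ring (s34x_infRing (s34m_VV G φ M q hq hqM)) S,
      IsLocalRing.maximalIdeal (Localization.AtPrime 𝔫) =
        Ideal.span {algebraMap _ (Localization.AtPrime 𝔫) t,
          algebraMap _ (Localization.AtPrime 𝔫) ϖB}) ∨
    (∃ u w : s34x_ring (s34x_infRing (s34m_VV G φ M q hq hqM)) S,
      (∃ β, algebraMap _ (Localization.AtPrime 𝔫) u * algebraMap _ (Localization.AtPrime 𝔫) w =
        algebraMap _ (Localization.AtPrime 𝔫) ϖB * β) ∧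
      IsLocalRing.maximalIdeal (Localization.AtPrime 𝔫) =
        Ideal.span {algebraMap _ (Localization.AtPrime 𝔫) u,
          algebraMap _ (Localization.AtPrime 𝔫) w,
          algebraMap _ (Localization.AtPrime 𝔫) ϖB}) := by
  rcases s34df_dichotomy G φ M q hq hqM S Fb hF₁ hF₂ ϖB hϖB BM hBMV hαB hβB hlift₁ hlift₂
    htw₁ htw₂ 𝔫 hϖ𝔫 with ⟨t, ht, h⟩ | ⟨u, hu, w, hw, ⟨c, hc⟩, h⟩
  · exact Or.inl ⟨t, s34d_maximalIdeal_eq_span_pair 𝔫 ht hϖ𝔫 h⟩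
  · refine Or.inr ⟨u, w, ⟨algebraMap _ (Localization.AtPrime 𝔫) c, ?_⟩,
      s34d_maximalIdeal_eq_span_triple 𝔫 hu hw hϖ𝔫 h⟩
    rw [← map_mul, ← map_mul, hc]

end Dichotomy

end Fermat.Agent.Lib.S34
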