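/-
S34 moonshot ([SS] ⇒ S34), package [M](D), concrete part (helper1), (I1) PARAMETRIC IN THE LEVEL-`M`
BASE FUNCTION `w` (for helper4's §E: `w = t₂^{±1}, t₃^{±1}`, and for `w = j^{±1}`).

`BM(w) := s18_ring (s18x_V G M) (s18_chart1 w)` (S18's chart ring of level `M` for the base function
`w`; `s18x_V G M` is `s34m_Vinf G M` by `rfl`), `S` ANY set of places of level `M q`,
`B := s34x_ring (s34x_infRing (s34m_VV G φ M q hq hqM)) S`:

* `s34d_alpha_mem_ring_of` : `α w` regular on `S`  ⟹  `α(BM(w)) ⊆ B`;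
* `s34d_beta_mem_ring_of`  : `β w` regular on `S`  ⟹  `β(BM(w)) ⊆ B`;
* `s34d_alpha_liftW`, `s34d_beta_liftW` : the same in the shapes `hαB`, `hβB` of helper8's
  `s34df_dichotomy` / `s34df_loc` (with `b' = β g`, `z = 0`);
* `s34d_alpha_liftJ₁/₂`, `s34d_beta_liftJ₁/₂` : `hαB`, `hβB` for `w = j`, `S = chart1 j` and
  `w = j⁻¹`, `S = chart1 j⁻¹` (`= chart2 j` by `rfl`), chart 2 via helper7's correction (⋆).
-/
import Fermat.Agent.Lib.S34.DChart2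
import Fermat.Agent.Lib.S18.XGauss

set_option autoImplicit false

noncomputable section

namespace Fermat.Agent.Lib.S34

open ModularCurve AlgebraicCurve HahnSeries Polynomial Fermat.Agent.Lib.FF Fermat.Agent.Lib.S18
  Fermat.Agent.Lib.S37

local notation "Kb" => AlgebraicClosure ℚ

variable {K₀ : Type*} [Field K₀] [Algebra ℚ K₀] {κ : Type*} [Field κ] (G : s18g_GaussData K₀ κ)
  (φ : K₀ →+* Kb) (M q : ℕ) [NeZero M] [NeZero q] (hq : q.Prime) (hqM : ¬ q ∣ M)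
  [FFGen K₀ (s18g_jF (K := K₀) (M * q))]

/-- `s18x_V G M` (S18) and `s34m_Vinf G M` (MVal) are the same valuation ring. -/
theorem s34d_Vinf_eq : s34m_Vinf G M = s18x_V G M := rfl

/-- chart 2 of `t` is chart 1 of `t⁻¹`. -/
theorem s34d_chart2_eq {L₀ 𝓕 : Type*} [Field L₀] [Field 𝓕] [Algebra L₀ 𝓕] (t : 𝓕) :
    s18_chart2 (L₀ := L₀) t = s18_chart1 (L₀ := L₀) t⁻¹ := rfl

/-- **`α(BM(w)) ⊆ B(S)`** as soon as `α w` is regular on `S`. -/
theorem s34d_alpha_mem_ring_of (w : s34m_F K₀ M) (S : Set (Place K₀ (s34m_F K₀ (M * q))))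
    (hS : ∀ Q ∈ S, heckeAlphaBar K₀ M q w ∈ Q.toValuationSubring) {g : s34m_F K₀ M}
    (hg : g ∈ s18_ring (s18x_V G M) (s18_chart1 (L₀ := K₀) w)) :
    heckeAlphaBar K₀ M q g ∈ s34x_ring (s34x_infRing (s34m_VV G φ M q hq hqM)) S := by
  refine ⟨(s34x_mem_infRing _ _).mpr fun i => s34d_alpha_mem_VV G M q φ hq hqM hg.1 i,
    fun Q hQ => ?_⟩
  exact s34d_algHom_mem_place (heckeAlphaBar K₀ M q) (s34d_isAlgebraic_alpha M q)
    (t := w) (fun P hP => hg.2 P hP) Q (hS Q hQ)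

/-- **`β(BM(w)) ⊆ B(S)`** as soon as `β w` is regular on `S`. -/
theorem s34d_beta_mem_ring_of (w : s34m_F K₀ M) (S : Set (Place K₀ (s34m_F K₀ (M * q))))
    (hS : ∀ Q ∈ S, heckeBetaBar K₀ M q w ∈ Q.toValuationSubring) {g : s34m_F K₀ M}
    (hg : g ∈ s18_ring (s18x_V G M) (s18_chart1 (L₀ := K₀) w)) :
    heckeBetaBar K₀ M q g ∈ s34x_ring (s34x_infRing (s34m_VV G φ M q hq hqM)) S := by
  refine ⟨(s34x_mem_infRing _ _).mpr fun i => s34d_beta_mem_VV G M q φ hq hqM hg.1 i,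
    fun Q hQ => ?_⟩
  exact s34d_algHom_mem_place (heckeBetaBar K₀ M q) (s34d_isAlgebraic_beta M q φ hq hqM)
    (t := w) (fun P hP => hg.2 P hP) Q (hS Q hQ)

/-- `hBMV` of `s34df_loc` for `BM(w)`. -/
theorem s34d_BMV (w : s34m_F K₀ M) :
    ∀ g ∈ {g : s34m_F K₀ M | g ∈ s18_ring (s18x_V G M) (s18_chart1 (L₀ := K₀) w)},
      g ∈ s34m_Vinf G M :=
  fun _ hg => hg.1

/-- **`hαB` of `s34df_loc` for `BM(w)`**, from `α w` regular on `S`. -/
theorem s34d_alpha_liftW (w : s34m_F K₀ M) (S : Set (Place K₀ (s34m_F K₀ (M * q))))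
    (hS : ∀ Q ∈ S, heckeAlphaBar K₀ M q w ∈ Q.toValuationSubring) :
    ∀ g ∈ {g : s34m_F K₀ M | g ∈ s18_ring (s18x_V G M) (s18_chart1 (L₀ := K₀) w)},
      heckeAlphaBar K₀ M q g ∈ s34x_ring (s34x_infRing (s34m_VV G φ M q hq hqM)) S :=
  fun _ hg => s34d_alpha_mem_ring_of G φ M q hq hqM w S hS hg

/-- **`hβB` of `s34df_loc` for `BM(w)`**, from `β w` regular on `S` (`b' = β g`, `z = 0`). -/
theorem s34d_beta_liftW (w : s34m_F K₀ M) (S : Set (Place K₀ (s34m_F K₀ (M * q))))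
    (hS : ∀ Q ∈ S, heckeBetaBar K₀ M q w ∈ Q.toValuationSubring) :
    ∀ g ∈ {g : s34m_F K₀ M | g ∈ s18_ring (s18x_V G M) (s18_chart1 (L₀ := K₀) w)},
      ∃ b' ∈ s34x_ring (s34x_infRing (s34m_VV G φ M q hq hqM)) S,
        ∃ z, z ∈ s34m_Vinf G (M * q) ∧ z ∈ s34m_Vzero G φ M q hq hqM ∧
          b' - heckeBetaBar K₀ M q g = s34m_unif G (M * q) * z :=
  fun _ hg => ⟨_, s34d_beta_mem_ring_of G φ M q hq hqM w S hS hg, 0,
    (s34m_Vinf G (M * q)).zero_mem, (s34m_Vzero G φ M q hq hqM).zero_mem,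
    by rw [sub_self, mul_zero]⟩

/-! ### The instantiation `w = j^{±1}` in helper8's shapes -/

/-- `hαB`, chart 1 of `j`. -/
theorem s34d_alpha_liftJ₁ :
    ∀ g ∈ {g : s34m_F K₀ M | g ∈ s18_ring (s18x_V G M)
        (s18_chart1 (L₀ := K₀) (s18g_jF (K := K₀) M))},
      heckeAlphaBar K₀ M q g ∈ s34x_ring (s34x_infRing (s34m_VV G φ M q hq hqM))
        (s18_chart1 (L₀ := K₀) (s18g_jF (K := K₀) (M * q))) :=
  fun _ hg => s34d_alpha_mem_ring₁ G φ M q hq hqM hg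

/-- `hαB`, chart 1 of `j⁻¹` (= chart 2 of `j`). -/
theorem s34d_alpha_liftJ₂ :
    ∀ g ∈ {g : s34m_F K₀ M | g ∈ s18_ring (s18x_V G M)
        (s18_chart1 (L₀ := K₀) (s18g_jF (K := K₀) M)⁻¹)},
      heckeAlphaBar K₀ M q g ∈ s34x_ring (s34x_infRing (s34m_VV G φ M q hq hqM))
        (s18_chart1 (L₀ := K₀) (s18g_jF (K := K₀) (M * q))⁻¹) :=
  fun _ hg => s34d_alpha_mem_ring₂ G φ M q hq hqM hg

/-- `hβB`, chart 1 of `j`. -/
theorem s34d_beta_liftJ₁ :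
    ∀ g ∈ {g : s34m_F K₀ M | g ∈ s18_ring (s18x_V G M)
        (s18_chart1 (L₀ := K₀) (s18g_jF (K := K₀) M))},
      ∃ b' ∈ s34x_ring (s34x_infRing (s34m_VV G φ M q hq hqM))
          (s18_chart1 (L₀ := K₀) (s18g_jF (K := K₀) (M * q))),
        ∃ z, z ∈ s34m_Vinf G (M * q) ∧ z ∈ s34m_Vzero G φ M q hq hqM ∧
          b' - heckeBetaBar K₀ M q g = s34m_unif G (M * q) * z :=
  fun _ hg => s34d_beta_lift₁ G φ M q hq hqM hg

/-- `hβB`, chart 1 of `j⁻¹` (= chart 2 of `j`): helper7's correction (⋆). -/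
theorem s34d_beta_liftJ₂ [CharP κ q] :
    ∀ g ∈ {g : s34m_F K₀ M | g ∈ s18_ring (s18x_V G M)
        (s18_chart1 (L₀ := K₀) (s18g_jF (K := K₀) M)⁻¹)},
      ∃ b' ∈ s34x_ring (s34x_infRing (s34m_VV G φ M q hq hqM))
          (s18_chart1 (L₀ := K₀) (s18g_jF (K := K₀) (M * q))⁻¹),
        ∃ z, z ∈ s34m_Vinf G (M * q) ∧ z ∈ s34m_Vzero G φ M q hq hqM ∧
          b' - heckeBetaBar K₀ M q g = s34m_unif G (M * q) * z :=
  fun _ hg => s34d_beta_lift₂ G φ M q hq hqM hg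

end Fermat.Agent.Lib.S34
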