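/-
S34 moonshot [X″]/(V5): the hypothesis (α) of `Lib/S34/XFin.lean` for level `N = qM` from the same
hypothesis at level `M`, by the BASIS route (Kronecker's congruence in disguise; no `Σ eᵢfᵢ`, no
"third extension" argument).

* `s34x_coeff_mem_of_red_indep`: `R`, `O` subrings of a field, `ϖ ∈ R ∩ O`, `b₁,…,bₙ` such that a
  combination `Σ rᵢ bᵢ` with `rᵢ ∈ R` lies in `ϖO` only if all `rᵢ ∈ ϖR` (the reductions of the `bᵢ`
  are independent over the residue ring of `R`).  If `Σ cᵢ bᵢ ∈ O` and every `cᵢ` has a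
  `ϖ`-power multiple in `R`, then all `cᵢ ∈ R`.  Hence `O ∩ (Σ R[1/ϖ] bᵢ) = Σ R bᵢ`.
* `s34x_alpha_of_comb`: an `R`-combination of elements `bᵢ` integral over `A[w]` satisfies (α) as
  soon as the elements of `R` do (level `M`).
* `s34x_alpha_of_basis`: the two together: (α) for a subring `O` of `𝓕` from a family `b` spanning `𝓕`
  over `R[1/ϖ]` with independent reductions.
In the application `R = α(V_M)` (Gauss ring of level `M` inside `𝓕_N`), `O = O_∞ ⊓ O_0`,
`bᵢ = (βj)ⁱ`, `0 ≤ i ≤ q`, with reductions `(j̄^{qi}, j̄^{i})` in `κ_∞ × κ_0`.  (helper9)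
-/
import Fermat.Agent.Lib.S34.XFin

set_option autoImplicit false
set_option linter.unusedSectionVars false

noncomputable section

namespace Fermat.Agent.Lib.S34

open Polynomial AlgebraicCurve Fermat.Agent.Lib.FF Fermat.Agent.Lib.S18 ModularCurve

/-- **Basis criterion.**  If the reductions of the `b i` are independent over `R/ϖ` inside `O/ϖ`,
then an element `Σ cᵢ bᵢ` of `O` with coefficients in `R[1/ϖ]` has its coefficients in `R`. -/
theorem s34x_coeff_mem_of_red_indep {L : Type*} [Field L] (R O : Subring L) (ϖ : L)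
    (hϖ0 : ϖ ≠ 0) (hϖR : ϖ ∈ R) (hϖO : ϖ ∈ O) {n : ℕ} (b : Fin n → L)
    (hind : ∀ r : Fin n → L, (∀ i, r i ∈ R) → (∃ y ∈ O, ∑ i, r i * b i = ϖ * y) →
      ∀ i, ∃ r' ∈ R, r i = ϖ * r')
    (c : Fin n → L) (hc : ∀ i, ∃ k : ℕ, ϖ ^ k * c i ∈ R) (hy : ∑ i, c i * b i ∈ O) :
    ∀ i, c i ∈ R := by
  classical
  -- a common exponent
  have hex : ∃ k : ℕ, ∀ i, ϖ ^ k * c i ∈ R := by
    choose k hk using hc
    refine ⟨Finset.univ.sup k, fun i => ?_⟩
    have hle : k i ≤ Finset.univ.sup k := Finset.le_sup (Finset.mem_univ i)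
    obtain ⟨d, hd⟩ := Nat.exists_eq_add_of_le hle
    rw [hd, pow_add, mul_comm (ϖ ^ k i), mul_assoc]
    exact R.mul_mem (R.pow_mem hϖR d) (hk i)
  have hmin : ∀ m : ℕ, m < Nat.find hex → ¬ ∀ i, ϖ ^ m * c i ∈ R := fun m hm => Nat.find_min hex hm
  have hspec := Nat.find_spec hex
  rcases Nat.eq_zero_or_pos (Nat.find hex) with h0 | hpos
  · intro i
    have := hspec i
    rwa [h0, pow_zero, one_mul] at this
  · exfalso
    obtain ⟨k, hk⟩ := Nat.exists_eq_succ_of_ne_zero hpos.ne'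
    refine hmin k (by omega) fun i => ?_
    have hr : ∀ i, ϖ ^ (k + 1) * c i ∈ R := fun i => by
      have := hspec i
      rwa [hk] at this
    have hsum : ∑ i, (ϖ ^ (k + 1) * c i) * b i = ϖ * (ϖ ^ k * ∑ i, c i * b i) := by
      rw [Finset.mul_sum, Finset.mul_sum]
      refine Finset.sum_congr rfl fun i _ => ?_
      ring
    obtain ⟨r', hr', he⟩ := hind (fun i => ϖ ^ (k + 1) * c i) hr
      ⟨ϖ ^ k * ∑ i, c i * b i, O.mul_mem (O.pow_mem hϖO k) hy, hsum⟩ i
    have : ϖ ^ k * c i = r' := by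
      have h1 : ϖ * (ϖ ^ k * c i) = ϖ * r' := by
        rw [← he]
        ring
      exact mul_left_cancel₀ hϖ0 h1
    rw [this]
    exact hr'

variable {K : Type*} [Field K] {κ : Type*} [Field κ] (G : s18g_GaussData K κ)
variable (𝓕 : IntermediateField K (LaurentSeries K)) (w : 𝓕)

/-- A finite product of polynomials with nonzero reduction has nonzero reduction. -/
theorem s34x_prod_map_ne_zero {n : ℕ} (s : Fin n → G.A[X]) (hs : ∀ i, (s i).map G.π ≠ 0) :
    (∏ i, s i).map G.π ≠ 0 := by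
  rw [Polynomial.map_prod]
  exact Finset.prod_ne_zero_iff.mpr fun i _ => hs i

/-- Finite sums of integral elements are integral (`RingHom` form). -/
theorem s34x_isIntegralElem_sum {A B : Type*} [CommRing A] [CommRing B] (f : A →+* B)
    {ι : Type*} (s : Finset ι) (x : ι → B) (hx : ∀ i ∈ s, f.IsIntegralElem (x i)) :
    f.IsIntegralElem (∑ i ∈ s, x i) := by
  classical
  induction s using Finset.induction_on with
  | empty =>
    rw [Finset.sum_empty]
    exact f.isIntegralElem_zero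
  | insert a s ha ih =>
    rw [Finset.sum_insert ha]
    exact RingHom.IsIntegralElem.add f (hx a (Finset.mem_insert_self a s))
      (ih fun i hi => hx i (Finset.mem_insert_of_mem hi))

/-- (α) passes to `R`-combinations of elements integral over `A[w]`. -/
theorem s34x_alpha_of_comb {n : ℕ} (b c : Fin n → 𝓕)
    (hb : ∀ i, (s18b_ev G 𝓕 w).IsIntegralElem (b i))
    (hc : ∀ i, ∃ s : G.A[X], s.map G.π ≠ 0 ∧
      (s18b_ev G 𝓕 w).IsIntegralElem (s18b_ev G 𝓕 w s * c i)) :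
    ∃ s : G.A[X], s.map G.π ≠ 0 ∧
      (s18b_ev G 𝓕 w).IsIntegralElem (s18b_ev G 𝓕 w s * ∑ i, c i * b i) := by
  classical
  choose s hs hsc using hc
  refine ⟨∏ i, s i, s34x_prod_map_ne_zero G s hs, ?_⟩
  rw [Finset.mul_sum]
  refine s34x_isIntegralElem_sum (s18b_ev G 𝓕 w) _ _ fun i _ => ?_
  have hsplit : s18b_ev G 𝓕 w (∏ j, s j) * (c i * b i) =
      s18b_ev G 𝓕 w (∏ j ∈ Finset.univ.erase i, s j) * ((s18b_ev G 𝓕 w (s i) * c i) * b i) := by
    rw [← Finset.mul_prod_erase Finset.univ s (Finset.mem_univ i), map_mul]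
    ring
  rw [hsplit]
  exact RingHom.IsIntegralElem.mul (s18b_ev G 𝓕 w)
    ((s18b_ev G 𝓕 w).isIntegralElem_map)
    (RingHom.IsIntegralElem.mul (s18b_ev G 𝓕 w) (hsc i) (hb i))

/-- **(α) from a basis with independent reductions.**  `R`, `O` subrings of `𝓕` with `ϖ ∈ R ∩ O`;
`b` a finite family of elements integral over `A[w]` such that every element of `O` is a combination
of the `b i` with coefficients in `R[1/ϖ]`, and whose reductions are independent over `R/ϖ`.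
If (α) holds for the elements of `R`, then it holds for the elements of `O`. -/
theorem s34x_alpha_of_basis (R O : Subring 𝓕) (ϖ : 𝓕) (hϖ0 : ϖ ≠ 0) (hϖR : ϖ ∈ R) (hϖO : ϖ ∈ O)
    {n : ℕ} (b : Fin n → 𝓕)
    (hb : ∀ i, (s18b_ev G 𝓕 w).IsIntegralElem (b i))
    (hind : ∀ r : Fin n → 𝓕, (∀ i, r i ∈ R) → (∃ y ∈ O, ∑ i, r i * b i = ϖ * y) →
      ∀ i, ∃ r' ∈ R, r i = ϖ * r')
    (hspan : ∀ y ∈ O, ∃ c : Fin n → 𝓕, (∀ i, ∃ k : ℕ, ϖ ^ k * c i ∈ R) ∧ y = ∑ i, c i * b i)
    (hR : ∀ c ∈ R, ∃ s : G.A[X], s.map G.π ≠ 0 ∧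
      (s18b_ev G 𝓕 w).IsIntegralElem (s18b_ev G 𝓕 w s * c)) :
    ∀ y ∈ O, ∃ s : G.A[X], s.map G.π ≠ 0 ∧
      (s18b_ev G 𝓕 w).IsIntegralElem (s18b_ev G 𝓕 w s * y) := by
  intro y hy
  obtain ⟨c, hc, rfl⟩ := hspan y hy
  have hcR := s34x_coeff_mem_of_red_indep R O ϖ hϖ0 hϖR hϖO b hind c hc hy
  exact s34x_alpha_of_comb G 𝓕 w b c hb fun i => hR (c i) (hcR i)

end Fermat.Agent.Lib.S34
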