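/-
S34 moonshot [X″]/(V5): **Kronecker's congruence in disguise**, as a pure Laurent-series statement.
`κ` a field of characteristic `q`, `Φ := qExpand κ q` (`T ↦ T^q`), `J ∈ κ((T))` of order `-1`
(e.g. the reduction of `j`).  If `s₀, …, s_q ∈ κ((T))` satisfy

  `Σ sᵢ · Φ(J)ⁱ = 0`   (reduction at the component `∞`:  `α r ↦ r̄`,   `βj ↦ Φ(j̄)`)
  `Σ Φ(sᵢ) · Jⁱ = 0`   (reduction at the component `0`:  `α r ↦ Φ(r̄)`, `βj ↦ j̄`)

then all `sᵢ = 0` (`s34x_kronecker_indep`).  This is the independence hypothesis `hind` of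
`s34x_alpha_of_basis` for `bᵢ = (βj)ⁱ`, `0 ≤ i ≤ q`: `1, J, …, J^{q-1}` are independent over
`Φ(κ((T))) = κ((T^q))` because the orders `q·ord(aᵢ) − i` are pairwise distinct, `J^q = Φ(Fr J)`,
and `Φ(J)^q ≠ Fr J` (orders `−q²` and `−1`).  (helper9)
-/
import Fermat.Agent.Lib.S37.ESeries

set_option autoImplicit false
set_option linter.unusedSectionVars false

noncomputable section

namespace Fermat.Agent.Lib.S34

open ModularCurve HahnSeries Fermat.Agent.Lib.S37

variable {κ : Type*} [Field κ]

/-- The order of `f(T^n)`. -/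
theorem s34x_order_qExpand (n : ℕ) [NeZero n] {f : LaurentSeries κ} (hf : f ≠ 0) :
    (qExpand κ n f).order = (n : ℤ) * f.order := by
  have hn : (0 : ℤ) < n := by exact_mod_cast Nat.pos_of_ne_zero (NeZero.ne n)
  have hcoeff' : (qExpand κ n f).coeff ((n : ℤ) * f.order) ≠ 0 := by
    rw [qExpand_coeff_mul]
    exact fun h => hf (HahnSeries.coeff_order_eq_zero.mp h)
  have hne : qExpand κ n f ≠ 0 := HahnSeries.ne_zero_of_coeff_ne_zero hcoeff'
  have hbelow : ∀ k : ℤ, k < (n : ℤ) * f.order → (qExpand κ n f).coeff k = 0 := by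
    intro k hk
    by_cases hdvd : (n : ℤ) ∣ k
    · obtain ⟨j, rfl⟩ := hdvd
      rw [qExpand_coeff_mul]
      exact HahnSeries.coeff_eq_zero_of_lt_order (lt_of_mul_lt_mul_left hk hn.le)
    · exact qExpand_coeff_of_not_dvd n f hdvd
  refine le_antisymm (HahnSeries.order_le_of_coeff_ne_zero hcoeff') ?_
  by_contra hlt
  rw [not_le] at hlt
  exact hne (HahnSeries.coeff_order_eq_zero.mp (hbelow _ hlt))

/-- An injective coefficient map preserves the order. -/
theorem s34x_order_coeffMap {κ' : Type*} [Field κ'] (φ : κ →+* κ') (f : LaurentSeries κ) :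
    (coeffMap φ f).order = f.order := by
  rcases eq_or_ne f 0 with rfl | hf
  · rw [map_zero, HahnSeries.order_zero, HahnSeries.order_zero]
  · have hcoeff' : (coeffMap φ f).coeff f.order ≠ 0 := by
      rw [coeffMap_coeff]
      intro h
      exact hf (HahnSeries.coeff_order_eq_zero.mp
        (φ.injective (by rw [h, map_zero])))
    have hne : coeffMap φ f ≠ 0 := HahnSeries.ne_zero_of_coeff_ne_zero hcoeff'
    refine le_antisymm (HahnSeries.order_le_of_coeff_ne_zero hcoeff') ?_
    by_contra hlt
    rw [not_le] at hlt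
    apply hne
    refine HahnSeries.coeff_order_eq_zero.mp ?_
    rw [coeffMap_coeff, HahnSeries.coeff_eq_zero_of_lt_order hlt, map_zero]

/-- A finite sum of Laurent series whose nonzero terms have pairwise distinct orders vanishes only
if every term vanishes. -/
theorem s34x_eq_zero_of_order_inj {ι : Type*} (S : Finset ι) (x : ι → LaurentSeries κ)
    (hinj : ∀ i ∈ S, ∀ j ∈ S, x i ≠ 0 → x j ≠ 0 → (x i).order = (x j).order → i = j)
    (hsum : ∑ i ∈ S, x i = 0) : ∀ i ∈ S, x i = 0 := by
  classical
  by_contra hne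
  push Not at hne
  obtain ⟨i₁, hi₁, hx₁⟩ := hne
  have hne' : (S.filter fun i => x i ≠ 0).Nonempty := ⟨i₁, Finset.mem_filter.mpr ⟨hi₁, hx₁⟩⟩
  obtain ⟨i₀, hi₀, hmin⟩ := Finset.exists_min_image _ (fun i => (x i).order) hne'
  obtain ⟨hi₀S, hx₀⟩ := Finset.mem_filter.mp hi₀
  have hc := congrArg (fun y : LaurentSeries κ => y.coeff (x i₀).order) hsum
  simp only [HahnSeries.coeff_sum, HahnSeries.coeff_zero] at hc
  rw [Finset.sum_eq_single_of_mem i₀ hi₀S] at hc
  · exact hx₀ (HahnSeries.coeff_order_eq_zero.mp hc)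
  · intro j hj hji
    by_cases hxj : x j = 0
    · rw [hxj, HahnSeries.coeff_zero]
    · have hle := hmin j (Finset.mem_filter.mpr ⟨hj, hxj⟩)
      have hlt : (x i₀).order < (x j).order :=
        lt_of_le_of_ne hle fun h => hji (hinj j hj i₀ hi₀S hxj hx₀ h.symm)
      exact HahnSeries.coeff_eq_zero_of_lt_order hlt

/-- `1, J, …, J^{n-1}` are linearly independent over `κ((T^n))` when `ord J = -1`. -/
theorem s34x_indep_pow_over_qExpand (n : ℕ) [NeZero n] (J : LaurentSeries κ) (hJ : J.order = -1)
    (a : ℕ → LaurentSeries κ) (hsum : ∑ i ∈ Finset.range n, qExpand κ n (a i) * J ^ i = 0) :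
    ∀ i ∈ Finset.range n, a i = 0 := by
  have hJ0 : J ≠ 0 := by
    rintro rfl
    rw [HahnSeries.order_zero] at hJ
    omega
  have hord : ∀ i, a i ≠ 0 → (qExpand κ n (a i) * J ^ i).order = (n : ℤ) * (a i).order - i := by
    intro i hai
    have h1 : qExpand κ n (a i) ≠ 0 := fun h => hai (qExpand_injective n (by rw [h, map_zero]))
    rw [HahnSeries.order_mul h1 (pow_ne_zero i hJ0), s34x_order_qExpand n hai,
      HahnSeries.order_pow, hJ]
    simp only [nsmul_eq_mul]
    ring
  have key := s34x_eq_zero_of_order_inj (Finset.range n)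
    (fun i => qExpand κ n (a i) * J ^ i) ?_ hsum
  · intro i hi
    have := key i hi
    rcases mul_eq_zero.mp this with h | h
    · exact qExpand_injective n (by rw [h, map_zero])
    · exact absurd h (pow_ne_zero i hJ0)
  · intro i hi j hj hxi hxj he
    have hai : a i ≠ 0 := fun h => hxi (by simp only [h, map_zero, zero_mul])
    have haj : a j ≠ 0 := fun h => hxj (by simp only [h, map_zero, zero_mul])
    have he' : (qExpand κ n (a i) * J ^ i).order = (qExpand κ n (a j) * J ^ j).order := he
    rw [hord i hai, hord j haj] at he'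
    have hi' := Finset.mem_range.mp hi
    have hj' := Finset.mem_range.mp hj
    have hdvd : (n : ℤ) ∣ (i : ℤ) - j := ⟨(a i).order - (a j).order, by linarith⟩
    clear he
    have habs : |(i : ℤ) - j| < n := by
      rw [abs_lt]
      constructor <;> omega
    have := Int.eq_zero_of_abs_lt_dvd hdvd habs
    omega

variable (q : ℕ) [hq : Fact q.Prime] [CharP κ q]

/-- **Kronecker's congruence in disguise** (range form). -/
theorem s34x_kronecker_indep_range (J : LaurentSeries κ) (hJ : J.order = -1)
    (s : ℕ → LaurentSeries κ)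
    (hinf : ∑ i ∈ Finset.range (q + 1), s i * (qExpand κ q J) ^ i = 0)
    (hzero : ∑ i ∈ Finset.range (q + 1), qExpand κ q (s i) * J ^ i = 0) :
    ∀ i ∈ Finset.range (q + 1), s i = 0 := by
  classical
  have hq1 : 1 < q := hq.out.one_lt
  have hJ0 : J ≠ 0 := by
    rintro rfl
    rw [HahnSeries.order_zero] at hJ
    omega
  set J' : LaurentSeries κ := coeffMap (frobenius κ q) J with hJ'
  have hJq : J ^ q = qExpand κ q J' := s37e_pow_char q J
  have hJ'ord : J'.order = -1 := by rw [hJ', s34x_order_coeffMap, hJ]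
  have hJ'0 : J' ≠ 0 := by
    intro h
    rw [h, HahnSeries.order_zero] at hJ'ord
    omega
  -- the modified coefficients
  set a : ℕ → LaurentSeries κ := fun i => if i = 0 then s 0 + s q * J' else s i with ha
  have hsum : ∑ i ∈ Finset.range q, qExpand κ q (a i) * J ^ i = 0 := by
    rw [Finset.sum_range_succ, hJq, ← map_mul] at hzero
    rw [← hzero]
    obtain ⟨q', rfl⟩ := Nat.exists_eq_succ_of_ne_zero hq.out.ne_zero
    rw [Finset.sum_range_succ', Finset.sum_range_succ' (fun i => qExpand κ (q' + 1) (s i) * J ^ i)]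
    simp only [ha, pow_zero, mul_one, if_true, Nat.succ_ne_zero, if_false, map_add]
    rw [add_assoc]
  have hall := s34x_indep_pow_over_qExpand q J hJ a hsum
  have ha0 : s 0 + s q * J' = 0 := by
    have := hall 0 (Finset.mem_range.mpr (by omega))
    simpa only [ha, if_true] using this
  have hmid : ∀ i, 1 ≤ i → i < q → s i = 0 := by
    intro i h1 h2
    have := hall i (Finset.mem_range.mpr h2)
    simpa only [ha, if_neg (by omega : i ≠ 0)] using this
  -- the equation at infinity
  have hinf' : s 0 + s q * (qExpand κ q J) ^ q = 0 := by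
    rw [Finset.sum_range_succ, Finset.sum_eq_single_of_mem 0 (Finset.mem_range.mpr (by omega))
      (fun i hi hi0 => by
        rw [hmid i (Nat.one_le_iff_ne_zero.mpr hi0) (Finset.mem_range.mp hi), zero_mul]),
      pow_zero, mul_one] at hinf
    exact hinf
  have hdiff : s q * ((qExpand κ q J) ^ q - J') = 0 := by
    rw [mul_sub, ← sub_eq_zero.mpr (hinf'.trans ha0.symm)]
    ring
  have hne : (qExpand κ q J) ^ q - J' ≠ 0 := by
    intro h
    have he : (qExpand κ q J) ^ q = J' := sub_eq_zero.mp h
    have ho := congrArg HahnSeries.order he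
    rw [HahnSeries.order_pow, s34x_order_qExpand q hJ0, hJ, hJ'ord] at ho
    simp only [nsmul_eq_mul] at ho
    have hq2 : (2 : ℤ) ≤ q := by exact_mod_cast hq1
    nlinarith
  have hsq : s q = 0 := (mul_eq_zero.mp hdiff).resolve_right hne
  have hs0 : s 0 = 0 := by
    rw [hsq, zero_mul, add_zero] at ha0
    exact ha0
  intro i hi
  have hi' := Finset.mem_range.mp hi
  rcases Nat.eq_zero_or_pos i with rfl | hpos
  · exact hs0
  · rcases Nat.lt_or_ge i q with h | h
    · exact hmid i hpos h
    · have : i = q := by omega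
      rw [this]
      exact hsq

/-- **Kronecker's congruence in disguise**: the reductions `(Φ(J)ⁱ, Jⁱ)`, `0 ≤ i ≤ q`, of the powers
of `βj` at the two components are independent over the residue field of level `M`, embedded by
`s ↦ (s, Φ s)`. -/
theorem s34x_kronecker_indep (J : LaurentSeries κ) (hJ : J.order = -1)
    (s : Fin (q + 1) → LaurentSeries κ)
    (hinf : ∑ i, s i * (qExpand κ q J) ^ (i : ℕ) = 0)
    (hzero : ∑ i, qExpand κ q (s i) * J ^ (i : ℕ) = 0) :
    ∀ i, s i = 0 := by
  classical
  set s' : ℕ → LaurentSeries κ := fun i => if h : i < q + 1 then s ⟨i, h⟩ else 0 with hs'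
  have hs'i : ∀ i : Fin (q + 1), s' i = s i := fun i => by
    simp only [hs', dif_pos i.2, Fin.eta]
  have h1 : ∑ i ∈ Finset.range (q + 1), s' i * (qExpand κ q J) ^ i = 0 := by
    rw [← Fin.sum_univ_eq_sum_range (fun i => s' i * (qExpand κ q J) ^ i) (q + 1)]
    simpa only [hs'i] using hinf
  have h2 : ∑ i ∈ Finset.range (q + 1), qExpand κ q (s' i) * J ^ i = 0 := by
    rw [← Fin.sum_univ_eq_sum_range (fun i => qExpand κ q (s' i) * J ^ i) (q + 1)]
    simpa only [hs'i] using hzero
  intro i
  rw [← hs'i i]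
  exact s34x_kronecker_indep_range q J hJ s' h1 h2 i (Finset.mem_range.mpr i.2)

/-! ### The same for a series `J` of order prime to `q` (bases `t₂`, `t₃` for `q ∈ {3, 2}`) -/

/-- `1, J, …, J^{q-1}` are linearly independent over `κ((T^q))` when `q` is prime and
`q ∤ ord J`. -/
theorem s34x_indep_pow_over_qExpand' (J : LaurentSeries κ) (hJ : ¬ (q : ℤ) ∣ J.order)
    (a : ℕ → LaurentSeries κ) (hsum : ∑ i ∈ Finset.range q, qExpand κ q (a i) * J ^ i = 0) :
    ∀ i ∈ Finset.range q, a i = 0 := by
  have hJ0 : J ≠ 0 := by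
    rintro rfl
    rw [HahnSeries.order_zero] at hJ
    exact hJ (dvd_zero _)
  have hqp : Prime (q : ℤ) := Nat.prime_iff_prime_int.mp hq.out
  have hord : ∀ i, a i ≠ 0 →
      (qExpand κ q (a i) * J ^ i).order = (q : ℤ) * (a i).order + i * J.order := by
    intro i hai
    have h1 : qExpand κ q (a i) ≠ 0 := fun h => hai (qExpand_injective q (by rw [h, map_zero]))
    rw [HahnSeries.order_mul h1 (pow_ne_zero i hJ0), s34x_order_qExpand q hai,
      HahnSeries.order_pow]
    simp only [nsmul_eq_mul]
  have key := s34x_eq_zero_of_order_inj (Finset.range q)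
    (fun i => qExpand κ q (a i) * J ^ i) ?_ hsum
  · intro i hi
    have := key i hi
    rcases mul_eq_zero.mp this with h | h
    · exact qExpand_injective q (by rw [h, map_zero])
    · exact absurd h (pow_ne_zero i hJ0)
  · intro i hi j hj hxi hxj he
    have hai : a i ≠ 0 := fun h => hxi (by simp only [h, map_zero, zero_mul])
    have haj : a j ≠ 0 := fun h => hxj (by simp only [h, map_zero, zero_mul])
    have he' : (qExpand κ q (a i) * J ^ i).order = (qExpand κ q (a j) * J ^ j).order := he
    rw [hord i hai, hord j haj] at he'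
    have hi' := Finset.mem_range.mp hi
    have hj' := Finset.mem_range.mp hj
    have hdvd' : (q : ℤ) ∣ ((i : ℤ) - j) * J.order :=
      ⟨(a j).order - (a i).order, by linarith⟩
    have hdvd : (q : ℤ) ∣ (i : ℤ) - j := (hqp.dvd_or_dvd hdvd').resolve_right hJ
    clear he
    have habs : |(i : ℤ) - j| < q := by
      rw [abs_lt]
      constructor <;> omega
    have := Int.eq_zero_of_abs_lt_dvd hdvd habs
    omega

/-- **Kronecker's congruence in disguise** for a series `J` with `q ∤ ord J` (range form). -/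
theorem s34x_kronecker_indep_range' (J : LaurentSeries κ) (hJ : ¬ (q : ℤ) ∣ J.order)
    (s : ℕ → LaurentSeries κ)
    (hinf : ∑ i ∈ Finset.range (q + 1), s i * (qExpand κ q J) ^ i = 0)
    (hzero : ∑ i ∈ Finset.range (q + 1), qExpand κ q (s i) * J ^ i = 0) :
    ∀ i ∈ Finset.range (q + 1), s i = 0 := by
  classical
  have hq1 : 1 < q := hq.out.one_lt
  have hJord0 : J.order ≠ 0 := fun h => hJ (by rw [h]; exact dvd_zero _)
  have hJ0 : J ≠ 0 := by
    rintro rfl
    exact hJord0 HahnSeries.order_zero
  set J' : LaurentSeries κ := coeffMap (frobenius κ q) J with hJ'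
  have hJq : J ^ q = qExpand κ q J' := s37e_pow_char q J
  have hJ'ord : J'.order = J.order := by rw [hJ', s34x_order_coeffMap]
  -- the modified coefficients
  set a : ℕ → LaurentSeries κ := fun i => if i = 0 then s 0 + s q * J' else s i with ha
  have hsum : ∑ i ∈ Finset.range q, qExpand κ q (a i) * J ^ i = 0 := by
    rw [Finset.sum_range_succ, hJq, ← map_mul] at hzero
    rw [← hzero]
    obtain ⟨q', rfl⟩ := Nat.exists_eq_succ_of_ne_zero hq.out.ne_zero
    rw [Finset.sum_range_succ', Finset.sum_range_succ' (fun i => qExpand κ (q' + 1) (s i) * J ^ i)]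
    simp only [ha, pow_zero, mul_one, if_true, Nat.succ_ne_zero, if_false, map_add]
    rw [add_assoc]
  have hall := s34x_indep_pow_over_qExpand' q J hJ a hsum
  have ha0 : s 0 + s q * J' = 0 := by
    have := hall 0 (Finset.mem_range.mpr (by omega))
    simpa only [ha, if_true] using this
  have hmid : ∀ i, 1 ≤ i → i < q → s i = 0 := by
    intro i h1 h2
    have := hall i (Finset.mem_range.mpr h2)
    simpa only [ha, if_neg (by omega : i ≠ 0)] using this
  have hinf' : s 0 + s q * (qExpand κ q J) ^ q = 0 := by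
    rw [Finset.sum_range_succ, Finset.sum_eq_single_of_mem 0 (Finset.mem_range.mpr (by omega))
      (fun i hi hi0 => by
        rw [hmid i (Nat.one_le_iff_ne_zero.mpr hi0) (Finset.mem_range.mp hi), zero_mul]),
      pow_zero, mul_one] at hinf
    exact hinf
  have hdiff : s q * ((qExpand κ q J) ^ q - J') = 0 := by
    rw [mul_sub, ← sub_eq_zero.mpr (hinf'.trans ha0.symm)]
    ring
  have hne : (qExpand κ q J) ^ q - J' ≠ 0 := by
    intro h
    have he : (qExpand κ q J) ^ q = J' := sub_eq_zero.mp h
    have ho := congrArg HahnSeries.order he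
    rw [HahnSeries.order_pow, s34x_order_qExpand q hJ0, hJ'ord] at ho
    simp only [nsmul_eq_mul] at ho
    have hq2 : (2 : ℤ) ≤ q := by exact_mod_cast hq1
    have h3 : ((q : ℤ) * q - 1) * J.order = 0 := by linear_combination ho
    rcases mul_eq_zero.mp h3 with h4 | h4
    · nlinarith
    · exact hJord0 h4
  have hsq : s q = 0 := (mul_eq_zero.mp hdiff).resolve_right hne
  have hs0 : s 0 = 0 := by
    rw [hsq, zero_mul, add_zero] at ha0
    exact ha0
  intro i hi
  have hi' := Finset.mem_range.mp hi
  rcases Nat.eq_zero_or_pos i with rfl | hpos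
  · exact hs0
  · rcases Nat.lt_or_ge i q with h | h
    · exact hmid i hpos h
    · have : i = q := by omega
      rw [this]
      exact hsq

/-- **Kronecker's congruence in disguise** for a series `J` with `q ∤ ord J`. -/
theorem s34x_kronecker_indep' (J : LaurentSeries κ) (hJ : ¬ (q : ℤ) ∣ J.order)
    (s : Fin (q + 1) → LaurentSeries κ)
    (hinf : ∑ i, s i * (qExpand κ q J) ^ (i : ℕ) = 0)
    (hzero : ∑ i, qExpand κ q (s i) * J ^ (i : ℕ) = 0) :
    ∀ i, s i = 0 := by
  classical
  set s' : ℕ → LaurentSeries κ := fun i => if h : i < q + 1 then s ⟨i, h⟩ else 0 with hs'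
  have hs'i : ∀ i : Fin (q + 1), s' i = s i := fun i => by
    simp only [hs', dif_pos i.2, Fin.eta]
  have h1 : ∑ i ∈ Finset.range (q + 1), s' i * (qExpand κ q J) ^ i = 0 := by
    rw [← Fin.sum_univ_eq_sum_range (fun i => s' i * (qExpand κ q J) ^ i) (q + 1)]
    simpa only [hs'i] using hinf
  have h2 : ∑ i ∈ Finset.range (q + 1), qExpand κ q (s' i) * J ^ i = 0 := by
    rw [← Fin.sum_univ_eq_sum_range (fun i => qExpand κ q (s' i) * J ^ i) (q + 1)]
    simpa only [hs'i] using hzero
  intro i
  rw [← hs'i i]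
  exact s34x_kronecker_indep_range' q J hJ s' h1 h2 i (Finset.mem_range.mpr i.2)

end Fermat.Agent.Lib.S34
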