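/-
S34 moonshot, package [M]/(E) (helper6), part 5 = (I): THE HYPOTHESIS (α) AT LEVEL `M q` for the
intersection `V_∞ ⊓ V_0`, from (α) at level `M`, by helper9's BASIS ROUTE (`XAlpha`, `XKron`):
every `y ∈ V_∞ ⊓ V_0` is `Σ_{i ≤ q} α(c_i) (βj)^i` with `c_i ∈ V_M` (Kronecker independence of the
reductions `(Φ(J)^i, J^i)` + the degree bound `[𝓕_{Mq} : α 𝓕_M] ≤ q + 1`, the latter as the
hypothesis `hdeg` in the shape of helper5's `RDeg`).
-/
import Fermat.Agent.Lib.S34.MValRed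
import Fermat.Agent.Lib.S34.XAlpha
import Fermat.Agent.Lib.S34.XKron
import Fermat.Agent.Lib.S18.GAlpha
import Fermat.Agent.Lib.S18.TSepJ

set_option autoImplicit false
set_option linter.unusedSectionVars false

noncomputable section

namespace Fermat.Agent.Lib.S34

open ModularCurve AlgebraicCurve HahnSeries Polynomial Fermat.Agent.Lib.FF Fermat.Agent.Lib.S18
  Fermat.Agent.Lib.S37

local notation "Kb" => AlgebraicClosure ℚ

variable {K₀ : Type*} [Field K₀] [Algebra ℚ K₀] {κ : Type*} [Field κ] (G : s18g_GaussData K₀ κ)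
variable (φ : K₀ →+* Kb) (M q : ℕ) [NeZero M] [NeZero q]

/-- `βj = j(T^q)` as an element of the function field of level `M q`. -/
def s34m_betaJ : s34m_F K₀ (M * q) := heckeBetaBar K₀ M q (s18g_jF (K := K₀) M)

theorem s34m_coe_betaJ :
    ((s34m_betaJ (K₀ := K₀) M q : s34m_F K₀ (M * q)) : LaurentSeries K₀) =
      qExpand K₀ q (jqModC K₀) := rfl

/-- `j ∈ V_M`. -/
theorem s34m_jF_mem_Vinf (N : ℕ) [NeZero N] : s18g_jF (K := K₀) N ∈ s34m_Vinf G N :=
  s18g_jq_mem_O G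

theorem s34m_redInf_jF (N : ℕ) [NeZero N] :
    s34m_redInf G N ⟨s18g_jF (K := K₀) N, s34m_jF_mem_Vinf G N⟩ = jqModC κ :=
  s18g_red_jq G

theorem s34m_alpha_jF : heckeAlphaBar K₀ M q (s18g_jF (K := K₀) M) = s18g_jF (K := K₀) (M * q) :=
  Subtype.ext rfl

/-- The image `α(V_M)` as a subring of the function field of level `M q`. -/
def s34m_R : Subring (s34m_F K₀ (M * q)) :=
  (s34m_Vinf G M).toSubring.map (heckeAlphaBar K₀ M q : s34m_F K₀ M →+* s34m_F K₀ (M * q))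

theorem s34m_mem_R (x : s34m_F K₀ (M * q)) :
    x ∈ s34m_R G M q ↔ ∃ c ∈ s34m_Vinf G M, heckeAlphaBar K₀ M q c = x := by
  rw [s34m_R, Subring.mem_map]
  rfl

theorem s34m_alpha_unif : heckeAlphaBar K₀ M q (s34m_unif G M) = s34m_unif G (M * q) :=
  (heckeAlphaBar K₀ M q).commutes _

theorem s34m_unif_mem_R : s34m_unif G (M * q) ∈ s34m_R G M q :=
  (s34m_mem_R G M q _).mpr ⟨s34m_unif G M, s34m_unif_mem_Vinf G M, s34m_alpha_unif G M q⟩

variable (hq : q.Prime) (hqM : ¬ q ∣ M)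

/-- The ring `O₂ = V_∞ ⊓ V_0`. -/
abbrev s34m_O2 : Subring (s34m_F K₀ (M * q)) := s34x_infRing (s34m_VV G φ M q hq hqM)

theorem s34m_mem_O2 (y : s34m_F K₀ (M * q)) :
    y ∈ s34m_O2 G φ M q hq hqM ↔
      y ∈ s34m_Vinf G (M * q) ∧ y ∈ s34m_Vzero G φ M q hq hqM := by
  rw [s34x_mem_infRing]
  constructor
  · intro h
    exact ⟨h true, h false⟩
  · rintro ⟨h1, h2⟩ i
    cases i
    · exact h2
    · exact h1

theorem s34m_unif_mem_O2 : s34m_unif G (M * q) ∈ s34m_O2 G φ M q hq hqM :=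
  (s34m_mem_O2 G φ M q hq hqM _).mpr
    ⟨s34m_unif_mem_Vinf G (M * q), s34m_unif_mem_Vzero G φ M q hq hqM⟩

theorem s34m_betaJ_mem_Vinf : s34m_betaJ (K₀ := K₀) M q ∈ s34m_Vinf G (M * q) :=
  s34m_beta_mem_Vinf G M q (s34m_jF_mem_Vinf G M)

theorem s34m_betaJ_mem_Vzero : s34m_betaJ (K₀ := K₀) M q ∈ s34m_Vzero G φ M q hq hqM :=
  s34m_beta_mem_Vzero G φ M q hq hqM (s34m_jF_mem_Vinf G M)

/-! ### Kronecker independence of the reductions of `(βj)^i` -/

variable [CharP κ q]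

include hq hqM in
/-- **`hind`**: a combination `Σ α(c_i) (βj)^i`, `c_i ∈ V_M`, lies in `ϖ (V_∞ ⊓ V_0)` only if all
`c_i ∈ ϖ V_M`. -/
theorem s34m_kronecker (c : Fin (q + 1) → s34m_F K₀ M) (hc : ∀ i, c i ∈ s34m_Vinf G M)
    (y : s34m_F K₀ (M * q)) (hy : y ∈ s34m_O2 G φ M q hq hqM)
    (he : ∑ i, heckeAlphaBar K₀ M q (c i) * s34m_betaJ (K₀ := K₀) M q ^ (i : ℕ) =
      s34m_unif G (M * q) * y) :
    ∀ i, ∃ z ∈ s34m_Vinf G M, c i = s34m_unif G M * z := by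
  have : Fact q.Prime := ⟨hq⟩
  obtain ⟨hyI, hy0⟩ := (s34m_mem_O2 G φ M q hq hqM y).mp hy
  set J : LaurentSeries κ := jqModC κ with hJ
  have hJord : J.order = -1 := s18t_order_jqModC κ
  set s : Fin (q + 1) → LaurentSeries κ := fun i => s34m_redInf G M ⟨c i, hc i⟩ with hs
  -- the sum as an element of `V_∞`
  have hinf : ∑ i, s i * (qExpand κ q J) ^ (i : ℕ) = 0 := by
    set a : Fin (q + 1) → s34m_Vinf G (M * q) := fun i =>
      ⟨heckeAlphaBar K₀ M q (c i), s34m_alpha_mem_Vinf G M q (hc i)⟩ with ha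
    set B : s34m_Vinf G (M * q) := ⟨s34m_betaJ (K₀ := K₀) M q, s34m_betaJ_mem_Vinf G M q⟩ with hB
    have hcoe : ((∑ i, a i * B ^ (i : ℕ) : s34m_Vinf G (M * q)) : s34m_F K₀ (M * q)) =
        s34m_unif G (M * q) * y := by
      rw [← he]
      push_cast
      rfl
    have h0 : s34m_redInf G (M * q) (∑ i, a i * B ^ (i : ℕ)) = 0 :=
      (s34m_redInf_eq_zero_iff G (M * q) _).mpr ⟨y, hyI, hcoe⟩
    rw [map_sum] at h0
    rw [← h0]
    refine Finset.sum_congr rfl fun i _ => ?_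
    rw [map_mul, map_pow]
    have e1 : s34m_redInf G (M * q) (a i) = s i := s34m_redInf_alpha G M q ⟨c i, hc i⟩
    have e2 : s34m_redInf G (M * q) B = qExpand κ q J := by
      have := s34m_redInf_beta G M q ⟨s18g_jF (K := K₀) M, s34m_jF_mem_Vinf G M⟩
      rw [s34m_redInf_jF] at this
      exact this
    rw [e1, e2]
  have hzero : ∑ i, qExpand κ q (s i) * J ^ (i : ℕ) = 0 := by
    set a : Fin (q + 1) → s34m_Vzero G φ M q hq hqM := fun i =>
      ⟨heckeAlphaBar K₀ M q (c i), s34m_alpha_mem_Vzero G φ M q hq hqM (hc i)⟩ with ha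
    set B : s34m_Vzero G φ M q hq hqM :=
      ⟨s34m_betaJ (K₀ := K₀) M q, s34m_betaJ_mem_Vzero G φ M q hq hqM⟩ with hB
    have hcoe : ((∑ i, a i * B ^ (i : ℕ) : s34m_Vzero G φ M q hq hqM) : s34m_F K₀ (M * q)) =
        s34m_unif G (M * q) * y := by
      rw [← he]
      push_cast
      rfl
    have h0 : s34m_redZero G φ M q hq hqM (∑ i, a i * B ^ (i : ℕ)) = 0 :=
      (s34m_redZero_eq_zero_iff G φ M q hq hqM _).mpr ⟨y, hy0, hcoe⟩
    rw [map_sum] at h0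
    rw [← h0]
    refine Finset.sum_congr rfl fun i _ => ?_
    rw [map_mul, map_pow]
    have e1 : s34m_redZero G φ M q hq hqM (a i) = qExpand κ q (s i) :=
      s34m_redZero_alpha G φ M q hq hqM ⟨c i, hc i⟩
    have e2 : s34m_redZero G φ M q hq hqM B = J := by
      have := s34m_redZero_beta G φ M q hq hqM ⟨s18g_jF (K := K₀) M, s34m_jF_mem_Vinf G M⟩
      rw [s34m_redInf_jF] at this
      exact this
    rw [e1, e2]
  have hall := s34x_kronecker_indep q J hJord s hinf hzero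
  intro i
  exact (s34m_redInf_eq_zero_iff G M ⟨c i, hc i⟩).mp (hall i)

/-- The family `b i = (βj)^i`, `0 ≤ i ≤ q`. -/
def s34m_b : Fin (q + 1) → s34m_F K₀ (M * q) := fun i => s34m_betaJ (K₀ := K₀) M q ^ (i : ℕ)

include hq hqM in
/-- **`hind`** in the shape of `s34x_alpha_of_basis`. -/
theorem s34m_hind (r : Fin (q + 1) → s34m_F K₀ (M * q)) (hr : ∀ i, r i ∈ s34m_R G M q)
    (h : ∃ y ∈ s34m_O2 G φ M q hq hqM,
      ∑ i, r i * s34m_b (K₀ := K₀) M q i = s34m_unif G (M * q) * y) :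
    ∀ i, ∃ r' ∈ s34m_R G M q, r i = s34m_unif G (M * q) * r' := by
  obtain ⟨y, hy, he⟩ := h
  have hr' : ∀ i, ∃ c ∈ s34m_Vinf G M, heckeAlphaBar K₀ M q c = r i := fun i =>
    (s34m_mem_R G M q _).mp (hr i)
  choose c hc hcr using hr'
  have he' : ∑ i, heckeAlphaBar K₀ M q (c i) * s34m_betaJ (K₀ := K₀) M q ^ (i : ℕ) =
      s34m_unif G (M * q) * y := by
    rw [← he]
    refine Finset.sum_congr rfl fun i _ => ?_
    rw [hcr i]
    rfl
  intro i
  obtain ⟨z, hz, e⟩ := s34m_kronecker G φ M q hq hqM c hc y hy he' i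
  refine ⟨heckeAlphaBar K₀ M q z, (s34m_mem_R G M q _).mpr ⟨z, hz, rfl⟩, ?_⟩
  rw [← hcr i, e, map_mul, s34m_alpha_unif]

/-- An element of `V_M` divisible by every power of `ϖ` is zero. -/
theorem s34m_eq_zero_of_forall_pow (N : ℕ) [NeZero N] (x : s34m_F K₀ N)
    (h : ∀ n : ℕ, ∃ z ∈ s34m_Vinf G N, x = s34m_unif G N ^ n * z) : x = 0 := by
  by_contra hx
  obtain ⟨m, u, hu, hu', e⟩ := s34m_exists_zpow_Vinf G N x hx
  have hϖ0 := s34m_unif_ne_zero G N
  obtain ⟨z, hz, e'⟩ := h (m.toNat + 1)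
  -- `ϖ⁻¹ = ϖ^(m - toNat m) ... ` lies in `V`, contradiction
  have hinv : (s34m_unif G N)⁻¹ ∈ s34m_Vinf G N := by
    have hu0 : u ≠ 0 := by
      rintro rfl
      exact hx (by rw [e, mul_zero])
    have e2 : (s34m_unif G N)⁻¹ =
        s34m_unif G N ^ (m.toNat - m : ℤ) * (z * u⁻¹) := by
      have h1 : s34m_unif G N ^ m * u = s34m_unif G N ^ (m.toNat + 1) * z := by rw [← e, e']
      have hP : s34m_unif G N ^ (m.toNat + 1) ≠ 0 := pow_ne_zero _ hϖ0
      have h2 : z * u⁻¹ = s34m_unif G N ^ m * (s34m_unif G N ^ (m.toNat + 1))⁻¹ := by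
        have hz' : z = s34m_unif G N ^ m * u * (s34m_unif G N ^ (m.toNat + 1))⁻¹ := by
          rw [h1, mul_comm _ z, mul_assoc, mul_inv_cancel₀ hP, mul_one]
        rw [hz', mul_assoc, mul_assoc, mul_comm _ u⁻¹, ← mul_assoc u, mul_inv_cancel₀ hu0, one_mul]
      rw [h2, ← zpow_natCast, ← zpow_neg, ← zpow_add₀ hϖ0, ← zpow_add₀ hϖ0, ← zpow_neg_one]
      congr 1
      push_cast
      ring
    rw [e2]
    refine (s34m_Vinf G N).mul_mem _ _ ?_ ((s34m_Vinf G N).mul_mem _ _ hz hu')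
    have hnn : 0 ≤ (m.toNat - m : ℤ) := by
      have := Int.self_le_toNat m
      omega
    obtain ⟨k, hk⟩ := Int.eq_ofNat_of_zero_le hnn
    rw [hk, zpow_natCast]
    exact (s34m_Vinf G N).pow_mem (s34m_unif_mem_Vinf G N) k
  have hunit : IsUnit (s18g_unifV G _ (s34m_hF G N)) := by
    refine IsUnit.of_mul_eq_one (⟨(s34m_unif G N)⁻¹, hinv⟩ : s34m_Vinf G N) (Subtype.ext ?_)
    show s34m_unif G N * (s34m_unif G N)⁻¹ = 1
    exact mul_inv_cancel₀ hϖ0
  exact s18g_not_isUnit_unifV G _ (s34m_hF G N) hunit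

include G φ hq hqM in
/-- **Linear independence** of `1, βj, …, (βj)^q` over `α(𝓕_M)`. -/
theorem s34m_b_indep (c : Fin (q + 1) → s34m_F K₀ M)
    (h : ∑ i, heckeAlphaBar K₀ M q (c i) * s34m_b (K₀ := K₀) M q i = 0) : ∀ i, c i = 0 := by
  classical
  have hϖ0 := s34m_unif_ne_zero G M
  -- integral case, by induction on the exponent
  have key : ∀ n : ℕ, ∀ c : Fin (q + 1) → s34m_F K₀ M, (∀ i, c i ∈ s34m_Vinf G M) →
      ∑ i, heckeAlphaBar K₀ M q (c i) * s34m_b (K₀ := K₀) M q i = 0 →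
      ∀ i, ∃ z ∈ s34m_Vinf G M, c i = s34m_unif G M ^ n * z := by
    intro n
    induction n with
    | zero =>
      intro c hc _ i
      exact ⟨c i, hc i, by rw [pow_zero, one_mul]⟩
    | succ n ih =>
      intro c hc h0 i
      have h1 := s34m_kronecker G φ M q hq hqM c hc 0 (Subring.zero_mem _)
        (by rw [mul_zero]; exact h0)
      choose z hz hcz using h1
      have h2 : ∑ i, heckeAlphaBar K₀ M q (z i) * s34m_b (K₀ := K₀) M q i = 0 := by
        have h3 : s34m_unif G (M * q) *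
            ∑ i, heckeAlphaBar K₀ M q (z i) * s34m_b (K₀ := K₀) M q i = 0 := by
          rw [Finset.mul_sum, ← h0]
          refine Finset.sum_congr rfl fun i _ => ?_
          rw [hcz i, map_mul, s34m_alpha_unif, mul_assoc]
        exact (mul_eq_zero.mp h3).resolve_left (s34m_unif_ne_zero G (M * q))
      obtain ⟨z', hz', e'⟩ := ih z hz h2 i
      exact ⟨z', hz', by rw [hcz i, e', pow_succ]; ring⟩
  -- clear denominators
  have hex : ∀ i, ∃ k : ℕ, s34m_unif G M ^ k * c i ∈ s34m_Vinf G M := by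
    intro i
    by_cases hci : c i = 0
    · exact ⟨0, by rw [hci, mul_zero]; exact (s34m_Vinf G M).zero_mem⟩
    obtain ⟨m, u, hu, _, e⟩ := s34m_exists_zpow_Vinf G M (c i) hci
    refine ⟨(-m).toNat, ?_⟩
    rw [e, ← mul_assoc, ← zpow_natCast, ← zpow_add₀ hϖ0]
    refine (s34m_Vinf G M).mul_mem _ _ ?_ hu
    have hnn : 0 ≤ (((-m).toNat : ℤ) + m) := by
      have := Int.self_le_toNat (-m)
      omega
    obtain ⟨k, hk⟩ := Int.eq_ofNat_of_zero_le hnn
    rw [hk, zpow_natCast]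
    exact (s34m_Vinf G M).pow_mem (s34m_unif_mem_Vinf G M) k
  choose k hk using hex
  set k₀ := Finset.univ.sup k with hk₀
  have hk' : ∀ i, s34m_unif G M ^ k₀ * c i ∈ s34m_Vinf G M := by
    intro i
    have hle : k i ≤ k₀ := Finset.le_sup (Finset.mem_univ i)
    obtain ⟨d, hd⟩ := Nat.exists_eq_add_of_le hle
    rw [hd, _root_.pow_add, mul_comm (s34m_unif G M ^ k i), mul_assoc]
    exact (s34m_Vinf G M).mul_mem _ _ ((s34m_Vinf G M).pow_mem (s34m_unif_mem_Vinf G M) d) (hk i)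
  have h0 : ∑ i, heckeAlphaBar K₀ M q (s34m_unif G M ^ k₀ * c i) * s34m_b (K₀ := K₀) M q i =
      0 := by
    have : ∑ i, heckeAlphaBar K₀ M q (s34m_unif G M ^ k₀ * c i) * s34m_b (K₀ := K₀) M q i =
        s34m_unif G (M * q) ^ k₀ *
          ∑ i, heckeAlphaBar K₀ M q (c i) * s34m_b (K₀ := K₀) M q i := by
      rw [Finset.mul_sum]
      refine Finset.sum_congr rfl fun i _ => ?_
      rw [map_mul, map_pow, s34m_alpha_unif, mul_assoc]
    rw [this, h, mul_zero]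
  intro i
  have hz : s34m_unif G M ^ k₀ * c i = 0 :=
    s34m_eq_zero_of_forall_pow G M _ fun n => key n _ hk' h0 i
  exact (mul_eq_zero.mp hz).resolve_left (pow_ne_zero _ hϖ0)

/-- Every element of `𝓕_N` has a `ϖ`-power multiple in `V_∞`. -/
theorem s34m_exists_pow_mul_mem (N : ℕ) [NeZero N] (c : s34m_F K₀ N) :
    ∃ k : ℕ, s34m_unif G N ^ k * c ∈ s34m_Vinf G N := by
  have hϖ0 := s34m_unif_ne_zero G N
  by_cases hci : c = 0
  · exact ⟨0, by rw [hci, mul_zero]; exact (s34m_Vinf G N).zero_mem⟩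
  obtain ⟨m, u, hu, _, e⟩ := s34m_exists_zpow_Vinf G N c hci
  refine ⟨(-m).toNat, ?_⟩
  rw [e, ← mul_assoc, ← zpow_natCast, ← zpow_add₀ hϖ0]
  refine (s34m_Vinf G N).mul_mem _ _ ?_ hu
  have hnn : 0 ≤ (((-m).toNat : ℤ) + m) := by
    have := Int.self_le_toNat (-m)
    omega
  obtain ⟨k, hk⟩ := Int.eq_ofNat_of_zero_le hnn
  rw [hk, zpow_natCast]
  exact (s34m_Vinf G N).pow_mem (s34m_unif_mem_Vinf G N) k

/-- **The degree hypothesis** (`[𝓕_{Mq} : α 𝓕_M] ≤ q + 1`, in the shape of helper5's `RDeg`):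
a family of `q + 1` elements of `𝓕_{Mq}` linearly independent over `α(𝓕_M)` spans. -/
def s34m_HDeg (K₀ : Type*) [Field K₀] [Algebra ℚ K₀] (M q : ℕ) [NeZero M] [NeZero q] : Prop :=
  ∀ b : Fin (q + 1) → s34m_F K₀ (M * q),
    (∀ c : Fin (q + 1) → s34m_F K₀ M,
      ∑ i, heckeAlphaBar K₀ M q (c i) * b i = 0 → ∀ i, c i = 0) →
    ∀ y : s34m_F K₀ (M * q), ∃ c : Fin (q + 1) → s34m_F K₀ M,
      y = ∑ i, heckeAlphaBar K₀ M q (c i) * b i

include hq hqM in
/-- **The integral basis**: every `y ∈ V_∞ ⊓ V_0` is `Σ_{i ≤ q} α(c_i) (βj)^i` with `c_i ∈ V_M`. -/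
theorem s34m_exists_coeff (hdeg : s34m_HDeg K₀ M q) (y : s34m_F K₀ (M * q))
    (hy : y ∈ s34m_O2 G φ M q hq hqM) :
    ∃ c : Fin (q + 1) → s34m_F K₀ M, (∀ i, c i ∈ s34m_Vinf G M) ∧
      y = ∑ i, heckeAlphaBar K₀ M q (c i) * s34m_b (K₀ := K₀) M q i := by
  obtain ⟨c, hc⟩ := hdeg (s34m_b (K₀ := K₀) M q) (s34m_b_indep G φ M q hq hqM) y
  refine ⟨c, ?_, hc⟩
  have hmem := s34x_coeff_mem_of_red_indep (s34m_R G M q) (s34m_O2 G φ M q hq hqM)
    (s34m_unif G (M * q)) (s34m_unif_ne_zero G (M * q)) (s34m_unif_mem_R G M q)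
    (s34m_unif_mem_O2 G φ M q hq hqM) (s34m_b (K₀ := K₀) M q)
    (s34m_hind G φ M q hq hqM) (fun i => heckeAlphaBar K₀ M q (c i))
    (fun i => by
      obtain ⟨k, hk⟩ := s34m_exists_pow_mul_mem G M (c i)
      refine ⟨k, (s34m_mem_R G M q _).mpr ⟨_, hk, ?_⟩⟩
      rw [map_mul, map_pow, s34m_alpha_unif])
    (by rw [← hc]; exact hy)
  intro i
  obtain ⟨c', hc', e⟩ := (s34m_mem_R G M q _).mp (hmem i)
  have : c' = c i := (heckeAlphaBar K₀ M q).toRingHom.injective e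
  rw [← this]
  exact hc'

/-- Transport of integrality along `α`. -/
theorem s34m_isIntegralElem_alpha (w x : s34m_F K₀ M)
    (h : (s18g_ev G w).IsIntegralElem x) :
    (s18g_ev G (heckeAlphaBar K₀ M q w)).IsIntegralElem (heckeAlphaBar K₀ M q x) := by
  have e : ((heckeAlphaBar K₀ M q : s34m_F K₀ M →ₐ[K₀] s34m_F K₀ (M * q)) :
      s34m_F K₀ M →+* s34m_F K₀ (M * q)).comp
      (s18g_ev G w) = s18g_ev G (heckeAlphaBar K₀ M q w) := by
    apply Polynomial.ringHom_ext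
    · intro a
      simp [s18g_ev]
    · simp [s18g_ev]
  obtain ⟨p, hp, h0⟩ := h
  refine ⟨p, hp, ?_⟩
  have h1 := Polynomial.hom_eval₂ p (s18g_ev G w)
    ((heckeAlphaBar K₀ M q : s34m_F K₀ M →ₐ[K₀] s34m_F K₀ (M * q)) :
      s34m_F K₀ M →+* s34m_F K₀ (M * q)) x
  rw [h0, map_zero, e] at h1
  exact h1.symm

theorem s34m_alpha_ev (w : s34m_F K₀ M) (s : G.A[X]) :
    heckeAlphaBar K₀ M q (s18g_ev G w s) = s18g_ev G (heckeAlphaBar K₀ M q w) s := by
  have e : ((heckeAlphaBar K₀ M q : s34m_F K₀ M →ₐ[K₀] s34m_F K₀ (M * q)) :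
      s34m_F K₀ M →+* s34m_F K₀ (M * q)).comp
      (s18g_ev G w) = s18g_ev G (heckeAlphaBar K₀ M q w) := by
    apply Polynomial.ringHom_ext
    · intro a
      simp [s18g_ev]
    · simp [s18g_ev]
  exact RingHom.congr_fun e s

include hq hqM in
/-- **(α) at level `M q` from (α) at level `M`**, for a base function `w ∈ 𝓕_M` such that
`w ^ k * (βj)^i` is integral over `A[w]` for some `k`. -/
theorem s34m_alpha_of_level (hdeg : s34m_HDeg K₀ M q) (w : s34m_F K₀ M)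
    (hαM : ∀ y ∈ s34m_Vinf G M, ∃ s : G.A[X], s.map G.π ≠ 0 ∧
      (s18g_ev G w).IsIntegralElem (s18g_ev G w s * y))
    (k : ℕ) (hbw : ∀ i, (s18g_ev G (heckeAlphaBar K₀ M q w)).IsIntegralElem
      (heckeAlphaBar K₀ M q w ^ k * s34m_b (K₀ := K₀) M q i)) :
    ∀ y ∈ s34m_O2 G φ M q hq hqM, ∃ s : G.A[X], s.map G.π ≠ 0 ∧
      (s18b_ev G (laurentBaseChange K₀ (modularFunctionFieldFull (M * q)))
        (heckeAlphaBar K₀ M q w)).IsIntegralElem
        (s18b_ev G (laurentBaseChange K₀ (modularFunctionFieldFull (M * q)))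
          (heckeAlphaBar K₀ M q w) s * y) := by
  intro y hy
  obtain ⟨c, hc, e⟩ := s34m_exists_coeff G φ M q hq hqM hdeg y hy
  set W := heckeAlphaBar K₀ M q w with hW
  obtain ⟨s, hs, hint⟩ := s34x_alpha_of_comb G
    (laurentBaseChange K₀ (modularFunctionFieldFull (M * q))) W
    (fun i => W ^ k * s34m_b (K₀ := K₀) M q i) (fun i => heckeAlphaBar K₀ M q (c i)) hbw
    (fun i => by
      obtain ⟨s, hs, hint⟩ := hαM (c i) (hc i)
      refine ⟨s, hs, ?_⟩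
      have := s34m_isIntegralElem_alpha G M q w _ hint
      rw [map_mul, s34m_alpha_ev] at this
      exact this)
  refine ⟨s * Polynomial.X ^ k, ?_, ?_⟩
  · rw [Polynomial.map_mul, Polynomial.map_pow, Polynomial.map_X]
    exact mul_ne_zero hs (pow_ne_zero _ Polynomial.X_ne_zero)
  · have e2 : s18b_ev G (laurentBaseChange K₀ (modularFunctionFieldFull (M * q))) W
        (s * Polynomial.X ^ k) * y =
        s18b_ev G (laurentBaseChange K₀ (modularFunctionFieldFull (M * q))) W s *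
          ∑ i, heckeAlphaBar K₀ M q (c i) * (W ^ k * s34m_b (K₀ := K₀) M q i) := by
      rw [map_mul, map_pow, ← s18g_ev_eq_b, s18g_ev_X, e, mul_assoc, Finset.mul_sum]
      congr 1
      refine Finset.sum_congr rfl fun i _ => ?_
      ring
    rw [e2]
    exact hint

/-! ### The two base functions `j` and `j⁻¹` -/

/-- `βj` is integral over `A[j]`. -/
theorem s34m_isIntegralElem_betaJ :
    (s18g_ev G (s18g_jF (K := K₀) (M * q))).IsIntegralElem (s34m_betaJ (K₀ := K₀) M q) := by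
  rw [s18g_isIntegralElem_coe]
  exact s18g_isIntegralElem_of_intOver G (s18g_intOver_jqN (K := K₀) q)

theorem s34m_isIntegralElem_b (i : Fin (q + 1)) :
    (s18g_ev G (s18g_jF (K := K₀) (M * q))).IsIntegralElem (s34m_b (K₀ := K₀) M q i) :=
  s18g_isIntegralElem_pow _ (s34m_isIntegralElem_betaJ G M q) _

include hq hqM in
/-- **(α) for `V_∞ ⊓ V_0` at level `M q`, base function `j`.** -/
theorem s34m_alpha_j (hdeg : s34m_HDeg K₀ M q)
    (hαM : ∀ y ∈ s34m_Vinf G M, ∃ s : G.A[X], s.map G.π ≠ 0 ∧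
      (s18g_ev G (s18g_jF (K := K₀) M)).IsIntegralElem (s18g_ev G (s18g_jF (K := K₀) M) s * y)) :
    ∀ y ∈ s34m_O2 G φ M q hq hqM, ∃ s : G.A[X], s.map G.π ≠ 0 ∧
      (s18b_ev G (laurentBaseChange K₀ (modularFunctionFieldFull (M * q)))
        (s18g_jF (K := K₀) (M * q))).IsIntegralElem
        (s18b_ev G (laurentBaseChange K₀ (modularFunctionFieldFull (M * q)))
          (s18g_jF (K := K₀) (M * q)) s * y) := by
  have h := s34m_alpha_of_level G φ M q hq hqM hdeg (s18g_jF (K := K₀) M) hαM 0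
    (fun i => by
      rw [s34m_alpha_jF, pow_zero, one_mul]
      exact s34m_isIntegralElem_b G M q i)
  rw [s34m_alpha_jF] at h
  exact h

include hq hqM in
/-- **(α) for `V_∞ ⊓ V_0` at level `M q`, base function `j⁻¹`.** -/
theorem s34m_alpha_inv (hdeg : s34m_HDeg K₀ M q)
    (hαM : ∀ y ∈ s34m_Vinf G M, ∃ s : G.A[X], s.map G.π ≠ 0 ∧
      (s18g_ev G (s18g_jF (K := K₀) M)⁻¹).IsIntegralElem
        (s18g_ev G (s18g_jF (K := K₀) M)⁻¹ s * y)) :
    ∀ y ∈ s34m_O2 G φ M q hq hqM, ∃ s : G.A[X], s.map G.π ≠ 0 ∧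
      (s18b_ev G (laurentBaseChange K₀ (modularFunctionFieldFull (M * q)))
        (s18g_jF (K := K₀) (M * q))⁻¹).IsIntegralElem
        (s18b_ev G (laurentBaseChange K₀ (modularFunctionFieldFull (M * q)))
          (s18g_jF (K := K₀) (M * q))⁻¹ s * y) := by
  classical
  set jN := s18g_jF (K := K₀) (M * q) with hjN
  have hj0 : jN ≠ 0 := s18g_jF_ne_zero (K := K₀) (M * q)
  have hW : heckeAlphaBar K₀ M q (s18g_jF (K := K₀) M)⁻¹ = jN⁻¹ := by
    rw [map_inv₀, s34m_alpha_jF]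
  -- exponents making `(βj)^i` integral over `A[j⁻¹]`
  have hex : ∀ i, ∃ k : ℕ, (s18g_ev G jN⁻¹).IsIntegralElem (jN⁻¹ ^ k * s34m_b (K₀ := K₀) M q i) := by
    intro i
    have h := s34m_isIntegralElem_b G M q i
    rw [s18g_ev_eq] at h
    obtain ⟨k, hk⟩ := s18g_isIntegralElem_inv _ jN hj0 _ h
    exact ⟨k, by rw [s18g_ev_eq]; exact hk⟩
  choose k hk using hex
  set k₀ := Finset.univ.sup k with hk₀
  have hwint : (s18g_ev G jN⁻¹).IsIntegralElem jN⁻¹ := by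
    have := (s18g_ev G jN⁻¹).isIntegralElem_map (x := Polynomial.X)
    rwa [s18g_ev_X] at this
  have hk' : ∀ i, (s18g_ev G jN⁻¹).IsIntegralElem (jN⁻¹ ^ k₀ * s34m_b (K₀ := K₀) M q i) := by
    intro i
    have hle : k i ≤ k₀ := Finset.le_sup (f := k) (Finset.mem_univ i)
    have e : jN⁻¹ ^ k₀ * s34m_b (K₀ := K₀) M q i =
        jN⁻¹ ^ (k₀ - k i) * (jN⁻¹ ^ k i * s34m_b (K₀ := K₀) M q i) := by
      rw [← mul_assoc, ← _root_.pow_add, Nat.sub_add_cancel hle]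
    rw [e]
    exact RingHom.IsIntegralElem.mul _ (s18g_isIntegralElem_pow _ hwint _) (hk i)
  have h := s34m_alpha_of_level G φ M q hq hqM hdeg (s18g_jF (K := K₀) M)⁻¹ hαM k₀
    (fun i => by
      rw [hW]
      exact hk' i)
  rw [hW] at h
  exact h

/-! ### Membership facts for `XFin` (`hAO`, `hwO`) -/

omit [CharP κ q] in
/-- The constants of `A` lie in `V_∞` and `V_0`. -/
theorem s34m_const_mem_VV (i : Bool) (a : G.A) :
    algebraMap K₀ (s34m_F K₀ (M * q)) (a : K₀) ∈ s34m_VV G φ M q hq hqM i := by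
  have h1 : algebraMap K₀ (s34m_F K₀ M) (a : K₀) ∈ s34m_Vinf G M :=
    (s18g_algebraMap_mem_V_iff G _ (s34m_hF G M) _).mpr a.2
  have e : heckeAlphaBar K₀ M q (algebraMap K₀ (s34m_F K₀ M) (a : K₀)) =
      algebraMap K₀ (s34m_F K₀ (M * q)) (a : K₀) := (heckeAlphaBar K₀ M q).commutes _
  cases i
  · rw [← e]; exact s34m_alpha_mem_Vzero G φ M q hq hqM h1
  · rw [← e]; exact s34m_alpha_mem_Vinf G M q h1

omit [CharP κ q] in
/-- `j ∈ V_∞ ⊓ V_0`. -/
theorem s34m_jF_mem_VV (i : Bool) :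
    s18g_jF (K := K₀) (M * q) ∈ s34m_VV G φ M q hq hqM i := by
  rw [← s34m_alpha_jF M q]
  cases i
  · exact s34m_alpha_mem_Vzero G φ M q hq hqM (s34m_jF_mem_Vinf G M)
  · exact s34m_alpha_mem_Vinf G M q (s34m_jF_mem_Vinf G M)

omit [CharP κ q] in
/-- `j⁻¹ ∈ V_∞ ⊓ V_0`. -/
theorem s34m_jF_inv_mem_VV (i : Bool) :
    (s18g_jF (K := K₀) (M * q))⁻¹ ∈ s34m_VV G φ M q hq hqM i := by
  have h1 : (s18g_jF (K := K₀) M)⁻¹ ∈ s34m_Vinf G M := s18g_jF_inv_mem_V G M (s34m_hF G M)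
  have e : heckeAlphaBar K₀ M q (s18g_jF (K := K₀) M)⁻¹ = (s18g_jF (K := K₀) (M * q))⁻¹ := by
    rw [map_inv₀, s34m_alpha_jF]
  rw [← e]
  cases i
  · exact s34m_alpha_mem_Vzero G φ M q hq hqM h1
  · exact s34m_alpha_mem_Vinf G M q h1

end Fermat.Agent.Lib.S34
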