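/-
S34 moonshot ([SS] ⇒ S34), package [D] (helper8), part 2: THE RESIDUE FIELDS OF `V_∞`, `V_0` ARE
`F̄_M` (`f_∞ = f_0 = 1`), without any `Σ eᵢfᵢ` count.

By helper6's integral basis (`s34m_exists_coeff`, `MValAlpha.lean`) every `y ∈ O₂ = V_∞ ⊓ V_0` is
`Σ_{i ≤ q} α(c_i) (βj)^i` with `c_i ∈ V_M`; hence
  `red_∞ y = Σ c̄_i (Φ j̄)^i`,  `red_0 y = Σ Φ(c̄_i) j̄^i`   (`Φ = (T ↦ T^q)`),
and `Φ` maps `F̄_M = modularFunctionFieldFullC κ M` into itself (`Φ x = (Fr⁻¹ x)^q`, `κ` perfect of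
characteristic `q`).  So both reductions of `O₂` (a fortiori of every chart ring) take values in
`F̄_M`: `s34df_redInf_mem_fullC`, `s34df_redZero_mem_fullC`, and `s34df_hF₁`, `s34df_hF₂` = the
hypotheses `hF₁`, `hF₂` of `s34df_dichotomy` / `s34df_loc` (`DFibre.lean`).
-/
import Fermat.Agent.Lib.S34.DFibre
import Fermat.Agent.Lib.S34.MValAlpha
import Fermat.Agent.Lib.S37.ESeries
import Fermat.Agent.Lib.S37.EFrob
import Fermat.Agent.Lib.S18.GRedF

set_option autoImplicit false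
set_option linter.unusedSectionVars false

noncomputable section

namespace Fermat.Agent.Lib.S34

open ModularCurve AlgebraicCurve HahnSeries Fermat.Agent.Lib.FF Fermat.Agent.Lib.S18
  Fermat.Agent.Lib.S37

local notation "Kb" => AlgebraicClosure ℚ

section Phi

variable {κ : Type*} [Field κ] (M q : ℕ) [NeZero M] [NeZero q] (hq : q.Prime) [CharP κ q]

include hq in
/-- **`Φ = (T ↦ T^q)` maps `F̄_M` into itself** (`Φ x = (Fr⁻¹ x)^q`, `κ` perfect of characteristic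
`q`). -/
theorem s34df_qExpand_mem_fullC [PerfectRing κ q] {x : LaurentSeries κ}
    (hx : x ∈ modularFunctionFieldFullC κ M) : qExpand κ q x ∈ modularFunctionFieldFullC κ M := by
  have : Fact q.Prime := ⟨hq⟩
  rw [s37e_qExpand_eq_pow q x]
  exact pow_mem (s37e_coeffMap_mem_fullC M _ hx) q

include hq in
/-- `Φ j̄ = j̄^q`. -/
theorem s34df_qExpand_jqModC : qExpand κ q (jqModC κ) = jqModC κ ^ q := by
  have : Fact q.Prime := ⟨hq⟩
  rw [s37e_pow_char q (jqModC κ), coeffMap_jqModC]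

end Phi

variable {K₀ : Type*} [Field K₀] [Algebra ℚ K₀] {κ : Type*} [Field κ] (G : s18g_GaussData K₀ κ)
variable (φ : K₀ →+* Kb) (M q : ℕ) [NeZero M] [NeZero q] (hq : q.Prime) (hqM : ¬ q ∣ M)
variable [CharP κ q]

/-- `red_M` takes values in `F̄_M`. -/
theorem s34df_redM_mem_fullC (hT : s18g_HT κ M) (hdegM : s18g_HDeg K₀ M) (c : s34m_Vinf G M) :
    s34m_redInf G M c ∈ modularFunctionFieldFullC κ M :=
  s18g_redV_mem_fullC G M (s34m_hF G M) hT hdegM c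

include hq hqM in
/-- **`red_∞(O₂) ⊆ F̄_M`.** -/
theorem s34df_redInf_mem_fullC (hdeg : s34m_HDeg K₀ M q) (hT : s18g_HT κ M)
    (hdegM : s18g_HDeg K₀ M) (y : s34m_F K₀ (M * q)) (hy : y ∈ s34m_O2 G φ M q hq hqM)
    (hyI : y ∈ s34m_Vinf G (M * q)) :
    s34m_redInf G (M * q) ⟨y, hyI⟩ ∈ modularFunctionFieldFullC κ M := by
  obtain ⟨c, hc, e⟩ := s34m_exists_coeff G φ M q hq hqM hdeg y hy
  set a : Fin (q + 1) → s34m_Vinf G (M * q) := fun i =>
    ⟨heckeAlphaBar K₀ M q (c i), s34m_alpha_mem_Vinf G M q (hc i)⟩ with ha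
  set B : s34m_Vinf G (M * q) := ⟨s34m_betaJ (K₀ := K₀) M q, s34m_betaJ_mem_Vinf G M q⟩ with hB
  have hcoe : (⟨y, hyI⟩ : s34m_Vinf G (M * q)) = ∑ i, a i * B ^ (i : ℕ) := by
    apply Subtype.ext
    show y = _
    rw [e]
    push_cast
    rfl
  rw [hcoe, map_sum]
  refine sum_mem fun i _ => ?_
  rw [map_mul, map_pow]
  have e1 : s34m_redInf G (M * q) (a i) = s34m_redInf G M ⟨c i, hc i⟩ :=
    s34m_redInf_alpha G M q ⟨c i, hc i⟩
  have e2 : s34m_redInf G (M * q) B = qExpand κ q (jqModC κ) := by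
    have := s34m_redInf_beta G M q ⟨s18g_jF (K := K₀) M, s34m_jF_mem_Vinf G M⟩
    rw [s34m_redInf_jF] at this
    exact this
  rw [e1, e2, s34df_qExpand_jqModC q hq]
  exact mul_mem (s34df_redM_mem_fullC G M hT hdegM _)
    (pow_mem (pow_mem (jqModC_mem_full κ M) q) _)

include hq hqM in
/-- **`red_0(O₂) ⊆ F̄_M`.** -/
theorem s34df_redZero_mem_fullC [PerfectRing κ q] (hdeg : s34m_HDeg K₀ M q) (hT : s18g_HT κ M)
    (hdegM : s18g_HDeg K₀ M) (y : s34m_F K₀ (M * q)) (hy : y ∈ s34m_O2 G φ M q hq hqM)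
    (hy0 : y ∈ s34m_Vzero G φ M q hq hqM) :
    s34m_redZero G φ M q hq hqM ⟨y, hy0⟩ ∈ modularFunctionFieldFullC κ M := by
  obtain ⟨c, hc, e⟩ := s34m_exists_coeff G φ M q hq hqM hdeg y hy
  set a : Fin (q + 1) → s34m_Vzero G φ M q hq hqM := fun i =>
    ⟨heckeAlphaBar K₀ M q (c i), s34m_alpha_mem_Vzero G φ M q hq hqM (hc i)⟩ with ha
  set B : s34m_Vzero G φ M q hq hqM :=
    ⟨s34m_betaJ (K₀ := K₀) M q, s34m_betaJ_mem_Vzero G φ M q hq hqM⟩ with hB
  have hcoe : (⟨y, hy0⟩ : s34m_Vzero G φ M q hq hqM) = ∑ i, a i * B ^ (i : ℕ) := by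
    apply Subtype.ext
    show y = _
    rw [e]
    push_cast
    rfl
  rw [hcoe, map_sum]
  refine sum_mem fun i _ => ?_
  rw [map_mul, map_pow]
  have e1 : s34m_redZero G φ M q hq hqM (a i) = qExpand κ q (s34m_redInf G M ⟨c i, hc i⟩) :=
    s34m_redZero_alpha G φ M q hq hqM ⟨c i, hc i⟩
  have e2 : s34m_redZero G φ M q hq hqM B = jqModC κ := by
    have := s34m_redZero_beta G φ M q hq hqM ⟨s18g_jF (K := K₀) M, s34m_jF_mem_Vinf G M⟩
    rw [s34m_redInf_jF] at this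
    exact this
  rw [e1, e2]
  exact mul_mem (s34df_qExpand_mem_fullC M q hq (s34df_redM_mem_fullC G M hT hdegM _))
    (pow_mem (jqModC_mem_full κ M) _)

variable (S : Set (Place K₀ (s34m_F K₀ (M * q))))

include hq hqM in
/-- **`hF₁` of `s34df_dichotomy`.** -/
theorem s34df_hF₁ (hdeg : s34m_HDeg K₀ M q) (hT : s18g_HT κ M) (hdegM : s18g_HDeg K₀ M)
    (b : s34x_ring (s34x_infRing (s34m_VV G φ M q hq hqM)) S) :
    s34df_r1 G φ M q hq hqM S b ∈ modularFunctionFieldFullC κ M :=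
  s34df_redInf_mem_fullC G φ M q hq hqM hdeg hT hdegM _ b.2.1 _

include hq hqM in
/-- **`hF₂` of `s34df_dichotomy`.** -/
theorem s34df_hF₂ [PerfectRing κ q] (hdeg : s34m_HDeg K₀ M q) (hT : s18g_HT κ M)
    (hdegM : s18g_HDeg K₀ M) (b : s34x_ring (s34x_infRing (s34m_VV G φ M q hq hqM)) S) :
    s34df_r2 G φ M q hq hqM S b ∈ modularFunctionFieldFullC κ M :=
  s34df_redZero_mem_fullC G φ M q hq hqM hdeg hT hdegM _ b.2.1 _

end Fermat.Agent.Lib.S34
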