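/-
S34 moonshot ([SS] ⇒ S34), package [D] (helper8), part 3: THE DEDEKIND RING `D` OF THE SPECIAL
FIBRE AND THE FINAL CONTRACT.

`F̄ = modularFunctionFieldFullC κ M`, `x ∈ F̄` a good coordinate (`s37b_Coord`: S37 `BConc.lean`)
with coefficients in the prime field (`Fr⁻¹ x = x`), `κ[X] → F̄`, `X ↦ x`,
`D := integralClosure κ[X] F̄` (Dedekind with fraction field `F̄` by `s37b_dedekind_of_coord`).

* `s34df_isIntegral_twist` : a coefficientwise automorphism `τ` of `F̄` fixing `x` preserves `D`;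
* `s34df_htw` : `Φ d = (Fr⁻¹ d)^q`, `Fr⁻¹ d ∈ D` — the hypotheses `htw₁`, `htw₂` of `s34df_loc`;
* `s34df_contract_of_hmain` : **conjunct 6 of the chart contract** (every prime `𝔫 ∋ ϖ` of the chart
  ring `B` of level `M q` is a smooth point or a weak node, `Localization.AtPrime` form) from
  - S18's `hmain` at level `M` for the chart of `w` (`∀ z ∈ D, ∃ b ∈ B_M, red_M b = z`),
  - the chart inclusions (I1a) `α(B_M) ⊆ B`, (I1b) `β(B_M) ⊆ B + ϖ O₂` (helper1 `DChart2.lean`),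
  - the degree hypothesis `s34m_HDeg` (helper5 `RDegH.lean`).
-/
import Fermat.Agent.Lib.S34.DFibreF
import Fermat.Agent.Lib.S37.BConc
import Fermat.Agent.Lib.S18.FProv

set_option autoImplicit false
set_option linter.unusedSectionVars false
set_option linter.style.haveILetI false

noncomputable section

namespace Fermat.Agent.Lib.S34

open ModularCurve AlgebraicCurve HahnSeries Polynomial Fermat.Agent.Lib.FF Fermat.Agent.Lib.S18
  Fermat.Agent.Lib.S37

local notation "Kb" => AlgebraicClosure ℚ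

section Twist

variable {κ : Type*} [Field κ] (M : ℕ) [NeZero M]

/-- **A coefficientwise automorphism fixing the coordinate preserves the integral closure.** -/
theorem s34df_isIntegral_twist (τ : κ ≃+* κ) (x : ↥(modularFunctionFieldFullC κ M))
    (hx : coeffMap (τ : κ →+* κ) (x : LaurentSeries κ) = (x : LaurentSeries κ))
    [Algebra κ[X] ↥(modularFunctionFieldFullC κ M)]
    (hA : ∀ p : κ[X], algebraMap κ[X] ↥(modularFunctionFieldFullC κ M) p = Polynomial.aeval x p)
    (d : ↥(modularFunctionFieldFullC κ M)) (hd : IsIntegral κ[X] d) :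
    IsIntegral κ[X] (s37e_coeffRingAut M τ d) := by
  obtain ⟨p, hp, hpd⟩ := hd
  set σ : κ[X] →+* κ[X] := Polynomial.mapRingHom (τ : κ →+* κ) with hσ
  have hτx : s37e_coeffRingAut M τ x = x := Subtype.ext hx
  have hcomm : ((s37e_coeffRingAut M τ : ↥(modularFunctionFieldFullC κ M) ≃+* _) :
      ↥(modularFunctionFieldFullC κ M) →+* ↥(modularFunctionFieldFullC κ M)).comp
        (algebraMap κ[X] ↥(modularFunctionFieldFullC κ M)) =
      (algebraMap κ[X] ↥(modularFunctionFieldFullC κ M)).comp σ := by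
    apply Polynomial.ringHom_ext
    · intro a
      show s37e_coeffRingAut M τ (algebraMap κ[X] ↥(modularFunctionFieldFullC κ M) (C a)) =
        algebraMap κ[X] ↥(modularFunctionFieldFullC κ M) (σ (C a))
      rw [hσ, Polynomial.coe_mapRingHom, Polynomial.map_C, hA, hA, Polynomial.aeval_C,
        Polynomial.aeval_C, s37e_coeffRingAut_algebraMap]
      rfl
    · show s37e_coeffRingAut M τ (algebraMap κ[X] ↥(modularFunctionFieldFullC κ M) X) =
        algebraMap κ[X] ↥(modularFunctionFieldFullC κ M) (σ X)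
      rw [hσ, Polynomial.coe_mapRingHom, Polynomial.map_X, hA, Polynomial.aeval_X, hτx]
  refine ⟨p.map σ, hp.map σ, ?_⟩
  rw [Polynomial.eval₂_map, ← hcomm]
  have h1 := Polynomial.hom_eval₂ p (algebraMap κ[X] ↥(modularFunctionFieldFullC κ M))
    ((s37e_coeffRingAut M τ : ↥(modularFunctionFieldFullC κ M) ≃+* _) :
      ↥(modularFunctionFieldFullC κ M) →+* ↥(modularFunctionFieldFullC κ M)) d
  rw [hpd, map_zero] at h1
  exact h1.symm

variable (q : ℕ) [hqF : Fact q.Prime] [CharP κ q] [PerfectRing κ q]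

/-- **`htw`**: `Φ d = (Fr⁻¹ d)^q` and `Fr⁻¹ d` is again integral over `κ[x]`. -/
theorem s34df_htw (x : ↥(modularFunctionFieldFullC κ M))
    (hx : coeffMap ((frobeniusEquiv κ q).symm : κ →+* κ) (x : LaurentSeries κ) =
      (x : LaurentSeries κ))
    [Algebra κ[X] ↥(modularFunctionFieldFullC κ M)]
    (hA : ∀ p : κ[X], algebraMap κ[X] ↥(modularFunctionFieldFullC κ M) p = Polynomial.aeval x p)
    (d : ↥(integralClosure κ[X] ↥(modularFunctionFieldFullC κ M))) :
    ∃ d' : ↥(integralClosure κ[X] ↥(modularFunctionFieldFullC κ M)),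
      qExpand κ q (((d : ↥(modularFunctionFieldFullC κ M)) : LaurentSeries κ)) =
        (((d' : ↥(modularFunctionFieldFullC κ M)) : LaurentSeries κ)) ^ q := by
  refine ⟨⟨s37e_coeffRingAut M (frobeniusEquiv κ q).symm d,
    s34df_isIntegral_twist M _ x hx hA d d.2⟩, ?_⟩
  rw [s37e_qExpand_eq_pow q]
  rfl

/-- `j̄` has coefficients in the prime field. -/
theorem s34df_twist_jq (τ : κ ≃+* κ) :
    coeffMap (τ : κ →+* κ) (jqModC κ) = jqModC κ := coeffMap_jqModC _

/-- so has `j̄⁻¹`. -/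
theorem s34df_twist_inv (τ : κ ≃+* κ) {y : LaurentSeries κ}
    (hy : coeffMap (τ : κ →+* κ) y = y) : coeffMap (τ : κ →+* κ) y⁻¹ = y⁻¹ := by
  rw [map_inv₀, hy]

end Twist

section Final

variable {K₀ : Type} [Field K₀] [CharZero K₀] [Algebra ℚ K₀] {κ : Type} [Field κ]
  (G : s18g_GaussData K₀ κ) (φ : K₀ →+* Kb) (M q : ℕ) [NeZero M] [NeZero q]
  (hq : q.Prime) (hqM : ¬ q ∣ M) [CharP κ q] [PerfectField κ]

local notation "𝓕M" => laurentBaseChange K₀ (modularFunctionFieldFull M)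
local notation "hFM" => (fun (f : LaurentSeries K₀)
  (hf : f ∈ laurentBaseChange K₀ (modularFunctionFieldFull M)) => s18g_baseChange_mem_Frac G M hf)

include hq hqM in
/-- **Conjunct 6 of the chart contract from S18's `hmain`.**  `w ∈ V_M` a coordinate of level `M`
whose reduction is a good coordinate of the special fibre with coefficients in the prime field
(`w = j`, `j⁻¹`, `t₂^{±1}`, `t₃^{±1}`); `S` a chart of level `M q` with `α(B_M) ⊆ B`,
`β(B_M) ⊆ B + ϖ O₂` for `B_M` the chart ring of `w` and `B = s34x_ring O₂ S`.  Then every prime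
`𝔫 ∋ ϖ` of `B` is a smooth point or a weak node. -/
theorem s34df_contract_of_hmain (hdeg : s34m_HDeg K₀ M q) (hT : s18g_HT κ M)
    (hdegM : s18g_HDeg K₀ M) (w : ↥𝓕M) (hwV : w ∈ s18g_V G 𝓕M hFM)
    (hcoord : s37b_Coord κ q
      ((s18g_redF G M hFM hT hdegM ⟨w, hwV⟩ : ↥(modularFunctionFieldFullC κ M)) : LaurentSeries κ))
    (hwtw : ∀ τ : κ ≃+* κ, coeffMap (τ : κ →+* κ)
      ((s18g_redF G M hFM hT hdegM ⟨w, hwV⟩ : ↥(modularFunctionFieldFullC κ M)) : LaurentSeries κ) =
      ((s18g_redF G M hFM hT hdegM ⟨w, hwV⟩ : ↥(modularFunctionFieldFullC κ M)) : LaurentSeries κ))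
    (hmain : letI := s18f_algF G M hT hdegM w hwV
      ∀ z : ↥(modularFunctionFieldFullC κ M), IsIntegral κ[X] z →
        ∃ (b : ↥𝓕M) (hb : b ∈ s18_ring (L₀ := K₀) (s18g_V G 𝓕M hFM) (s18_chart1 w)),
          s18g_redF G M hFM hT hdegM ⟨b, hb.1⟩ = z)
    (S : Set (Place K₀ (s34m_F K₀ (M * q))))
    (hαB : ∀ g ∈ (s18_ring (L₀ := K₀) (s34m_Vinf G M) (s18_chart1 w) : Set (s34m_F K₀ M)),
      heckeAlphaBar K₀ M q g ∈ s34x_ring (s34x_infRing (s34m_VV G φ M q hq hqM)) S)
    (hβB : ∀ g ∈ (s18_ring (L₀ := K₀) (s34m_Vinf G M) (s18_chart1 w) : Set (s34m_F K₀ M)),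
      ∃ b' ∈ s34x_ring (s34x_infRing (s34m_VV G φ M q hq hqM)) S,
      ∃ z, z ∈ s34m_Vinf G (M * q) ∧ z ∈ s34m_Vzero G φ M q hq hqM ∧
        b' - heckeBetaBar K₀ M q g = s34m_unif G (M * q) * z)
    (ϖB : s34x_ring (s34x_infRing (s34m_VV G φ M q hq hqM)) S)
    (hϖB : (ϖB : s34m_F K₀ (M * q)) = s34m_unif G (M * q))
    (𝔫 : Ideal (s34x_ring (s34x_infRing (s34m_VV G φ M q hq hqM)) S)) [h𝔫 : 𝔫.IsPrime]
    (hϖ𝔫 : ϖB ∈ 𝔫) :
    (∃ t : s34x_ring (s34x_infRing (s34m_VV G φ M q hq hqM)) S,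
      IsLocalRing.maximalIdeal (Localization.AtPrime 𝔫) =
        Ideal.span {algebraMap _ (Localization.AtPrime 𝔫) t,
          algebraMap _ (Localization.AtPrime 𝔫) ϖB}) ∨
    (∃ u w' : s34x_ring (s34x_infRing (s34m_VV G φ M q hq hqM)) S,
      (∃ β, algebraMap _ (Localization.AtPrime 𝔫) u * algebraMap _ (Localization.AtPrime 𝔫) w' =
        algebraMap _ (Localization.AtPrime 𝔫) ϖB * β) ∧
      IsLocalRing.maximalIdeal (Localization.AtPrime 𝔫) =
        Ideal.span {algebraMap _ (Localization.AtPrime 𝔫) u,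
          algebraMap _ (Localization.AtPrime 𝔫) w',
          algebraMap _ (Localization.AtPrime 𝔫) ϖB}) := by
  haveI : Fact q.Prime := ⟨hq⟩
  letI algF := s18f_algF G M hT hdegM w hwV
  have hA : ∀ p : κ[X], algebraMap κ[X] ↥(modularFunctionFieldFullC κ M) p =
      Polynomial.aeval (s18g_redF G M hFM hT hdegM ⟨w, hwV⟩) p :=
    s18f_algF_apply G M hT hdegM w hwV
  obtain ⟨hDed, hFrac⟩ := s37b_dedekind_of_coord κ q M (s18g_redF G M hFM hT hdegM ⟨w, hwV⟩)
    hcoord hA
  haveI := hDed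
  haveI := hFrac
  have hBMV : ∀ g ∈ (s18_ring (L₀ := K₀) (s34m_Vinf G M) (s18_chart1 w) : Set (s34m_F K₀ M)),
      g ∈ s34m_Vinf G M := fun g hg => hg.1
  have hlift : ∀ d : ↥(integralClosure κ[X] ↥(modularFunctionFieldFullC κ M)), ∃ g,
      ∃ hg : g ∈ (s18_ring (L₀ := K₀) (s34m_Vinf G M) (s18_chart1 w) : Set (s34m_F K₀ M)),
      s34m_redInf G M ⟨g, hBMV g hg⟩ =
        ((algebraMap ↥(integralClosure κ[X] ↥(modularFunctionFieldFullC κ M))
          ↥(modularFunctionFieldFullC κ M) d : ↥(modularFunctionFieldFullC κ M)) :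
          LaurentSeries κ) := by
    intro d
    obtain ⟨b, hb, e⟩ := hmain (d : ↥(modularFunctionFieldFullC κ M)) d.2
    refine ⟨b, hb, ?_⟩
    have h1 := congrArg (fun z : ↥(modularFunctionFieldFullC κ M) => (z : LaurentSeries κ)) e
    exact h1
  have htw : ∀ d : ↥(integralClosure κ[X] ↥(modularFunctionFieldFullC κ M)),
      ∃ d' : ↥(integralClosure κ[X] ↥(modularFunctionFieldFullC κ M)),
      qExpand κ q ((algebraMap ↥(integralClosure κ[X] ↥(modularFunctionFieldFullC κ M))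
          ↥(modularFunctionFieldFullC κ M) d : ↥(modularFunctionFieldFullC κ M)) :
          LaurentSeries κ) =
        ((algebraMap ↥(integralClosure κ[X] ↥(modularFunctionFieldFullC κ M))
          ↥(modularFunctionFieldFullC κ M) d' : ↥(modularFunctionFieldFullC κ M)) :
          LaurentSeries κ) ^ q := fun d =>
    s34df_htw M q (s18g_redF G M hFM hT hdegM ⟨w, hwV⟩) (hwtw _) hA d
  exact s34df_loc G φ M q hq hqM S (modularFunctionFieldFullC κ M)
    (D₁ := ↥(integralClosure κ[X] ↥(modularFunctionFieldFullC κ M)))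
    (D₂ := ↥(integralClosure κ[X] ↥(modularFunctionFieldFullC κ M)))
    (fun b => s34df_hF₁ G φ M q hq hqM S hdeg hT hdegM b)
    (fun b => s34df_hF₂ G φ M q hq hqM S hdeg hT hdegM b)
    ϖB hϖB _ hBMV hαB hβB hlift hlift htw htw 𝔫 hϖ𝔫

end Final

end Fermat.Agent.Lib.S34
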