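/-
S34 moonshot ([SS] ⇒ S34), package [D], concrete part (helper1): **`hlift` = S18's `hmain` EXTRACTED**.

Inside S18's `s18f_chartS_of_data` (FProv.lean) the key surjectivity statement

  `hmain : every element of F̄_M integral over κ[X] (X ↦ red w) is the reduction of an element of
           the chart ring B_M(w) = s18_ring (s18g_V G 𝓕M hFM) (s18_chart1 w)`

is only a local `have`.  Here it is exported as a theorem, in the shape of the `hmain` argument of
`s18f_chartS_of_main` (so with `s18f_algF G M hT hdeg w hwV` as THE `κ[X]`-algebra structure of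
`F̄_M`):

* `s34d_hmain_of_data`   (analogue of `s18f_chartS_of_data`: from the numerical data of `s18s_main`);
* `s34d_hmain_of_inputs` (analogue of `s18f_chartS_of_inputs`: from rank + [G]-deg + `s18r_MainInputs`);
* `s34d_hmain_five`      (analogue of `s18f_sFive`: `ℓ ≥ 5`, both charts `w = j`, `w = j⁻¹`, for every
  Gauss datum over a number field with perfect residue field of characteristic `ℓ ∤ M`).
-/
import Fermat.Agent.Lib.S18.FProv5

set_option autoImplicit false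
set_option linter.style.haveILetI false
set_option linter.unusedSectionVars false

noncomputable section

namespace Fermat.Agent.Lib.S34

open AlgebraicCurve ModularCurve Fermat.Agent.Lib.FF Fermat.Agent.Lib.S18 Polynomial
  IntermediateField

section Param

variable {K : Type} [Field K] [CharZero K] [Algebra ℚ K] {κ : Type} [Field κ]
  (G : s18g_GaussData K κ) (M : ℕ)

local notation "𝓕M" => laurentBaseChange K (modularFunctionFieldFull M)
local notation "hFM" => (fun (f : LaurentSeries K)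
  (hf : f ∈ laurentBaseChange K (modularFunctionFieldFull M)) => s18g_baseChange_mem_Frac G M hf)

/-- **S18's `hmain`, from the data of `s18s_main`** (the proof is the first half of
`s18f_chartS_of_data`). -/
theorem s34d_hmain_of_data [IsDiscreteValuationRing G.A] (hπ : Function.Surjective G.π)
    (hT : s18g_HT κ M) (hdeg : s18g_HDeg K M)
    (w : ↥𝓕M) [FFGen K w] (hwV : w ∈ s18g_V G 𝓕M hFM)
    (hα : ∀ y ∈ s18g_V G 𝓕M hFM, ∃ s : G.A[X], s.map G.π ≠ 0 ∧
      (s18b_ev G 𝓕M w).IsIntegralElem (s18b_ev G 𝓕M w s * y))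
    {ι : Type} [Fintype ι] [DecidableEq ι]
    (β : letI := s18p_algR (K := K) w; Module.Basis ι K[X] ↥(ffB K w))
    (hinj : letI := s18f_algF G M hT hdeg w hwV;
      Function.Injective (algebraMap κ[X] ↥(modularFunctionFieldFullC κ M)))
    (bt : letI := s18f_algF G M hT hdeg w hwV;
      Module.Basis ι κ[X] ↥(integralClosure κ[X] ↥(modularFunctionFieldFullC κ M)))
    (hsep : letI := s18f_algF G M hT hdeg w hwV;
      Algebra.discr κ[X] bt ≠ 0)
    (Cs : Finset ↥G.A) (hCs : Set.InjOn G.π Cs) (α : ↥G.A → ℕ) (e : K) (he : e ≠ 0)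
    (hΔ : letI := s18p_algR (K := K) w;
      Algebra.discr K[X] β = C e * ∏ c ∈ Cs, (X - C (algebraMap ↥G.A K c)) ^ α c)
    (hα' : letI := s18p_algR (K := K) w;
      ∀ c ∈ Cs, ∀ (r : ℕ) (u : Fin r → ↥(ffB K w)),
        (∀ a : Fin r → K, (∑ j, (C (a j) : K[X]) • u j) ∈
          (Ideal.span {algebraMap K[X] ↥(ffB K w) (X - C (algebraMap ↥G.A K c))}).radical →
            a = 0) →
        α c + r ≤ Fintype.card ι) :
    letI := s18f_algF G M hT hdeg w hwV
    ∀ z : ↥(modularFunctionFieldFullC κ M), IsIntegral κ[X] z →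
      ∃ (b : ↥𝓕M) (hb : b ∈ s18_ring (L₀ := K) (s18g_V G 𝓕M hFM) (s18_chart1 w)),
        s18g_redF G M hFM hT hdeg ⟨b, hb.1⟩ = z := by
  letI algR := s18p_algR (K := K) w
  letI algF := s18f_algF G M hT hdeg w hwV
  letI algB := s18p_algB G 𝓕M hFM w hwV
  haveI finB : Module.Finite G.A[X] ↥(s18p_B G 𝓕M hFM w) := s18p_finite_B G 𝓕M hFM w hwV hα
  haveI : IsDedekindDomain (integralClosure κ[X] ↥(modularFunctionFieldFullC κ M)) :=
    s18s_isDedekindDomain_of_basis bt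
  have hkerF : ∀ y : ↥(s18g_V G 𝓕M hFM), s18g_redF G M hFM hT hdeg y = 0 →
      ∃ g : ↥(s18g_V G 𝓕M hFM), y = s18g_unifV G 𝓕M hFM * g := by
    intro y hy
    have hy' : y ∈ RingHom.ker (s18g_redF G M hFM hT hdeg) := hy
    rw [s18g_ker_redF, Ideal.mem_span_singleton'] at hy'
    obtain ⟨a, ha⟩ := hy'
    exact ⟨a, by rw [← ha, mul_comm]⟩
  have hmain : ∀ z : ↥(modularFunctionFieldFullC κ M), IsIntegral κ[X] z →
      ∃ y : ↥(s18p_B G 𝓕M hFM w), s18p_redB G 𝓕M hFM w (s18g_redF G M hFM hT hdeg) y = z := by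
    refine s18s_main (A₀ := ↥G.A) (L₀ := K) (k₀ := κ) G.π hπ G.ϖ (s18f_irreducible_unif G)
      G.π_eq_zero_iff (R₁ := ↥(ffB K w)) β (B := ↥(s18p_B G 𝓕M hFM w))
      (s18p_jB w (s18g_V G 𝓕M hFM)) (s18p_jB_injective w _) ?_ ?_
      (κ := ↥(modularFunctionFieldFullC κ M)) hinj
      (s18p_redB G 𝓕M hFM w (s18g_redF G M hFM hT hdeg)) ?_ ?_
      bt hsep Cs hCs α e he ?_ ?_
    · intro p
      apply Subtype.ext
      show s18b_ev G 𝓕M w p = Polynomial.aeval w (p.map (algebraMap ↥G.A K))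
      rfl
    · exact fun x => s18p_hloc w (s18g_V G 𝓕M hFM) ((G.ϖ : G.A) : K)
        (s18f_hO_of_U (s18g_V G 𝓕M hFM) ((G.ϖ : G.A) : K) (s18f_U_gauss G 𝓕M hFM)) x
    · exact fun p => s18p_hredP G 𝓕M hFM w hwV (s18g_redF G M hFM hT hdeg)
        (algebraMap κ ↥(modularFunctionFieldFullC κ M))
        (fun a => s18g_redF_constV G M hFM hT hdeg a) p
    · exact fun y hy => s18p_hker G 𝓕M hFM w hwV (s18g_redF G M hFM hT hdeg) hkerF y hy
    · convert hΔ using 3
    · intro c hc r u hu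
      convert hα' c hc r u ?_ using 2
      intro a ha
      apply hu a
      convert ha using 3
  intro z hz
  obtain ⟨y, hy⟩ := hmain z hz
  exact ⟨(y : ↥𝓕M), y.2, hy⟩

variable [NeZero M]

/-- **S18's `hmain` from the three packaged inputs** (analogue of `s18f_chartS_of_inputs`). -/
theorem s34d_hmain_of_inputs [IsDiscreteValuationRing G.A] (hπ : Function.Surjective G.π)
    (hT : s18g_HT κ M) (hdeg : s18g_HDeg K M)
    (w : ↥𝓕M) [FFGen K w] (hwV : w ∈ s18g_V G 𝓕M hFM)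
    (hα : ∀ y ∈ s18g_V G 𝓕M hFM, ∃ s : G.A[X], s.map G.π ≠ 0 ∧
      (s18b_ev G 𝓕M w).IsIntegralElem (s18b_ev G 𝓕M w s * y))
    (n : ℕ) (hrank : Module.finrank ↥K⟮w⟯ ↥𝓕M = n)
    (hch : letI := s18f_algF G M hT hdeg w hwV;
      Function.Injective (algebraMap κ[X] ↥(modularFunctionFieldFullC κ M)) ∧
      ∃ bt : Module.Basis (Fin n) κ[X]
        ↥(integralClosure κ[X] ↥(modularFunctionFieldFullC κ M)),
        Algebra.discr κ[X] bt ≠ 0)
    (hI : s18r_MainInputs G M w) :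
    letI := s18f_algF G M hT hdeg w hwV
    ∀ z : ↥(modularFunctionFieldFullC κ M), IsIntegral κ[X] z →
      ∃ (b : ↥𝓕M) (hb : b ∈ s18_ring (L₀ := K) (s18g_V G 𝓕M hFM) (s18_chart1 w)),
        s18g_redF G M hFM hT hdeg ⟨b, hb.1⟩ = z := by
  letI algR := s18p_algR (K := K) w
  letI algF := s18f_algF G M hT hdeg w hwV
  obtain ⟨β₀, -⟩ := s18g_ffB_basis (K := K) w n hrank
  obtain ⟨β, -⟩ := s18g_ffB_basis_poly w (FFGen.transc : Transcendental K w) β₀
    (s18p_coe_algebraMap_R w)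
  obtain ⟨hinj, bt, hsep⟩ := hch
  obtain ⟨Cs, hCs, hβ⟩ := hI
  obtain ⟨α, e, he, hΔ, hα'⟩ := hβ β
  exact s34d_hmain_of_data G M hπ hT hdeg w hwV hα β hinj bt hsep Cs hCs α e he hΔ hα'

end Param

section Five

local notation "Qbar" => AlgebraicClosure ℚ

variable (M : ℕ) [NeZero M] (ℓ : ℕ) [Fact ℓ.Prime] (hℓM : ¬ ℓ ∣ M) (h5 : 5 ≤ ℓ)
  (K₀ : Type) [Field K₀] [NumberField K₀] (φ : K₀ →+* Qbar)
  (κ : Type) [Field κ] [CharP κ ℓ] [PerfectField κ]
  (G : s18g_GaussData K₀ κ) [IsDiscreteValuationRing G.A] (hπ : Function.Surjective G.π)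

local notation "𝓕M" => laurentBaseChange K₀ (modularFunctionFieldFull M)
local notation "hFM" => (fun (f : LaurentSeries K₀)
  (hf : f ∈ laurentBaseChange K₀ (modularFunctionFieldFull M)) => s18g_baseChange_mem_Frac G M hf)

include h5 hπ in
/-- **`hmain` for the chart of `j`, `ℓ ≥ 5`** (`hT`, `hdeg` as in `s18f_sFive`). -/
theorem s34d_hmain_five_j :
    letI := s18f_algF G M (s18t_indep_j ℓ M hℓM κ)
      (fun _ b hb hn => s18g_exists_relation M φ hn b hb) (s18g_jF (K := K₀) M)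
      (s18g_jF_mem_V G M hFM)
    ∀ z : ↥(modularFunctionFieldFullC κ M), IsIntegral κ[X] z →
      ∃ (b : ↥𝓕M) (hb : b ∈ s18_ring (L₀ := K₀) (s18g_V G 𝓕M hFM)
          (s18_chart1 (s18g_jF (K := K₀) M))),
        s18g_redF G M hFM (s18t_indep_j ℓ M hℓM κ)
          (fun _ b hb hn => s18g_exists_relation M φ hn b hb) ⟨b, hb.1⟩ = z := by
  have hT : s18g_HT κ M := s18t_indep_j ℓ M hℓM κ
  have hdeg : s18g_HDeg K₀ M := fun _ b hb hn => s18g_exists_relation M φ hn b hb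
  obtain ⟨hgen1, hrank1⟩ := s18g_deg_j_charZero G M hFM hT hdeg (s18g_jF (K := K₀) M) (Or.inl rfl)
  haveI := hgen1
  have hred1 : s18g_redF G M hFM hT hdeg ⟨s18g_jF (K := K₀) M, s18g_jF_mem_V G M hFM⟩ =
      s18g_jFbar κ M := s18g_redF_jV G M hFM hT hdeg
  refine s34d_hmain_of_inputs G M hπ hT hdeg (s18g_jF (K := K₀) M) (s18g_jF_mem_V G M hFM)
      (s18g_alpha_j_b G M hT hdeg hFM) (dedekindPsi M) hrank1 ?_
      (s18r_mainInputs_j G M φ ℓ h5)
  letI := s18f_algF G M hT hdeg (s18g_jF (K := K₀) M) (s18g_jF_mem_V G M hFM)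
  exact s18g_deg_j G M hFM hT hdeg ℓ hπ _ (Or.inl hred1)
    (s18f_algF_apply G M hT hdeg _ (s18g_jF_mem_V G M hFM))

include h5 hπ in
/-- **`hmain` for the chart of `j⁻¹`, `ℓ ≥ 5`.** -/
theorem s34d_hmain_five_inv :
    letI := s18f_algF G M (s18t_indep_j ℓ M hℓM κ)
      (fun _ b hb hn => s18g_exists_relation M φ hn b hb) (s18g_jF (K := K₀) M)⁻¹
      (s18g_jF_inv_mem_V G M hFM)
    ∀ z : ↥(modularFunctionFieldFullC κ M), IsIntegral κ[X] z →
      ∃ (b : ↥𝓕M) (hb : b ∈ s18_ring (L₀ := K₀) (s18g_V G 𝓕M hFM)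
          (s18_chart1 (s18g_jF (K := K₀) M)⁻¹)),
        s18g_redF G M hFM (s18t_indep_j ℓ M hℓM κ)
          (fun _ b hb hn => s18g_exists_relation M φ hn b hb) ⟨b, hb.1⟩ = z := by
  have hT : s18g_HT κ M := s18t_indep_j ℓ M hℓM κ
  have hdeg : s18g_HDeg K₀ M := fun _ b hb hn => s18g_exists_relation M φ hn b hb
  obtain ⟨hgen2, hrank2⟩ := s18g_deg_j_charZero G M hFM hT hdeg (s18g_jF (K := K₀) M)⁻¹
    (Or.inr rfl)
  haveI := hgen2
  have hred1 : s18g_redF G M hFM hT hdeg ⟨s18g_jF (K := K₀) M, s18g_jF_mem_V G M hFM⟩ =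
      s18g_jFbar κ M := s18g_redF_jV G M hFM hT hdeg
  have hred2 : s18g_redF G M hFM hT hdeg ⟨(s18g_jF (K := K₀) M)⁻¹, s18g_jF_inv_mem_V G M hFM⟩ =
      (s18g_jFbar κ M)⁻¹ := by
    rw [s18f_redF_inv G M hT hdeg _ (s18g_jF_ne_zero M) (s18g_jF_mem_V G M hFM), hred1]
  refine s34d_hmain_of_inputs G M hπ hT hdeg (s18g_jF (K := K₀) M)⁻¹ (s18g_jF_inv_mem_V G M hFM)
      (s18g_alpha_inv_b G M hT hdeg hFM) (dedekindPsi M) hrank2 ?_
      (s18r_mainInputs_j_inv G M φ ℓ h5)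
  letI := s18f_algF G M hT hdeg (s18g_jF (K := K₀) M)⁻¹ (s18g_jF_inv_mem_V G M hFM)
  exact s18g_deg_j G M hFM hT hdeg ℓ hπ _ (Or.inr hred2)
    (s18f_algF_apply G M hT hdeg _ (s18g_jF_inv_mem_V G M hFM))

end Five

end Fermat.Agent.Lib.S34
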