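/-
S34 moonshot, package [F′] (helper3), part 5: **(LOC) from the local contract** — the local
generator `g_x = σ²φ·φ/(σφ)²`.

`O = ⨅ i, O i`, `B = s34x_ring O S`, `𝔫` a prime of `B` containing `π`; `g` a semilinear
automorphism of the function field which preserves `B`, the chart `S`, and is trivial on `B/πB`
(so `g𝔫 = 𝔫`).  If at most one place of degree one through `𝔫` has no local equation
(`s34f_AlmostAll`) then for every `f ≠ 0` with `m ∣ div f` and rational support the second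
difference `f₂ = s34q_f2 g f` satisfies the local hypothesis (LOC) of `s34x_zero_inf` at `𝔫`:

  `φ := ∏_{P through 𝔫, P has a local equation} φ_P ^ (ord_P f / m)`,  `g_x := s34q_f2 g φ`;

`ord_Q g_x = ord_Q f₂ / m` at ALL places `Q ∈ S` through `𝔫` (the exceptional place is `g`-fixed, so
it drops out of the second difference), `g_x ≡ 1 mod π (O i)` for all `i` (hypothesis `hsd`, which
holds for every function: `s34m_second_diff_VV`), then `s34x_loc_of_gen`.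
-/
import Fermat.Agent.Lib.S34.FContract
import Fermat.Agent.Lib.S34.RDesc
import Fermat.Agent.Lib.S18.IInvLocal

set_option autoImplicit false

noncomputable section

namespace Fermat.Agent.Lib.S34

open AlgebraicCurve Fermat.Agent.Lib.FF Fermat.Agent.Lib.S18

variable {L₀ 𝓕 : Type*} [Field L₀] [Field 𝓕] [Algebra L₀ 𝓕]

/-- The order of a second difference. -/
theorem s34f_ord_f2 (g : SemilinearAut L₀ 𝓕) (Q : Place L₀ 𝓕) {y : 𝓕} (hy : y ≠ 0) :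
    Q.ord (s34q_f2 g y) = (g⁻¹ • g⁻¹ • Q).ord y + Q.ord y - 2 * (g⁻¹ • Q).ord y := by
  have h1 := s34r_smul_ne_zero g hy
  have h2 := s34r_smul_ne_zero g h1
  have hpow : (g • y) ^ 2 ≠ 0 := pow_ne_zero 2 h1
  rw [s34q_f2, div_eq_mul_inv, Q.ord_mul (mul_ne_zero h2 hy) (inv_ne_zero hpow), Q.ord_mul h2 hy,
    Q.ord_inv, ← zpow_natCast, Q.ord_zpow, s34r_ord_smul, s34r_ord_smul, s34r_ord_smul]
  push_cast
  ring

section Stab

variable (O : Subring 𝓕) (S : Set (Place L₀ 𝓕))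

/-- The hypotheses on the semilinear automorphism `g` relative to the chart ring and a prime. -/
structure s34f_Stable (π : 𝓕) (𝔫 : Ideal (s34x_ring O S)) (g : SemilinearAut L₀ 𝓕) : Prop where
  mem_iff : ∀ y : 𝓕, y ∈ s34x_ring O S ↔ g • y ∈ s34x_ring O S
  sub_mem : ∀ b : s34x_ring O S, ∃ z : s34x_ring O S, g • (b : 𝓕) - b = π * z
  chart : ∀ Q : Place L₀ 𝓕, Q ∈ S ↔ g • Q ∈ S
  pi_mul_mem : ∀ z b : s34x_ring O S, (b : 𝓕) = π * z → b ∈ 𝔫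

variable {O S}
variable {π : 𝓕} {𝔫 : Ideal (s34x_ring O S)} {g : SemilinearAut L₀ 𝓕}

theorem s34f_Stable.inv (h : s34f_Stable O S π 𝔫 g) : s34f_Stable O S π 𝔫 g⁻¹ where
  mem_iff y := by
    have := h.mem_iff (g⁻¹ • y)
    rw [smul_inv_smul] at this
    exact this.symm
  sub_mem b := by
    have hb' : g⁻¹ • (b : 𝓕) ∈ s34x_ring O S := by
      have := h.mem_iff (g⁻¹ • (b : 𝓕))
      rw [smul_inv_smul] at this
      exact this.mpr b.2
    obtain ⟨z, hz⟩ := h.sub_mem ⟨g⁻¹ • (b : 𝓕), hb'⟩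
    refine ⟨-z, ?_⟩
    have hz' : (b : 𝓕) - g⁻¹ • (b : 𝓕) = π * z := by
      have : g • (g⁻¹ • (b : 𝓕)) = b := smul_inv_smul g _
      rw [← hz]
      show (b : 𝓕) - g⁻¹ • (b : 𝓕) = g • (g⁻¹ • (b : 𝓕)) - g⁻¹ • (b : 𝓕)
      rw [this]
    push_cast
    rw [mul_neg, ← hz']
    ring
  chart Q := by
    have := h.chart (g⁻¹ • Q)
    rw [smul_inv_smul] at this
    exact this.symm
  pi_mul_mem := h.pi_mul_mem

/-- `g` maps `𝔫` into itself. -/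
theorem s34f_Stable.smul_mem (h : s34f_Stable O S π 𝔫 g) {b : s34x_ring O S} (hb : b ∈ 𝔫)
    (hgb : g • (b : 𝓕) ∈ s34x_ring O S) : (⟨g • (b : 𝓕), hgb⟩ : s34x_ring O S) ∈ 𝔫 := by
  obtain ⟨z, hz⟩ := h.sub_mem b
  have h1 : (⟨g • (b : 𝓕), hgb⟩ : s34x_ring O S) =
      b + (⟨g • (b : 𝓕), hgb⟩ - b : s34x_ring O S) := by ring
  rw [h1]
  refine 𝔫.add_mem hb (h.pi_mul_mem z _ ?_)
  push_cast
  exact hz

/-- "through `𝔫`" is stable under `g`. -/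
theorem s34f_Stable.through_smul (h : s34f_Stable O S π 𝔫 g) {Q : Place L₀ 𝓕}
    (hth : s34f_through O S 𝔫 Q) : s34f_through O S 𝔫 (g • Q) := by
  intro b hb0 hbpos
  have hb' : g⁻¹ • (b : 𝓕) ∈ s34x_ring O S := (h.inv.mem_iff _).mp b.2
  have hord : Q.ord (g⁻¹ • (b : 𝓕)) = (g • Q).ord (b : 𝓕) := by
    have := SemilinearAut.ord_smul g Q (g⁻¹ • (b : 𝓕))
    rw [smul_inv_smul] at this
    exact this.symm
  have hb'0 : g⁻¹ • (b : 𝓕) ≠ 0 := s34r_smul_ne_zero g⁻¹ hb0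
  have hmem : (⟨g⁻¹ • (b : 𝓕), hb'⟩ : s34x_ring O S) ∈ 𝔫 :=
    hth ⟨g⁻¹ • (b : 𝓕), hb'⟩ hb'0 (by rw [hord]; exact hbpos)
  have hgb : g • ((⟨g⁻¹ • (b : 𝓕), hb'⟩ : s34x_ring O S) : 𝓕) ∈ s34x_ring O S := by
    show g • (g⁻¹ • (b : 𝓕)) ∈ s34x_ring O S
    rw [smul_inv_smul]; exact b.2
  have := h.smul_mem hmem hgb
  have heq : (⟨g • ((⟨g⁻¹ • (b : 𝓕), hb'⟩ : s34x_ring O S) : 𝓕), hgb⟩ : s34x_ring O S) = b := by
    apply Subtype.ext
    show g • (g⁻¹ • (b : 𝓕)) = b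
    rw [smul_inv_smul]
  rwa [heq] at this

/-- Local equations are transported by `g`. -/
theorem s34f_Stable.locEq_smul (h : s34f_Stable O S π 𝔫 g) {Q : Place L₀ 𝓕}
    (hQ : s34f_LocEq O S 𝔫 Q) : s34f_LocEq O S 𝔫 (g • Q) := by
  obtain ⟨φ, hφ0, hφ1, hφ⟩ := hQ
  refine ⟨g • φ, s34r_smul_ne_zero g hφ0, ?_, ?_⟩
  · rw [SemilinearAut.ord_smul]; exact hφ1
  · intro Q' hQ'S hne hth'
    rw [s34r_ord_smul]
    refine hφ (g⁻¹ • Q') ((h.inv.chart Q').mp hQ'S) ?_ (h.inv.through_smul hth')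
    intro heq
    apply hne
    rw [← heq, smul_inv_smul]

end Stab

/-- **(LOC) at `𝔫` for the second difference `f₂ = s34q_f2 g f`.** -/
theorem s34f_loc_of_almostAll {ι : Type*} [Fintype ι] (O : ι → ValuationSubring 𝓕)
    (S : Set (Place L₀ 𝓕)) (π : 𝓕) (hπ0 : π ≠ 0) (hπO : ∀ i, π ∈ O i)
    (hU : ∀ i, ∀ y : 𝓕, ∃ k : ℕ, π ^ k * y ∈ O i)
    (F3 : ∀ y : 𝓕, y ≠ 0 → {Q : Place L₀ 𝓕 | Q ∈ S ∧ Q.ord y ≠ 0}.Finite)
    (𝔫 : Ideal (s34x_ring (s34x_infRing O) S)) [h𝔫 : 𝔫.IsPrime]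
    (g : SemilinearAut L₀ 𝓕) (hst : s34f_Stable (s34x_infRing O) S π 𝔫 g)
    (hsd : ∀ i, ∀ U : 𝓕, U ≠ 0 → ∃ z ∈ O i, s34q_f2 g U - 1 = π * z)
    (hAA : s34f_AlmostAll (s34x_infRing O) S 𝔫)
    (f : 𝓕) (hf0 : f ≠ 0) (m : ℕ) (hm0 : m ≠ 0) (hdiv : ∀ Q : Place L₀ 𝓕, (m : ℤ) ∣ Q.ord f)
    (hdeg : ∀ Q ∈ S, Q.ord f ≠ 0 → Q.deg = 1) :
    ∃ a ∈ s34x_latSet (s34x_infRing O) S (s18_E (s34q_f2 g f) m),
      ∃ s : s34x_ring (s34x_infRing O) S, s ∉ 𝔫 ∧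
        ∃ y ∈ s34x_infRing O, a - (s : 𝓕) = π * y := by
  classical
  have hmZ : (m : ℤ) ≠ 0 := by exact_mod_cast hm0
  -- the exponent function of `f`
  set e : Place L₀ 𝓕 → ℤ := fun P => P.ord f / (m : ℤ) with he
  have hme : ∀ P : Place L₀ 𝓕, P.ord f = (m : ℤ) * e P := fun P =>
    (Int.mul_ediv_cancel' (hdiv P)).symm
  have he0 : ∀ P : Place L₀ 𝓕, e P ≠ 0 → P.ord f ≠ 0 := by
    intro P hP h0
    apply hP
    rw [he]
    show P.ord f / (m : ℤ) = 0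
    rw [h0, Int.zero_ediv]
  -- the places through `𝔫` in the support of `f` which have a local equation
  have hfinf := F3 f hf0
  set T : Finset (Place L₀ 𝓕) := hfinf.toFinset.filter fun P =>
    s34f_through (s34x_infRing O) S 𝔫 P ∧ s34f_LocEq (s34x_infRing O) S 𝔫 P with hT
  have hTmem : ∀ P, P ∈ T ↔ (P ∈ S ∧ P.ord f ≠ 0) ∧
      s34f_through (s34x_infRing O) S 𝔫 P ∧ s34f_LocEq (s34x_infRing O) S 𝔫 P := by
    intro P
    rw [hT, Finset.mem_filter, Set.Finite.mem_toFinset]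
    rfl
  have hchoose : ∀ P : Place L₀ 𝓕, ∃ φ : 𝓕, P ∈ T → (φ ≠ 0 ∧ P.ord φ = 1 ∧
      ∀ Q' ∈ S, Q' ≠ P → s34f_through (s34x_infRing O) S 𝔫 Q' → Q'.ord φ = 0) := by
    intro P
    by_cases hP : P ∈ T
    · obtain ⟨φ, h1, h2, h3⟩ := ((hTmem P).mp hP).2.2
      exact ⟨φ, fun _ => ⟨h1, h2, h3⟩⟩
    · exact ⟨0, fun h => absurd h hP⟩
  choose φ hφ using hchoose
  have hφ0 : ∀ P ∈ T, φ P ≠ 0 := fun P hP => (hφ P hP).1
  set Φ : 𝓕 := ∏ P ∈ T, φ P ^ e P with hΦ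
  have hΦ0 : Φ ≠ 0 := Finset.prod_ne_zero_iff.mpr fun P hP => zpow_ne_zero _ (hφ0 P hP)
  -- the order of `Φ` at the places through `𝔫`
  have hordΦ : ∀ Q ∈ S, s34f_through (s34x_infRing O) S 𝔫 Q →
      Q.ord Φ = if Q ∈ T then e Q else 0 := by
    intro Q hQS hth
    rw [hΦ, s18i_ord_prod_zpow Q T φ e hφ0]
    by_cases hQT : Q ∈ T
    · rw [if_pos hQT, Finset.sum_eq_single_of_mem Q hQT, (hφ Q hQT).2.1, mul_one]
      intro P hP hne
      rw [(hφ P hP).2.2 Q hQS (Ne.symm hne) hth, mul_zero]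
    · rw [if_neg hQT]
      refine Finset.sum_eq_zero fun P hP => ?_
      have hne : Q ≠ P := fun h => hQT (h ▸ hP)
      rw [(hφ P hP).2.2 Q hQS hne hth, mul_zero]
  -- the defect `Δ = e - ord Φ`
  have hΔ : ∀ Q ∈ S, s34f_through (s34x_infRing O) S 𝔫 Q →
      e Q - Q.ord Φ = if s34f_LocEq (s34x_infRing O) S 𝔫 Q then 0 else e Q := by
    intro Q hQS hth
    rw [hordΦ Q hQS hth]
    by_cases hQT : Q ∈ T
    · rw [if_pos hQT, if_pos ((hTmem Q).mp hQT).2.2, sub_self]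
    · rw [if_neg hQT, sub_zero]
      by_cases hloc : s34f_LocEq (s34x_infRing O) S 𝔫 Q
      · rw [if_pos hloc]
        by_contra hne
        exact hQT ((hTmem Q).mpr ⟨⟨hQS, he0 Q hne⟩, hth, hloc⟩)
      · rw [if_neg hloc]
  -- `g⁻¹`-invariance of the defect
  have hinv : ∀ Q ∈ S, s34f_through (s34x_infRing O) S 𝔫 Q →
      e (g⁻¹ • Q) - (g⁻¹ • Q).ord Φ = e Q - Q.ord Φ := by
    intro Q hQS hth
    have hQ1S : g⁻¹ • Q ∈ S := (hst.inv.chart Q).mp hQS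
    have hth1 : s34f_through (s34x_infRing O) S 𝔫 (g⁻¹ • Q) := hst.inv.through_smul hth
    rw [hΔ Q hQS hth, hΔ _ hQ1S hth1]
    by_cases hloc : s34f_LocEq (s34x_infRing O) S 𝔫 Q
    · rw [if_pos hloc, if_pos (hst.inv.locEq_smul hloc)]
    · have hloc1 : ¬ s34f_LocEq (s34x_infRing O) S 𝔫 (g⁻¹ • Q) := by
        intro h1
        apply hloc
        have := hst.locEq_smul h1
        rwa [smul_inv_smul] at this
      rw [if_neg hloc, if_neg hloc1]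
      by_cases hz : e Q = 0 ∧ e (g⁻¹ • Q) = 0
      · rw [hz.1, hz.2]
      · have hdeg1 : Q.deg = 1 := by
          by_cases h1 : e Q = 0
          · have h2 : e (g⁻¹ • Q) ≠ 0 := fun h2 => hz ⟨h1, h2⟩
            have := hdeg _ hQ1S (he0 _ h2)
            rwa [SemilinearAut.deg_smul] at this
          · exact hdeg Q hQS (he0 Q h1)
        have hdeg2 : (g⁻¹ • Q).deg = 1 := by rw [SemilinearAut.deg_smul]; exact hdeg1
        have := hAA Q hQS _ hQ1S hth hth1 hdeg1 hdeg2 hloc hloc1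
        rw [← this]
  -- the local generator
  set gx : 𝓕 := s34q_f2 g Φ with hgx
  have hgx0 : gx ≠ 0 := s34q_f2_ne_zero g hΦ0
  have hf20 : s34q_f2 g f ≠ 0 := s34q_f2_ne_zero g hf0
  refine s34x_loc_of_gen O S (s18_E (s34q_f2 g f) m) π hπ0 hπO hU 𝔫 gx hgx0 ?_ ?_ ?_
  · -- equality of orders at the places through `𝔫`
    intro Q hQS hth
    have hQ1S : g⁻¹ • Q ∈ S := (hst.inv.chart Q).mp hQS
    have hth1 : s34f_through (s34x_infRing O) S 𝔫 (g⁻¹ • Q) := hst.inv.through_smul hth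
    have h1 := hinv Q hQS hth
    have h2 := hinv _ hQ1S hth1
    have hE : s18_E (s34q_f2 g f) m Q = e (g⁻¹ • g⁻¹ • Q) + e Q - 2 * e (g⁻¹ • Q) := by
      rw [s18_E, s34f_ord_f2 g Q hf0, hme, hme Q, hme (g⁻¹ • Q)]
      have : (m : ℤ) * e (g⁻¹ • g⁻¹ • Q) + (m : ℤ) * e Q - 2 * ((m : ℤ) * e (g⁻¹ • Q)) =
          (m : ℤ) * (e (g⁻¹ • g⁻¹ • Q) + e Q - 2 * e (g⁻¹ • Q)) := by ring
      rw [this, Int.mul_ediv_cancel_left _ hmZ]
    rw [hE, hgx, s34f_ord_f2 g Q hΦ0]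
    have := h1
    omega
  · intro i _
    exact hsd i Φ hΦ0
  · refine ((F3 gx hgx0).union (F3 _ hf20)).subset ?_
    rintro Q ⟨hQS, hlt⟩
    by_cases h0 : Q.ord (s34q_f2 g f) = 0
    · left
      refine ⟨hQS, fun h => ?_⟩
      rw [h, s18_E, h0, Int.zero_ediv] at hlt
      exact lt_irrefl _ hlt
    · right
      exact ⟨hQS, h0⟩

end Fermat.Agent.Lib.S34
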