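/-
S34 moonshot, package [F′] (helper3), part 6: GENERIC ASSEMBLY.

From the chart contract `s34f_ChartContract` (what the geometric packages [M]/[D]/[C] deliver for
each of the two charts of a base function `t`: noetherian chart ring, dictionary facts (F1)–(F3),
stability under the semilinear automorphism, and the smooth/weak-node structure of the local ring at
every closed point of the special fibre) and the Čech input `hH`, Theorem X₀ for the second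
difference `f₂ = s34q_f2 g f`:

  `s34f_zero : ∃ x ≠ 0, (∀ i, x ∈ O i) ∧ ∀ Q, ord_Q f₂ ≤ m · ord_Q x`.

Everything here is generic in the function field `𝓕 / L₀`; no modular objects.
-/
import Fermat.Agent.Lib.S34.FGen

set_option autoImplicit false
set_option linter.style.haveILetI false

noncomputable section

namespace Fermat.Agent.Lib.S34

open AlgebraicCurve Fermat.Agent.Lib.FF Fermat.Agent.Lib.S18 IsLocalRing

variable {L₀ 𝓕 : Type*} [Field L₀] [Field 𝓕] [Algebra L₀ 𝓕]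

/-- `g • y` is regular at `Q` iff `y` is regular at `g⁻¹ • Q`. -/
theorem s34f_smul_mem_iff (g : SemilinearAut L₀ 𝓕) (Q : Place L₀ 𝓕) (y : 𝓕) :
    g • y ∈ Q.toValuationSubring ↔ y ∈ (g⁻¹ • Q).toValuationSubring := by
  by_cases hy : y = 0
  · rw [hy, smul_zero]
    exact ⟨fun _ => (g⁻¹ • Q).toValuationSubring.zero_mem, fun _ => Q.toValuationSubring.zero_mem⟩
  · rw [ff_mem_iff_ord_nonneg Q (s34r_smul_ne_zero g hy), ff_mem_iff_ord_nonneg _ hy,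
      s34r_ord_smul]

/-- The stability hypotheses `s34f_Stable` from componentwise hypotheses on `g`. -/
theorem s34f_stable_of {ι : Type*} (O : ι → ValuationSubring 𝓕) (S : Set (Place L₀ 𝓕))
    (π : 𝓕) (hπ0 : π ≠ 0) (hπL : ∀ Q : Place L₀ 𝓕, Q.ord π = 0)
    (g : SemilinearAut L₀ 𝓕)
    (hgO : ∀ i, ∀ y : 𝓕, y ∈ O i ↔ g • y ∈ O i)
    (hgπ : ∀ i, ∀ y ∈ O i, ∃ z ∈ O i, g • y - y = π * z)
    (hgS : ∀ Q : Place L₀ 𝓕, Q ∈ S ↔ g • Q ∈ S)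
    (𝔫 : Ideal (s34x_ring (s34x_infRing O) S)) (πB : s34x_ring (s34x_infRing O) S)
    (hπB : (πB : 𝓕) = π) (hπ𝔫 : πB ∈ 𝔫) :
    s34f_Stable (s34x_infRing O) S π 𝔫 g := by
  have hinvS : ∀ Q : Place L₀ 𝓕, Q ∈ S → g⁻¹ • Q ∈ S := by
    intro Q hQ
    have := hgS (g⁻¹ • Q)
    rw [smul_inv_smul] at this
    exact this.mpr hQ
  have hmem : ∀ y : 𝓕, y ∈ s34x_ring (s34x_infRing O) S ↔ g • y ∈ s34x_ring (s34x_infRing O) S := by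
    intro y
    constructor
    · rintro ⟨hO, hS⟩
      refine ⟨(s34x_mem_infRing O _).mpr fun i => (hgO i y).mp ((s34x_mem_infRing O y).mp hO i),
        fun Q hQ => ?_⟩
      rw [s34f_smul_mem_iff]
      exact hS _ (hinvS Q hQ)
    · rintro ⟨hO, hS⟩
      refine ⟨(s34x_mem_infRing O _).mpr fun i => (hgO i y).mpr ((s34x_mem_infRing O _).mp hO i),
        fun Q hQ => ?_⟩
      have := hS (g • Q) ((hgS Q).mp hQ)
      rw [s34f_smul_mem_iff, inv_smul_smul] at this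
      exact this
  refine ⟨hmem, ?_, hgS, ?_⟩
  · intro b
    have hgb : g • (b : 𝓕) ∈ s34x_ring (s34x_infRing O) S := (hmem _).mp b.2
    have hdiff : g • (b : 𝓕) - b ∈ s34x_ring (s34x_infRing O) S :=
      (s34x_ring (s34x_infRing O) S).sub_mem hgb b.2
    set z : 𝓕 := π⁻¹ * (g • (b : 𝓕) - b) with hz
    have hzeq : g • (b : 𝓕) - b = π * z := by
      rw [hz, ← mul_assoc, mul_inv_cancel₀ hπ0, one_mul]
    have hzB : z ∈ s34x_ring (s34x_infRing O) S := by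
      refine ⟨(s34x_mem_infRing O _).mpr fun i => ?_, fun Q hQ => ?_⟩
      · obtain ⟨z', hz', e⟩ := hgπ i (b : 𝓕) ((s34x_mem_infRing O _).mp b.2.1 i)
        have : z = z' := by rw [hz, e, ← mul_assoc, inv_mul_cancel₀ hπ0, one_mul]
        rw [this]; exact hz'
      · by_cases hz0 : z = 0
        · rw [hz0]; exact Q.toValuationSubring.zero_mem
        have hd0 : g • (b : 𝓕) - b ≠ 0 := by rw [hzeq]; exact mul_ne_zero hπ0 hz0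
        rw [ff_mem_iff_ord_nonneg Q hz0]
        have h1 := (ff_mem_iff_ord_nonneg Q hd0).mp (hdiff.2 Q hQ)
        rw [hzeq, Q.ord_mul hπ0 hz0, hπL, zero_add] at h1
        exact h1
    exact ⟨⟨z, hzB⟩, hzeq⟩
  · intro z b hb
    have : b = πB * z := by
      apply Subtype.ext
      push_cast
      rw [hb, hπB]
    rw [this]
    exact 𝔫.mul_mem_right _ hπ𝔫

section Chart

variable (A₀ : ValuationSubring L₀) {ι : Type*} (O : ι → ValuationSubring 𝓕)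
  (hAO : ∀ i, ∀ a : A₀, algebraMap L₀ 𝓕 (a : L₀) ∈ O i) (ϖ : A₀) (S : Set (Place L₀ 𝓕))
  (g : SemilinearAut L₀ 𝓕)

/-- **The chart contract**: what the geometric side delivers for one chart `S`. -/
def s34f_ChartContract : Prop :=
  IsNoetherianRing (s34x_ring (s34x_infRing O) S) ∧
  (∀ Q ∈ S, ∃ u : s34x_ring (s34x_infRing O) S, Q.ord (u : 𝓕) = 1) ∧
  (∀ Q ∈ S, ∀ Q' ∈ S, Q' ≠ Q →
    ∃ y : s34x_ring (s34x_infRing O) S, 0 < Q.ord (y : 𝓕) ∧ Q'.ord (y : 𝓕) = 0) ∧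
  (∀ y : 𝓕, y ≠ 0 → {Q : Place L₀ 𝓕 | Q ∈ S ∧ Q.ord y ≠ 0}.Finite) ∧
  (∀ Q : Place L₀ 𝓕, Q ∈ S ↔ g • Q ∈ S) ∧
  ∀ (𝔫 : Ideal (s34x_ring (s34x_infRing O) S)) [𝔫.IsMaximal],
    s34f_constHom A₀ (s34x_infRing O) (s34x_inf_const_mem O A₀ hAO) S ϖ ∈ 𝔫 →
    (∃ t : s34x_ring (s34x_infRing O) S, maximalIdeal (Localization.AtPrime 𝔫) =
      Ideal.span {algebraMap _ (Localization.AtPrime 𝔫) t,
        algebraMap _ (Localization.AtPrime 𝔫)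
          (s34f_constHom A₀ (s34x_infRing O) (s34x_inf_const_mem O A₀ hAO) S ϖ)}) ∨
    (∃ u w : s34x_ring (s34x_infRing O) S,
      (∃ β, u * w = s34f_constHom A₀ (s34x_infRing O) (s34x_inf_const_mem O A₀ hAO) S ϖ * β) ∧
      maximalIdeal (Localization.AtPrime 𝔫) =
        Ideal.span {algebraMap _ (Localization.AtPrime 𝔫) u,
          algebraMap _ (Localization.AtPrime 𝔫) w,
          algebraMap _ (Localization.AtPrime 𝔫)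
            (s34f_constHom A₀ (s34x_infRing O) (s34x_inf_const_mem O A₀ hAO) S ϖ)})

variable [IsDiscreteValuationRing A₀] [Fintype ι]

/-- **(LOC) on one chart** from the chart contract. -/
theorem s34f_hloc (hϖ : Irreducible ϖ)
    (hU : ∀ i, ∀ y : 𝓕, ∃ k : ℕ, algebraMap L₀ 𝓕 (ϖ : L₀) ^ k * y ∈ O i)
    (hgO : ∀ i, ∀ y : 𝓕, y ∈ O i ↔ g • y ∈ O i)
    (hgπ : ∀ i, ∀ y ∈ O i, ∃ z ∈ O i, g • y - y = algebraMap L₀ 𝓕 (ϖ : L₀) * z)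
    (hsd : ∀ i, ∀ U : 𝓕, U ≠ 0 → ∃ z ∈ O i, s34q_f2 g U - 1 = algebraMap L₀ 𝓕 (ϖ : L₀) * z)
    (hC : s34f_ChartContract A₀ O hAO ϖ S g)
    (f : 𝓕) (hf0 : f ≠ 0) (m : ℕ) (hm0 : m ≠ 0) (hdiv : ∀ Q : Place L₀ 𝓕, (m : ℤ) ∣ Q.ord f)
    (hdeg : ∀ Q ∈ S, Q.ord f ≠ 0 → Q.deg = 1)
    (𝔫 : Ideal (s34x_ring (s34x_infRing O) S)) (h𝔫 : 𝔫.IsMaximal)
    (hπ𝔫 : s34x_const (s34x_infRing O) S (ϖ : L₀) (s34x_inf_const_mem O A₀ hAO ϖ) ∈ 𝔫) :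
    ∃ a ∈ s34x_latSet (s34x_infRing O) S (s18_E (s34q_f2 g f) m),
      ∃ s : s34x_ring (s34x_infRing O) S, s ∉ 𝔫 ∧
        ∃ y ∈ s34x_infRing O, a - (s : 𝓕) = algebraMap L₀ 𝓕 (ϖ : L₀) * y := by
  obtain ⟨hnoeth, F1, F2, F3, hgS, hstruct⟩ := hC
  haveI := hnoeth
  haveI := h𝔫
  haveI : 𝔫.IsPrime := h𝔫.isPrime
  have hπ0 : algebraMap L₀ 𝓕 (ϖ : L₀) ≠ 0 := s34f_unif_ne_zero (𝓕 := 𝓕) A₀ ϖ hϖ
  have hπ𝔫' : s34f_constHom A₀ (s34x_infRing O) (s34x_inf_const_mem O A₀ hAO) S ϖ ∈ 𝔫 := hπ𝔫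
  have hst := s34f_stable_of O S (algebraMap L₀ 𝓕 (ϖ : L₀)) hπ0 (fun Q => ff_ord_algebraMap Q _)
    g hgO hgπ hgS 𝔫 (s34f_constHom A₀ (s34x_infRing O) (s34x_inf_const_mem O A₀ hAO) S ϖ) rfl hπ𝔫'
  have hAA : s34f_AlmostAll (s34x_infRing O) S 𝔫 := by
    rcases hstruct 𝔫 hπ𝔫' with ⟨t, hm⟩ | ⟨u, w, h0, hm⟩
    · exact s34f_almostAll_of_smooth A₀ (s34x_infRing O) (s34x_inf_const_mem O A₀ hAO) S ϖ hϖ 𝔫
        hπ𝔫' F1 F2 t hm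
    · exact s34f_almostAll_of_node A₀ (s34x_infRing O) (s34x_inf_const_mem O A₀ hAO) S ϖ hϖ 𝔫
        hπ𝔫' F1 F2 u w hm h0
  exact s34f_loc_of_almostAll O S (algebraMap L₀ 𝓕 (ϖ : L₀)) hπ0 (fun i => hAO i ϖ) hU F3 𝔫 g hst
    hsd hAA f hf0 m hm0 hdiv hdeg

end Chart

/-- **Theorem X₀ for the second difference, from the two chart contracts and the Čech input.** -/
theorem s34f_zero {ι : Type*} [Fintype ι] [Nonempty ι] (A₀ : ValuationSubring L₀)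
    [IsDiscreteValuationRing A₀]
    (O : ι → ValuationSubring 𝓕) (hAO : ∀ i, ∀ a : A₀, algebraMap L₀ 𝓕 (a : L₀) ∈ O i)
    (ϖ : A₀) (hϖ : Irreducible ϖ)
    (hϖO : ∀ i, ¬ ∃ y ∈ O i, (1 : 𝓕) = algebraMap L₀ 𝓕 (ϖ : L₀) * y)
    (hU : ∀ i, ∀ y : 𝓕, ∃ k : ℕ, algebraMap L₀ 𝓕 (ϖ : L₀) ^ k * y ∈ O i)
    (g : SemilinearAut L₀ 𝓕)
    (hgO : ∀ i, ∀ y : 𝓕, y ∈ O i ↔ g • y ∈ O i)
    (hgπ : ∀ i, ∀ y ∈ O i, ∃ z ∈ O i, g • y - y = algebraMap L₀ 𝓕 (ϖ : L₀) * z)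
    (hsd : ∀ i, ∀ U : 𝓕, U ≠ 0 → ∃ z ∈ O i, s34q_f2 g U - 1 = algebraMap L₀ 𝓕 (ϖ : L₀) * z)
    (t : 𝓕)
    (hC1 : s34f_ChartContract A₀ O hAO ϖ (s18_chart1 (L₀ := L₀) t) g)
    (hC2 : s34f_ChartContract A₀ O hAO ϖ (s18_chart2 (L₀ := L₀) t) g)
    (f : 𝓕) (hf0 : f ≠ 0) (m : ℕ) (hm0 : m ≠ 0) (hmA : ((m : L₀))⁻¹ ∈ A₀) (hmL : (m : L₀) ≠ 0)
    (hdiv : ∀ Q : Place L₀ 𝓕, (m : ℤ) ∣ Q.ord f)
    (hdeg : ∀ Q : Place L₀ 𝓕, Q.ord f ≠ 0 → Q.deg = 1)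
    (hH : ∃ G : Submodule A₀ 𝓕, G.FG ∧
      s34x_lat A₀ (s34x_infRing O) (s34x_inf_const_mem O A₀ hAO) (s18_chart12 t)
          (s18_E (s34q_f2 g f) m) ≤
        G ⊔ (s34x_lat A₀ (s34x_infRing O) (s34x_inf_const_mem O A₀ hAO) (s18_chart1 t)
            (s18_E (s34q_f2 g f) m) ⊔
          s34x_lat A₀ (s34x_infRing O) (s34x_inf_const_mem O A₀ hAO) (s18_chart2 t)
            (s18_E (s34q_f2 g f) m))) :
    ∃ x : 𝓕, x ≠ 0 ∧ (∀ i, x ∈ O i) ∧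
      ∀ Q : Place L₀ 𝓕, Q.ord (s34q_f2 g f) ≤ (m : ℤ) * Q.ord x := by
  have hϖ0 : ((ϖ : A₀) : L₀) ≠ 0 := by
    have h1 : (ϖ : A₀) ≠ 0 := hϖ.ne_zero
    exact fun h => h1 (Subtype.ext h)
  have hdiv2 : ∀ Q : Place L₀ 𝓕, (m : ℤ) ∣ Q.ord (s34q_f2 g f) := by
    intro Q
    rw [s34f_ord_f2 g Q hf0]
    exact dvd_sub (dvd_add (hdiv _) (hdiv _)) (Dvd.dvd.mul_left (hdiv _) 2)
  refine s34x_zero_inf A₀ O hAO ϖ hϖ0 hϖO t (s34q_f2 g f) m hm0 hmA hmL hdiv2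
    (fun i => hsd i f hf0) ?_ ?_ hH
  · intro 𝔫 h𝔫 hπ𝔫
    exact s34f_hloc A₀ O hAO ϖ _ g hϖ hU hgO hgπ hsd hC1 f hf0 m hm0 hdiv
      (fun Q _ h => hdeg Q h) 𝔫 h𝔫 hπ𝔫
  · intro 𝔫 h𝔫 hπ𝔫
    exact s34f_hloc A₀ O hAO ϖ _ g hϖ hU hgO hgπ hsd hC2 f hf0 m hm0 hdiv
      (fun Q _ h => hdeg Q h) 𝔫 h𝔫 hπ𝔫

end Fermat.Agent.Lib.S34
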