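/-
S34 moonshot [X″]: the DICTIONARY facts (F1), (F2), (F3) of S18 (`Lib/S18/FDict.lean`) for the chart
rings `s34x_ring O (s18_chart1 t)`, `s34x_ring O (s18_chart2 t)` of a SUBRING `O` of the function
field, in exactly the shapes of the 2nd–4th conjuncts of helper3's `s34f_ChartContract`:

* (F1) every place of the chart has a uniformiser in the chart ring;
* (F2) two distinct places of the chart are separated by an element of the chart ring;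
* (F3) a nonzero function has finitely many zeros and poles on the chart.

The only thing used about `O` is `hO : ∀ f, ∃ k, ϖ ^ k * f ∈ O` for a nonzero constant `ϖ`.  No proof is
copied: S18's statements are applied to the trivial valuation subring `⊤` and the result is multiplied
by a power of `ϖ`.  Chart 2 of `t` is chart 1 of `t⁻¹`.  (helper9)
-/
import Fermat.Agent.Lib.S34.XLat
import Fermat.Agent.Lib.S18.FDict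
import Fermat.Agent.Lib.FF.FFBasicResidue

set_option autoImplicit false
set_option linter.unusedSectionVars false

noncomputable section

namespace Fermat.Agent.Lib.S34

open AlgebraicCurve Fermat.Agent.Lib.FF Fermat.Agent.Lib.S18

variable {L₀ 𝓕 : Type*} [Field L₀] [CharZero L₀] [Field 𝓕] [Algebra L₀ 𝓕]
  (t : 𝓕) [FFGen L₀ t] (O : Subring 𝓕) (ϖ : L₀)

/-- Chart 2 of `t` is chart 1 of `t⁻¹`. -/
theorem s34x_chart2_eq (t : 𝓕) : s18_chart2 (L₀ := L₀) t = s18_chart1 (L₀ := L₀) t⁻¹ := rfl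

/-- A function regular on a chart lies in the chart ring after multiplication by a power of `ϖ`,
without changing its orders. -/
theorem s34x_exists_pow_mul_mem_ring (hϖ0 : ϖ ≠ 0)
    (hO : ∀ f : 𝓕, ∃ k : ℕ, algebraMap L₀ 𝓕 ϖ ^ k * f ∈ O) (S : Set (Place L₀ 𝓕))
    (y : 𝓕) (hy : ∀ Q ∈ S, y ∈ Q.toValuationSubring) :
    ∃ b : s34x_ring O S, ∀ Q : Place L₀ 𝓕, Q.ord (b : 𝓕) = Q.ord y := by
  obtain ⟨k, hk⟩ := hO y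
  refine ⟨⟨algebraMap L₀ 𝓕 ϖ ^ k * y, hk, ?_⟩, fun Q => ?_⟩
  · rw [← map_pow]
    exact s18f_const_mul_regular (ϖ ^ k) hy
  · show Q.ord (algebraMap L₀ 𝓕 ϖ ^ k * y) = Q.ord y
    by_cases hy0 : y = 0
    · rw [hy0, mul_zero]
    · exact s18f_ord_pow_mul ϖ hϖ0 Q k hy0

/-! ### Chart 1 -/

/-- **(F1)**, chart 1. -/
theorem s34x_exists_unif1 (hϖ0 : ϖ ≠ 0)
    (hO : ∀ f : 𝓕, ∃ k : ℕ, algebraMap L₀ 𝓕 ϖ ^ k * f ∈ O)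
    (Q : Place L₀ 𝓕) (hQ : Q ∈ s18_chart1 t) :
    ∃ u : s34x_ring O (s18_chart1 (L₀ := L₀) t), Q.ord (u : 𝓕) = 1 := by
  obtain ⟨u, hu, hu1⟩ := s18f_exists_unif t (⊤ : ValuationSubring 𝓕) ϖ hϖ0
    (fun _ => ⟨0, ValuationSubring.mem_top _⟩) Q hQ
  obtain ⟨b, hb⟩ := s34x_exists_pow_mul_mem_ring O ϖ hϖ0 hO _ u hu.2
  exact ⟨b, by rw [hb, hu1]⟩

/-- **(F2)**, chart 1. -/
theorem s34x_exists_sep1 (hϖ0 : ϖ ≠ 0)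
    (hO : ∀ f : 𝓕, ∃ k : ℕ, algebraMap L₀ 𝓕 ϖ ^ k * f ∈ O)
    (Q : Place L₀ 𝓕) (hQ : Q ∈ s18_chart1 t) (Q' : Place L₀ 𝓕) (hQ' : Q' ∈ s18_chart1 t)
    (hne : Q' ≠ Q) :
    ∃ y : s34x_ring O (s18_chart1 (L₀ := L₀) t), 0 < Q.ord (y : 𝓕) ∧ Q'.ord (y : 𝓕) = 0 := by
  obtain ⟨y, hy, h1, h2⟩ := s18f_exists_sep t (⊤ : ValuationSubring 𝓕) ϖ hϖ0
    (fun _ => ⟨0, ValuationSubring.mem_top _⟩) Q Q' hQ hQ' (Ne.symm hne)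
  obtain ⟨b, hb⟩ := s34x_exists_pow_mul_mem_ring O ϖ hϖ0 hO _ y hy.2
  exact ⟨b, by rw [hb]; exact h1, by rw [hb]; exact h2⟩

/-- **(F3)**, chart 1. -/
theorem s34x_finite_ord_ne_zero1 {y : 𝓕} (hy : y ≠ 0) :
    {Q : Place L₀ 𝓕 | Q ∈ s18_chart1 t ∧ Q.ord y ≠ 0}.Finite :=
  s18f_finite_ord_ne_zero t hy

/-- The dictionary conjuncts of `s34f_ChartContract` for chart 1. -/
theorem s34x_dict1 (hϖ0 : ϖ ≠ 0) (hO : ∀ f : 𝓕, ∃ k : ℕ, algebraMap L₀ 𝓕 ϖ ^ k * f ∈ O) :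
    (∀ Q ∈ s18_chart1 (L₀ := L₀) t, ∃ u : s34x_ring O (s18_chart1 (L₀ := L₀) t),
      Q.ord (u : 𝓕) = 1) ∧
    (∀ Q ∈ s18_chart1 (L₀ := L₀) t, ∀ Q' ∈ s18_chart1 (L₀ := L₀) t, Q' ≠ Q →
      ∃ y : s34x_ring O (s18_chart1 (L₀ := L₀) t), 0 < Q.ord (y : 𝓕) ∧ Q'.ord (y : 𝓕) = 0) ∧
    (∀ y : 𝓕, y ≠ 0 → {Q : Place L₀ 𝓕 | Q ∈ s18_chart1 t ∧ Q.ord y ≠ 0}.Finite) :=
  ⟨fun Q hQ => s34x_exists_unif1 t O ϖ hϖ0 hO Q hQ,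
    fun Q hQ Q' hQ' hne => s34x_exists_sep1 t O ϖ hϖ0 hO Q hQ Q' hQ' hne,
    fun _ hy => s34x_finite_ord_ne_zero1 t hy⟩

/-! ### Chart 2 -/

/-- **(F1)**, chart 2. -/
theorem s34x_exists_unif2 (hϖ0 : ϖ ≠ 0)
    (hO : ∀ f : 𝓕, ∃ k : ℕ, algebraMap L₀ 𝓕 ϖ ^ k * f ∈ O)
    (Q : Place L₀ 𝓕) (hQ : Q ∈ s18_chart2 t) :
    ∃ u : s34x_ring O (s18_chart2 (L₀ := L₀) t), Q.ord (u : 𝓕) = 1 :=
  s34x_exists_unif1 t⁻¹ O ϖ hϖ0 hO Q hQ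

/-- **(F2)**, chart 2. -/
theorem s34x_exists_sep2 (hϖ0 : ϖ ≠ 0)
    (hO : ∀ f : 𝓕, ∃ k : ℕ, algebraMap L₀ 𝓕 ϖ ^ k * f ∈ O)
    (Q : Place L₀ 𝓕) (hQ : Q ∈ s18_chart2 t) (Q' : Place L₀ 𝓕) (hQ' : Q' ∈ s18_chart2 t)
    (hne : Q' ≠ Q) :
    ∃ y : s34x_ring O (s18_chart2 (L₀ := L₀) t), 0 < Q.ord (y : 𝓕) ∧ Q'.ord (y : 𝓕) = 0 :=
  s34x_exists_sep1 t⁻¹ O ϖ hϖ0 hO Q hQ Q' hQ' hne

/-- **(F3)**, chart 2. -/
theorem s34x_finite_ord_ne_zero2 {y : 𝓕} (hy : y ≠ 0) :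
    {Q : Place L₀ 𝓕 | Q ∈ s18_chart2 t ∧ Q.ord y ≠ 0}.Finite :=
  s34x_finite_ord_ne_zero1 t⁻¹ hy

/-- The dictionary conjuncts of `s34f_ChartContract` for chart 2. -/
theorem s34x_dict2 (hϖ0 : ϖ ≠ 0) (hO : ∀ f : 𝓕, ∃ k : ℕ, algebraMap L₀ 𝓕 ϖ ^ k * f ∈ O) :
    (∀ Q ∈ s18_chart2 (L₀ := L₀) t, ∃ u : s34x_ring O (s18_chart2 (L₀ := L₀) t),
      Q.ord (u : 𝓕) = 1) ∧
    (∀ Q ∈ s18_chart2 (L₀ := L₀) t, ∀ Q' ∈ s18_chart2 (L₀ := L₀) t, Q' ≠ Q →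
      ∃ y : s34x_ring O (s18_chart2 (L₀ := L₀) t), 0 < Q.ord (y : 𝓕) ∧ Q'.ord (y : 𝓕) = 0) ∧
    (∀ y : 𝓕, y ≠ 0 → {Q : Place L₀ 𝓕 | Q ∈ s18_chart2 t ∧ Q.ord y ≠ 0}.Finite) :=
  s34x_dict1 t⁻¹ O ϖ hϖ0 hO

/-- (F3) on the whole curve: a nonzero function has finitely many zeros and poles. -/
theorem s34x_finite_ord_ne_zero (t' : 𝓕) [FFGen L₀ t'] {y : 𝓕} (hy : y ≠ 0) :
    {Q : Place L₀ 𝓕 | Q.ord y ≠ 0}.Finite := by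
  refine ((s34x_finite_ord_ne_zero1 t' hy).union (s34x_finite_ord_ne_zero2 t' hy)).subset ?_
  intro Q hQ
  have hQ' : Q.ord y ≠ 0 := hQ
  rcases Q.toValuationSubring.mem_or_inv_mem t' with h | h
  · exact Or.inl ⟨h, hQ'⟩
  · exact Or.inr ⟨h, hQ'⟩

end Fermat.Agent.Lib.S34
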