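/-
S34 moonshot, package [F′] (helper3), part 8: WIRING of the chart contract.

* `s34f_struct_of_elem`: the 6th conjunct of `s34f_ChartContract` at one prime `𝔫` from the
  element-form smooth/weak-node dichotomy (the output shape of helper8's `s34df_dichotomy`,
  helper1's `s34d_dichotomy`);
* `s34f_chart_stable_of_fixed`: a chart of a `g`-fixed base function is `g`-stable;
* `s34f_chartContract_of`: the chart contract from its six components.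
-/
import Fermat.Agent.Lib.S34.FAssembly
import Fermat.Agent.Lib.S34.DNode
import Fermat.Agent.Lib.S34.CChart
import Fermat.Agent.Lib.S34.XDict

set_option autoImplicit false
set_option linter.style.haveILetI false

noncomputable section

namespace Fermat.Agent.Lib.S34

open AlgebraicCurve ModularCurve Polynomial Fermat.Agent.Lib.FF Fermat.Agent.Lib.S18 IsLocalRing

local notation "Qbar" => AlgebraicClosure ℚ

/-- The structure of the local ring at `𝔫` (6th conjunct of `s34f_ChartContract`) from the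
element-form dichotomy. -/
theorem s34f_struct_of_elem {B : Type*} [CommRing B] (𝔫 : Ideal B) [𝔫.IsPrime] (ϖB : B)
    (hϖ : ϖB ∈ 𝔫)
    (h : (∃ t ∈ 𝔫, ∀ y ∈ 𝔫, ∃ c, c ∉ 𝔫 ∧ ∃ z b, c * y = z * t + b * ϖB) ∨
      (∃ u ∈ 𝔫, ∃ w ∈ 𝔫, ϖB ∣ u * w ∧
        ∀ y ∈ 𝔫, ∃ c, c ∉ 𝔫 ∧ ∃ z z' b, c * y = z * u + z' * w + b * ϖB)) :
    (∃ t : B, maximalIdeal (Localization.AtPrime 𝔫) =
      Ideal.span {algebraMap B (Localization.AtPrime 𝔫) t,
        algebraMap B (Localization.AtPrime 𝔫) ϖB}) ∨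
    (∃ u w : B, (∃ β, u * w = ϖB * β) ∧
      maximalIdeal (Localization.AtPrime 𝔫) =
        Ideal.span {algebraMap B (Localization.AtPrime 𝔫) u,
          algebraMap B (Localization.AtPrime 𝔫) w,
          algebraMap B (Localization.AtPrime 𝔫) ϖB}) := by
  rcases h with ⟨t, ht, h⟩ | ⟨u, hu, w, hw, ⟨c, hc⟩, h⟩
  · exact Or.inl ⟨t, s34d_maximalIdeal_eq_span_pair 𝔫 ht hϖ h⟩
  · exact Or.inr ⟨u, w, ⟨c, hc⟩, s34d_maximalIdeal_eq_span_triple 𝔫 hu hw hϖ h⟩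

variable {L₀ 𝓕 : Type*} [Field L₀] [Field 𝓕] [Algebra L₀ 𝓕]

/-- A chart `{Q | t regular at Q}` of a `g`-fixed function `t` is `g`-stable. -/
theorem s34f_chart_stable_of_fixed (g : SemilinearAut L₀ 𝓕) (t : 𝓕) (ht : g • t = t)
    (Q : Place L₀ 𝓕) : Q ∈ s18_chart1 (L₀ := L₀) t ↔ g • Q ∈ s18_chart1 (L₀ := L₀) t := by
  show t ∈ Q.toValuationSubring ↔ t ∈ (g • Q).toValuationSubring
  have h := s34f_smul_mem_iff g (g • Q) t
  rw [ht, inv_smul_smul] at h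
  exact h.symm

/-- The same for the second chart. -/
theorem s34f_chart2_stable_of_fixed (g : SemilinearAut L₀ 𝓕) (t : 𝓕) (ht : g • t = t)
    (Q : Place L₀ 𝓕) : Q ∈ s18_chart2 (L₀ := L₀) t ↔ g • Q ∈ s18_chart2 (L₀ := L₀) t := by
  refine s34f_chart_stable_of_fixed g t⁻¹ ?_ Q
  rw [smul_inv'', ht]

/-- **The chart contract from its six components.** -/
theorem s34f_chartContract_of (A₀ : ValuationSubring L₀) {ι : Type*} (O : ι → ValuationSubring 𝓕)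
    (hAO : ∀ i, ∀ a : A₀, algebraMap L₀ 𝓕 (a : L₀) ∈ O i) (ϖ : A₀) (S : Set (Place L₀ 𝓕))
    (g : SemilinearAut L₀ 𝓕)
    (hnoeth : IsNoetherianRing (s34x_ring (s34x_infRing O) S))
    (hdict : (∀ Q ∈ S, ∃ u : s34x_ring (s34x_infRing O) S, Q.ord (u : 𝓕) = 1) ∧
      (∀ Q ∈ S, ∀ Q' ∈ S, Q' ≠ Q →
        ∃ y : s34x_ring (s34x_infRing O) S, 0 < Q.ord (y : 𝓕) ∧ Q'.ord (y : 𝓕) = 0) ∧
      (∀ y : 𝓕, y ≠ 0 → {Q : Place L₀ 𝓕 | Q ∈ S ∧ Q.ord y ≠ 0}.Finite))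
    (hgS : ∀ Q : Place L₀ 𝓕, Q ∈ S ↔ g • Q ∈ S)
    (helem : ∀ (𝔫 : Ideal (s34x_ring (s34x_infRing O) S)) [𝔫.IsPrime],
      s34f_constHom A₀ (s34x_infRing O) (s34x_inf_const_mem O A₀ hAO) S ϖ ∈ 𝔫 →
      (∃ t ∈ 𝔫, ∀ y ∈ 𝔫, ∃ c, c ∉ 𝔫 ∧ ∃ z b, c * y = z * t +
        b * s34f_constHom A₀ (s34x_infRing O) (s34x_inf_const_mem O A₀ hAO) S ϖ) ∨
      (∃ u ∈ 𝔫, ∃ w ∈ 𝔫,
        s34f_constHom A₀ (s34x_infRing O) (s34x_inf_const_mem O A₀ hAO) S ϖ ∣ u * w ∧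
        ∀ y ∈ 𝔫, ∃ c, c ∉ 𝔫 ∧ ∃ z z' b, c * y = z * u + z' * w +
          b * s34f_constHom A₀ (s34x_infRing O) (s34x_inf_const_mem O A₀ hAO) S ϖ)) :
    s34f_ChartContract A₀ O hAO ϖ S g := by
  refine ⟨hnoeth, hdict.1, hdict.2.1, hdict.2.2, hgS, ?_⟩
  intro 𝔫 h𝔫 hϖ𝔫
  haveI : 𝔫.IsPrime := h𝔫.isPrime
  exact s34f_struct_of_elem 𝔫 _ hϖ𝔫 (helem 𝔫 hϖ𝔫)


section Concrete

variable {K₀ : Type*} [Field K₀] [Algebra ℚ K₀] {κ : Type*} [Field κ] (G : s18g_GaussData K₀ κ)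
  (φ : K₀ →+* Qbar) (M q : ℕ) [NeZero M] [NeZero q] (hq : q.Prime) (hqM : ¬ q ∣ M)

/-- `j` has rational coefficients: it is fixed by the coefficientwise Galois action. -/
theorem s34f_galois_jF (N : ℕ) [NeZero N] (σ₀ : K₀ ≃ₐ[ℚ] K₀) :
    arithmeticGalois (modularFunctionFieldFull N) σ₀ • s18g_jF (K := K₀) N =
      s18g_jF (K := K₀) N := by
  apply Subtype.ext
  rw [coe_arithmeticGalois_smul]
  exact coeffMap_jqModC _

variable [CharZero K₀] [IsDiscreteValuationRing G.A]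

/-- **The chart contract for chart 1 of `j`** from (α) for `j` and the element-form dichotomy. -/
theorem s34f_chartContract_j1 [FFGen K₀ (s18g_jF (K := K₀) (M * q))]
    (hα : ∀ y ∈ s34x_infRing (s34m_VV G φ M q hq hqM), ∃ s : G.A[X], s.map G.π ≠ 0 ∧
      (s18b_ev G (laurentBaseChange K₀ (modularFunctionFieldFull (M * q)))
        (s18g_jF (K := K₀) (M * q))).IsIntegralElem
        (s18b_ev G (laurentBaseChange K₀ (modularFunctionFieldFull (M * q)))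
          (s18g_jF (K := K₀) (M * q)) s * y))
    (σ₀ : K₀ ≃ₐ[ℚ] K₀)
    (helem : ∀ (𝔫 : Ideal (s34x_ring (s34x_infRing (s34m_VV G φ M q hq hqM))
        (s18_chart1 (L₀ := K₀) (s18g_jF (K := K₀) (M * q))))) [𝔫.IsPrime],
      s34f_constHom G.A (s34x_infRing (s34m_VV G φ M q hq hqM))
        (s34x_inf_const_mem (s34m_VV G φ M q hq hqM) G.A (s34c_const_mem_VV G φ M q hq hqM))
        (s18_chart1 (L₀ := K₀) (s18g_jF (K := K₀) (M * q))) G.ϖ ∈ 𝔫 →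
      (∃ t ∈ 𝔫, ∀ y ∈ 𝔫, ∃ c, c ∉ 𝔫 ∧ ∃ z b, c * y = z * t +
        b * s34f_constHom G.A (s34x_infRing (s34m_VV G φ M q hq hqM))
          (s34x_inf_const_mem (s34m_VV G φ M q hq hqM) G.A (s34c_const_mem_VV G φ M q hq hqM))
          (s18_chart1 (L₀ := K₀) (s18g_jF (K := K₀) (M * q))) G.ϖ) ∨
      (∃ u ∈ 𝔫, ∃ w ∈ 𝔫,
        s34f_constHom G.A (s34x_infRing (s34m_VV G φ M q hq hqM))
          (s34x_inf_const_mem (s34m_VV G φ M q hq hqM) G.A (s34c_const_mem_VV G φ M q hq hqM))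
          (s18_chart1 (L₀ := K₀) (s18g_jF (K := K₀) (M * q))) G.ϖ ∣ u * w ∧
        ∀ y ∈ 𝔫, ∃ c, c ∉ 𝔫 ∧ ∃ z z' b, c * y = z * u + z' * w +
          b * s34f_constHom G.A (s34x_infRing (s34m_VV G φ M q hq hqM))
            (s34x_inf_const_mem (s34m_VV G φ M q hq hqM) G.A (s34c_const_mem_VV G φ M q hq hqM))
            (s18_chart1 (L₀ := K₀) (s18g_jF (K := K₀) (M * q))) G.ϖ)) :
    s34f_ChartContract G.A (s34m_VV G φ M q hq hqM) (s34c_const_mem_VV G φ M q hq hqM) G.ϖ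
      (s18_chart1 (L₀ := K₀) (s18g_jF (K := K₀) (M * q)))
      (arithmeticGalois (modularFunctionFieldFull (M * q)) σ₀) := by
  refine s34f_chartContract_of G.A _ _ G.ϖ _ _ ?_ ?_ ?_ helem
  · exact s34x_isNoetherianRing_ring G (laurentBaseChange K₀ (modularFunctionFieldFull (M * q)))
      (s18g_jF (K := K₀) (M * q)) (s34m_VV G φ M q hq hqM) (s34c_const_mem_VV G φ M q hq hqM)
      (s34c_jF_mem_VV G φ M q hq hqM) hα
  · exact s34x_dict1 (s18g_jF (K := K₀) (M * q)) (s34x_infRing (s34m_VV G φ M q hq hqM))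
      ((G.ϖ : G.A) : K₀) (s18g_unifK_ne_zero G)
      (s34c_hO_inf (s34m_VV G φ M q hq hqM) ((G.ϖ : G.A) : K₀)
        (fun i => s34m_unif_mem_VV G φ M q hq hqM i) (s34c_hU_VV G φ M q hq hqM))
  · exact s34f_chart_stable_of_fixed _ _ (s34f_galois_jF (M * q) σ₀)

/-- **The chart contract for chart 2 of `j`** from (α) for `j⁻¹` and the element-form
dichotomy. -/
theorem s34f_chartContract_j2 [FFGen K₀ (s18g_jF (K := K₀) (M * q))]
    (hα : ∀ y ∈ s34x_infRing (s34m_VV G φ M q hq hqM), ∃ s : G.A[X], s.map G.π ≠ 0 ∧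
      (s18b_ev G (laurentBaseChange K₀ (modularFunctionFieldFull (M * q)))
        (s18g_jF (K := K₀) (M * q))⁻¹).IsIntegralElem
        (s18b_ev G (laurentBaseChange K₀ (modularFunctionFieldFull (M * q)))
          (s18g_jF (K := K₀) (M * q))⁻¹ s * y))
    (σ₀ : K₀ ≃ₐ[ℚ] K₀)
    (helem : ∀ (𝔫 : Ideal (s34x_ring (s34x_infRing (s34m_VV G φ M q hq hqM))
        (s18_chart2 (L₀ := K₀) (s18g_jF (K := K₀) (M * q))))) [𝔫.IsPrime],
      s34f_constHom G.A (s34x_infRing (s34m_VV G φ M q hq hqM))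
        (s34x_inf_const_mem (s34m_VV G φ M q hq hqM) G.A (s34c_const_mem_VV G φ M q hq hqM))
        (s18_chart2 (L₀ := K₀) (s18g_jF (K := K₀) (M * q))) G.ϖ ∈ 𝔫 →
      (∃ t ∈ 𝔫, ∀ y ∈ 𝔫, ∃ c, c ∉ 𝔫 ∧ ∃ z b, c * y = z * t +
        b * s34f_constHom G.A (s34x_infRing (s34m_VV G φ M q hq hqM))
          (s34x_inf_const_mem (s34m_VV G φ M q hq hqM) G.A (s34c_const_mem_VV G φ M q hq hqM))
          (s18_chart2 (L₀ := K₀) (s18g_jF (K := K₀) (M * q))) G.ϖ) ∨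
      (∃ u ∈ 𝔫, ∃ w ∈ 𝔫,
        s34f_constHom G.A (s34x_infRing (s34m_VV G φ M q hq hqM))
          (s34x_inf_const_mem (s34m_VV G φ M q hq hqM) G.A (s34c_const_mem_VV G φ M q hq hqM))
          (s18_chart2 (L₀ := K₀) (s18g_jF (K := K₀) (M * q))) G.ϖ ∣ u * w ∧
        ∀ y ∈ 𝔫, ∃ c, c ∉ 𝔫 ∧ ∃ z z' b, c * y = z * u + z' * w +
          b * s34f_constHom G.A (s34x_infRing (s34m_VV G φ M q hq hqM))
            (s34x_inf_const_mem (s34m_VV G φ M q hq hqM) G.A (s34c_const_mem_VV G φ M q hq hqM))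
            (s18_chart2 (L₀ := K₀) (s18g_jF (K := K₀) (M * q))) G.ϖ)) :
    s34f_ChartContract G.A (s34m_VV G φ M q hq hqM) (s34c_const_mem_VV G φ M q hq hqM) G.ϖ
      (s18_chart2 (L₀ := K₀) (s18g_jF (K := K₀) (M * q)))
      (arithmeticGalois (modularFunctionFieldFull (M * q)) σ₀) := by
  haveI : FFGen K₀ (s18g_jF (K := K₀) (M * q))⁻¹ := ff_gen_inv
  refine s34f_chartContract_of G.A _ _ G.ϖ _ _ ?_ ?_ ?_ helem
  · exact s34x_isNoetherianRing_ring G (laurentBaseChange K₀ (modularFunctionFieldFull (M * q)))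
      (s18g_jF (K := K₀) (M * q))⁻¹ (s34m_VV G φ M q hq hqM) (s34c_const_mem_VV G φ M q hq hqM)
      (s34c_jF_inv_mem_VV G φ M q hq hqM) hα
  · exact s34x_dict2 (s18g_jF (K := K₀) (M * q)) (s34x_infRing (s34m_VV G φ M q hq hqM))
      ((G.ϖ : G.A) : K₀) (s18g_unifK_ne_zero G)
      (s34c_hO_inf (s34m_VV G φ M q hq hqM) ((G.ϖ : G.A) : K₀)
        (fun i => s34m_unif_mem_VV G φ M q hq hqM i) (s34c_hU_VV G φ M q hq hqM))
  · exact s34f_chart2_stable_of_fixed _ _ (s34f_galois_jF (M * q) σ₀)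

end Concrete

end Fermat.Agent.Lib.S34
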