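/-
S34 moonshot, package [R]/(D) (helper5): DEGREE DESCENT for the degeneracy map `α`.

For a field `K₀` of characteristic zero with an embedding `φ : K₀ →+* ℚ̄`, `M` and a prime `q ∤ M`:
the field `𝓕_{M q, K₀}` has degree `≤ q + 1` over `α(𝓕_{M, K₀})`; consequently every family of
`q + 1` elements of `𝓕_{M q, K₀}` which is linearly independent over `α(𝓕_{M, K₀})` spans.

* `s34r_deg_span`  : `E_K = K · ι(E_{K₀})` for `K / K₀` algebraic (generic);
* `s34r_deg_tower_conv` : converse of the tower law for linear independence (generic);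
* `s34r_deg_indep_amb`, `s34r_deg_indep` : linear independence over `E₀(K₀)` is preserved by the
  coefficientwise base change;
* `s34r_deg_le` : `Module.Finite ∧ finrank ≤ q + 1` along `heckeAlphaBar K₀ M q`;
* `s34r_deg_spanning`, `s34r_deg_spanning'` : an independent family of size `q + 1` spans.
-/
import Fermat.Agent.Lib.S34.MValAL
import Fermat.Agent.Lib.S37.WNorm
import Fermat.Agent.Lib.S18.QField
import Fermat.Agent.Lib.S18.QGen
import Fermat.Agent.Lib.FF.Descent

set_option autoImplicit false
set_option linter.style.haveILetI false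

noncomputable section

namespace Fermat.Agent.Lib.S34

open ModularCurve AlgebraicCurve Fermat.Agent.Lib.FF Fermat.Agent.Lib.S18 Fermat.Agent.Lib.S28
  Fermat.Agent.Lib.S37

local notation "Kb" => AlgebraicClosure ℚ

/-! ### Generic part -/

section Generic

variable {K₀ K : Type*} [Field K₀] [Field K] [Algebra ℚ K₀] [Algebra ℚ K] [Algebra K₀ K]
variable (F₀ : IntermediateField ℚ (LaurentSeries ℚ))

omit [Algebra ℚ K₀] in
/-- The coefficientwise scalar multiplication on `K₀((q))` is multiplication by the constant. -/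
theorem s34r_deg_smul_eq (c : K₀) (y : LaurentSeries K₀) :
    c • y = algebraMap K₀ (LaurentSeries K₀) c * y := by
  rw [algebraMap_laurentSeries_eq_single]
  ext n
  simp

/-- The tower `K₀ → E₀(K₀) → K₀((q))` (for the coefficientwise action of `K₀` on `K₀((q))`). -/
theorem s34r_deg_isScalarTower :
    IsScalarTower K₀ ↥(laurentBaseChange K₀ F₀) (LaurentSeries K₀) :=
  ⟨fun a s x => by
    show ((a • s : ↥(laurentBaseChange K₀ F₀)) : LaurentSeries K₀) * x =
      a • ((s : LaurentSeries K₀) * x)
    rw [IntermediateField.coe_smul, Algebra.smul_def, s34r_deg_smul_eq, mul_assoc]⟩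

/-- For `K / K₀` algebraic, `laurentBaseChange K F₀` is spanned over `K` by the image of
`laurentBaseChange K₀ F₀`. -/
theorem s34r_deg_span [Algebra.IsAlgebraic K₀ K] (y : ↥(laurentBaseChange K F₀)) :
    y ∈ Submodule.span K (Set.range (s18q_map (algebraMap K₀ K) F₀)) := by
  set ι := s18q_map (algebraMap K₀ K) F₀ with hι
  -- the `K`-subalgebra generated by the image
  let A : Subalgebra K ↥(laurentBaseChange K F₀) := Algebra.adjoin K (Set.range ι)
  have hA : Subalgebra.toSubmodule A = Submodule.span K (Set.range ι) := by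
    have h1 := Algebra.adjoin_eq_span K (Set.range ι)
    have h2 : (Submonoid.closure (Set.range ι) : Set ↥(laurentBaseChange K F₀)) = Set.range ι := by
      have : Set.range ι = ((MonoidHom.mrange
          (ι : ↥(laurentBaseChange K₀ F₀) →* ↥(laurentBaseChange K F₀)) :
            Submonoid ↥(laurentBaseChange K F₀)) : Set ↥(laurentBaseChange K F₀)) := by
        rw [MonoidHom.coe_mrange]
        rfl
      rw [this, Submonoid.closure_eq]
    rw [h2] at h1
    exact h1
  -- `A` is closed under inverses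
  have hinv : ∀ z : ↥(laurentBaseChange K F₀), z ∈ A → z⁻¹ ∈ A := by
    intro z hz
    letI : Algebra ↥(laurentBaseChange K₀ F₀) ↥(laurentBaseChange K F₀) := ι.toAlgebra
    let B : Subalgebra ↥(laurentBaseChange K₀ F₀) ↥(laurentBaseChange K F₀) :=
      { A.toSubsemiring with
        algebraMap_mem' := fun r => Algebra.subset_adjoin ⟨r, rfl⟩ }
    have hzB : z ∈ B := hz
    have hint : IsIntegral ↥(laurentBaseChange K₀ F₀) z := s18q_isIntegralElem_map F₀ z
    exact B.inv_mem_of_algebraic (x := ⟨z, hzB⟩) hint.isAlgebraic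
  let T₀ : Subfield ↥(laurentBaseChange K F₀) :=
    { A.toSubring with inv_mem' := fun z hz => hinv z hz }
  let T : Subfield (LaurentSeries K) := T₀.map (laurentBaseChange K F₀).toSubfield.subtype
  have hle : Subfield.closure (Set.range (algebraMap K (LaurentSeries K)) ∪
      (⇑(coeffEmb K) '' (F₀ : Set (LaurentSeries ℚ)))) ≤ T := by
    rw [Subfield.closure_le]
    rintro x (⟨c, rfl⟩ | ⟨z, hz, rfl⟩)
    · have h1 : algebraMap K ↥(laurentBaseChange K F₀) c ∈ A := A.algebraMap_mem c
      exact ⟨algebraMap K ↥(laurentBaseChange K F₀) c, h1, rfl⟩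
    · have h1 : ι ⟨coeffEmb K₀ z, coeffEmb_mem_laurentBaseChange K₀ hz⟩ ∈ A :=
        Algebra.subset_adjoin ⟨_, rfl⟩
      exact ⟨ι ⟨coeffEmb K₀ z, coeffEmb_mem_laurentBaseChange K₀ hz⟩, h1,
        s18q_coeffMap_coeffEmb (algebraMap K₀ K) z⟩
  obtain ⟨y', hy', hyy'⟩ := hle (mem_laurentBaseChange_iff.mp y.2)
  have h2 : y' = y := Subtype.ext hyy'
  rw [← h2, ← hA]
  exact hy'

/-- Converse of the tower law for linear independence: if `b` spans `S` over `R` and the products
`b j • x i` are `R`-independent, then the `x i` are `S`-independent. -/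
theorem s34r_deg_tower_conv {R S A J I : Type*} [CommRing R] [Ring S] [Algebra R S]
    [AddCommGroup A] [Module R A] [Module S A] [IsScalarTower R S A]
    (b : J → S) (hb : ∀ s : S, s ∈ Submodule.span R (Set.range b)) (x : I → A)
    (h : LinearIndependent R (fun p : J × I => b p.1 • x p.2)) : LinearIndependent S x := by
  classical
  rw [linearIndependent_iff']
  intro s g hg i hi
  choose c hc using fun i => Finsupp.mem_span_range_iff_exists_finsupp.mp (hb (g i))
  let t : Finset J := s.biUnion fun i => (c i).support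
  have hsum : ∀ i ∈ s, g i = ∑ j ∈ t, c i j • b j := by
    intro i hi
    rw [← hc i]
    apply Finsupp.sum_of_support_subset
    · exact Finset.subset_biUnion_of_mem (fun i => (c i).support) hi
    · intro j _
      exact zero_smul _ _
  have h0 : ∑ p ∈ t ×ˢ s, c p.2 p.1 • (b p.1 • x p.2) = 0 := by
    rw [Finset.sum_product_right]
    rw [← hg]
    refine Finset.sum_congr rfl fun i hi => ?_
    rw [hsum i hi, Finset.sum_smul]
    refine Finset.sum_congr rfl fun j _ => ?_
    rw [smul_assoc]
  have h1 := linearIndependent_iff'.mp h (t ×ˢ s) (fun p => c p.2 p.1) h0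
  rw [hsum i hi]
  refine Finset.sum_eq_zero fun j hj => ?_
  rw [h1 (j, i) (Finset.mk_mem_product hj hi), zero_smul]

/-- Linear independence over `E₀(K₀)` inside `K₀((q))` is preserved by the coefficientwise base
change to an algebraic extension `K`. -/
theorem s34r_deg_indep_amb [Algebra.IsAlgebraic K₀ K] {I : Type*} (x : I → LaurentSeries K₀)
    (hx : LinearIndependent ↥(laurentBaseChange K₀ F₀) x) :
    LinearIndependent ↥(laurentBaseChange K F₀)
      (fun i => coeffMap (algebraMap K₀ K) (x i)) := by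
  classical
  haveI := s34r_deg_isScalarTower (K₀ := K₀) F₀
  haveI := s34r_deg_isScalarTower (K₀ := K) F₀
  let 𝔅 := Module.Basis.ofVectorSpace K₀ ↥(laurentBaseChange K₀ F₀)
  have h1 : LinearIndependent K₀ (fun p : _ × I => 𝔅 p.1 • x p.2) :=
    linearIndependent_smul 𝔅.linearIndependent hx
  have h2 := ffk_linearIndependent_coeffMap (algebraMap K₀ K) _ h1
  refine s34r_deg_tower_conv (R := K) (fun j => s18q_map (algebraMap K₀ K) F₀ (𝔅 j)) ?_ _ ?_
  · intro y
    refine Submodule.span_le.mpr ?_ (s34r_deg_span (K₀ := K₀) F₀ y)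
    rintro _ ⟨e, rfl⟩
    have he : e ∈ Submodule.span K₀ (Set.range 𝔅) := 𝔅.mem_span e
    induction he using Submodule.span_induction with
    | mem z hz =>
        obtain ⟨j, rfl⟩ := hz
        exact Submodule.subset_span ⟨j, rfl⟩
    | zero =>
        rw [map_zero]
        exact zero_mem _
    | add u v _ _ hu hv =>
        rw [map_add]
        exact add_mem hu hv
    | smul a u _ hu =>
        rw [Algebra.smul_def, map_mul, s18q_map_algebraMap, ← Algebra.smul_def]
        exact Submodule.smul_mem _ _ hu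
  · have h3 : (fun p : _ × I => s18q_map (algebraMap K₀ K) F₀ (𝔅 p.1) •
          coeffMap (algebraMap K₀ K) (x p.2)) =
        fun p => coeffMap (algebraMap K₀ K) (𝔅 p.1 • x p.2) := by
      funext p
      show ((s18q_map (algebraMap K₀ K) F₀ (𝔅 p.1) : ↥(laurentBaseChange K F₀)) :
          LaurentSeries K) * coeffMap (algebraMap K₀ K) (x p.2) =
        coeffMap (algebraMap K₀ K)
          (((𝔅 p.1 : ↥(laurentBaseChange K₀ F₀)) : LaurentSeries K₀) * x p.2)
      rw [map_mul, s18q_map_coe]
    rw [h3]
    exact h2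

end Generic

/-! ### The degeneracy map `α` -/

section Alpha

variable {K₀ : Type*} [Field K₀] [Algebra ℚ K₀] (φ : K₀ →+* Kb)
variable (M q : ℕ) [NeZero M] [NeZero q]

include φ

/-- Linear independence over `𝓕_{M,K₀}` (along `α`) is preserved by `ι : 𝓕_{M q,K₀} → 𝓕_{M q,ℚ̄}`. -/
theorem s34r_deg_indep {I : Type*} (x : I → s34m_F K₀ (M * q))
    (hx : letI := algebraAlong (heckeAlphaBar K₀ M q)
      LinearIndependent (s34m_F K₀ M) x) :
    letI := algebraAlong (heckeAlphaBar Kb M q)
    LinearIndependent (ffi_F M) (fun i => s34m_iota φ (M * q) (x i)) := by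
  letI : Algebra K₀ Kb := φ.toAlgebra
  haveI : Algebra.IsAlgebraic ℚ Kb := s18q_isAlgebraic_bar
  haveI : Algebra.IsAlgebraic K₀ Kb := s18q_isAlgebraic_toAlgebra φ
  -- ambient independence over `K₀`
  have h1 : LinearIndependent ↥(laurentBaseChange K₀ (modularFunctionFieldFull M))
      (fun i => ((x i : s34m_F K₀ (M * q)) : LaurentSeries K₀)) := by
    letI := algebraAlong (heckeAlphaBar K₀ M q)
    let v : s34m_F K₀ (M * q) →ₗ[s34m_F K₀ M] LaurentSeries K₀ :=
      { toFun := fun y => (y : LaurentSeries K₀)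
        map_add' := fun _ _ => rfl
        map_smul' := fun a y => by
          show ((heckeAlphaBar K₀ M q a * y : s34m_F K₀ (M * q)) : LaurentSeries K₀) =
            (a : LaurentSeries K₀) * (y : LaurentSeries K₀)
          rw [MulMemClass.coe_mul, coe_heckeAlphaBar] }
    exact hx.map' v (LinearMap.ker_eq_bot.mpr Subtype.val_injective)
  have h2 := s34r_deg_indep_amb (K := Kb) (modularFunctionFieldFull M) _ h1
  letI := algebraAlong (heckeAlphaBar Kb M q)
  let v' : ffi_F (M * q) →ₗ[ffi_F M] LaurentSeries Kb :=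
    { toFun := fun y => (y : LaurentSeries Kb)
      map_add' := fun _ _ => rfl
      map_smul' := fun a y => by
        show ((heckeAlphaBar Kb M q a * y : ffi_F (M * q)) : LaurentSeries Kb) =
          (a : LaurentSeries Kb) * (y : LaurentSeries Kb)
        rw [MulMemClass.coe_mul, coe_heckeAlphaBar] }
  exact LinearIndependent.of_comp v' h2

/-- **Degree descent**: `[𝓕_{M q,K₀} : α 𝓕_{M,K₀}] ≤ q + 1`. -/
theorem s34r_deg_le (hq : q.Prime) (hqM : ¬ q ∣ M) :
    letI := algebraAlong (heckeAlphaBar K₀ M q)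
    Module.Finite (s34m_F K₀ M) (s34m_F K₀ (M * q)) ∧
      Module.finrank (s34m_F K₀ M) (s34m_F K₀ (M * q)) ≤ q + 1 := by
  letI := algebraAlong (heckeAlphaBar K₀ M q)
  have hrank : Module.rank (s34m_F K₀ M) (s34m_F K₀ (M * q)) ≤ ((q + 1 : ℕ) : Cardinal) := by
    apply rank_le
    intro s hs
    have h1 := s34r_deg_indep φ M q (fun i : ↥s => (i : s34m_F K₀ (M * q))) hs
    letI := algebraAlong (heckeAlphaBar Kb M q)
    haveI : Module.Finite (ffi_F M) (ffi_F (M * q)) := s37w_finite_alpha M q hq hqM
    have h2 := h1.fintype_card_le_finrank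
    rw [s37w_finrank_alpha M q hq hqM, Fintype.card_coe] at h2
    exact h2
  have hfin : Module.Finite (s34m_F K₀ M) (s34m_F K₀ (M * q)) :=
    Module.rank_lt_aleph0_iff.mp (lt_of_le_of_lt hrank Cardinal.natCast_lt_aleph0)
  exact ⟨hfin, Module.finrank_le_of_rank_le hrank⟩

/-- An independent family of size `q + 1` spans (`LinearIndependent` form). -/
theorem s34r_deg_spanning' (hq : q.Prime) (hqM : ¬ q ∣ M) (b : Fin (q + 1) → s34m_F K₀ (M * q))
    (hb : letI := algebraAlong (heckeAlphaBar K₀ M q)
      LinearIndependent (s34m_F K₀ M) b) (y : s34m_F K₀ (M * q)) :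
    ∃ c : Fin (q + 1) → s34m_F K₀ M, y = ∑ i, heckeAlphaBar K₀ M q (c i) * b i := by
  letI := algebraAlong (heckeAlphaBar K₀ M q)
  obtain ⟨hfin, hle⟩ := s34r_deg_le φ M q hq hqM
  haveI := hfin
  have hcard : Fintype.card (Fin (q + 1)) = Module.finrank (s34m_F K₀ M) (s34m_F K₀ (M * q)) := by
    have h1 := hb.fintype_card_le_finrank
    rw [Fintype.card_fin] at h1 ⊢
    omega
  have hspan := hb.span_eq_top_of_card_eq_finrank' hcard
  have hy : y ∈ Submodule.span (s34m_F K₀ M) (Set.range b) := by
    rw [hspan]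
    exact Submodule.mem_top
  obtain ⟨c, hc⟩ := (Submodule.mem_span_range_iff_exists_fun _).mp hy
  refine ⟨c, ?_⟩
  rw [← hc]
  rfl

/-- **Spanning form** (explicit sums): a family `b` of `q + 1` elements of `𝓕_{M q,K₀}` which is
linearly independent over `α(𝓕_{M,K₀})` spans `𝓕_{M q,K₀}` over `α(𝓕_{M,K₀})`. -/
theorem s34r_deg_spanning (hq : q.Prime) (hqM : ¬ q ∣ M) (b : Fin (q + 1) → s34m_F K₀ (M * q))
    (hb : ∀ r : Fin (q + 1) → s34m_F K₀ M,
      ∑ i, heckeAlphaBar K₀ M q (r i) * b i = 0 → ∀ i, r i = 0) (y : s34m_F K₀ (M * q)) :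
    ∃ c : Fin (q + 1) → s34m_F K₀ M, y = ∑ i, heckeAlphaBar K₀ M q (c i) * b i := by
  refine s34r_deg_spanning' φ M q hq hqM b ?_ y
  letI := algebraAlong (heckeAlphaBar K₀ M q)
  rw [Fintype.linearIndependent_iff]
  intro g hg i
  exact hb g hg i

end Alpha

end Fermat.Agent.Lib.S34
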