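/-
S34 moonshot, package [F′] (helper3), part 9: the branch `q ≥ 5` (base function `j`).

`s34f_geo_j`: the geometric contract `s34f_Geo M q hq hqM` from the element-form smooth/weak-node
dichotomy on the two charts of `j` ([D], helper8/helper1/helper7) alone: (α) for `j` and `j⁻¹` at
level `M q` comes from helper6's MValAlpha + helper5's RDeg + S18's (α) at level `M`
(`s18g_alpha_j`, `s18g_alpha_inv`, Igusa `s18t_indep_j`, degree `s18g_exists_relation`).
-/
import Fermat.Agent.Lib.S34.FFinal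
import Fermat.Agent.Lib.S34.FWire
import Fermat.Agent.Lib.S34.MValAlpha
import Fermat.Agent.Lib.S34.RDeg
import Fermat.Agent.Lib.S18.TIndepJ

set_option autoImplicit false
set_option linter.style.haveILetI false
set_option synthInstance.maxHeartbeats 400000

noncomputable section

namespace Fermat.Agent.Lib.S34

open AlgebraicCurve ModularCurve Polynomial Fermat.Agent.Lib.FF Fermat.Agent.Lib.S18 IsLocalRing

local notation "Qbar" => AlgebraicClosure ℚ

section

variable {K₀ : Type*} [Field K₀] [Algebra ℚ K₀] {κ : Type*} [Field κ] (G : s18g_GaussData K₀ κ)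
  (φ : K₀ →+* Qbar) (M q : ℕ) [NeZero M] [NeZero q] (hq : q.Prime) (hqM : ¬ q ∣ M) [CharP κ q]

include hq hqM in
/-- (α) for `V_∞ ⊓ V_0` at level `M q` w.r.t. `j`, without hypotheses. -/
theorem s34f_alpha_j :
    ∀ y ∈ s34x_infRing (s34m_VV G φ M q hq hqM), ∃ s : G.A[X], s.map G.π ≠ 0 ∧
      (s18b_ev G (laurentBaseChange K₀ (modularFunctionFieldFull (M * q)))
        (s18g_jF (K := K₀) (M * q))).IsIntegralElem
        (s18b_ev G (laurentBaseChange K₀ (modularFunctionFieldFull (M * q)))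
          (s18g_jF (K := K₀) (M * q)) s * y) := by
  haveI : Fact q.Prime := ⟨hq⟩
  have hT : s18g_HT κ M := s18t_indep_j q M hqM κ
  have hdeg' : s18g_HDeg K₀ M := fun n b hb hn => s18g_exists_relation M φ hn b hb
  have hdeg : s34m_HDeg K₀ M q := fun b hb y => s34r_deg_spanning φ M q hq hqM b hb y
  exact s34m_alpha_j G φ M q hq hqM hdeg (s18g_alpha_j G M hT hdeg' (s34m_hF G M))

include hq hqM in
/-- (α) for `V_∞ ⊓ V_0` at level `M q` w.r.t. `j⁻¹`, without hypotheses. -/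
theorem s34f_alpha_inv :
    ∀ y ∈ s34x_infRing (s34m_VV G φ M q hq hqM), ∃ s : G.A[X], s.map G.π ≠ 0 ∧
      (s18b_ev G (laurentBaseChange K₀ (modularFunctionFieldFull (M * q)))
        (s18g_jF (K := K₀) (M * q))⁻¹).IsIntegralElem
        (s18b_ev G (laurentBaseChange K₀ (modularFunctionFieldFull (M * q)))
          (s18g_jF (K := K₀) (M * q))⁻¹ s * y) := by
  haveI : Fact q.Prime := ⟨hq⟩
  have hT : s18g_HT κ M := s18t_indep_j q M hqM κ
  have hdeg' : s18g_HDeg K₀ M := fun n b hb hn => s18g_exists_relation M φ hn b hb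
  have hdeg : s34m_HDeg K₀ M q := fun b hb y => s34r_deg_spanning φ M q hq hqM b hb y
  exact s34m_alpha_inv G φ M q hq hqM hdeg (s18g_alpha_inv G M hT hdeg' (s34m_hF G M))

end


section Branch

variable (M q : ℕ) [NeZero M] [NeZero q] (hq : q.Prime) (hqM : ¬ q ∣ M)

/-- The element-form smooth/weak-node dichotomy on the chart `S` (the conclusion of helper8's
`s34df_dichotomy` with `ϖB := s34f_constHom … G.ϖ`). -/
def s34f_Elem {K₀ : Type*} [Field K₀] [Algebra ℚ K₀] {κ : Type*} [Field κ]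
    (G : s18g_GaussData K₀ κ) (φ : K₀ →+* Qbar) (S : Set (Place K₀ (s34m_F K₀ (M * q)))) : Prop :=
  ∀ (𝔫 : Ideal (s34x_ring (s34x_infRing (s34m_VV G φ M q hq hqM)) S)) [𝔫.IsPrime],
    s34f_constHom G.A (s34x_infRing (s34m_VV G φ M q hq hqM))
      (s34x_inf_const_mem (s34m_VV G φ M q hq hqM) G.A (s34c_const_mem_VV G φ M q hq hqM))
      S G.ϖ ∈ 𝔫 →
    (∃ t ∈ 𝔫, ∀ y ∈ 𝔫, ∃ c, c ∉ 𝔫 ∧ ∃ z b, c * y = z * t +
      b * s34f_constHom G.A (s34x_infRing (s34m_VV G φ M q hq hqM))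
        (s34x_inf_const_mem (s34m_VV G φ M q hq hqM) G.A (s34c_const_mem_VV G φ M q hq hqM))
        S G.ϖ) ∨
    (∃ u ∈ 𝔫, ∃ w ∈ 𝔫,
      s34f_constHom G.A (s34x_infRing (s34m_VV G φ M q hq hqM))
        (s34x_inf_const_mem (s34m_VV G φ M q hq hqM) G.A (s34c_const_mem_VV G φ M q hq hqM))
        S G.ϖ ∣ u * w ∧
      ∀ y ∈ 𝔫, ∃ c, c ∉ 𝔫 ∧ ∃ z z' b, c * y = z * u + z' * w +
        b * s34f_constHom G.A (s34x_infRing (s34m_VV G φ M q hq hqM))
          (s34x_inf_const_mem (s34m_VV G φ M q hq hqM) G.A (s34c_const_mem_VV G φ M q hq hqM))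
          S G.ϖ)

/-- **The branch with base `j`**: `s34f_Geo` from the element-form dichotomy on the two charts of
`j` for every Gauss datum over a number field in which `g` splits. -/
theorem s34f_geo_j (g : ℚ[X]) (hg0 : g ≠ 0)
    (h : ∀ (K₀ : Type) [Field K₀] [NumberField K₀] [IsGalois ℚ K₀],
      (g.map (algebraMap ℚ K₀)).Splits → ∀ (φ : K₀ →+* Qbar)
      (κ : Type) [Field κ] [CharP κ q] [PerfectField κ]
      (G : s18g_GaussData K₀ κ) [IsDiscreteValuationRing G.A], Function.Surjective G.π →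
        s34f_Elem M q hq hqM G φ (s18_chart1 (L₀ := K₀) (s18g_jF (K := K₀) (M * q))) ∧
        s34f_Elem M q hq hqM G φ (s18_chart2 (L₀ := K₀) (s18g_jF (K := K₀) (M * q)))) :
    s34f_Geo M q hq hqM := by
  refine s34f_geo_of_j M q hq hqM g hg0 ?_
  intro K₀ _ _ _ hsplit φ κ _ _ _ G _ hπ σ₀ hσA hσA' hσπ
  obtain ⟨h1, h2⟩ := h K₀ hsplit φ κ G hπ
  have hdeg : s18g_HDeg K₀ (M * q) := fun n b hb hn => s18g_exists_relation (M * q) φ hn b hb
  haveI : FFGen K₀ (s18g_jF (K := K₀) (M * q)) := s18b_ffGen_jF (M * q) hdeg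
  exact ⟨s34f_alpha_j G φ M q hq hqM,
    s34f_chartContract_j1 G φ M q hq hqM (s34f_alpha_j G φ M q hq hqM) σ₀ h1,
    s34f_chartContract_j2 G φ M q hq hqM (s34f_alpha_inv G φ M q hq hqM) σ₀ h2⟩

end Branch

end Fermat.Agent.Lib.S34
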