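/-
S34 moonshot, package [R]/(D) (helper5): the degree hypothesis `s34m_HDeg` of `MValAlpha.lean`
(helper6) is discharged by the degree descent `RDeg.lean`.
-/
import Fermat.Agent.Lib.S34.RDeg
import Fermat.Agent.Lib.S34.MValAlpha

set_option autoImplicit false

namespace Fermat.Agent.Lib.S34

open ModularCurve

/-- **`s34m_HDeg` holds** for every field `K₀` of characteristic zero which embeds into `ℚ̄`. -/
theorem s34r_deg_HDeg {K₀ : Type*} [Field K₀] [Algebra ℚ K₀] (φ : K₀ →+* AlgebraicClosure ℚ)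
    (M q : ℕ) [NeZero M] [NeZero q] (hq : q.Prime) (hqM : ¬ q ∣ M) : s34m_HDeg K₀ M q :=
  fun b hb y => s34r_deg_spanning φ M q hq hqM b hb y

end Fermat.Agent.Lib.S34
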