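/-
S34 moonshot ([SS] ⇒ S34), package [D], final assembly for the branch `q ≥ 5` (helper1):

* `s34d_elem_of_hmain` : the ELEMENT-FORM dichotomy (`s34f_Elem`, helper3 `FFive.lean`) on a chart `S`
  of level `M q` from S18's `hmain` at level `M` for the chart of `w` — the same proof as helper8's
  `s34df_contract_of_hmain` (`DFibreD.lean`), ending with `s34df_dichotomy` instead of `s34df_loc`;
* `s34d_elem_five_j1`, `s34d_elem_five_j2` : `s34f_Elem` on the two charts of `j` for `q ≥ 5`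
  (`hmain` = `DHmain.lean`, chart inclusions = `DChart2.lean`, degree = helper5's `s34r_deg_HDeg`);
* `s34d_geo_five` : **`s34f_Geo M q hq hqM` for `5 ≤ q`** (via helper3's `s34f_geo_j`).
-/
import Fermat.Agent.Lib.S34.DFibreD
import Fermat.Agent.Lib.S34.DHmain
import Fermat.Agent.Lib.S34.DChartW
import Fermat.Agent.Lib.S34.RDegH
import Fermat.Agent.Lib.S34.FFive

set_option autoImplicit false
set_option linter.unusedSectionVars false
set_option linter.style.haveILetI false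

noncomputable section

namespace Fermat.Agent.Lib.S34

open ModularCurve AlgebraicCurve HahnSeries Polynomial Fermat.Agent.Lib.FF Fermat.Agent.Lib.S18
  Fermat.Agent.Lib.S37

local notation "Qbar" => AlgebraicClosure ℚ

section Elem

variable {K₀ : Type} [Field K₀] [CharZero K₀] [Algebra ℚ K₀] {κ : Type} [Field κ]
  (G : s18g_GaussData K₀ κ) (φ : K₀ →+* Qbar) (M q : ℕ) [NeZero M] [NeZero q]
  (hq : q.Prime) (hqM : ¬ q ∣ M) [CharP κ q] [PerfectField κ]

local notation "𝓕M" => laurentBaseChange K₀ (modularFunctionFieldFull M)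
local notation "hFM" => (fun (f : LaurentSeries K₀)
  (hf : f ∈ laurentBaseChange K₀ (modularFunctionFieldFull M)) => s18g_baseChange_mem_Frac G M hf)

/-- **The element-form dichotomy from S18's `hmain`** (helper8's `s34df_contract_of_hmain` in the
element form of `s34df_dichotomy`). -/
theorem s34d_elem_of_hmain (hdeg : s34m_HDeg K₀ M q) (hT : s18g_HT κ M)
    (hdegM : s18g_HDeg K₀ M) (w : ↥𝓕M) (hwV : w ∈ s18g_V G 𝓕M hFM)
    (hcoord : s37b_Coord κ q
      ((s18g_redF G M hFM hT hdegM ⟨w, hwV⟩ : ↥(modularFunctionFieldFullC κ M)) : LaurentSeries κ))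
    (hwtw : ∀ τ : κ ≃+* κ, coeffMap (τ : κ →+* κ)
      ((s18g_redF G M hFM hT hdegM ⟨w, hwV⟩ : ↥(modularFunctionFieldFullC κ M)) : LaurentSeries κ) =
      ((s18g_redF G M hFM hT hdegM ⟨w, hwV⟩ : ↥(modularFunctionFieldFullC κ M)) : LaurentSeries κ))
    (hmain : letI := s18f_algF G M hT hdegM w hwV
      ∀ z : ↥(modularFunctionFieldFullC κ M), IsIntegral κ[X] z →
        ∃ (b : ↥𝓕M) (hb : b ∈ s18_ring (L₀ := K₀) (s18g_V G 𝓕M hFM) (s18_chart1 w)),
          s18g_redF G M hFM hT hdegM ⟨b, hb.1⟩ = z)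
    (S : Set (Place K₀ (s34m_F K₀ (M * q))))
    (hαB : ∀ g ∈ (s18_ring (L₀ := K₀) (s34m_Vinf G M) (s18_chart1 w) : Set (s34m_F K₀ M)),
      heckeAlphaBar K₀ M q g ∈ s34x_ring (s34x_infRing (s34m_VV G φ M q hq hqM)) S)
    (hβB : ∀ g ∈ (s18_ring (L₀ := K₀) (s34m_Vinf G M) (s18_chart1 w) : Set (s34m_F K₀ M)),
      ∃ b' ∈ s34x_ring (s34x_infRing (s34m_VV G φ M q hq hqM)) S,
      ∃ z, z ∈ s34m_Vinf G (M * q) ∧ z ∈ s34m_Vzero G φ M q hq hqM ∧
        b' - heckeBetaBar K₀ M q g = s34m_unif G (M * q) * z) :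
    s34f_Elem M q hq hqM G φ S := by
  intro 𝔫 h𝔫 hϖ𝔫
  haveI : Fact q.Prime := ⟨hq⟩
  letI algF := s18f_algF G M hT hdegM w hwV
  have hA : ∀ p : κ[X], algebraMap κ[X] ↥(modularFunctionFieldFullC κ M) p =
      Polynomial.aeval (s18g_redF G M hFM hT hdegM ⟨w, hwV⟩) p :=
    s18f_algF_apply G M hT hdegM w hwV
  obtain ⟨hDed, hFrac⟩ := s37b_dedekind_of_coord κ q M (s18g_redF G M hFM hT hdegM ⟨w, hwV⟩)
    hcoord hA
  haveI := hDed
  haveI := hFrac
  have hBMV : ∀ g ∈ (s18_ring (L₀ := K₀) (s34m_Vinf G M) (s18_chart1 w) : Set (s34m_F K₀ M)),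
      g ∈ s34m_Vinf G M := fun g hg => hg.1
  have hlift : ∀ d : ↥(integralClosure κ[X] ↥(modularFunctionFieldFullC κ M)), ∃ g,
      ∃ hg : g ∈ (s18_ring (L₀ := K₀) (s34m_Vinf G M) (s18_chart1 w) : Set (s34m_F K₀ M)),
      s34m_redInf G M ⟨g, hBMV g hg⟩ =
        ((algebraMap ↥(integralClosure κ[X] ↥(modularFunctionFieldFullC κ M))
          ↥(modularFunctionFieldFullC κ M) d : ↥(modularFunctionFieldFullC κ M)) :
          LaurentSeries κ) := by
    intro d
    obtain ⟨b, hb, e⟩ := hmain (d : ↥(modularFunctionFieldFullC κ M)) d.2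
    refine ⟨b, hb, ?_⟩
    have h1 := congrArg (fun z : ↥(modularFunctionFieldFullC κ M) => (z : LaurentSeries κ)) e
    exact h1
  have htw : ∀ d : ↥(integralClosure κ[X] ↥(modularFunctionFieldFullC κ M)),
      ∃ d' : ↥(integralClosure κ[X] ↥(modularFunctionFieldFullC κ M)),
      qExpand κ q ((algebraMap ↥(integralClosure κ[X] ↥(modularFunctionFieldFullC κ M))
          ↥(modularFunctionFieldFullC κ M) d : ↥(modularFunctionFieldFullC κ M)) :
          LaurentSeries κ) =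
        ((algebraMap ↥(integralClosure κ[X] ↥(modularFunctionFieldFullC κ M))
          ↥(modularFunctionFieldFullC κ M) d' : ↥(modularFunctionFieldFullC κ M)) :
          LaurentSeries κ) ^ q := fun d =>
    s34df_htw M q (s18g_redF G M hFM hT hdegM ⟨w, hwV⟩) (hwtw _) hA d
  exact s34df_dichotomy G φ M q hq hqM S (modularFunctionFieldFullC κ M)
    (D₁ := ↥(integralClosure κ[X] ↥(modularFunctionFieldFullC κ M)))
    (D₂ := ↥(integralClosure κ[X] ↥(modularFunctionFieldFullC κ M)))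
    (fun b => s34df_hF₁ G φ M q hq hqM S hdeg hT hdegM b)
    (fun b => s34df_hF₂ G φ M q hq hqM S hdeg hT hdegM b)
    _ rfl _ hBMV hαB hβB hlift hlift htw htw 𝔫 hϖ𝔫

end Elem

section Five

variable (M q : ℕ) [NeZero M] [NeZero q] (hq : q.Prime) (hqM : ¬ q ∣ M) (h5 : 5 ≤ q)
  (K₀ : Type) [Field K₀] [NumberField K₀] (φ : K₀ →+* Qbar)
  (κ : Type) [Field κ] [CharP κ q] [PerfectField κ]
  (G : s18g_GaussData K₀ κ) [IsDiscreteValuationRing G.A] (hπ : Function.Surjective G.π)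

local notation "𝓕M" => laurentBaseChange K₀ (modularFunctionFieldFull M)
local notation "hFM" => (fun (f : LaurentSeries K₀)
  (hf : f ∈ laurentBaseChange K₀ (modularFunctionFieldFull M)) => s18g_baseChange_mem_Frac G M hf)

include h5 hπ in
/-- **`s34f_Elem` on chart 1 of `j`, `q ≥ 5`.** -/
theorem s34d_elem_five_j1 :
    s34f_Elem M q hq hqM G φ (s18_chart1 (L₀ := K₀) (s18g_jF (K := K₀) (M * q))) := by
  haveI : Fact q.Prime := ⟨hq⟩
  haveI : FFGen K₀ (s18g_jF (K := K₀) (M * q)) :=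
    s18b_ffGen_jF (M * q) (fun _ b hb hn => s18g_exists_relation (M * q) φ hn b hb)
  have hT : s18g_HT κ M := s18t_indep_j q M hqM κ
  have hdegM : s18g_HDeg K₀ M := fun _ b hb hn => s18g_exists_relation M φ hn b hb
  have hred1 : s18g_redF G M hFM hT hdegM ⟨s18g_jF (K := K₀) M, s18g_jF_mem_V G M hFM⟩ =
      s18g_jFbar κ M := s18g_redF_jV G M hFM hT hdegM
  refine s34d_elem_of_hmain G φ M q hq hqM (s34r_deg_HDeg φ M q hq hqM) hT hdegM
    (s18g_jF (K := K₀) M) (s18g_jF_mem_V G M hFM) ?_ ?_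
    (s34d_hmain_five_j M q hqM h5 K₀ φ κ G hπ) _
    (s34d_alpha_lift₁ G φ M q hq hqM) (fun g hg => s34d_beta_lift₁ G φ M q hq hqM hg)
  · rw [hred1]
    exact s37b_coord_jq κ q
  · intro τ
    rw [hred1]
    exact coeffMap_jqModC _

include h5 hπ in
/-- **`s34f_Elem` on chart 2 of `j`, `q ≥ 5`.** -/
theorem s34d_elem_five_j2 :
    s34f_Elem M q hq hqM G φ (s18_chart2 (L₀ := K₀) (s18g_jF (K := K₀) (M * q))) := by
  haveI : Fact q.Prime := ⟨hq⟩
  haveI : FFGen K₀ (s18g_jF (K := K₀) (M * q)) :=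
    s18b_ffGen_jF (M * q) (fun _ b hb hn => s18g_exists_relation (M * q) φ hn b hb)
  have hT : s18g_HT κ M := s18t_indep_j q M hqM κ
  have hdegM : s18g_HDeg K₀ M := fun _ b hb hn => s18g_exists_relation M φ hn b hb
  have hred1 : s18g_redF G M hFM hT hdegM ⟨s18g_jF (K := K₀) M, s18g_jF_mem_V G M hFM⟩ =
      s18g_jFbar κ M := s18g_redF_jV G M hFM hT hdegM
  have hred2 : s18g_redF G M hFM hT hdegM
      ⟨(s18g_jF (K := K₀) M)⁻¹, s18g_jF_inv_mem_V G M hFM⟩ = (s18g_jFbar κ M)⁻¹ := by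
    rw [s18f_redF_inv G M hT hdegM _ (s18g_jF_ne_zero M) (s18g_jF_mem_V G M hFM), hred1]
  have hcoe : (((s18g_jFbar κ M)⁻¹ : ↥(modularFunctionFieldFullC κ M)) : LaurentSeries κ) =
      (jqModC κ)⁻¹ := rfl
  refine s34d_elem_of_hmain G φ M q hq hqM (s34r_deg_HDeg φ M q hq hqM) hT hdegM
    (s18g_jF (K := K₀) M)⁻¹ (s18g_jF_inv_mem_V G M hFM) ?_ ?_
    (s34d_hmain_five_inv M q hqM h5 K₀ φ κ G hπ) _
    (s34d_alpha_lift₂ G φ M q hq hqM) (fun g hg => s34d_beta_lift₂ G φ M q hq hqM hg)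
  · rw [hred2, hcoe]
    exact s37b_coord_inv (s37b_coord_jq κ q)
  · intro τ
    rw [hred2, hcoe, map_inv₀, coeffMap_jqModC]

end Five

/-- **The geometric contract `s34f_Geo` for every S18-good `(M, q)` with `q ≥ 5`.** -/
theorem s34d_geo_five (M q : ℕ) [NeZero M] [NeZero q] (hq : q.Prime) (hqM : ¬ q ∣ M)
    (h5 : 5 ≤ q) : s34f_Geo M q hq hqM :=
  s34f_geo_j M q hq hqM X X_ne_zero fun K₀ _ _ _ _ φ κ _ _ _ G _ hπ =>
    ⟨s34d_elem_five_j1 M q hq hqM h5 K₀ φ κ G hπ, s34d_elem_five_j2 M q hq hqM h5 K₀ φ κ G hπ⟩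

end Fermat.Agent.Lib.S34
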