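/-
S34 moonshot, blueprint §E / [E5] (helper2): **S18's `hmain` extracted as a theorem, parametric in
the level-`M` base function `w`**, and its instances at the Hauptmoduln `t₂^{±1}` (`ℓ = 3`,
`2 ∣ M`) and `t₃^{±1}` (`ℓ = 2`, `3 ∣ M`).

`hmain`: every element of the special fibre `F̄_M = modularFunctionFieldFullC κ M` which is integral
over `κ[X]` (`X ↦ redF w`) is the reduction of an element of the chart ring
`s18_ring V_M (s18_chart1 w)` — the `hlift` hypothesis of helper8's `s34df_dichotomy`/`s34df_loc`.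
In S18 this is only a `have` inside `s18f_chartS_of_data` (FProv.lean); the proof below is that
proof, cut after `hmain`.
-/
import Fermat.Agent.Lib.S18.FProv23

set_option autoImplicit false
set_option linter.style.haveILetI false
set_option linter.unusedSectionVars false

noncomputable section

namespace Fermat.Agent.Lib.S34

open AlgebraicCurve ModularCurve Fermat.Agent.Lib.FF Fermat.Agent.Lib.S18 Polynomial
  IntermediateField

section Param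

variable {K : Type} [Field K] [CharZero K] [Algebra ℚ K] {κ : Type} [Field κ]
  (G : s18g_GaussData K κ) (M : ℕ)

local notation "𝓕M" => laurentBaseChange K (modularFunctionFieldFull M)
local notation "hFM" => (fun (f : LaurentSeries K)
  (hf : f ∈ laurentBaseChange K (modularFunctionFieldFull M)) => s18g_baseChange_mem_Frac G M hf)

/-- **`hmain` from the data of `s18s_main`** (S18 `s18f_chartS_of_data`, cut after `hmain`). -/
theorem s34dt_hmain_of_data [IsDiscreteValuationRing G.A] (hπ : Function.Surjective G.π)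
    (hT : s18g_HT κ M) (hdeg : s18g_HDeg K M)
    (w : ↥𝓕M) [FFGen K w] (hwV : w ∈ s18g_V G 𝓕M hFM)
    (hα : ∀ y ∈ s18g_V G 𝓕M hFM, ∃ s : G.A[X], s.map G.π ≠ 0 ∧
      (s18b_ev G 𝓕M w).IsIntegralElem (s18b_ev G 𝓕M w s * y))
    {ι : Type} [Fintype ι] [DecidableEq ι]
    (β : letI := s18p_algR (K := K) w; Module.Basis ι K[X] ↥(ffB K w))
    (hinj : letI := s18f_algF G M hT hdeg w hwV;
      Function.Injective (algebraMap κ[X] ↥(modularFunctionFieldFullC κ M)))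
    (bt : letI := s18f_algF G M hT hdeg w hwV;
      Module.Basis ι κ[X] ↥(integralClosure κ[X] ↥(modularFunctionFieldFullC κ M)))
    (hsep : letI := s18f_algF G M hT hdeg w hwV;
      Algebra.discr κ[X] bt ≠ 0)
    (Cs : Finset ↥G.A) (hCs : Set.InjOn G.π Cs) (α : ↥G.A → ℕ) (e : K) (he : e ≠ 0)
    (hΔ : letI := s18p_algR (K := K) w;
      Algebra.discr K[X] β = C e * ∏ c ∈ Cs, (X - C (algebraMap ↥G.A K c)) ^ α c)
    (hα' : letI := s18p_algR (K := K) w;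
      ∀ c ∈ Cs, ∀ (r : ℕ) (u : Fin r → ↥(ffB K w)),
        (∀ a : Fin r → K, (∑ j, (C (a j) : K[X]) • u j) ∈
          (Ideal.span {algebraMap K[X] ↥(ffB K w) (X - C (algebraMap ↥G.A K c))}).radical →
            a = 0) →
        α c + r ≤ Fintype.card ι) :
    letI := s18f_algF G M hT hdeg w hwV
    ∀ z : ↥(modularFunctionFieldFullC κ M), IsIntegral κ[X] z →
      ∃ (b : ↥𝓕M) (hb : b ∈ s18_ring (L₀ := K) (s18g_V G 𝓕M hFM) (s18_chart1 w)),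
        s18g_redF G M hFM hT hdeg ⟨b, hb.1⟩ = z := by
  letI algR := s18p_algR (K := K) w
  letI algF := s18f_algF G M hT hdeg w hwV
  letI algB := s18p_algB G 𝓕M hFM w hwV
  haveI finB : Module.Finite G.A[X] ↥(s18p_B G 𝓕M hFM w) := s18p_finite_B G 𝓕M hFM w hwV hα
  haveI : IsDedekindDomain (integralClosure κ[X] ↥(modularFunctionFieldFullC κ M)) :=
    s18s_isDedekindDomain_of_basis bt
  have hkerF : ∀ y : ↥(s18g_V G 𝓕M hFM), s18g_redF G M hFM hT hdeg y = 0 →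
      ∃ g : ↥(s18g_V G 𝓕M hFM), y = s18g_unifV G 𝓕M hFM * g := by
    intro y hy
    have hy' : y ∈ RingHom.ker (s18g_redF G M hFM hT hdeg) := hy
    rw [s18g_ker_redF, Ideal.mem_span_singleton'] at hy'
    obtain ⟨a, ha⟩ := hy'
    exact ⟨a, by rw [← ha, mul_comm]⟩
  have hmain : ∀ z : ↥(modularFunctionFieldFullC κ M), IsIntegral κ[X] z →
      ∃ y : ↥(s18p_B G 𝓕M hFM w), s18p_redB G 𝓕M hFM w (s18g_redF G M hFM hT hdeg) y = z := by
    refine s18s_main (A₀ := ↥G.A) (L₀ := K) (k₀ := κ) G.π hπ G.ϖ (s18f_irreducible_unif G)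
      G.π_eq_zero_iff (R₁ := ↥(ffB K w)) β (B := ↥(s18p_B G 𝓕M hFM w))
      (s18p_jB w (s18g_V G 𝓕M hFM)) (s18p_jB_injective w _) ?_ ?_
      (κ := ↥(modularFunctionFieldFullC κ M)) hinj
      (s18p_redB G 𝓕M hFM w (s18g_redF G M hFM hT hdeg)) ?_ ?_
      bt hsep Cs hCs α e he ?_ ?_
    · intro p
      apply Subtype.ext
      show s18b_ev G 𝓕M w p = Polynomial.aeval w (p.map (algebraMap ↥G.A K))
      rfl
    · exact fun x => s18p_hloc w (s18g_V G 𝓕M hFM) ((G.ϖ : G.A) : K)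
        (s18f_hO_of_U (s18g_V G 𝓕M hFM) ((G.ϖ : G.A) : K) (s18f_U_gauss G 𝓕M hFM)) x
    · exact fun p => s18p_hredP G 𝓕M hFM w hwV (s18g_redF G M hFM hT hdeg)
        (algebraMap κ ↥(modularFunctionFieldFullC κ M))
        (fun a => s18g_redF_constV G M hFM hT hdeg a) p
    · exact fun y hy => s18p_hker G 𝓕M hFM w hwV (s18g_redF G M hFM hT hdeg) hkerF y hy
    · convert hΔ using 3
    · intro c hc r u hu
      convert hα' c hc r u ?_ using 2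
      intro a ha
      apply hu a
      convert ha using 3
  intro z hz
  obtain ⟨y, hy⟩ := hmain z hz
  exact ⟨(y : ↥𝓕M), y.2, hy⟩

/-- **`hmain` from the three packaged inputs** (S18 `s18f_chartS_of_inputs`, cut after `hmain`):
the generic rank `n`, the [G]-deg statement of the special fibre and helper1's discriminant
inputs. -/
theorem s34dt_hmain_of_inputs [NeZero M] [IsDiscreteValuationRing G.A]
    (hπ : Function.Surjective G.π)
    (hT : s18g_HT κ M) (hdeg : s18g_HDeg K M)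
    (w : ↥𝓕M) [FFGen K w] (hwV : w ∈ s18g_V G 𝓕M hFM)
    (hα : ∀ y ∈ s18g_V G 𝓕M hFM, ∃ s : G.A[X], s.map G.π ≠ 0 ∧
      (s18b_ev G 𝓕M w).IsIntegralElem (s18b_ev G 𝓕M w s * y))
    (n : ℕ)
    (hrank : Module.finrank ↥K⟮w⟯ ↥𝓕M = n)
    (hch : letI := s18f_algF G M hT hdeg w hwV;
      Function.Injective (algebraMap κ[X] ↥(modularFunctionFieldFullC κ M)) ∧
      ∃ bt : Module.Basis (Fin n) κ[X]
        ↥(integralClosure κ[X] ↥(modularFunctionFieldFullC κ M)),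
        Algebra.discr κ[X] bt ≠ 0)
    (hI : s18r_MainInputs G M w) :
    letI := s18f_algF G M hT hdeg w hwV
    ∀ z : ↥(modularFunctionFieldFullC κ M), IsIntegral κ[X] z →
      ∃ (b : ↥𝓕M) (hb : b ∈ s18_ring (L₀ := K) (s18g_V G 𝓕M hFM) (s18_chart1 w)),
        s18g_redF G M hFM hT hdeg ⟨b, hb.1⟩ = z := by
  letI algR := s18p_algR (K := K) w
  letI algF := s18f_algF G M hT hdeg w hwV
  obtain ⟨β₀, -⟩ := s18g_ffB_basis (K := K) w n hrank
  obtain ⟨β, -⟩ := s18g_ffB_basis_poly w (FFGen.transc : Transcendental K w) β₀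
    (s18p_coe_algebraMap_R w)
  obtain ⟨hinj, bt, hsep⟩ := hch
  obtain ⟨Cs, hCs, hβ⟩ := hI
  obtain ⟨α, e, he, hΔ, hα'⟩ := hβ β
  exact s34dt_hmain_of_data G M hπ hT hdeg w hwV hα β hinj bt hsep Cs hCs α e he hΔ hα'

end Param

/-! ### The instances at `t₂^{±1}` (`ℓ = 3`, `2 ∣ M`) and `t₃^{±1}` (`ℓ = 2`, `3 ∣ M`) -/

section Inst

local notation "Qbar" => AlgebraicClosure ℚ

variable (M : ℕ) [NeZero M] (ℓ : ℕ) [Fact ℓ.Prime] (hℓM : ¬ ℓ ∣ M)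
  (K₀ : Type) [Field K₀] [NumberField K₀] (φ : K₀ →+* Qbar)
  (κ : Type) [Field κ] [CharP κ ℓ] [PerfectField κ]
  (G : s18g_GaussData K₀ κ) [IsDiscreteValuationRing G.A] (hπ : Function.Surjective G.π)
  (hT : s18g_HT κ M) (hdeg : s18g_HDeg K₀ M)

local notation "𝓕M" => laurentBaseChange K₀ (modularFunctionFieldFull M)
local notation "hFM" => (fun (f : LaurentSeries K₀)
  (hf : f ∈ laurentBaseChange K₀ (modularFunctionFieldFull M)) => s18g_baseChange_mem_Frac G M hf)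

theorem s34dt_t2_mem_V (w : ↥𝓕M) (hcoe : (w : LaurentSeries K₀) = s18u_t2 K₀) :
    w ∈ s18g_V G 𝓕M hFM := by
  rw [s18g_mem_V_iff, hcoe]
  exact s18b_t2_mem_O G

theorem s34dt_t2_inv_mem_V (w : ↥𝓕M) (hcoe : (w : LaurentSeries K₀) = s18u_t2 K₀) :
    w⁻¹ ∈ s18g_V G 𝓕M hFM := by
  rw [s18g_mem_V_iff, IntermediateField.coe_inv, hcoe]
  exact s18b_t2_inv_mem_O G

theorem s34dt_t3_mem_V (w : ↥𝓕M) (hcoe : (w : LaurentSeries K₀) = s18u_t3 K₀) :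
    w ∈ s18g_V G 𝓕M hFM := by
  rw [s18g_mem_V_iff, hcoe]
  exact s18b_t3_mem_O G

theorem s34dt_t3_inv_mem_V (w : ↥𝓕M) (hcoe : (w : LaurentSeries K₀) = s18u_t3 K₀) :
    w⁻¹ ∈ s18g_V G 𝓕M hFM := by
  rw [s18g_mem_V_iff, IntermediateField.coe_inv, hcoe]
  exact s18b_t3_inv_mem_O G

include φ hπ hℓM in
/-- **`hmain` for the chart of `t₂`** (`ℓ = 3`, `2 ∣ M`). -/
theorem s34dt_hmain_t2 (hℓ3 : ℓ = 3) (h2M : 2 ∣ M)
    (w : ↥𝓕M) (hcoe : (w : LaurentSeries K₀) = s18u_t2 K₀) [FFGen K₀ w] :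
    letI := s18f_algF G M hT hdeg w (s34dt_t2_mem_V M K₀ κ G w hcoe)
    ∀ z : ↥(modularFunctionFieldFullC κ M), IsIntegral κ[X] z →
      ∃ (b : ↥𝓕M) (hb : b ∈ s18_ring (L₀ := K₀) (s18g_V G 𝓕M hFM) (s18_chart1 w)),
        s18g_redF G M hFM hT hdeg ⟨b, hb.1⟩ = z := by
  have hdeg2 : s18g_HDeg K₀ 2 := fun n b hb hn => s18g_exists_relation 2 φ hn b hb
  have hwV := s34dt_t2_mem_V M K₀ κ G w hcoe
  obtain ⟨-, hrank1⟩ := s18t_deg_charZero_t2 G M hFM hdeg ℓ hℓM h2M hdeg2 w hcoe hwV w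
    (Or.inl rfl)
  refine s34dt_hmain_of_inputs G M hπ hT hdeg w hwV
      (s18f_alpha_of_coe G M w _ hcoe (s18u_alpha_t2_coe G M hT hdeg))
      (dedekindPsi M / 3) hrank1 ?_ (s18r_mainInputs_t2 G M φ ℓ hℓ3 w hcoe)
  letI := s18f_algF G M hT hdeg w hwV
  exact s18t_deg_chart_t2 G M hFM hT hdeg ℓ hπ hℓM h2M hdeg2 w hcoe hwV _ (Or.inl rfl)
    (s18f_algF_apply G M hT hdeg w hwV)

include φ hπ hℓM in
/-- **`hmain` for the chart of `t₂⁻¹`** (`ℓ = 3`, `2 ∣ M`). -/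
theorem s34dt_hmain_t2_inv (hℓ3 : ℓ = 3) (h2M : 2 ∣ M)
    (w : ↥𝓕M) (hcoe : (w : LaurentSeries K₀) = s18u_t2 K₀) [FFGen K₀ w⁻¹] :
    letI := s18f_algF G M hT hdeg w⁻¹ (s34dt_t2_inv_mem_V M K₀ κ G w hcoe)
    ∀ z : ↥(modularFunctionFieldFullC κ M), IsIntegral κ[X] z →
      ∃ (b : ↥𝓕M) (hb : b ∈ s18_ring (L₀ := K₀) (s18g_V G 𝓕M hFM) (s18_chart1 w⁻¹)),
        s18g_redF G M hFM hT hdeg ⟨b, hb.1⟩ = z := by
  have hdeg2 : s18g_HDeg K₀ 2 := fun n b hb hn => s18g_exists_relation 2 φ hn b hb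
  have hwV := s34dt_t2_mem_V M K₀ κ G w hcoe
  have hwinvV := s34dt_t2_inv_mem_V M K₀ κ G w hcoe
  have hw0 : w ≠ 0 := by
    intro h0
    apply s18b_t2_ne_zero K₀
    rw [← hcoe, h0]
    rfl
  obtain ⟨-, hrank2⟩ := s18t_deg_charZero_t2 G M hFM hdeg ℓ hℓM h2M hdeg2 w hcoe hwV w⁻¹
    (Or.inr rfl)
  refine s34dt_hmain_of_inputs G M hπ hT hdeg w⁻¹ hwinvV
      (s18f_alpha_inv_of_coe G M w _ hcoe (s18u_alpha_t2_inv_coe G M hT hdeg))
      (dedekindPsi M / 3) hrank2 ?_ (s18r_mainInputs_t2_inv G M φ ℓ hℓ3 w hcoe)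
  letI := s18f_algF G M hT hdeg w⁻¹ hwinvV
  exact s18t_deg_chart_t2 G M hFM hT hdeg ℓ hπ hℓM h2M hdeg2 w hcoe hwV _
    (Or.inr (s18f_redF_inv G M hT hdeg w hw0 hwV hwinvV))
    (s18f_algF_apply G M hT hdeg w⁻¹ hwinvV)

include φ hπ hℓM in
/-- **`hmain` for the chart of `t₃`** (`ℓ = 2`, `3 ∣ M`). -/
theorem s34dt_hmain_t3 (hℓ2 : ℓ = 2) (h3M : 3 ∣ M)
    (w : ↥𝓕M) (hcoe : (w : LaurentSeries K₀) = s18u_t3 K₀) [FFGen K₀ w] :
    letI := s18f_algF G M hT hdeg w (s34dt_t3_mem_V M K₀ κ G w hcoe)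
    ∀ z : ↥(modularFunctionFieldFullC κ M), IsIntegral κ[X] z →
      ∃ (b : ↥𝓕M) (hb : b ∈ s18_ring (L₀ := K₀) (s18g_V G 𝓕M hFM) (s18_chart1 w)),
        s18g_redF G M hFM hT hdeg ⟨b, hb.1⟩ = z := by
  have hdeg3 : s18g_HDeg K₀ 3 := fun n b hb hn => s18g_exists_relation 3 φ hn b hb
  have hwV := s34dt_t3_mem_V M K₀ κ G w hcoe
  obtain ⟨-, hrank1⟩ := s18t_deg_charZero_t3 G M hFM hdeg ℓ hℓM h3M hdeg3 w hcoe hwV w
    (Or.inl rfl)
  refine s34dt_hmain_of_inputs G M hπ hT hdeg w hwV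
      (s18f_alpha_of_coe G M w _ hcoe (s18u_alpha_t3_coe G M hT hdeg))
      (dedekindPsi M / 4) hrank1 ?_ (s18r_mainInputs_t3 G M φ ℓ hℓ2 w hcoe)
  letI := s18f_algF G M hT hdeg w hwV
  exact s18t_deg_chart_t3 G M hFM hT hdeg ℓ hπ hℓM h3M hdeg3 w hcoe hwV _ (Or.inl rfl)
    (s18f_algF_apply G M hT hdeg w hwV)

include φ hπ hℓM in
/-- **`hmain` for the chart of `t₃⁻¹`** (`ℓ = 2`, `3 ∣ M`). -/
theorem s34dt_hmain_t3_inv (hℓ2 : ℓ = 2) (h3M : 3 ∣ M)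
    (w : ↥𝓕M) (hcoe : (w : LaurentSeries K₀) = s18u_t3 K₀) [FFGen K₀ w⁻¹] :
    letI := s18f_algF G M hT hdeg w⁻¹ (s34dt_t3_inv_mem_V M K₀ κ G w hcoe)
    ∀ z : ↥(modularFunctionFieldFullC κ M), IsIntegral κ[X] z →
      ∃ (b : ↥𝓕M) (hb : b ∈ s18_ring (L₀ := K₀) (s18g_V G 𝓕M hFM) (s18_chart1 w⁻¹)),
        s18g_redF G M hFM hT hdeg ⟨b, hb.1⟩ = z := by
  have hdeg3 : s18g_HDeg K₀ 3 := fun n b hb hn => s18g_exists_relation 3 φ hn b hb
  have hwV := s34dt_t3_mem_V M K₀ κ G w hcoe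
  have hwinvV := s34dt_t3_inv_mem_V M K₀ κ G w hcoe
  have hw0 : w ≠ 0 := by
    intro h0
    apply s18b_t3_ne_zero K₀
    rw [← hcoe, h0]
    rfl
  obtain ⟨-, hrank2⟩ := s18t_deg_charZero_t3 G M hFM hdeg ℓ hℓM h3M hdeg3 w hcoe hwV w⁻¹
    (Or.inr rfl)
  refine s34dt_hmain_of_inputs G M hπ hT hdeg w⁻¹ hwinvV
      (s18f_alpha_inv_of_coe G M w _ hcoe (s18u_alpha_t3_inv_coe G M hT hdeg))
      (dedekindPsi M / 4) hrank2 ?_ (s18r_mainInputs_t3_inv G M φ ℓ hℓ2 w hcoe)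
  letI := s18f_algF G M hT hdeg w⁻¹ hwinvV
  exact s18t_deg_chart_t3 G M hFM hT hdeg ℓ hπ hℓM h3M hdeg3 w hcoe hwV _
    (Or.inr (s18f_redF_inv G M hT hdeg w hw0 hwV hwinvV))
    (s18f_algF_apply G M hT hdeg w⁻¹ hwinvV)

end Inst

end Fermat.Agent.Lib.S34
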