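/-
S34 moonshot, package [F′] (helper3), part 10: the geometric contract `s34f_Geo` for an ARBITRARY
base function `w` of level `M q` (for the branches `q ∈ {2, 3}` with `w = t₃, t₂`; `w = j` gives
back `s34f_geo_j`).

`s34f_geo_of_base`: `s34f_Geo M q hq hqM` from: for every Gauss datum a function `w ≠ 0` with
`FFGen K₀ w`, `w^{±1} ∈ V_∞ ⊓ V_0`, `w` fixed by the coefficientwise Galois action, (α) for `w` and
`w⁻¹` (XFin's shape) and the element-form dichotomy `s34f_Elem` on the two charts of `w`.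
-/
import Fermat.Agent.Lib.S34.FFive

set_option autoImplicit false
set_option linter.style.haveILetI false
set_option synthInstance.maxHeartbeats 400000

noncomputable section

namespace Fermat.Agent.Lib.S34

open AlgebraicCurve ModularCurve Polynomial Fermat.Agent.Lib.FF Fermat.Agent.Lib.S18 IsLocalRing

local notation "Qbar" => AlgebraicClosure ℚ

section

variable {K₀ : Type*} [Field K₀] [Algebra ℚ K₀] {κ : Type*} [Field κ] (G : s18g_GaussData K₀ κ)
  (φ : K₀ →+* Qbar) (M q : ℕ) [NeZero M] [NeZero q] (hq : q.Prime) (hqM : ¬ q ∣ M)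
  [CharZero K₀] [IsDiscreteValuationRing G.A]

/-- (α) for `V_∞ ⊓ V_0` with respect to a base function `w` (XFin's shape). -/
def s34f_AlphaW (w : s34m_F K₀ (M * q)) : Prop :=
  ∀ y ∈ s34x_infRing (s34m_VV G φ M q hq hqM), ∃ s : G.A[X], s.map G.π ≠ 0 ∧
    (s18b_ev G (laurentBaseChange K₀ (modularFunctionFieldFull (M * q))) w).IsIntegralElem
      (s18b_ev G (laurentBaseChange K₀ (modularFunctionFieldFull (M * q))) w s * y)

/-- **The chart contract for chart 1 of a base function `w`.** -/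
theorem s34f_chartContract_w1 (w : s34m_F K₀ (M * q)) [FFGen K₀ w]
    (hwO : ∀ i, w ∈ s34m_VV G φ M q hq hqM i)
    (hα : s34f_AlphaW G φ M q hq hqM w) (σ₀ : K₀ ≃ₐ[ℚ] K₀)
    (hfix : arithmeticGalois (modularFunctionFieldFull (M * q)) σ₀ • w = w)
    (helem : s34f_Elem M q hq hqM G φ (s18_chart1 (L₀ := K₀) w)) :
    s34f_ChartContract G.A (s34m_VV G φ M q hq hqM) (s34c_const_mem_VV G φ M q hq hqM) G.ϖ
      (s18_chart1 (L₀ := K₀) w) (arithmeticGalois (modularFunctionFieldFull (M * q)) σ₀) := by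
  refine s34f_chartContract_of G.A _ _ G.ϖ _ _ ?_ ?_ ?_ helem
  · exact s34x_isNoetherianRing_ring G (laurentBaseChange K₀ (modularFunctionFieldFull (M * q)))
      w (s34m_VV G φ M q hq hqM) (s34c_const_mem_VV G φ M q hq hqM) hwO hα
  · exact s34x_dict1 w (s34x_infRing (s34m_VV G φ M q hq hqM))
      ((G.ϖ : G.A) : K₀) (s18g_unifK_ne_zero G)
      (s34c_hO_inf (s34m_VV G φ M q hq hqM) ((G.ϖ : G.A) : K₀)
        (fun i => s34m_unif_mem_VV G φ M q hq hqM i) (s34c_hU_VV G φ M q hq hqM))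
  · exact s34f_chart_stable_of_fixed _ _ hfix

/-- **The chart contract for chart 2 of a base function `w`.** -/
theorem s34f_chartContract_w2 (w : s34m_F K₀ (M * q)) [FFGen K₀ w]
    (hwO : ∀ i, w⁻¹ ∈ s34m_VV G φ M q hq hqM i)
    (hα : s34f_AlphaW G φ M q hq hqM w⁻¹) (σ₀ : K₀ ≃ₐ[ℚ] K₀)
    (hfix : arithmeticGalois (modularFunctionFieldFull (M * q)) σ₀ • w = w)
    (helem : s34f_Elem M q hq hqM G φ (s18_chart2 (L₀ := K₀) w)) :
    s34f_ChartContract G.A (s34m_VV G φ M q hq hqM) (s34c_const_mem_VV G φ M q hq hqM) G.ϖ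
      (s18_chart2 (L₀ := K₀) w) (arithmeticGalois (modularFunctionFieldFull (M * q)) σ₀) := by
  haveI : FFGen K₀ w⁻¹ := ff_gen_inv
  refine s34f_chartContract_of G.A _ _ G.ϖ _ _ ?_ ?_ ?_ helem
  · exact s34x_isNoetherianRing_ring G (laurentBaseChange K₀ (modularFunctionFieldFull (M * q)))
      w⁻¹ (s34m_VV G φ M q hq hqM) (s34c_const_mem_VV G φ M q hq hqM) hwO hα
  · exact s34x_dict2 w (s34x_infRing (s34m_VV G φ M q hq hqM))
      ((G.ϖ : G.A) : K₀) (s18g_unifK_ne_zero G)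
      (s34c_hO_inf (s34m_VV G φ M q hq hqM) ((G.ϖ : G.A) : K₀)
        (fun i => s34m_unif_mem_VV G φ M q hq hqM i) (s34c_hU_VV G φ M q hq hqM))
  · exact s34f_chart2_stable_of_fixed _ _ hfix

/-- **The Čech input `hH`** for a base function `w` from (α) for `w`. -/
theorem s34f_hH_w (w : s34m_F K₀ (M * q)) [FFGen K₀ w] (hw0 : w ≠ 0)
    (hwO : ∀ i, w ∈ s34m_VV G φ M q hq hqM i) (hwO' : ∀ i, w⁻¹ ∈ s34m_VV G φ M q hq hqM i)
    (hα : s34f_AlphaW G φ M q hq hqM w) {f : s34m_F K₀ (M * q)} (hf0 : f ≠ 0) (m : ℕ) :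
    ∃ H : Submodule G.A (s34m_F K₀ (M * q)), H.FG ∧
      s34x_lat G.A (s34x_infRing (s34m_VV G φ M q hq hqM))
          (s34x_inf_const_mem (s34m_VV G φ M q hq hqM) G.A (s34c_const_mem_VV G φ M q hq hqM))
          (s18_chart12 w) (s18_E f m) ≤
        H ⊔ (s34x_lat G.A (s34x_infRing (s34m_VV G φ M q hq hqM))
              (s34x_inf_const_mem (s34m_VV G φ M q hq hqM) G.A (s34c_const_mem_VV G φ M q hq hqM))
              (s18_chart1 w) (s18_E f m) ⊔
          s34x_lat G.A (s34x_infRing (s34m_VV G φ M q hq hqM))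
              (s34x_inf_const_mem (s34m_VV G φ M q hq hqM) G.A (s34c_const_mem_VV G φ M q hq hqM))
              (s18_chart2 w) (s18_E f m)) := by
  haveI : IsNoetherianRing G.A := inferInstance
  obtain ⟨Z, -, hZ⟩ := s34x_exists_span_adjoin G
    (laurentBaseChange K₀ (modularFunctionFieldFull (M * q))) w
    (s34m_VV G φ M q hq hqM) (s34c_const_mem_VV G φ M q hq hqM) hwO hα
  exact s34c_hH_inf (s34m_VV G φ M q hq hqM) ((G.ϖ : G.A) : K₀) w G.A
    (s34c_const_mem_VV G φ M q hq hqM) (s18g_unifK_ne_zero G)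
    (fun i => s34m_unif_mem_VV G φ M q hq hqM i) (s34c_hU_VV G φ M q hq hqM)
    hw0 hwO hwO' Z hZ hf0 m

end

section Branch

variable (M q : ℕ) [NeZero M] [NeZero q] (hq : q.Prime) (hqM : ¬ q ∣ M)

/-- **The geometric contract from an arbitrary base function.** -/
theorem s34f_geo_of_base (g : ℚ[X]) (hg0 : g ≠ 0)
    (h : ∀ (K₀ : Type) [Field K₀] [NumberField K₀] [IsGalois ℚ K₀],
      (g.map (algebraMap ℚ K₀)).Splits → ∀ (φ : K₀ →+* Qbar)
      (κ : Type) [Field κ] [CharP κ q] [PerfectField κ]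
      (G : s18g_GaussData K₀ κ) [IsDiscreteValuationRing G.A], Function.Surjective G.π →
      ∃ w : s34m_F K₀ (M * q), w ≠ 0 ∧ FFGen K₀ w ∧
        (∀ i, w ∈ s34m_VV G φ M q hq hqM i) ∧ (∀ i, w⁻¹ ∈ s34m_VV G φ M q hq hqM i) ∧
        (∀ σ₀ : K₀ ≃ₐ[ℚ] K₀, arithmeticGalois (modularFunctionFieldFull (M * q)) σ₀ • w = w) ∧
        s34f_AlphaW G φ M q hq hqM w ∧ s34f_AlphaW G φ M q hq hqM w⁻¹ ∧
        s34f_Elem M q hq hqM G φ (s18_chart1 (L₀ := K₀) w) ∧
        s34f_Elem M q hq hqM G φ (s18_chart2 (L₀ := K₀) w)) :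
    s34f_Geo M q hq hqM := by
  refine ⟨g, hg0, ?_⟩
  intro K₀ _ _ _ hsplit φ κ _ _ _ G _ hπ σ₀ hσA hσA' hσπ
  obtain ⟨w, hw0, hgen, hwO, hwO', hfix, hα, hα', h1, h2⟩ := h K₀ hsplit φ κ G hπ
  haveI := hgen
  exact ⟨w, s34f_chartContract_w1 G φ M q hq hqM w hwO hα σ₀ (hfix σ₀) h1,
    s34f_chartContract_w2 G φ M q hq hqM w hwO' hα' σ₀ (hfix σ₀) h2,
    fun f hf0 m => s34f_hH_w G φ M q hq hqM w hw0 hwO hwO' hα hf0 m⟩

end Branch

end Fermat.Agent.Lib.S34
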