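/-
S34 moonshot, package [M]/(E) (helper6), part 6: THE GAUSS-DATUM LAYER between the number-field
contract `s34q_NFKummer` (helper7, `RDescNF`) and the setting of `MVal` / `MValAlpha`.

From the data of the contract
  `A₀ : ValuationSubring K₀`, `[IsDiscreteValuationRing A₀]`, `(q : K₀) ∈ A₀.nonunits`,
  `σ₀ : K₀ ≃ₐ[ℚ] K₀`, `∀ a, σ₀ a ∈ A₀ ↔ a ∈ A₀`, `∀ a ∈ A₀, σ₀ a - a ∈ A₀.nonunits`
we produce
* `s34m_topUnif A₀` (a uniformiser), `s34m_topG A₀ : s18g_GaussData K₀ (ResidueField A₀)` (the Gauss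
  datum, reduction map = residue map), with `s34m_topG_surj`, `s34m_top_charP`, `s34m_top_perfect`,
  `s34m_topG_dvr`;
* `s34m_top_hσA`, `s34m_top_hσA'`, `s34m_top_hσπ`, `s34m_top_hσπ'`: the inertia hypotheses of
  `MVal` (`section Inertia`, `section SecondDiff`) for `σ₀` and `σ₀.symm`;
* `s34m_topPhi : K₀ →+* ℚ̄`;
* `s34m_alpha_j'`, `s34m_alpha_inv'`: (α) for `V_∞ ⊓ V_0` at level `M q` (base functions `j`,
  `j⁻¹`) with the level-`M` inputs discharged as in S18 (`GProv5`): the only remaining hypothesis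
  is the degree bound `s34m_HDeg K₀ M q`.
-/
import Fermat.Agent.Lib.S34.MValAlpha
import Fermat.Agent.Lib.S18.XPerfect
import Fermat.Agent.Lib.S18.TIndepJ
import Fermat.Agent.Lib.S18.GDegree

set_option autoImplicit false
set_option linter.unusedSectionVars false

noncomputable section

namespace Fermat.Agent.Lib.S34

open ModularCurve AlgebraicCurve HahnSeries Polynomial Fermat.Agent.Lib.FF Fermat.Agent.Lib.S18
  Fermat.Agent.Lib.S37

local notation "Kb" => AlgebraicClosure ℚ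

section Gauss

variable {K₀ : Type*} [Field K₀] (A₀ : ValuationSubring K₀) [IsDiscreteValuationRing ↥A₀]

/-- A chosen uniformiser of the discrete valuation ring `A₀`. -/
def s34m_topUnif : ↥A₀ := (IsDiscreteValuationRing.exists_irreducible ↥A₀).choose

theorem s34m_topUnif_irreducible : Irreducible (s34m_topUnif A₀) :=
  (IsDiscreteValuationRing.exists_irreducible ↥A₀).choose_spec

/-- **The Gauss datum of `A₀`**: uniformiser `s34m_topUnif A₀`, reduction map = residue map. -/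
def s34m_topG : s18g_GaussData K₀ (IsLocalRing.ResidueField ↥A₀) :=
  s18g_GaussData.ofResidue A₀ (s34m_topUnif A₀) (s34m_topUnif_irreducible A₀)

@[simp] theorem s34m_topG_A : (s34m_topG A₀).A = A₀ := rfl

theorem s34m_topG_pi : (s34m_topG A₀).π = IsLocalRing.residue ↥A₀ := rfl

theorem s34m_topG_unif : (s34m_topG A₀).ϖ = s34m_topUnif A₀ := rfl

instance s34m_topG_dvr : IsDiscreteValuationRing ↥(s34m_topG A₀).A :=
  (inferInstance : IsDiscreteValuationRing ↥A₀)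

theorem s34m_topG_surj : Function.Surjective (s34m_topG A₀).π :=
  IsLocalRing.residue_surjective

/-- The residue field has characteristic `q`. -/
theorem s34m_top_charP {q : ℕ} (hq : q.Prime) (hqA : (q : K₀) ∈ A₀.nonunits) :
    CharP (IsLocalRing.ResidueField ↥A₀) q :=
  s18x_charP_residueField A₀ hq hqA

/-- The residue field is perfect. -/
theorem s34m_top_perfect [CharZero K₀] [Algebra.IsAlgebraic ℚ K₀] {q : ℕ} (hq : q.Prime)
    (hqA : (q : K₀) ∈ A₀.nonunits) : PerfectField (IsLocalRing.ResidueField ↥A₀) :=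
  s18x_perfectField_residue A₀ hq hqA

/-- Elements prime to the residue characteristic are invertible in `A₀`. -/
theorem s34m_top_natCast_inv_mem {q : ℕ} (hq : q.Prime) (hqA : (q : K₀) ∈ A₀.nonunits)
    (m : ℕ) (hm : ¬ q ∣ m) : ((m : K₀))⁻¹ ∈ A₀ := by
  by_contra hinv
  have hmA : (m : K₀) ∈ A₀ := by
    have : ((m : ℕ) : K₀) = ((m : ↥A₀) : K₀) := by simp
    rw [this]; exact (m : ↥A₀).2
  have hmnu : (m : K₀) ∈ A₀.nonunits := by
    rw [ValuationSubring.mem_nonunits_iff_or]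
    exact Or.inr hinv
  -- `gcd(q, m) = 1` gives `1 ∈ nonunits`
  have hcop : Nat.Coprime q m := (Nat.Prime.coprime_iff_not_dvd hq).mpr hm
  obtain ⟨hqm, hqmax⟩ := (A₀.mem_nonunits_iff_exists_mem_maximalIdeal).mp hqA
  obtain ⟨hmm, hmmax⟩ := (A₀.mem_nonunits_iff_exists_mem_maximalIdeal).mp hmnu
  have h1 : ((q : ℤ) * Nat.gcdA q m + (m : ℤ) * Nat.gcdB q m : ℤ) = 1 := by
    have := Nat.gcd_eq_gcd_ab q m
    rw [hcop.gcd_eq_one] at this
    exact_mod_cast this.symm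
  have h2 : (1 : ↥A₀) ∈ IsLocalRing.maximalIdeal ↥A₀ := by
    have e : (1 : ↥A₀) = (⟨(q : K₀), hqm⟩ : ↥A₀) * ((Nat.gcdA q m : ℤ) : ↥A₀) +
        (⟨(m : K₀), hmm⟩ : ↥A₀) * ((Nat.gcdB q m : ℤ) : ↥A₀) := by
      apply Subtype.ext
      have h3 := congrArg (fun z : ℤ => (z : K₀)) h1
      simp only [Int.cast_add, Int.cast_mul, Int.cast_natCast, Int.cast_one] at h3
      simp [h3]
    rw [e]
    exact Ideal.add_mem _ (Ideal.mul_mem_right _ _ hqmax) (Ideal.mul_mem_right _ _ hmmax)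
  exact (IsLocalRing.maximalIdeal.isMaximal ↥A₀).ne_top
    ((Ideal.eq_top_iff_one _).mpr h2)

end Gauss

section Inertia

variable {K₀ : Type*} [Field K₀] [Algebra ℚ K₀] (A₀ : ValuationSubring K₀)
  [IsDiscreteValuationRing ↥A₀] (σ₀ : K₀ ≃ₐ[ℚ] K₀)
  (h1 : ∀ a : K₀, σ₀ a ∈ A₀ ↔ a ∈ A₀) (h2 : ∀ a ∈ A₀, σ₀ a - a ∈ A₀.nonunits)

include h1 in
/-- `σ₀` preserves `A₀` (shape of `hσA` in `MVal`). -/
theorem s34m_top_hσA :
    ∀ a : K₀, a ∈ (s34m_topG A₀).A → (σ₀ : K₀ ≃+* K₀) a ∈ (s34m_topG A₀).A :=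
  fun a ha => (h1 a).mpr ha

include h1 in
/-- `σ₀⁻¹` preserves `A₀` (shape of `hσA'` in `MVal`). -/
theorem s34m_top_hσA' :
    ∀ a : K₀, a ∈ (s34m_topG A₀).A → (σ₀.symm : K₀ ≃+* K₀) a ∈ (s34m_topG A₀).A := by
  intro a ha
  have := (h1 (σ₀.symm a)).mp (by rw [AlgEquiv.apply_symm_apply]; exact ha)
  exact this

include h2 in
/-- `σ₀` acts trivially on the residue field (shape of `hσπ` in `MVal`). -/
theorem s34m_top_hσπ :
    ∀ a : (s34m_topG A₀).A,
      (s34m_topG A₀).π (s34m_sigmaA (s34m_topG A₀) (σ₀ : K₀ ≃+* K₀)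
        (s34m_top_hσA A₀ σ₀ h1) a) = (s34m_topG A₀).π a := by
  intro a
  rw [← sub_eq_zero, ← map_sub]
  show IsLocalRing.residue ↥A₀ _ = 0
  rw [IsLocalRing.residue_eq_zero_iff]
  obtain ⟨hmem, hmax⟩ := (A₀.mem_nonunits_iff_exists_mem_maximalIdeal).mp (h2 (a : K₀) a.2)
  have e : (s34m_sigmaA (s34m_topG A₀) (σ₀ : K₀ ≃+* K₀) (s34m_top_hσA A₀ σ₀ h1) a - a :
      ↥(s34m_topG A₀).A) = ⟨σ₀ (a : K₀) - (a : K₀), hmem⟩ := Subtype.ext rfl
  rw [e]
  exact hmax

include h2 in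
/-- `σ₀⁻¹` acts trivially on the residue field. -/
theorem s34m_top_hσπ' :
    ∀ a : (s34m_topG A₀).A,
      (s34m_topG A₀).π (s34m_sigmaA (s34m_topG A₀) (σ₀.symm : K₀ ≃+* K₀)
        (s34m_top_hσA' A₀ σ₀ h1) a) = (s34m_topG A₀).π a :=
  s34m_symm_res (s34m_topG A₀) σ₀ (s34m_top_hσA A₀ σ₀ h1) (s34m_top_hσA' A₀ σ₀ h1)
    (s34m_top_hσπ A₀ σ₀ h1 h2)

end Inertia

section Phi

variable (K₀ : Type*) [Field K₀] [Algebra ℚ K₀] [Algebra.IsAlgebraic ℚ K₀]

/-- An embedding of the number field `K₀` into `ℚ̄`. -/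
def s34m_topPhi : K₀ →+* Kb := ((IsAlgClosed.lift : K₀ →ₐ[ℚ] Kb) : K₀ →+* Kb)

end Phi

section Alpha

variable {K₀ : Type*} [Field K₀] [Algebra ℚ K₀] {κ : Type*} [Field κ] (G : s18g_GaussData K₀ κ)
variable (φ : K₀ →+* Kb) (M q : ℕ) [NeZero M] [NeZero q] [CharP κ q]
variable (hq : q.Prime) (hqM : ¬ q ∣ M)

include hq hqM in
/-- The hypothesis [T] at level `M` (Igusa degree over the `j`-line in characteristic `q ∤ M`). -/
theorem s34m_top_HT : s18g_HT κ M := by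
  have : Fact q.Prime := ⟨hq⟩
  exact s18t_indep_j q M hqM κ

include φ in
/-- The characteristic-zero degree bound at level `M`. -/
theorem s34m_top_HDegM : s18g_HDeg K₀ M :=
  fun _ b hb hn => s18g_exists_relation M φ hn b hb

include hq hqM in
/-- **(α) for `V_∞ ⊓ V_0` at level `M q`, base function `j`**, from the degree bound alone. -/
theorem s34m_alpha_j' (hdeg : s34m_HDeg K₀ M q) :
    ∀ y ∈ s34m_O2 G φ M q hq hqM, ∃ s : G.A[X], s.map G.π ≠ 0 ∧
      (s18b_ev G (laurentBaseChange K₀ (modularFunctionFieldFull (M * q)))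
        (s18g_jF (K := K₀) (M * q))).IsIntegralElem
        (s18b_ev G (laurentBaseChange K₀ (modularFunctionFieldFull (M * q)))
          (s18g_jF (K := K₀) (M * q)) s * y) :=
  s34m_alpha_j G φ M q hq hqM hdeg
    (s18g_alpha_j_b G M (s34m_top_HT M q hq hqM) (s34m_top_HDegM φ M) (s34m_hF G M))

include hq hqM in
/-- **(α) for `V_∞ ⊓ V_0` at level `M q`, base function `j⁻¹`**, from the degree bound alone. -/
theorem s34m_alpha_inv' (hdeg : s34m_HDeg K₀ M q) :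
    ∀ y ∈ s34m_O2 G φ M q hq hqM, ∃ s : G.A[X], s.map G.π ≠ 0 ∧
      (s18b_ev G (laurentBaseChange K₀ (modularFunctionFieldFull (M * q)))
        (s18g_jF (K := K₀) (M * q))⁻¹).IsIntegralElem
        (s18b_ev G (laurentBaseChange K₀ (modularFunctionFieldFull (M * q)))
          (s18g_jF (K := K₀) (M * q))⁻¹ s * y) :=
  s34m_alpha_inv G φ M q hq hqM hdeg
    (s18g_alpha_inv_b G M (s34m_top_HT M q hq hqM) (s34m_top_HDegM φ M) (s34m_hF G M))

end Alpha

end Fermat.Agent.Lib.S34
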