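/-
S34 moonshot, package [M]/(E) (helper6), part 7 = [E3]: THE HYPOTHESIS (α) FOR `V_∞ ⊓ V_0` AT LEVEL
`M q` WITH RESPECT TO THE HAUPTMODULN `t₂`, `t₃` AND THEIR INVERSES (branch `q ∈ {2, 3}` of the
blueprint, §E), and the hypothesis-free forms for `j`, `j⁻¹`.

* `s34m_alpha_j0`, `s34m_alpha_inv0`: (α) for `O2 = V_∞ ⊓ V_0`, base function `j`, `j⁻¹`, with NO
  hypothesis left (degree bound = helper5's `s34r_deg_HDeg`, level-`M` inputs as in S18).
* `s34m_alpha_t2_of_j`, `s34m_alpha_t3_of_j` (inside `K₀((T))`): (α) for one element `y` w.r.t. `j`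
  implies (α) for `y` w.r.t. `t₂` / `t₃` (S18's transfer `A[j] ⊆ A[t][1/t]`, `UAlpha`), and
  `s34m_alpha_b_of_coe` / `s34m_alpha_coe_of_b`: passage between the [B]-shape (in the function field)
  and the shape inside `K₀((T))`.
* `s34m_alpha_t2`, `s34m_alpha_t2_inv`, `s34m_alpha_t3`, `s34m_alpha_t3_inv`: (α) for `O2` in XFin's /
  CChart's `hα` shape for ANY `w` of the function field of level `M q` whose series is `t₂` / `t₃`
  (e.g. `w = α(t_M)`).
* conjunct 1 of `s34f_ChartContract` (noetherianity of the chart rings): `s34m_noeth_chart1`,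
  `s34m_noeth_chart2` for a general `w` with (α) for `w`, `w⁻¹`; instances
  `s34m_noeth_j_chart1`, `s34m_noeth_j_chart2`.
-/
import Fermat.Agent.Lib.S34.MValTop
import Fermat.Agent.Lib.S34.RDegH
import Fermat.Agent.Lib.S34.XFin
import Fermat.Agent.Lib.S18.UAlphaT
import Fermat.Agent.Lib.S18.BGen

set_option autoImplicit false
set_option linter.unusedSectionVars false

noncomputable section

namespace Fermat.Agent.Lib.S34

open ModularCurve AlgebraicCurve HahnSeries Polynomial Fermat.Agent.Lib.FF Fermat.Agent.Lib.S18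
  Fermat.Agent.Lib.S37

local notation "Kb" => AlgebraicClosure ℚ

variable {K₀ : Type*} [Field K₀] [Algebra ℚ K₀] {κ : Type*} [Field κ] (G : s18g_GaussData K₀ κ)

/-! ### Shapes -/

/-- From the [B]-shape (in an intermediate field) to the shape inside `K₀((T))`. -/
theorem s34m_alpha_coe_of_b (𝓕 : IntermediateField K₀ (LaurentSeries K₀)) (w y : 𝓕)
    (h : ∃ s : G.A[X], s.map G.π ≠ 0 ∧
      (s18b_ev G 𝓕 w).IsIntegralElem (s18b_ev G 𝓕 w s * y)) :
    ∃ s : G.A[X], s.map G.π ≠ 0 ∧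
      (s18g_ev G (w : LaurentSeries K₀)).IsIntegralElem
        (s18g_ev G (w : LaurentSeries K₀) s * (y : LaurentSeries K₀)) := by
  obtain ⟨s, hs, hint⟩ := h
  refine ⟨s, hs, ?_⟩
  rw [← s18g_ev_eq_b, s18g_isIntegralElem_coe, MulMemClass.coe_mul, s18g_coe_ev] at hint
  exact hint

/-- From the shape inside `K₀((T))` to the [B]-shape. -/
theorem s34m_alpha_b_of_coe (𝓕 : IntermediateField K₀ (LaurentSeries K₀)) (w y : 𝓕)
    (h : ∃ s : G.A[X], s.map G.π ≠ 0 ∧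
      (s18g_ev G (w : LaurentSeries K₀)).IsIntegralElem
        (s18g_ev G (w : LaurentSeries K₀) s * (y : LaurentSeries K₀))) :
    ∃ s : G.A[X], s.map G.π ≠ 0 ∧
      (s18b_ev G 𝓕 w).IsIntegralElem (s18b_ev G 𝓕 w s * y) := by
  obtain ⟨s, hs, hint⟩ := h
  refine ⟨s, hs, ?_⟩
  rw [← s18g_ev_eq_b, s18g_isIntegralElem_coe, MulMemClass.coe_mul, s18g_coe_ev]
  exact hint

/-! ### Transfer from `j` to `t₂`, `t₃` (one element at a time) -/

/-- (α) for `y` w.r.t. `j` implies (α) for `y` w.r.t. `t₂`. -/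
theorem s34m_alpha_t2_of_j (y : LaurentSeries K₀)
    (h : ∃ sj : G.A[X], sj.map G.π ≠ 0 ∧
      (s18g_ev G (jqModC K₀)).IsIntegralElem (s18g_ev G (jqModC K₀) sj * y)) :
    ∃ s : G.A[X], s.map G.π ≠ 0 ∧
      (s18g_ev G (s18u_t2 K₀)).IsIntegralElem (s18g_ev G (s18u_t2 K₀) s * y) := by
  obtain ⟨sj, hsj, hint⟩ := h
  rw [s18g_ev_eq] at hint ⊢
  simp only [coe_eval₂RingHom] at hint ⊢
  refine s18u_alpha_transfer _ G.π (algebraMap κ (LaurentSeries κ)) (jqModC K₀) (s18u_t2 K₀)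
    (jqModC κ) (s18u_t2 κ) 2 ((X + Polynomial.C 256) ^ 3 : G.A[X]) ?_ ?_ (s18u_t2_ne_zero κ)
    s18u_transc_jbar y sj hsj hint
  · rw [s18u_t2_rel_j]
    simp only [eval₂_pow, eval₂_add, eval₂_X, eval₂_C, map_ofNat, eval₂_ofNat,
      Polynomial.map_ofNat]
  · rw [s18u_t2_rel_j]
    simp only [Polynomial.map_pow, Polynomial.map_add, Polynomial.map_X, Polynomial.map_C,
      eval₂_pow, eval₂_add, eval₂_X, eval₂_C, map_ofNat, eval₂_ofNat, Polynomial.map_ofNat]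

/-- (α) for `y` w.r.t. `j` implies (α) for `y` w.r.t. `t₃`. -/
theorem s34m_alpha_t3_of_j (y : LaurentSeries K₀)
    (h : ∃ sj : G.A[X], sj.map G.π ≠ 0 ∧
      (s18g_ev G (jqModC K₀)).IsIntegralElem (s18g_ev G (jqModC K₀) sj * y)) :
    ∃ s : G.A[X], s.map G.π ≠ 0 ∧
      (s18g_ev G (s18u_t3 K₀)).IsIntegralElem (s18g_ev G (s18u_t3 K₀) s * y) := by
  obtain ⟨sj, hsj, hint⟩ := h
  rw [s18g_ev_eq] at hint ⊢
  simp only [coe_eval₂RingHom] at hint ⊢
  refine s18u_alpha_transfer _ G.π (algebraMap κ (LaurentSeries κ)) (jqModC K₀) (s18u_t3 K₀)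
    (jqModC κ) (s18u_t3 κ) 3
    ((X + Polynomial.C 27) * (X + Polynomial.C 243) ^ 3 : G.A[X]) ?_ ?_ (s18u_t3_ne_zero κ)
    s18u_transc_jbar y sj hsj hint
  · rw [s18u_t3_rel_j]
    simp only [eval₂_mul, eval₂_pow, eval₂_add, eval₂_X, eval₂_C, map_ofNat, eval₂_ofNat,
      Polynomial.map_ofNat]
  · rw [s18u_t3_rel_j]
    simp only [Polynomial.map_mul, Polynomial.map_pow, Polynomial.map_add, Polynomial.map_X,
      Polynomial.map_C, eval₂_mul, eval₂_pow, eval₂_add, eval₂_X, eval₂_C, map_ofNat, eval₂_ofNat,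
      Polynomial.map_ofNat]

/-- (α) for `y` w.r.t. `t` implies (α) for `y` w.r.t. `t⁻¹` (any `t ≠ 0`). -/
theorem s34m_alpha_inv_of_alpha (t : LaurentSeries K₀) (ht : t ≠ 0) (y : LaurentSeries K₀)
    (h : ∃ s : G.A[X], s.map G.π ≠ 0 ∧ (s18g_ev G t).IsIntegralElem (s18g_ev G t s * y)) :
    ∃ s : G.A[X], s.map G.π ≠ 0 ∧ (s18g_ev G t⁻¹).IsIntegralElem (s18g_ev G t⁻¹ s * y) := by
  rw [s18g_ev_eq] at h ⊢
  simp only [coe_eval₂RingHom] at h ⊢
  exact s18u_alpha_inv_of_alpha _ G.π _ ht y h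

/-! ### (α) at level `M q` -/

variable (φ : K₀ →+* Kb) (M q : ℕ) [NeZero M] [NeZero q] [CharP κ q]
variable (hq : q.Prime) (hqM : ¬ q ∣ M)

include hq hqM in
/-- **(α) for `V_∞ ⊓ V_0` at level `M q`, base function `j`** — no hypothesis left. -/
theorem s34m_alpha_j0 :
    ∀ y ∈ s34m_O2 G φ M q hq hqM, ∃ s : G.A[X], s.map G.π ≠ 0 ∧
      (s18b_ev G (laurentBaseChange K₀ (modularFunctionFieldFull (M * q)))
        (s18g_jF (K := K₀) (M * q))).IsIntegralElem
        (s18b_ev G (laurentBaseChange K₀ (modularFunctionFieldFull (M * q)))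
          (s18g_jF (K := K₀) (M * q)) s * y) :=
  s34m_alpha_j' G φ M q hq hqM (s34r_deg_HDeg φ M q hq hqM)

include hq hqM in
/-- **(α) for `V_∞ ⊓ V_0` at level `M q`, base function `j⁻¹`** — no hypothesis left. -/
theorem s34m_alpha_inv0 :
    ∀ y ∈ s34m_O2 G φ M q hq hqM, ∃ s : G.A[X], s.map G.π ≠ 0 ∧
      (s18b_ev G (laurentBaseChange K₀ (modularFunctionFieldFull (M * q)))
        (s18g_jF (K := K₀) (M * q))⁻¹).IsIntegralElem
        (s18b_ev G (laurentBaseChange K₀ (modularFunctionFieldFull (M * q)))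
          (s18g_jF (K := K₀) (M * q))⁻¹ s * y) :=
  s34m_alpha_inv' G φ M q hq hqM (s34r_deg_HDeg φ M q hq hqM)

include hq hqM in
/-- **(α) for `V_∞ ⊓ V_0` at level `M q`, base function `w` with series `t₂`.** -/
theorem s34m_alpha_t2 (w : s34m_F K₀ (M * q)) (hwt : (w : LaurentSeries K₀) = s18u_t2 K₀) :
    ∀ y ∈ s34m_O2 G φ M q hq hqM, ∃ s : G.A[X], s.map G.π ≠ 0 ∧
      (s18b_ev G (laurentBaseChange K₀ (modularFunctionFieldFull (M * q))) w).IsIntegralElem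
        (s18b_ev G (laurentBaseChange K₀ (modularFunctionFieldFull (M * q))) w s * y) := by
  intro y hy
  apply s34m_alpha_b_of_coe
  rw [hwt]
  exact s34m_alpha_t2_of_j G _
    (s34m_alpha_coe_of_b G _ _ y (s34m_alpha_j0 G φ M q hq hqM y hy))

include hq hqM in
/-- **(α) for `V_∞ ⊓ V_0` at level `M q`, base function `w⁻¹`, `w` with series `t₂`.** -/
theorem s34m_alpha_t2_inv (w : s34m_F K₀ (M * q)) (hwt : (w : LaurentSeries K₀) = s18u_t2 K₀) :
    ∀ y ∈ s34m_O2 G φ M q hq hqM, ∃ s : G.A[X], s.map G.π ≠ 0 ∧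
      (s18b_ev G (laurentBaseChange K₀ (modularFunctionFieldFull (M * q))) w⁻¹).IsIntegralElem
        (s18b_ev G (laurentBaseChange K₀ (modularFunctionFieldFull (M * q))) w⁻¹ s * y) := by
  intro y hy
  apply s34m_alpha_b_of_coe
  rw [IntermediateField.coe_inv, hwt]
  exact s34m_alpha_inv_of_alpha G _ (s18u_t2_ne_zero K₀) _ (s34m_alpha_t2_of_j G _
    (s34m_alpha_coe_of_b G _ _ y (s34m_alpha_j0 G φ M q hq hqM y hy)))

include hq hqM in
/-- **(α) for `V_∞ ⊓ V_0` at level `M q`, base function `w` with series `t₃`.** -/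
theorem s34m_alpha_t3 (w : s34m_F K₀ (M * q)) (hwt : (w : LaurentSeries K₀) = s18u_t3 K₀) :
    ∀ y ∈ s34m_O2 G φ M q hq hqM, ∃ s : G.A[X], s.map G.π ≠ 0 ∧
      (s18b_ev G (laurentBaseChange K₀ (modularFunctionFieldFull (M * q))) w).IsIntegralElem
        (s18b_ev G (laurentBaseChange K₀ (modularFunctionFieldFull (M * q))) w s * y) := by
  intro y hy
  apply s34m_alpha_b_of_coe
  rw [hwt]
  exact s34m_alpha_t3_of_j G _
    (s34m_alpha_coe_of_b G _ _ y (s34m_alpha_j0 G φ M q hq hqM y hy))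

include hq hqM in
/-- **(α) for `V_∞ ⊓ V_0` at level `M q`, base function `w⁻¹`, `w` with series `t₃`.** -/
theorem s34m_alpha_t3_inv (w : s34m_F K₀ (M * q)) (hwt : (w : LaurentSeries K₀) = s18u_t3 K₀) :
    ∀ y ∈ s34m_O2 G φ M q hq hqM, ∃ s : G.A[X], s.map G.π ≠ 0 ∧
      (s18b_ev G (laurentBaseChange K₀ (modularFunctionFieldFull (M * q))) w⁻¹).IsIntegralElem
        (s18b_ev G (laurentBaseChange K₀ (modularFunctionFieldFull (M * q))) w⁻¹ s * y) := by
  intro y hy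
  apply s34m_alpha_b_of_coe
  rw [IntermediateField.coe_inv, hwt]
  exact s34m_alpha_inv_of_alpha G _ (s18u_t3_ne_zero K₀) _ (s34m_alpha_t3_of_j G _
    (s34m_alpha_coe_of_b G _ _ y (s34m_alpha_j0 G φ M q hq hqM y hy)))

/-! ### Conjunct 1 of `s34f_ChartContract`: the chart rings are noetherian -/

section Noeth

variable [CharZero K₀] [IsDiscreteValuationRing ↥G.A]

omit [CharP κ q] in
include hq hqM in
/-- Chart 1 of a general base function `w` (with (α) for `w`). -/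
theorem s34m_noeth_chart1 (w : s34m_F K₀ (M * q)) [FFGen K₀ w]
    (hwO : ∀ i, w ∈ s34m_VV G φ M q hq hqM i)
    (hα : ∀ y ∈ s34m_O2 G φ M q hq hqM, ∃ s : G.A[X], s.map G.π ≠ 0 ∧
      (s18b_ev G (laurentBaseChange K₀ (modularFunctionFieldFull (M * q))) w).IsIntegralElem
        (s18b_ev G (laurentBaseChange K₀ (modularFunctionFieldFull (M * q))) w s * y)) :
    IsNoetherianRing ↥(s34x_ring (L₀ := K₀) (s34x_infRing (s34m_VV G φ M q hq hqM))
      (s18_chart1 w)) :=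
  s34x_isNoetherianRing_ring G _ w (s34m_VV G φ M q hq hqM)
    (fun i a => s34m_const_mem_VV G φ M q hq hqM i a) hwO hα

omit [CharP κ q] in
include hq hqM in
/-- Chart 2 of a general base function `w` (with (α) for `w⁻¹`). -/
theorem s34m_noeth_chart2 (w : s34m_F K₀ (M * q)) [FFGen K₀ w⁻¹]
    (hwO : ∀ i, w⁻¹ ∈ s34m_VV G φ M q hq hqM i)
    (hα : ∀ y ∈ s34m_O2 G φ M q hq hqM, ∃ s : G.A[X], s.map G.π ≠ 0 ∧
      (s18b_ev G (laurentBaseChange K₀ (modularFunctionFieldFull (M * q))) w⁻¹).IsIntegralElem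
        (s18b_ev G (laurentBaseChange K₀ (modularFunctionFieldFull (M * q))) w⁻¹ s * y)) :
    IsNoetherianRing ↥(s34x_ring (L₀ := K₀) (s34x_infRing (s34m_VV G φ M q hq hqM))
      (s18_chart2 w)) :=
  s34m_noeth_chart1 G φ M q hq hqM w⁻¹ hwO hα

include hq hqM in
/-- **Conjunct 1 of the chart contract, chart 1 of `j`.** -/
theorem s34m_noeth_j_chart1 :
    IsNoetherianRing ↥(s34x_ring (L₀ := K₀) (s34x_infRing (s34m_VV G φ M q hq hqM))
      (s18_chart1 (s18g_jF (K := K₀) (M * q)))) := by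
  haveI : FFGen K₀ (s18g_jF (K := K₀) (M * q)) :=
    s18b_ffGen_jF (M * q) (s34m_top_HDegM φ (M * q))
  exact s34m_noeth_chart1 G φ M q hq hqM _ (s34m_jF_mem_VV G φ M q hq hqM)
    (s34m_alpha_j0 G φ M q hq hqM)

include hq hqM in
/-- **Conjunct 1 of the chart contract, chart 2 of `j`.** -/
theorem s34m_noeth_j_chart2 :
    IsNoetherianRing ↥(s34x_ring (L₀ := K₀) (s34x_infRing (s34m_VV G φ M q hq hqM))
      (s18_chart2 (s18g_jF (K := K₀) (M * q)))) := by
  haveI : FFGen K₀ (s18g_jF (K := K₀) (M * q))⁻¹ :=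
    s18b_ffGen_jF_inv (M * q) (s34m_top_HDegM φ (M * q))
  exact s34m_noeth_chart2 G φ M q hq hqM _ (s34m_jF_inv_mem_VV G φ M q hq hqM)
    (s34m_alpha_inv0 G φ M q hq hqM)

end Noeth

end Fermat.Agent.Lib.S34
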