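/-
S34 moonshot, package [S] (helper2): stability of the charts and the `σ`-inputs of the generic
assembly `s34f_zero` (FAssembly) in concrete form.

* generic: for a semilinear automorphism `g` fixing the base function `t`, the charts of `t` are
  `g`-stable (`s34s_chart1_stable`, `s34s_chart2_stable`, `s34s_chart12_stable`) — the fifth
  conjunct of `s34f_ChartContract`;
* concrete (helper6's `MVal` setting: Gauss datum `G` over `K₀`, level `M q`, the family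
  `s34m_VV = {V_∞, V_0}`, `σ₀` in the inertia group of `G.A`, `τ := arithmeticGalois σ₀`):
  `s34s_galois_jF` (`τ • j = j`), `s34s_hgO`, `s34s_hgπ`, `s34s_hsd`, `s34s_hϖO`,
  `s34s_irreducible_unif` — literally the hypotheses `hgO`, `hgπ`, `hsd`, `hϖO`, `hϖ` of
  `s34f_zero` for `A₀ := G.A`, `O := s34m_VV G φ M q hq hqM`, `ϖ := G.ϖ`, `g := τ`
  (`hAO` is `s34c_const_mem_VV`, `hU` is `s34c_hU_VV` of CChart).
-/
import Fermat.Agent.Lib.S34.FAssembly
import Fermat.Agent.Lib.S34.CChart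
import Fermat.Agent.Lib.S18.XGauss

set_option autoImplicit false

noncomputable section

namespace Fermat.Agent.Lib.S34

open ModularCurve AlgebraicCurve HahnSeries Fermat.Agent.Lib.FF Fermat.Agent.Lib.S18
  Fermat.Agent.Lib.S37

local notation "Kb" => AlgebraicClosure ℚ

section generic

variable {L₀ 𝓕 : Type*} [Field L₀] [Field 𝓕] [Algebra L₀ 𝓕]

/-- `g • y` is regular at `g • Q` iff `y` is regular at `Q`. -/
theorem s34s_smul_mem_smul_iff (g : SemilinearAut L₀ 𝓕) (Q : Place L₀ 𝓕) (y : 𝓕) :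
    g • y ∈ (g • Q).toValuationSubring ↔ y ∈ Q.toValuationSubring := by
  rw [s34f_smul_mem_iff, inv_smul_smul]

/-- chart 1 of a `g`-fixed function is `g`-stable. -/
theorem s34s_chart1_stable (g : SemilinearAut L₀ 𝓕) (t : 𝓕) (ht : g • t = t)
    (Q : Place L₀ 𝓕) : Q ∈ s18_chart1 t ↔ g • Q ∈ s18_chart1 t := by
  show t ∈ Q.toValuationSubring ↔ t ∈ (g • Q).toValuationSubring
  rw [← s34s_smul_mem_smul_iff g Q t, ht]

/-- chart 2 of a `g`-fixed function is `g`-stable. -/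
theorem s34s_chart2_stable (g : SemilinearAut L₀ 𝓕) (t : 𝓕) (ht : g • t = t)
    (Q : Place L₀ 𝓕) : Q ∈ s18_chart2 t ↔ g • Q ∈ s18_chart2 t := by
  show t⁻¹ ∈ Q.toValuationSubring ↔ t⁻¹ ∈ (g • Q).toValuationSubring
  have h : g • t⁻¹ = t⁻¹ := by rw [smul_inv'', ht]
  rw [← s34s_smul_mem_smul_iff g Q t⁻¹, h]

/-- the overlap of the charts of a `g`-fixed function is `g`-stable. -/
theorem s34s_chart12_stable (g : SemilinearAut L₀ 𝓕) (t : 𝓕) (ht : g • t = t)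
    (Q : Place L₀ 𝓕) : Q ∈ s18_chart12 t ↔ g • Q ∈ s18_chart12 t := by
  unfold s18_chart12
  rw [Set.mem_inter_iff, Set.mem_inter_iff, s34s_chart1_stable g t ht Q,
    s34s_chart2_stable g t ht Q]

end generic

section concrete

variable {K₀ : Type*} [Field K₀] [Algebra ℚ K₀] {κ : Type*} [Field κ] (G : s18g_GaussData K₀ κ)
  (φ : K₀ →+* Kb) (M q : ℕ) [NeZero M] [NeZero q]

/-- the coefficientwise Galois action is the ring automorphism `arithmeticRingAut`. -/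
theorem s34s_galois_smul (N : ℕ) [NeZero N] (σ₀ : K₀ ≃ₐ[ℚ] K₀) (y : s34m_F K₀ N) :
    arithmeticGalois (modularFunctionFieldFull N) σ₀ • y =
      arithmeticRingAut (modularFunctionFieldFull N) σ₀ y := rfl

/-- **`τ • j = j`**: `j` has rational coefficients. -/
theorem s34s_galois_jF (N : ℕ) [NeZero N] (σ₀ : K₀ ≃ₐ[ℚ] K₀) :
    arithmeticGalois (modularFunctionFieldFull N) σ₀ • s18g_jF (K := K₀) N =
      s18g_jF (K := K₀) N := by
  apply Subtype.ext
  rw [coe_arithmeticGalois_smul, s18g_coe_jF, coeffMap_jqModC]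

/-- both charts of `j` are stable under the coefficientwise Galois action. -/
theorem s34s_chart1_jF_stable (N : ℕ) [NeZero N] (σ₀ : K₀ ≃ₐ[ℚ] K₀)
    (Q : Place K₀ (s34m_F K₀ N)) :
    Q ∈ s18_chart1 (s18g_jF (K := K₀) N) ↔
      arithmeticGalois (modularFunctionFieldFull N) σ₀ • Q ∈ s18_chart1 (s18g_jF (K := K₀) N) :=
  s34s_chart1_stable _ _ (s34s_galois_jF N σ₀) Q

theorem s34s_chart2_jF_stable (N : ℕ) [NeZero N] (σ₀ : K₀ ≃ₐ[ℚ] K₀)
    (Q : Place K₀ (s34m_F K₀ N)) :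
    Q ∈ s18_chart2 (s18g_jF (K := K₀) N) ↔
      arithmeticGalois (modularFunctionFieldFull N) σ₀ • Q ∈ s18_chart2 (s18g_jF (K := K₀) N) :=
  s34s_chart2_stable _ _ (s34s_galois_jF N σ₀) Q

omit [Algebra ℚ K₀] in
/-- the uniformiser of a Gauss datum is irreducible. -/
theorem s34s_irreducible_unif : Irreducible G.ϖ := by
  have hprime : Prime G.ϖ := by
    refine ⟨G.ϖ_ne_zero, ?_, ?_⟩
    · intro hu
      have h1 : G.π 1 = 0 := by
        rw [G.π_eq_zero_iff]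
        exact hu.dvd
      rw [map_one] at h1
      exact one_ne_zero h1
    · intro a b hab
      rw [← G.π_eq_zero_iff, map_mul, mul_eq_zero, G.π_eq_zero_iff, G.π_eq_zero_iff] at hab
      exact hab
  exact hprime.irreducible

/-- **`hϖO`**: the uniformiser is a non-unit of both valuation rings. -/
theorem s34s_hϖO (hq : q.Prime) (hqM : ¬ q ∣ M) (i : Bool) :
    ¬ ∃ y ∈ s34m_VV G φ M q hq hqM i,
      (1 : s34m_F K₀ (M * q)) = algebraMap K₀ (s34m_F K₀ (M * q)) ((G.ϖ : G.A) : K₀) * y := by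
  cases i
  · rintro ⟨y, hy, e⟩
    apply s18x_unif_not_unit G (M * q)
    refine ⟨s34m_al φ M q hq hqM y, (s34m_mem_Vzero G φ M q hq hqM y).mp hy, ?_⟩
    have := congrArg (s34m_al φ M q hq hqM) e
    rw [map_one, map_mul, AlgEquiv.commutes] at this
    exact this
  · exact s18x_unif_not_unit G (M * q)

section Inertia

variable (σ₀ : K₀ ≃ₐ[ℚ] K₀)
  (hσA : ∀ a : K₀, a ∈ G.A → (σ₀ : K₀ ≃+* K₀) a ∈ G.A)
  (hσA' : ∀ a : K₀, a ∈ G.A → (σ₀.symm : K₀ ≃+* K₀) a ∈ G.A)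
  (hσπ : ∀ a : G.A, G.π (s34m_sigmaA G (σ₀ : K₀ ≃+* K₀) hσA a) = G.π a)

/-- `τ_{σ₀⁻¹} ∘ τ_{σ₀} = id`. -/
theorem s34s_symm_apply (N : ℕ) [NeZero N] (y : s34m_F K₀ N) :
    arithmeticRingAut (modularFunctionFieldFull N) σ₀.symm
      (arithmeticRingAut (modularFunctionFieldFull N) σ₀ y) = y :=
  (arithmeticRingAut (modularFunctionFieldFull N) σ₀).symm_apply_apply y

include hσπ hσA' in
/-- **`hgO`**: `τ` preserves both valuation rings (in the `↔` form). -/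
theorem s34s_hgO (hq : q.Prime) (hqM : ¬ q ∣ M) (i : Bool) (y : s34m_F K₀ (M * q)) :
    y ∈ s34m_VV G φ M q hq hqM i ↔
      arithmeticGalois (modularFunctionFieldFull (M * q)) σ₀ • y ∈ s34m_VV G φ M q hq hqM i := by
  rw [s34s_galois_smul]
  constructor
  · intro hy
    exact s34m_galois_mem_VV G φ M q σ₀ hσA hσπ hq hqM i hy
  · intro hy
    have := s34m_galois_mem_VV G φ M q σ₀.symm hσA' (s34m_symm_res G σ₀ hσA hσA' hσπ) hq hqM i hy
    rwa [s34s_symm_apply] at this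

include hσπ in
/-- **`hgπ`**: `τ` is trivial modulo `ϖ` on both valuation rings. -/
theorem s34s_hgπ (hq : q.Prime) (hqM : ¬ q ∣ M) (i : Bool) (y : s34m_F K₀ (M * q))
    (hy : y ∈ s34m_VV G φ M q hq hqM i) :
    ∃ z ∈ s34m_VV G φ M q hq hqM i,
      arithmeticGalois (modularFunctionFieldFull (M * q)) σ₀ • y - y =
        algebraMap K₀ (s34m_F K₀ (M * q)) ((G.ϖ : G.A) : K₀) * z :=
  s34m_galois_sub_mem_VV G φ M q σ₀ hσA hσπ hq hqM i hy

include hσπ hσA' in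
/-- **`hsd`**: the second difference of every nonzero function is `≡ 1` modulo `ϖ` in both
valuation rings. -/
theorem s34s_hsd (hq : q.Prime) (hqM : ¬ q ∣ M) (i : Bool) (U : s34m_F K₀ (M * q))
    (hU : U ≠ 0) :
    ∃ z ∈ s34m_VV G φ M q hq hqM i,
      s34q_f2 (arithmeticGalois (modularFunctionFieldFull (M * q)) σ₀) U - 1 =
        algebraMap K₀ (s34m_F K₀ (M * q)) ((G.ϖ : G.A) : K₀) * z :=
  s34m_second_diff_VV G φ M q σ₀ hσA hσA' hσπ hq hqM i U hU

end Inertia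

/-! ### The concrete form of Theorem X₀ for the second difference -/

section Zero

open Polynomial

variable [CharZero K₀] [IsDiscreteValuationRing G.A]
  (σ₀ : K₀ ≃ₐ[ℚ] K₀)
  (hσA : ∀ a : K₀, a ∈ G.A → (σ₀ : K₀ ≃+* K₀) a ∈ G.A)
  (hσA' : ∀ a : K₀, a ∈ G.A → (σ₀.symm : K₀ ≃+* K₀) a ∈ G.A)
  (hσπ : ∀ a : G.A, G.π (s34m_sigmaA G (σ₀ : K₀ ≃+* K₀) hσA a) = G.π a)

include hσπ hσA' in
/-- **Theorem X₀ for the second difference at level `M q`** (base function `j`, the two Gauss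
valuations, `σ₀` in the inertia group): from (α) and the two chart contracts. -/
theorem s34s_zero (hq : q.Prime) (hqM : ¬ q ∣ M) [FFGen K₀ (s18g_jF (K := K₀) (M * q))]
    (hα : ∀ y ∈ s34x_infRing (s34m_VV G φ M q hq hqM), ∃ s : G.A[X], s.map G.π ≠ 0 ∧
      (s18b_ev G (laurentBaseChange K₀ (modularFunctionFieldFull (M * q)))
        (s18g_jF (K := K₀) (M * q))).IsIntegralElem
        (s18b_ev G (laurentBaseChange K₀ (modularFunctionFieldFull (M * q)))
          (s18g_jF (K := K₀) (M * q)) s * y))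
    (hC1 : s34f_ChartContract G.A (s34m_VV G φ M q hq hqM) (s34c_const_mem_VV G φ M q hq hqM) G.ϖ
      (s18_chart1 (s18g_jF (K := K₀) (M * q)))
      (arithmeticGalois (modularFunctionFieldFull (M * q)) σ₀))
    (hC2 : s34f_ChartContract G.A (s34m_VV G φ M q hq hqM) (s34c_const_mem_VV G φ M q hq hqM) G.ϖ
      (s18_chart2 (s18g_jF (K := K₀) (M * q)))
      (arithmeticGalois (modularFunctionFieldFull (M * q)) σ₀))
    (f : s34m_F K₀ (M * q)) (hf0 : f ≠ 0) (m : ℕ) (hm0 : m ≠ 0) (hmA : ((m : K₀))⁻¹ ∈ G.A)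
    (hdiv : ∀ Q : Place K₀ (s34m_F K₀ (M * q)), (m : ℤ) ∣ Q.ord f)
    (hdeg : ∀ Q : Place K₀ (s34m_F K₀ (M * q)), Q.ord f ≠ 0 → Q.deg = 1) :
    ∃ x : s34m_F K₀ (M * q), x ≠ 0 ∧ ∀ Q : Place K₀ (s34m_F K₀ (M * q)),
      Q.ord (s34q_f2 (arithmeticGalois (modularFunctionFieldFull (M * q)) σ₀) f) ≤
        (m : ℤ) * Q.ord x := by
  have hmL : (m : K₀) ≠ 0 := Nat.cast_ne_zero.mpr hm0
  obtain ⟨x, hx0, -, hx⟩ := s34f_zero G.A (s34m_VV G φ M q hq hqM)
    (s34c_const_mem_VV G φ M q hq hqM) G.ϖ (s34s_irreducible_unif G)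
    (s34s_hϖO G φ M q hq hqM) (s34c_hU_VV G φ M q hq hqM)
    (arithmeticGalois (modularFunctionFieldFull (M * q)) σ₀)
    (s34s_hgO G φ M q σ₀ hσA hσA' hσπ hq hqM)
    (s34s_hgπ G φ M q σ₀ hσA hσπ hq hqM)
    (s34s_hsd G φ M q σ₀ hσA hσA' hσπ hq hqM)
    (s18g_jF (K := K₀) (M * q)) hC1 hC2 f hf0 m hm0 hmA hmL hdiv hdeg
    (s34c_hH G φ M q hq hqM hα (s34q_f2_ne_zero _ hf0) m)
  exact ⟨x, hx0, hx⟩

end Zero

end concrete

end Fermat.Agent.Lib.S34
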