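/-
S34 moonshot, package [S] (helper2), part 2: stability of the charts of ANY base function with
rational coefficients (requested by the architect for §E: the Hauptmoduln `t₂`, `t₃`).

* `s34s_galois_fixed_of_coeffMap` : a function whose `q`-expansion is fixed by `coeffMap σ₀` is fixed
  by `τ = arithmeticGalois σ₀`;
* `s34s_galois_fixed_of_rat` : in particular every function whose `q`-expansion is
  `coeffMap (algebraMap ℚ K₀)` of a rational series;
* `s34s_galois_fixed_t2`, `s34s_galois_fixed_t3` : the functions with `q`-expansions `s18u_t2 K₀`,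
  `s18u_t3 K₀`;
* `s34s_chart1_stable_of_coeffMap`, `s34s_chart2_stable_of_coeffMap` : the fifth conjunct of
  `s34f_ChartContract` for the charts of such a function.
-/
import Fermat.Agent.Lib.S34.SChart
import Fermat.Agent.Lib.S18.UFormalDef

set_option autoImplicit false

noncomputable section

namespace Fermat.Agent.Lib.S34

open ModularCurve AlgebraicCurve HahnSeries Fermat.Agent.Lib.FF Fermat.Agent.Lib.S18

variable {K₀ : Type*} [Field K₀] [Algebra ℚ K₀] (N : ℕ) [NeZero N] (σ₀ : K₀ ≃ₐ[ℚ] K₀)

/-- A function whose `q`-expansion has `σ₀`-fixed coefficients is fixed by `τ`. -/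
theorem s34s_galois_fixed_of_coeffMap (t : s34m_F K₀ N)
    (ht : coeffMap (σ₀ : K₀ →+* K₀) (t : LaurentSeries K₀) = (t : LaurentSeries K₀)) :
    arithmeticGalois (modularFunctionFieldFull N) σ₀ • t = t := by
  apply Subtype.ext
  rw [coe_arithmeticGalois_smul, ht]

/-- A function whose `q`-expansion has rational coefficients is fixed by `τ`. -/
theorem s34s_galois_fixed_of_rat (t : s34m_F K₀ N) (t₀ : LaurentSeries ℚ)
    (ht : (t : LaurentSeries K₀) = coeffMap (algebraMap ℚ K₀) t₀) :
    arithmeticGalois (modularFunctionFieldFull N) σ₀ • t = t := by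
  apply s34s_galois_fixed_of_coeffMap
  rw [ht, coeffMap_coeffMap]
  exact coeffMap_congr (RingHom.ext fun a => σ₀.commutes a) t₀

/-- The function with `q`-expansion `t₂` is fixed by `τ`. -/
theorem s34s_galois_fixed_t2 (t : s34m_F K₀ N) (ht : (t : LaurentSeries K₀) = s18u_t2 K₀) :
    arithmeticGalois (modularFunctionFieldFull N) σ₀ • t = t := by
  apply s34s_galois_fixed_of_coeffMap
  rw [ht, s18u_coeffMap_t2]

/-- The function with `q`-expansion `t₃` is fixed by `τ`. -/
theorem s34s_galois_fixed_t3 (t : s34m_F K₀ N) (ht : (t : LaurentSeries K₀) = s18u_t3 K₀) :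
    arithmeticGalois (modularFunctionFieldFull N) σ₀ • t = t := by
  apply s34s_galois_fixed_of_coeffMap
  rw [ht, s18u_coeffMap_t3]

/-- chart 1 of a `τ`-fixed function is `τ`-stable. -/
theorem s34s_chart1_stable_of_fixed (t : s34m_F K₀ N)
    (ht : arithmeticGalois (modularFunctionFieldFull N) σ₀ • t = t)
    (Q : Place K₀ (s34m_F K₀ N)) :
    Q ∈ s18_chart1 t ↔ arithmeticGalois (modularFunctionFieldFull N) σ₀ • Q ∈ s18_chart1 t :=
  s34s_chart1_stable _ t ht Q

/-- chart 2 of a `τ`-fixed function is `τ`-stable. -/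
theorem s34s_chart2_stable_of_fixed (t : s34m_F K₀ N)
    (ht : arithmeticGalois (modularFunctionFieldFull N) σ₀ • t = t)
    (Q : Place K₀ (s34m_F K₀ N)) :
    Q ∈ s18_chart2 t ↔ arithmeticGalois (modularFunctionFieldFull N) σ₀ • Q ∈ s18_chart2 t :=
  s34s_chart2_stable _ t ht Q

/-- the images under `α`, `β` (or any map commuting with `coeffMap`) need no separate statement:
a function of level `N` whose `q`-expansion is the `q`-expansion of a `τ`-fixed function of another
level is `τ`-fixed. -/
theorem s34s_galois_fixed_of_coe_eq {N' : ℕ} [NeZero N'] (t : s34m_F K₀ N) (t' : s34m_F K₀ N')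
    (h : (t : LaurentSeries K₀) = (t' : LaurentSeries K₀))
    (ht' : arithmeticGalois (modularFunctionFieldFull N') σ₀ • t' = t') :
    arithmeticGalois (modularFunctionFieldFull N) σ₀ • t = t := by
  apply s34s_galois_fixed_of_coeffMap
  have h1 := congrArg Subtype.val ht'
  rw [coe_arithmeticGalois_smul] at h1
  rw [h, h1]

end Fermat.Agent.Lib.S34
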