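/-
S34 moonshot, §E (`q ∈ {2, 3}`), helper6: THE NON-[D] FACTS of helper3's `s34f_geo_of_base`
(`FBase.lean`) for the base functions `t₂` (`2 ∣ M`, residue characteristic `q ≠ 2`) and `t₃`
(`3 ∣ M`, `q ≠ 3`) at level `M q`.

For a level-`M` function `t_M` with `q`-expansion `t₂` (resp. `t₃`) and `w := α t_M` (the same
function at level `M q`):
`w ≠ 0`, `FFGen K₀ w`, `FFGen K₀ w⁻¹`, `w^{±1} ∈ V_∞ ⊓ V_0`, `τ w = w` for every coefficient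
automorphism, (α) for `w` and `w⁻¹` — everything `s34f_geo_of_base` wants except the two
element-form dichotomies `s34f_Elem`.  `s34m_base_t2` / `s34m_base_t3` package S18's (W1) at level
`M` with these facts.
-/
import Fermat.Agent.Lib.S34.MValAlphaT
import Fermat.Agent.Lib.S34.FBase
import Fermat.Agent.Lib.S34.SChartQ
import Fermat.Agent.Lib.S18.BHaupt

set_option autoImplicit false
set_option linter.unusedSectionVars false
set_option linter.style.haveILetI false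

noncomputable section

namespace Fermat.Agent.Lib.S34

open ModularCurve AlgebraicCurve HahnSeries Polynomial Fermat.Agent.Lib.FF Fermat.Agent.Lib.S18
  Fermat.Agent.Lib.S37

local notation "Kb" => AlgebraicClosure ℚ

variable {K₀ : Type*} [Field K₀] [Algebra ℚ K₀] {κ : Type*} [Field κ] (G : s18g_GaussData K₀ κ)
variable (φ : K₀ →+* Kb) (M q : ℕ) [NeZero M] [NeZero q]
variable (hq : q.Prime) (hqM : ¬ q ∣ M)

/-! ### Generic facts about `w = α t_M` -/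

/-- `α t_M ∈ V_∞ ⊓ V_0` for `t_M ∈ V_M`. -/
theorem s34m_alpha_mem_VV {r : s34m_F K₀ M} (hr : r ∈ s34m_Vinf G M) (i : Bool) :
    heckeAlphaBar K₀ M q r ∈ s34m_VV G φ M q hq hqM i := by
  cases i
  · exact s34m_alpha_mem_Vzero G φ M q hq hqM hr
  · exact s34m_alpha_mem_Vinf G M q hr

/-- `β t_M ∈ V_∞ ⊓ V_0` for `t_M ∈ V_M`. -/
theorem s34m_beta_mem_VV {r : s34m_F K₀ M} (hr : r ∈ s34m_Vinf G M) (i : Bool) :
    heckeBetaBar K₀ M q r ∈ s34m_VV G φ M q hq hqM i := by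
  cases i
  · exact s34m_beta_mem_Vzero G φ M q hq hqM hr
  · exact s34m_beta_mem_Vinf G M q hr

include φ in
/-- A function of level `N` with transcendental `q`-expansion is a function-field generator. -/
theorem s34m_ffGen_of_coe (N : ℕ) [NeZero N] (w : s34m_F K₀ N)
    (htr : Transcendental K₀ (w : LaurentSeries K₀)) : FFGen K₀ w :=
  s18b_ffGen_of_transcendental N (s34m_top_HDegM φ N) w (s18b_transcendental_coe N w htr)

/-! ### The packages -/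

section Pack

variable [CharP κ q] [CharZero K₀] [IsDiscreteValuationRing ↥G.A]

include hq hqM in
/-- **The base function `t₂`** (`2 ∣ M`, `q ≠ 2`): S18's (W1) at level `M` and the seven non-[D]
facts of `s34f_geo_of_base` for `w = α t_M`. -/
theorem s34m_base_t2 (h2M : 2 ∣ M) (hq2 : q ≠ 2) :
    ∃ tM : s34m_F K₀ M, (tM : LaurentSeries K₀) = s18u_t2 K₀ ∧
      (∃ hw : tM ∈ s34m_Vinf G M,
        s18g_redV G _ (s34m_hF G M) ⟨tM, hw⟩ = s18u_t2 κ) ∧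
      tM⁻¹ ∈ s34m_Vinf G M ∧ FFGen K₀ tM ∧ FFGen K₀ tM⁻¹ ∧
      ((heckeAlphaBar K₀ M q tM : s34m_F K₀ (M * q)) : LaurentSeries K₀) = s18u_t2 K₀ ∧
      heckeAlphaBar K₀ M q tM ≠ 0 ∧ FFGen K₀ (heckeAlphaBar K₀ M q tM) ∧
      (∀ i, heckeAlphaBar K₀ M q tM ∈ s34m_VV G φ M q hq hqM i) ∧
      (∀ i, (heckeAlphaBar K₀ M q tM)⁻¹ ∈ s34m_VV G φ M q hq hqM i) ∧
      (∀ σ₀ : K₀ ≃ₐ[ℚ] K₀, arithmeticGalois (modularFunctionFieldFull (M * q)) σ₀ •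
        heckeAlphaBar K₀ M q tM = heckeAlphaBar K₀ M q tM) ∧
      s34f_AlphaW G φ M q hq hqM (heckeAlphaBar K₀ M q tM) ∧
      s34f_AlphaW G φ M q hq hqM (heckeAlphaBar K₀ M q tM)⁻¹ := by
  have hq2' : ¬ q ∣ 2 := fun h => hq2 ((Nat.prime_dvd_prime_iff_eq hq Nat.prime_two).mp h)
  have hT2 : s18g_HT κ 2 := s34m_top_HT 2 q hq hq2'
  obtain ⟨tM, htM, ⟨hwV, hred⟩, hwinvV, hgen, hgeninv⟩ :=
    s18b_W1_t2 G hT2 (s34m_top_HDegM φ 2) M h2M (s34m_top_HDegM φ M) (s34m_hF G M)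
  have hwt : ((heckeAlphaBar K₀ M q tM : s34m_F K₀ (M * q)) : LaurentSeries K₀) = s18u_t2 K₀ := by
    rw [coe_heckeAlphaBar, htM]
  have hinv : (heckeAlphaBar K₀ M q tM)⁻¹ = heckeAlphaBar K₀ M q tM⁻¹ := (map_inv₀ _ _).symm
  refine ⟨tM, htM, ⟨hwV, hred⟩, hwinvV, hgen, hgeninv, hwt, ?_, ?_, ?_, ?_, ?_, ?_, ?_⟩
  · intro h0
    apply s18b_t2_ne_zero K₀
    rw [← hwt, h0]; rfl
  · exact s34m_ffGen_of_coe φ (M * q) _ (by rw [hwt]; exact s18b_transcendental_t2 K₀)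
  · exact fun i => s34m_alpha_mem_VV G φ M q hq hqM hwV i
  · intro i
    rw [hinv]
    exact s34m_alpha_mem_VV G φ M q hq hqM hwinvV i
  · exact fun σ₀ => s34s_galois_fixed_t2 (M * q) σ₀ _ hwt
  · exact s34m_alpha_t2 G φ M q hq hqM _ hwt
  · exact s34m_alpha_t2_inv G φ M q hq hqM _ hwt

include hq hqM in
/-- **The base function `t₃`** (`3 ∣ M`, `q ≠ 3`): S18's (W1) at level `M` and the seven non-[D]
facts of `s34f_geo_of_base` for `w = α t_M`. -/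
theorem s34m_base_t3 (h3M : 3 ∣ M) (hq3 : q ≠ 3) :
    ∃ tM : s34m_F K₀ M, (tM : LaurentSeries K₀) = s18u_t3 K₀ ∧
      (∃ hw : tM ∈ s34m_Vinf G M,
        s18g_redV G _ (s34m_hF G M) ⟨tM, hw⟩ = s18u_t3 κ) ∧
      tM⁻¹ ∈ s34m_Vinf G M ∧ FFGen K₀ tM ∧ FFGen K₀ tM⁻¹ ∧
      ((heckeAlphaBar K₀ M q tM : s34m_F K₀ (M * q)) : LaurentSeries K₀) = s18u_t3 K₀ ∧
      heckeAlphaBar K₀ M q tM ≠ 0 ∧ FFGen K₀ (heckeAlphaBar K₀ M q tM) ∧
      (∀ i, heckeAlphaBar K₀ M q tM ∈ s34m_VV G φ M q hq hqM i) ∧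
      (∀ i, (heckeAlphaBar K₀ M q tM)⁻¹ ∈ s34m_VV G φ M q hq hqM i) ∧
      (∀ σ₀ : K₀ ≃ₐ[ℚ] K₀, arithmeticGalois (modularFunctionFieldFull (M * q)) σ₀ •
        heckeAlphaBar K₀ M q tM = heckeAlphaBar K₀ M q tM) ∧
      s34f_AlphaW G φ M q hq hqM (heckeAlphaBar K₀ M q tM) ∧
      s34f_AlphaW G φ M q hq hqM (heckeAlphaBar K₀ M q tM)⁻¹ := by
  have hq3' : ¬ q ∣ 3 := fun h => hq3 ((Nat.prime_dvd_prime_iff_eq hq Nat.prime_three).mp h)
  have hT3 : s18g_HT κ 3 := s34m_top_HT 3 q hq hq3'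
  obtain ⟨tM, htM, ⟨hwV, hred⟩, hwinvV, hgen, hgeninv⟩ :=
    s18b_W1_t3 G hT3 (s34m_top_HDegM φ 3) M h3M (s34m_top_HDegM φ M) (s34m_hF G M)
  have hwt : ((heckeAlphaBar K₀ M q tM : s34m_F K₀ (M * q)) : LaurentSeries K₀) = s18u_t3 K₀ := by
    rw [coe_heckeAlphaBar, htM]
  have hinv : (heckeAlphaBar K₀ M q tM)⁻¹ = heckeAlphaBar K₀ M q tM⁻¹ := (map_inv₀ _ _).symm
  refine ⟨tM, htM, ⟨hwV, hred⟩, hwinvV, hgen, hgeninv, hwt, ?_, ?_, ?_, ?_, ?_, ?_, ?_⟩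
  · intro h0
    apply s18b_t3_ne_zero K₀
    rw [← hwt, h0]; rfl
  · exact s34m_ffGen_of_coe φ (M * q) _ (by rw [hwt]; exact s18b_transcendental_t3 K₀)
  · exact fun i => s34m_alpha_mem_VV G φ M q hq hqM hwV i
  · intro i
    rw [hinv]
    exact s34m_alpha_mem_VV G φ M q hq hqM hwinvV i
  · exact fun σ₀ => s34s_galois_fixed_t3 (M * q) σ₀ _ hwt
  · exact s34m_alpha_t3 G φ M q hq hqM _ hwt
  · exact s34m_alpha_t3_inv G φ M q hq hqM _ hwt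

end Pack

end Fermat.Agent.Lib.S34
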