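/-
S34 (Plan S), blueprint §C, Lemma (⋆) (helper7) — ABSTRACT PART.

Setting: `𝓕 / L₀` a function field, `O ⊆ 𝓕` a subring (in the application `O = V_∞ ⊓ V_0`), `ϖ` a
constant, `j, u ∈ 𝓕` (in the application `u = βj = j(T^q) = w_q(j)`), `B₂` the coordinate ring of
the chart `{j ≠ 0}` (`s34x_ring O (s18_chart2 j)`).  Hypotheses:
* `j⁻¹, u ∈ O`; `u` is integral over `ℤ[j]` and `j` is integral over `ℤ[u]`;
* the **Kronecker congruences**, in the product form `(u - j^q) * (j - u^q) ∈ ϖ O`.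

**`s34d2_star_abs`**: a place `P` of the chart `{j ≠ 0}` with `u(P) = 0` has NO centre on
`Spec B₂ / ϖ`: there is `s ∈ B₂` vanishing at `P` with `1 - s ∈ ϖ B₂`.
(`s34d2_star_abs_pow`: the same with `ord_P s ≥ k`.)

Proof (helper4's, made explicit).  Write `v = j⁻¹`.  For `K ≫ 0` the elements `a₁ = u v^K`,
`a₂ = u^q v^K` lie in `B₂` (pole bound from the integrality of `u` over `ℤ[j]`) and vanish at `P`;
`e = (u - j^q) v^K = a₁ - v^(K-q)`, `e' = (j - u^q) v^K = v^(K-1) - a₂` satisfy `e e' ∈ ϖ B₂`, so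
`v^(2K-q-1) ∈ 𝔮_P + ϖ B₂`.  Dividing the integrality equation of `j` over `ℤ[u]` by `j^n` gives
`a₃ = 1 + v γ ∈ u · O_P` with `γ ∈ ℤ[v]`, so `v` is a unit modulo `𝔮_P`.  Hence `1 ∈ 𝔮_P + ϖ B₂`.
-/
import Mathlib
import Fermat.Agent.Lib.S34.XLat
import Fermat.Agent.Lib.S34.FEval
import Fermat.Agent.Lib.S28.DInt
import Fermat.Agent.Lib.S18.GAlpha

set_option autoImplicit false

noncomputable section

namespace Fermat.Agent.Lib.S34

open AlgebraicCurve Polynomial Fermat.Agent.Lib.FF Fermat.Agent.Lib.S18 Fermat.Agent.Lib.S28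

/-! ### Pure algebra -/

section Algebra

/-- The explicit form of "integral over `ℤ[a]`" as integrality along `ℤ[X] → E`, `X ↦ a`. -/
theorem s34d2_intOver_iff {E : Type*} [CommRing E] (a b : E) :
    s28d_IntOver a b ↔
      (Polynomial.eval₂RingHom (Int.castRingHom E) a).IsIntegralElem b := by
  have e : (Polynomial.aeval a : ℤ[X] →ₐ[ℤ] E).toRingHom =
      Polynomial.eval₂RingHom (Int.castRingHom E) a := by
    apply Polynomial.ringHom_ext
    · intro n; simp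
    · simp
  unfold s28d_IntOver RingHom.IsIntegralElem
  rw [e]
  constructor
  · rintro ⟨G, hG, h0⟩
    exact ⟨G, hG, by rw [Polynomial.eval₂_eq_eval_map]; exact h0⟩
  · rintro ⟨G, hG, h0⟩
    exact ⟨G, hG, by rw [← Polynomial.eval₂_eq_eval_map]; exact h0⟩

/-- A valuation ring contains everything integral over `ℤ[a]`, `a` in the ring. -/
theorem s34d2_mem_of_intOver {𝓕 : Type*} [Field 𝓕] (V : ValuationSubring 𝓕) {a b : 𝓕}
    (h : s28d_IntOver a b) (ha : a ∈ V) : b ∈ V := by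
  obtain ⟨G, hG, h0⟩ := h
  let ψ : ℤ[X] →+* V := (Polynomial.aeval (⟨a, ha⟩ : V) : ℤ[X] →ₐ[ℤ] V).toRingHom
  have hcomp : (algebraMap V 𝓕).comp ψ = (Polynomial.aeval a : ℤ[X] →ₐ[ℤ] 𝓕).toRingHom := by
    apply Polynomial.ringHom_ext
    · intro n; simp [ψ]
    · simp [ψ]
  have hint : IsIntegral V b := by
    refine ⟨G.map ψ, hG.map _, ?_⟩
    rw [Polynomial.eval₂_map, hcomp, Polynomial.eval₂_eq_eval_map]
    exact h0
  obtain ⟨y, hy⟩ := IsIntegrallyClosed.isIntegral_iff.mp hint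
  rw [← hy]
  exact y.2

/-- Integer polynomials in an element of a subring stay in the subring. -/
theorem s34d2_eval₂_mem {E : Type*} [CommRing E] (S : Subring E) {x : E} (hx : x ∈ S)
    (p : ℤ[X]) : Polynomial.eval₂ (Int.castRingHom E) x p ∈ S := by
  rw [Polynomial.eval₂_eq_sum_range]
  exact S.sum_mem fun i _ => S.mul_mem (by
    rw [eq_intCast]; exact intCast_mem S _) (S.pow_mem hx i)

/-- **Pole bound**: if `u` is integral over `ℤ[j]` then `j⁻¹ ^ k * u` is integral over `ℤ[j⁻¹]`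
for some `k`. -/
theorem s34d2_exists_pow_mul_intOver {𝓕 : Type*} [Field 𝓕] {j u : 𝓕} (hj : j ≠ 0)
    (h : s28d_IntOver j u) : ∃ k : ℕ, s28d_IntOver j⁻¹ (j⁻¹ ^ k * u) := by
  rw [s34d2_intOver_iff] at h
  obtain ⟨k, hk⟩ := s18g_isIntegralElem_inv (Int.castRingHom 𝓕) j hj u h
  exact ⟨k, (s34d2_intOver_iff _ _).mpr hk⟩

/-- **The equation of `j` over `ℤ[u]`, divided by `j ^ n`**: an element `a₃ = 1 + v γ`,
`γ ∈ ℤ[v]` (`v = j⁻¹`), which is a multiple `u δ` of `u`, `δ ∈ ℤ[u, j, v]`. -/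
theorem s34d2_exists_a3 {𝓕 : Type*} [Field 𝓕] {j u : 𝓕} (hj : j ≠ 0)
    (h : s28d_IntOver u j) :
    ∃ γ δ : 𝓕, (∀ S : Subring 𝓕, j⁻¹ ∈ S → γ ∈ S) ∧
      (∀ S : Subring 𝓕, u ∈ S → j ∈ S → j⁻¹ ∈ S → δ ∈ S) ∧ 1 + j⁻¹ * γ = u * δ := by
  classical
  obtain ⟨G, hG, h0⟩ := h
  set ι : ℤ →+* 𝓕 := Int.castRingHom 𝓕 with hι
  set n := G.natDegree with hn
  -- the two evaluations of the coefficients
  set θ : ℤ[X] →+* 𝓕 := Polynomial.eval₂RingHom ι u with hθ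
  set θ₀ : ℤ[X] →+* 𝓕 := ι.comp Polynomial.constantCoeff with hθ₀
  have hθe : (Polynomial.aeval u : ℤ[X] →ₐ[ℤ] 𝓕).toRingHom = θ := by
    apply Polynomial.ringHom_ext
    · intro n; simp [hθ, hι]
    · simp [hθ]
  rw [hθe, ← Polynomial.eval₂_eq_eval_map, Polynomial.eval₂_eq_sum_range, ← hn] at h0
  -- coefficientwise: `θ c = θ₀ c + u * θ (divX c)`
  have hc : ∀ c : ℤ[X], θ c = θ₀ c + u * θ (Polynomial.divX c) := by
    intro c
    conv_lhs => rw [← Polynomial.divX_mul_X_add c]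
    rw [map_add, map_mul, hθ, Polynomial.coe_eval₂RingHom, Polynomial.eval₂_X,
      Polynomial.eval₂_C, hθ₀, RingHom.comp_apply, Polynomial.constantCoeff_apply]
    ring
  -- the sum of the `θ₀`-part
  set H0 : 𝓕 := ∑ i ∈ Finset.range (n + 1), θ₀ (G.coeff i) * j ^ i with hH0
  set δ' : 𝓕 := ∑ i ∈ Finset.range (n + 1), θ (Polynomial.divX (G.coeff i)) * j ^ i with hδ'
  have hsum : H0 + u * δ' = 0 := by
    rw [← h0, hH0, hδ', Finset.mul_sum, ← Finset.sum_add_distrib]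
    refine Finset.sum_congr rfl fun i _ => ?_
    rw [hc (G.coeff i)]
    ring
  -- peel off the leading term of `H0`
  have hlead : θ₀ (G.coeff n) = 1 := by
    have : G.coeff n = 1 := hG.coeff_natDegree
    rw [this, map_one]
  set γ : 𝓕 := ∑ i ∈ Finset.range n, θ₀ (G.coeff i) * j⁻¹ ^ (n - 1 - i) with hγ
  have hH0v : H0 * j⁻¹ ^ n = 1 + j⁻¹ * γ := by
    rw [hH0, Finset.sum_range_succ, hlead, one_mul, add_mul, ← mul_pow, mul_inv_cancel₀ hj,
      one_pow, add_comm, hγ, Finset.mul_sum, Finset.sum_mul]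
    congr 1
    refine Finset.sum_congr rfl fun i hi => ?_
    have hi' : i < n := Finset.mem_range.mp hi
    have e1 : n = i + (1 + (n - 1 - i)) := by omega
    have e2 : j ^ i * j⁻¹ ^ n = j⁻¹ * j⁻¹ ^ (n - 1 - i) := by
      conv_lhs => rw [e1, pow_add, ← mul_assoc, ← mul_pow, mul_inv_cancel₀ hj, one_pow, one_mul,
        pow_add, pow_one]
    rw [mul_assoc, e2]
    ring
  refine ⟨γ, -(δ' * j⁻¹ ^ n), ?_, ?_, ?_⟩
  · intro S hv
    rw [hγ]
    refine S.sum_mem fun i _ => S.mul_mem ?_ (S.pow_mem hv _)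
    rw [hθ₀, RingHom.comp_apply, hι, eq_intCast]
    exact intCast_mem S _
  · intro S hu hjS hv
    refine S.neg_mem (S.mul_mem ?_ (S.pow_mem hv _))
    rw [hδ']
    refine S.sum_mem fun i _ => S.mul_mem ?_ (S.pow_mem hjS _)
    rw [hθ, Polynomial.coe_eval₂RingHom]
    exact s34d2_eval₂_mem S hu _
  · rw [← hH0v]
    have : H0 = -(u * δ') := by linear_combination hsum
    rw [this]
    ring

/-- The final computation: from `a₁, a₂, 1 + v γ` "in `𝔮`" and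
`(a₁ - v^m) (v^n - a₂) = ϖ z`, the decomposition `1 = s + ϖ z'`. -/
theorem s34d2_one_eq {R : Type*} [CommRing R] (ϖ v a₁ a₂ γ z : R) (m n : ℕ)
    (he : (a₁ - v ^ m) * (v ^ n - a₂) = ϖ * z) :
    (1 : R) = ((1 + v * γ) * ∑ i ∈ Finset.range (m + n), (-(v * γ)) ^ i +
        (-γ) ^ (m + n) * (a₁ * (v ^ n - a₂) + v ^ m * a₂)) +
      ϖ * (-((-γ) ^ (m + n) * z)) := by
  have h1 : (1 + v * γ) * ∑ i ∈ Finset.range (m + n), (-(v * γ)) ^ i =
      1 - (-(v * γ)) ^ (m + n) := by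
    have := mul_neg_geom_sum (-(v * γ)) (m + n)
    rw [sub_neg_eq_add] at this
    exact this
  have h2 : (-(v * γ)) ^ (m + n) = (-γ) ^ (m + n) * (v ^ m * v ^ n) := by
    rw [← pow_add, ← mul_pow]
    congr 1
    ring
  have h3 : v ^ m * v ^ n = a₁ * (v ^ n - a₂) + v ^ m * a₂ - ϖ * z := by
    rw [← he]
    ring
  rw [h1, h2, h3]
  ring

end Algebra

/-! ### The abstract Lemma (⋆) -/

section Star

variable {L₀ 𝓕 : Type*} [Field L₀] [Field 𝓕] [Algebra L₀ 𝓕]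

/-- **Lemma (⋆), abstract form.** -/
theorem s34d2_star_abs (O : Subring 𝓕) (ϖ j u : 𝓕) (q : ℕ) (hq : 0 < q) (hϖ0 : ϖ ≠ 0)
    (hϖQ : ∀ Q : Place L₀ 𝓕, Q.ord ϖ = 0)
    (hj0 : j ≠ 0) (hvO : j⁻¹ ∈ O) (huO : u ∈ O)
    (hKK : ∃ z ∈ O, (u - j ^ q) * (j - u ^ q) = ϖ * z)
    (hint_u : s28d_IntOver j u) (hint_j : s28d_IntOver u j)
    (P : Place L₀ 𝓕) (hP2 : P ∈ s18_chart2 (L₀ := L₀) j) (hPu : 0 < P.ord u) :
    ∃ s ∈ s34x_ring O (s18_chart2 (L₀ := L₀) j), s34f_van P s ∧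
      ∃ z ∈ s34x_ring O (s18_chart2 (L₀ := L₀) j), 1 - s = ϖ * z := by
  classical
  set v := j⁻¹ with hv
  set B := s34x_ring O (s18_chart2 (L₀ := L₀) j) with hB
  have hv0 : v ≠ 0 := inv_ne_zero hj0
  have hjv : j * v = 1 := mul_inv_cancel₀ hj0
  have hvB : v ∈ B := ⟨hvO, fun Q hQ => hQ⟩
  -- the pole bound
  obtain ⟨k₀, hk₀⟩ := s34d2_exists_pow_mul_intOver hj0 hint_u
  have hb₀B : v ^ k₀ * u ∈ B :=
    ⟨O.mul_mem (O.pow_mem hvO _) huO, fun Q hQ => s34d2_mem_of_intOver _ hk₀ hQ⟩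
  set K := q * k₀ + q + 1 with hK
  -- `a₁`, `a₂`
  set a₁ := u * v ^ K with ha₁
  set a₂ := u ^ q * v ^ K with ha₂
  have ha₁B : a₁ ∈ B := by
    have : a₁ = (v ^ k₀ * u) * v ^ (K - k₀) := by
      rw [ha₁, mul_comm (v ^ k₀) u, mul_assoc, ← pow_add]
      congr 2
      have : k₀ ≤ K := by
        rw [hK]
        calc k₀ = 1 * k₀ := (one_mul k₀).symm
          _ ≤ q * k₀ := Nat.mul_le_mul_right k₀ hq
          _ ≤ q * k₀ + q + 1 := by omega
      omega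
    rw [this]
    exact B.mul_mem hb₀B (B.pow_mem hvB _)
  have ha₂B : a₂ ∈ B := by
    have : a₂ = (v ^ k₀ * u) ^ q * v ^ (K - q * k₀) := by
      rw [ha₂, mul_pow, ← pow_mul, mul_comm (v ^ (k₀ * q)) (u ^ q), mul_assoc, ← pow_add]
      congr 2
      rw [hK, mul_comm k₀ q]
      omega
    rw [this]
    exact B.mul_mem (B.pow_mem hb₀B _) (B.pow_mem hvB _)
  -- regularity at `P`
  have hu0 : u ≠ 0 := by
    rintro rfl
    simp at hPu
  have huP : u ∈ P.toValuationSubring := (ff_mem_iff_ord_nonneg P hu0).mpr hPu.le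
  have hjP : j ∈ P.toValuationSubring := s34d2_mem_of_intOver _ hint_j huP
  have hvP : v ∈ P.toValuationSubring := hP2
  have hvanu : s34f_van P u := Or.inr hPu
  have hva₁ : s34f_van P a₁ := by
    rw [ha₁, mul_comm]
    exact s34f_van_mul P (P.toValuationSubring.pow_mem hvP _) hvanu
  have hva₂ : s34f_van P a₂ := by
    have : a₂ = (v ^ K * u ^ (q - 1)) * u := by
      rw [ha₂, mul_assoc, ← pow_succ, Nat.sub_add_cancel hq, mul_comm]
    rw [this]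
    exact s34f_van_mul P (P.toValuationSubring.mul_mem _ _ (P.toValuationSubring.pow_mem hvP _)
      (P.toValuationSubring.pow_mem huP _)) hvanu
  -- `e`, `e'`
  have hqK : q ≤ K := by rw [hK]; omega
  have h1K : 1 ≤ K := by rw [hK]; omega
  have hjqv : j ^ q * v ^ K = v ^ (K - q) := by
    have : K = q + (K - q) := by omega
    conv_lhs => rw [this, pow_add, ← mul_assoc, ← mul_pow, hjv, one_pow, one_mul]
  have hjv1 : j * v ^ K = v ^ (K - 1) := by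
    have : K = 1 + (K - 1) := by omega
    conv_lhs => rw [this, pow_add, pow_one, ← mul_assoc, hjv, one_mul]
  obtain ⟨z, hzO, hz⟩ := hKK
  have he : (a₁ - v ^ (K - q)) * (v ^ (K - 1) - a₂) = ϖ * (z * v ^ (2 * K)) := by
    have h1 : a₁ - v ^ (K - q) = (u - j ^ q) * v ^ K := by rw [sub_mul, hjqv]
    have h2 : v ^ (K - 1) - a₂ = (j - u ^ q) * v ^ K := by rw [sub_mul, hjv1]
    rw [h1, h2, two_mul, pow_add]
    linear_combination (v ^ K * v ^ K) * hz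
  -- `z' = z v^(2K) ∈ B`
  have hz'B : z * v ^ (2 * K) ∈ B := by
    refine ⟨O.mul_mem hzO (O.pow_mem hvO _), fun Q hQ => ?_⟩
    have hϖinv : ϖ⁻¹ ∈ Q.toValuationSubring := by
      rw [ff_mem_iff_ord_nonneg Q (inv_ne_zero hϖ0), Q.ord_inv, hϖQ]
      simp
    have h3 : z * v ^ (2 * K) = ϖ⁻¹ * ((a₁ - v ^ (K - q)) * (v ^ (K - 1) - a₂)) := by
      rw [he, ← mul_assoc, inv_mul_cancel₀ hϖ0, one_mul]
    rw [h3]
    have hmem : ∀ x ∈ B, x ∈ Q.toValuationSubring := fun x hx => hx.2 Q hQ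
    exact Q.toValuationSubring.mul_mem _ _ hϖinv
      (Q.toValuationSubring.mul_mem _ _
        (sub_mem (hmem _ ha₁B) (hmem _ (B.pow_mem hvB _)))
        (sub_mem (hmem _ (B.pow_mem hvB _)) (hmem _ ha₂B)))
  -- `a₃`
  obtain ⟨γ, δ, hγS, hδS, ha₃⟩ := s34d2_exists_a3 hj0 hint_j
  have hγB : γ ∈ B := hγS B hvB
  have hδP : δ ∈ P.toValuationSubring := hδS P.toValuationSubring.toSubring huP hjP hvP
  have hva₃ : s34f_van P (1 + v * γ) := by
    rw [ha₃, mul_comm]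
    exact s34f_van_mul P hδP hvanu
  -- assemble
  have hone := s34d2_one_eq ϖ v a₁ a₂ γ (z * v ^ (2 * K)) (K - q) (K - 1) he
  set c := ∑ i ∈ Finset.range (K - q + (K - 1)), (-(v * γ)) ^ i with hc
  have hcB : c ∈ B := B.sum_mem fun i _ => B.pow_mem (B.neg_mem (B.mul_mem hvB hγB)) _
  set s := (1 + v * γ) * c +
    (-γ) ^ (K - q + (K - 1)) * (a₁ * (v ^ (K - 1) - a₂) + v ^ (K - q) * a₂) with hs
  have hBP : ∀ x ∈ B, x ∈ P.toValuationSubring := fun x hx => hx.2 P hP2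
  refine ⟨s, ?_, ?_, -((-γ) ^ (K - q + (K - 1)) * (z * v ^ (2 * K))), ?_, ?_⟩
  · exact B.add_mem (B.mul_mem (B.add_mem B.one_mem (B.mul_mem hvB hγB)) hcB)
      (B.mul_mem (B.pow_mem (B.neg_mem hγB) _)
        (B.add_mem (B.mul_mem ha₁B (B.sub_mem (B.pow_mem hvB _) ha₂B))
          (B.mul_mem (B.pow_mem hvB _) ha₂B)))
  · refine s34f_van_add P ?_ ?_
    · rw [mul_comm]
      exact s34f_van_mul P (hBP _ hcB) hva₃
    · refine s34f_van_mul P (hBP _ (B.pow_mem (B.neg_mem hγB) _)) (s34f_van_add P ?_ ?_)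
      · rw [mul_comm]
        exact s34f_van_mul P (hBP _ (B.sub_mem (B.pow_mem hvB _) ha₂B)) hva₁
      · exact s34f_van_mul P (hBP _ (B.pow_mem hvB _)) hva₂
  · exact B.neg_mem (B.mul_mem (B.pow_mem (B.neg_mem hγB) _) hz'B)
  · rw [hs]
    linear_combination hone

/-- **Lemma (⋆), abstract form, with multiplicity**: `s` may be chosen with `ord_P s ≥ k`. -/
theorem s34d2_star_abs_pow (O : Subring 𝓕) (ϖ j u : 𝓕) (q : ℕ) (hq : 0 < q) (hϖ0 : ϖ ≠ 0)
    (hϖQ : ∀ Q : Place L₀ 𝓕, Q.ord ϖ = 0)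
    (hj0 : j ≠ 0) (hvO : j⁻¹ ∈ O) (huO : u ∈ O)
    (hKK : ∃ z ∈ O, (u - j ^ q) * (j - u ^ q) = ϖ * z)
    (hint_u : s28d_IntOver j u) (hint_j : s28d_IntOver u j)
    (P : Place L₀ 𝓕) (hP2 : P ∈ s18_chart2 (L₀ := L₀) j) (hPu : 0 < P.ord u) (k : ℕ) :
    ∃ s ∈ s34x_ring O (s18_chart2 (L₀ := L₀) j), (s = 0 ∨ (k : ℤ) ≤ P.ord s) ∧
      ∃ z ∈ s34x_ring O (s18_chart2 (L₀ := L₀) j), 1 - s = ϖ * z := by
  obtain ⟨s, hsB, hsP, z, hzB, hz⟩ := s34d2_star_abs O ϖ j u q hq hϖ0 hϖQ hj0 hvO huO hKK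
    hint_u hint_j P hP2 hPu
  set B := s34x_ring O (s18_chart2 (L₀ := L₀) j) with hB
  refine ⟨s ^ (k + 1), B.pow_mem hsB _, ?_, ?_⟩
  · rcases hsP with h | h
    · exact Or.inl (by rw [h, zero_pow (Nat.succ_ne_zero k)])
    · right
      rw [← zpow_natCast, P.ord_zpow]
      push_cast
      nlinarith
  · -- `1 - s^(k+1) = (1 - s) * Σ s^i`
    refine ⟨z * ∑ i ∈ Finset.range (k + 1), s ^ i,
      B.mul_mem hzB (B.sum_mem fun i _ => B.pow_mem hsB _), ?_⟩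
    have := mul_neg_geom_sum s (k + 1)
    rw [← this, hz]
    ring

end Star

end Fermat.Agent.Lib.S34
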