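/-
S34 (Plan S), blueprint §C, Lemma (⋆) (helper7) — CONCRETE INSTANCE for helper6's two valuations.

Setting (= `MVal.lean`): `G : s18g_GaussData K₀ κ`, `char κ = q`, level `M * q`, `q ∤ M`,
`𝓕 = s34m_F K₀ (M * q)`, `O = V_∞ ⊓ V_0 = s34x_infRing (s34m_VV G φ M q hq hqM)`, `ϖ = s34m_unif`,
`j = s18g_jF (M * q)`, `u = βj = heckeBetaBar K₀ M q (s18g_jF M) = w_q(j)`, and
`B₂ = s34x_ring O (s18_chart2 j)` (chart `{j ≠ 0}`).

* `s34d2_star`        : a place `P` of the chart `{j ≠ 0}` with `(βj)(P) = 0` has no centre on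
                        `Spec B₂/ϖ`: `∃ s ∈ B₂, ord_P s ≥ k, 1 - s ∈ ϖ B₂`.
* `s34d2_star_finset` : the same for finitely many such places at once.
* `s34d2_correct`     : **the chart-2 correction**: every `y ∈ O` which is regular at all places of
                        the chart `{j ≠ 0}` except (possibly) at zeros of `βj` is congruent modulo
                        `ϖ O` to an element `b'` of `B₂`.
-/
import Mathlib
import Fermat.Agent.Lib.S34.DStar
import Fermat.Agent.Lib.S34.MVal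
import Fermat.Agent.Lib.S34.XInf
import Fermat.Agent.Lib.S18.QGen
import Fermat.Agent.Lib.S18.RData
import Fermat.Agent.Lib.S37.ESeries

set_option autoImplicit false
set_option linter.style.haveILetI false

noncomputable section

namespace Fermat.Agent.Lib.S34

open ModularCurve AlgebraicCurve HahnSeries Polynomial Fermat.Agent.Lib.FF Fermat.Agent.Lib.S18
  Fermat.Agent.Lib.S28 Fermat.Agent.Lib.S37

local notation "Kb" => AlgebraicClosure ℚ

variable {K₀ : Type*} [Field K₀] [Algebra ℚ K₀] {κ : Type*} [Field κ] (G : s18g_GaussData K₀ κ)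
variable (φ : K₀ →+* Kb) (M q : ℕ) [NeZero M] [NeZero q]

/-- `βj = j(T^q)` as an element of the function field of level `M q`. -/
def s34d2_u : s34m_F K₀ (M * q) := heckeBetaBar K₀ M q (s18g_jF (K := K₀) M)

theorem s34d2_coe_u :
    ((s34d2_u M q : s34m_F K₀ (M * q)) : LaurentSeries K₀) = qExpand K₀ q (jqModC K₀) := by
  rw [s34d2_u, coe_heckeBetaBar, s18g_coe_jF]

theorem s34d2_alpha_j :
    heckeAlphaBar K₀ M q (s18g_jF (K := K₀) M) = s18g_jF (K := K₀) (M * q) := by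
  apply Subtype.ext
  rw [coe_heckeAlphaBar, s18g_coe_jF, s18g_coe_jF]

theorem s34d2_al_j (hq : q.Prime) (hqM : ¬ q ∣ M) :
    s34m_al φ M q hq hqM (s18g_jF (K := K₀) (M * q)) = s34d2_u M q := by
  rw [← s34d2_alpha_j, s34m_al_alpha, s34d2_u]

theorem s34d2_al_u (hq : q.Prime) (hqM : ¬ q ∣ M) :
    s34m_al φ M q hq hqM (s34d2_u M q) = s18g_jF (K := K₀) (M * q) := by
  rw [s34d2_u, s34m_al_beta, s34d2_alpha_j]

/-- `u = j(T^q)` is integral over `ℤ[j]`. -/
theorem s34d2_intOver_u : s28d_IntOver (s18g_jF (K := K₀) (M * q)) (s34d2_u M q) := by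
  refine s28d_intOver_of_map
    ((laurentBaseChange K₀ (modularFunctionFieldFull (M * q))).val : _ →+* LaurentSeries K₀)
    Subtype.val_injective ?_
  show s28d_IntOver ((s18g_jF (K := K₀) (M * q) : s34m_F K₀ (M * q)) : LaurentSeries K₀)
    ((s34d2_u M q : s34m_F K₀ (M * q)) : LaurentSeries K₀)
  rw [s18g_coe_jF, s34d2_coe_u]
  exact s18g_intOver_jqN q

include φ in
/-- `j` is integral over `ℤ[u]` (apply `w_q`). -/
theorem s34d2_intOver_j (hq : q.Prime) (hqM : ¬ q ∣ M) :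
    s28d_IntOver (s34d2_u M q) (s18g_jF (K := K₀) (M * q)) := by
  have h := s28d_intOver_map ((s34m_al φ M q hq hqM : s34m_F K₀ (M * q) ≃ₐ[K₀] _) :
    s34m_F K₀ (M * q) →+* s34m_F K₀ (M * q)) (s34d2_intOver_u (K₀ := K₀) M q)
  have e1 : ((s34m_al φ M q hq hqM : s34m_F K₀ (M * q) ≃ₐ[K₀] _) :
      s34m_F K₀ (M * q) →+* s34m_F K₀ (M * q)) (s18g_jF (K := K₀) (M * q)) = s34d2_u M q :=
    s34d2_al_j φ M q hq hqM
  have e2 : ((s34m_al φ M q hq hqM : s34m_F K₀ (M * q) ≃ₐ[K₀] _) :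
      s34m_F K₀ (M * q) →+* s34m_F K₀ (M * q)) (s34d2_u M q) = s18g_jF (K := K₀) (M * q) :=
    s34d2_al_u φ M q hq hqM
  rwa [e1, e2] at h

/-! ### Membership in the two Gauss rings -/

theorem s34d2_j_inv_mem_Vinf : (s18g_jF (K := K₀) (M * q))⁻¹ ∈ s34m_Vinf G (M * q) := by
  rw [s34m_mem_Vinf, IntermediateField.coe_inv, s18g_coe_jF]
  exact s18g_jq_inv_mem_O G

theorem s34d2_j_mem_Vinf : s18g_jF (K := K₀) (M * q) ∈ s34m_Vinf G (M * q) := by
  rw [s34m_mem_Vinf, s18g_coe_jF]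
  exact s18g_jq_mem_O G

theorem s34d2_u_mem_Vinf : s34d2_u M q ∈ s34m_Vinf G (M * q) := by
  rw [s34m_mem_Vinf, s34d2_coe_u]
  exact s18g_jqN_mem_O G q

theorem s34d2_u_inv_mem_Vinf : (s34d2_u M q)⁻¹ ∈ s34m_Vinf G (M * q) := by
  rw [s34m_mem_Vinf, IntermediateField.coe_inv, s34d2_coe_u, ← s18g_iota_jqN G q]
  refine s18g_inv_iota_mem_O G _ ?_
  rw [s18g_rho_jqN]
  intro h
  have h1 : qExpand κ q (jqModC κ) = qExpand κ q 0 := by rw [h, map_zero]
  exact jqModC_ne_zero_of_nontrivial κ (qExpand_injective (R := κ) q h1)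

theorem s34d2_j_inv_mem_O (hq : q.Prime) (hqM : ¬ q ∣ M) :
    (s18g_jF (K := K₀) (M * q))⁻¹ ∈ s34x_infRing (s34m_VV G φ M q hq hqM) := by
  rw [s34x_mem_infRing]
  intro i
  cases i
  · show (s18g_jF (K := K₀) (M * q))⁻¹ ∈ s34m_Vzero G φ M q hq hqM
    rw [s34m_mem_Vzero, map_inv₀, s34d2_al_j]
    exact s34d2_u_inv_mem_Vinf G M q
  · exact s34d2_j_inv_mem_Vinf G M q

theorem s34d2_u_mem_O (hq : q.Prime) (hqM : ¬ q ∣ M) :
    s34d2_u M q ∈ s34x_infRing (s34m_VV G φ M q hq hqM) := by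
  rw [s34x_mem_infRing]
  intro i
  cases i
  · show s34d2_u M q ∈ s34m_Vzero G φ M q hq hqM
    rw [s34m_mem_Vzero, s34d2_al_u]
    exact s34d2_j_mem_Vinf G M q
  · exact s34d2_u_mem_Vinf G M q

/-! ### The Kronecker congruence -/

variable [CharP κ q]

/-- **Kronecker**: `j(T^q) - j(T)^q ∈ ϖ V_∞`. -/
theorem s34d2_kronecker (hq : q.Prime) :
    ∃ z ∈ s34m_Vinf G (M * q),
      s34d2_u M q - s18g_jF (K := K₀) (M * q) ^ q = s34m_unif G (M * q) * z := by
  haveI : Fact q.Prime := ⟨hq⟩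
  have hmem : qExpand K₀ q (jqModC K₀) - jqModC K₀ ^ q ∈ s18g_O G :=
    (s18g_O G).sub_mem (s18g_jqN_mem_O G q) ((s18g_O G).pow_mem (s18g_jq_mem_O G) q)
  have hred : s18g_red G ⟨_, hmem⟩ = 0 := by
    have e : (⟨_, hmem⟩ : s18g_O G) =
        ⟨qExpand K₀ q (jqModC K₀), s18g_jqN_mem_O G q⟩ - ⟨jqModC K₀, s18g_jq_mem_O G⟩ ^ q :=
      Subtype.ext rfl
    rw [e, map_sub, map_pow, s18g_red_jqN, s18g_red_jq, s37e_pow_char q (jqModC κ),
      coeffMap_jqModC, sub_self]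
  obtain ⟨g, hg⟩ := (s18g_red_eq_zero_iff G _).mp hred
  have hg' : qExpand K₀ q (jqModC K₀) - jqModC K₀ ^ q =
      HahnSeries.C ((G.ϖ : G.A) : K₀) * (g : LaurentSeries K₀) := by
    have := congrArg (fun x : s18g_O G => (x : LaurentSeries K₀)) hg
    simpa using this
  have hϖ0 := s34m_unif_ne_zero G (M * q)
  refine ⟨(s34m_unif G (M * q))⁻¹ * (s34d2_u M q - s18g_jF (K := K₀) (M * q) ^ q), ?_, ?_⟩
  · rw [s34m_mem_Vinf]
    have hC : (HahnSeries.C ((G.ϖ : G.A) : K₀) : LaurentSeries K₀) ≠ 0 := s18g_C_unifK_ne_zero G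
    have : (((s34m_unif G (M * q))⁻¹ * (s34d2_u M q - s18g_jF (K := K₀) (M * q) ^ q) :
        s34m_F K₀ (M * q)) : LaurentSeries K₀) = (g : LaurentSeries K₀) := by
      rw [MulMemClass.coe_mul, IntermediateField.coe_inv, AddSubgroupClass.coe_sub,
        SubmonoidClass.coe_pow, s34m_coe_unif, s34d2_coe_u, s18g_coe_jF, hg', ← mul_assoc,
        inv_mul_cancel₀ hC, one_mul]
    rw [this]
    exact g.2
  · rw [← mul_assoc, mul_inv_cancel₀ hϖ0, one_mul]

/-- The Kronecker congruences in the product form `(u - j^q) (j - u^q) ∈ ϖ (V_∞ ⊓ V_0)`. -/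
theorem s34d2_hKK (hq : q.Prime) (hqM : ¬ q ∣ M) :
    ∃ z ∈ s34x_infRing (s34m_VV G φ M q hq hqM),
      (s34d2_u M q - s18g_jF (K := K₀) (M * q) ^ q) *
        (s18g_jF (K := K₀) (M * q) - s34d2_u M q ^ q) = s34m_unif G (M * q) * z := by
  obtain ⟨z₁, hz₁, e₁⟩ := s34d2_kronecker G M q hq
  set j := s18g_jF (K := K₀) (M * q) with hj
  set u := s34d2_u (K₀ := K₀) M q with hu
  have hz_inf : z₁ * (j - u ^ q) ∈ s34m_Vinf G (M * q) :=
    (s34m_Vinf G (M * q)).mul_mem _ _ hz₁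
      (sub_mem (s34d2_j_mem_Vinf G M q) (pow_mem (s34d2_u_mem_Vinf G M q) q))
  have hϖ0 := s34m_unif_ne_zero G (M * q)
  refine ⟨z₁ * (j - u ^ q), ?_, by rw [e₁]; ring⟩
  rw [s34x_mem_infRing]
  intro i
  cases i
  · -- `V_0`: the product is `w`-invariant
    show z₁ * (j - u ^ q) ∈ s34m_Vzero G φ M q hq hqM
    rw [s34m_mem_Vzero]
    have hw : s34m_al φ M q hq hqM (s34m_unif G (M * q) * (z₁ * (j - u ^ q))) =
        s34m_unif G (M * q) * (z₁ * (j - u ^ q)) := by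
      rw [← mul_assoc, ← e₁, map_mul, map_sub, map_sub, map_pow, map_pow, hj, hu, s34d2_al_j,
        s34d2_al_u]
      ring
    rw [map_mul, s34m_al_unif] at hw
    have := mul_left_cancel₀ hϖ0 hw
    rw [this]
    exact hz_inf
  · exact hz_inf

/-! ### Lemma (⋆) -/

/-- **Lemma (⋆)**: a place `P` of the chart `{j ≠ 0}` at which `βj` vanishes has no centre on the
special fibre of `Spec B₂`. -/
theorem s34d2_star (hq : q.Prime) (hqM : ¬ q ∣ M)
    (P : Place K₀ (s34m_F K₀ (M * q)))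
    (hP2 : P ∈ s18_chart2 (L₀ := K₀) (s18g_jF (K := K₀) (M * q)))
    (hPu : 0 < P.ord (s34d2_u M q)) (k : ℕ) :
    ∃ s ∈ s34x_ring (s34x_infRing (s34m_VV G φ M q hq hqM))
        (s18_chart2 (L₀ := K₀) (s18g_jF (K := K₀) (M * q))),
      (s = 0 ∨ (k : ℤ) ≤ P.ord s) ∧
      ∃ z ∈ s34x_ring (s34x_infRing (s34m_VV G φ M q hq hqM))
        (s18_chart2 (L₀ := K₀) (s18g_jF (K := K₀) (M * q))),
        1 - s = s34m_unif G (M * q) * z :=
  s34d2_star_abs_pow _ _ _ _ q hq.pos (s34m_unif_ne_zero G (M * q))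
    (fun Q => ff_ord_algebraMap Q _) (s18g_jF_ne_zero (M * q))
    (s34d2_j_inv_mem_O G φ M q hq hqM) (s34d2_u_mem_O G φ M q hq hqM)
    (s34d2_hKK G φ M q hq hqM) (s34d2_intOver_u M q) (s34d2_intOver_j φ M q hq hqM) P hP2 hPu k

/-- Lemma (⋆) for finitely many places at once. -/
theorem s34d2_star_finset (hq : q.Prime) (hqM : ¬ q ∣ M)
    (T : Finset (Place K₀ (s34m_F K₀ (M * q))))
    (hT : ∀ P ∈ T, P ∈ s18_chart2 (L₀ := K₀) (s18g_jF (K := K₀) (M * q)) ∧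
      0 < P.ord (s34d2_u M q)) (k : ℕ) :
    ∃ s ∈ s34x_ring (s34x_infRing (s34m_VV G φ M q hq hqM))
        (s18_chart2 (L₀ := K₀) (s18g_jF (K := K₀) (M * q))),
      (∀ P ∈ T, s = 0 ∨ (k : ℤ) ≤ P.ord s) ∧
      ∃ z ∈ s34x_ring (s34x_infRing (s34m_VV G φ M q hq hqM))
        (s18_chart2 (L₀ := K₀) (s18g_jF (K := K₀) (M * q))),
        1 - s = s34m_unif G (M * q) * z := by
  classical
  set B := s34x_ring (s34x_infRing (s34m_VV G φ M q hq hqM))
    (s18_chart2 (L₀ := K₀) (s18g_jF (K := K₀) (M * q))) with hB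
  induction T using Finset.induction_on with
  | empty =>
    exact ⟨1, B.one_mem, fun P hP => absurd hP (Finset.notMem_empty P), 0, B.zero_mem, by simp⟩
  | insert P T hPT ih =>
    obtain ⟨s₁, hs₁B, hs₁, z₁, hz₁B, hz₁⟩ := ih (fun P' hP' => hT P' (Finset.mem_insert_of_mem hP'))
    obtain ⟨hP2, hPu⟩ := hT P (Finset.mem_insert_self P T)
    obtain ⟨s₂, hs₂B, hs₂, z₂, hz₂B, hz₂⟩ := s34d2_star G φ M q hq hqM P hP2 hPu k
    refine ⟨s₁ * s₂, B.mul_mem hs₁B hs₂B, ?_, z₁ + z₂ - s34m_unif G (M * q) * z₁ * z₂, ?_, ?_⟩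
    · intro P' hP'
      by_cases h0 : s₁ * s₂ = 0
      · exact Or.inl h0
      right
      have h10 : s₁ ≠ 0 := left_ne_zero_of_mul h0
      have h20 : s₂ ≠ 0 := right_ne_zero_of_mul h0
      have hP'2 : P' ∈ s18_chart2 (L₀ := K₀) (s18g_jF (K := K₀) (M * q)) := (hT P' hP').1
      have hn1 : 0 ≤ P'.ord s₁ := (ff_mem_iff_ord_nonneg P' h10).mp (hs₁B.2 P' hP'2)
      have hn2 : 0 ≤ P'.ord s₂ := (ff_mem_iff_ord_nonneg P' h20).mp (hs₂B.2 P' hP'2)
      rw [P'.ord_mul h10 h20]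
      rcases Finset.mem_insert.mp hP' with rfl | hP'T
      · have := hs₂.resolve_left h20
        omega
      · have := (hs₁ P' hP'T).resolve_left h10
        omega
    · have hϖB : s34m_unif G (M * q) ∈ B := by
        refine ⟨?_, fun Q _ => Q.algebraMap_mem' _⟩
        rw [s34x_mem_infRing]
        exact fun i => s34m_unif_mem_VV G φ M q hq hqM i
      exact B.sub_mem (B.add_mem hz₁B hz₂B) (B.mul_mem (B.mul_mem hϖB hz₁B) hz₂B)
    · have e1 : s₁ = 1 - s34m_unif G (M * q) * z₁ := by rw [← hz₁]; ring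
      have e2 : s₂ = 1 - s34m_unif G (M * q) * z₂ := by rw [← hz₂]; ring
      rw [e1, e2]
      ring

/-! ### The chart-2 correction -/

omit [NeZero M] [NeZero q] [CharP κ q] in
include φ in
/-- Zeros and poles of a nonzero function over `K₀` are finite in number (by restriction from
`ℚ̄`). -/
theorem s34d2_finite_ord_ne_zero (N : ℕ) [NeZero N] (y : s34m_F K₀ N) (hy : y ≠ 0) :
    {Q : Place K₀ (s34m_F K₀ N) | Q.ord y ≠ 0}.Finite := by
  obtain ⟨ρ, hsurj, hord⟩ := s18q_restrict_gen_bar φ (modularFunctionFieldFull N)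
  have hy' : s18q_map φ (modularFunctionFieldFull N) y ≠ 0 := (_root_.map_ne_zero _).mpr hy
  have hfin : {P : Place Kb (modularFunctionFieldBar N) |
      P.ord (s18q_map φ (modularFunctionFieldFull N) y) ≠ 0}.Finite := by
    obtain ⟨D, hD, -⟩ := (s18r_hasPrincipalDivisors N).exists_divisor _ hy'
    refine Set.Finite.subset D.support.finite_toSet ?_
    intro P hP
    rw [Finset.mem_coe, Finsupp.mem_support_iff, hD]
    exact hP
  refine (hfin.image ρ).subset ?_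
  intro Q hQ
  obtain ⟨P, rfl⟩ := hsurj Q
  refine ⟨P, ?_, rfl⟩
  rw [Set.mem_ofPred_eq, hord]
  exact hQ

/-- **The chart-2 correction** (blueprint §C): an element `y` of `V_∞ ⊓ V_0` whose only poles on the
chart `{j ≠ 0}` are zeros of `βj` is congruent modulo `ϖ (V_∞ ⊓ V_0)` to an element of `B₂`. -/
theorem s34d2_correct (hq : q.Prime) (hqM : ¬ q ∣ M) (y : s34m_F K₀ (M * q))
    (hyO : y ∈ s34x_infRing (s34m_VV G φ M q hq hqM))
    (hy : ∀ Q ∈ s18_chart2 (L₀ := K₀) (s18g_jF (K := K₀) (M * q)),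
      y ∈ Q.toValuationSubring ∨ 0 < Q.ord (s34d2_u M q)) :
    ∃ b' ∈ s34x_ring (s34x_infRing (s34m_VV G φ M q hq hqM))
        (s18_chart2 (L₀ := K₀) (s18g_jF (K := K₀) (M * q))),
      ∃ z ∈ s34x_infRing (s34m_VV G φ M q hq hqM), b' - y = s34m_unif G (M * q) * z := by
  classical
  set O := s34x_infRing (s34m_VV G φ M q hq hqM) with hO
  set B := s34x_ring O (s18_chart2 (L₀ := K₀) (s18g_jF (K := K₀) (M * q))) with hB
  by_cases hy0 : y = 0
  · exact ⟨0, B.zero_mem, 0, O.zero_mem, by rw [hy0]; ring⟩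
  have hfin := s34d2_finite_ord_ne_zero φ (M * q) y hy0
  set T : Finset (Place K₀ (s34m_F K₀ (M * q))) := hfin.toFinset.filter
    (fun Q => Q ∈ s18_chart2 (L₀ := K₀) (s18g_jF (K := K₀) (M * q)) ∧ Q.ord y < 0) with hT
  have hTmem : ∀ Q, Q ∈ T ↔
      Q ∈ s18_chart2 (L₀ := K₀) (s18g_jF (K := K₀) (M * q)) ∧ Q.ord y < 0 := by
    intro Q
    rw [hT, Finset.mem_filter, Set.Finite.mem_toFinset, Set.mem_ofPred_eq]
    constructor
    · exact fun h => h.2
    · exact fun h => ⟨by have := h.2; omega, h⟩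
  have hTu : ∀ P ∈ T, P ∈ s18_chart2 (L₀ := K₀) (s18g_jF (K := K₀) (M * q)) ∧
      0 < P.ord (s34d2_u M q) := by
    intro P hP
    obtain ⟨hP2, hPy⟩ := (hTmem P).mp hP
    refine ⟨hP2, (hy P hP2).resolve_left ?_⟩
    intro hmem
    have := (ff_mem_iff_ord_nonneg P hy0).mp hmem
    omega
  set k : ℕ := T.sup (fun Q => (-(Q.ord y)).toNat) with hk
  have hkQ : ∀ Q ∈ T, -(Q.ord y) ≤ (k : ℤ) := by
    intro Q hQ
    have h1 : (-(Q.ord y)).toNat ≤ k := Finset.le_sup (f := fun Q => (-(Q.ord y)).toNat) hQ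
    have h2 : -(Q.ord y) ≤ ((-(Q.ord y)).toNat : ℤ) := Int.self_le_toNat _
    exact h2.trans (by exact_mod_cast h1)
  obtain ⟨s, hsB, hsT, z, hzB, hz⟩ := s34d2_star_finset G φ M q hq hqM T hTu k
  refine ⟨s * y, ⟨O.mul_mem hsB.1 hyO, fun Q hQ => ?_⟩, -(z * y),
    O.neg_mem (O.mul_mem hzB.1 hyO), ?_⟩
  · by_cases hyQ : y ∈ Q.toValuationSubring
    · exact Q.toValuationSubring.mul_mem _ _ (hsB.2 Q hQ) hyQ
    · have hneg : Q.ord y < 0 := by
        by_contra hcon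
        exact hyQ ((ff_mem_iff_ord_nonneg Q hy0).mpr (not_lt.mp hcon))
      have hQT : Q ∈ T := (hTmem Q).mpr ⟨hQ, hneg⟩
      rcases hsT Q hQT with h0 | hks
      · rw [h0, zero_mul]
        exact Q.toValuationSubring.zero_mem
      · by_cases hs0 : s = 0
        · rw [hs0, zero_mul]
          exact Q.toValuationSubring.zero_mem
        · rw [ff_mem_iff_ord_nonneg Q (mul_ne_zero hs0 hy0), Q.ord_mul hs0 hy0]
          have := hkQ Q hQT
          omega
  · have e : s = 1 - s34m_unif G (M * q) * z := by rw [← hz]; ring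
    rw [e]
    ring

end Fermat.Agent.Lib.S34
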