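/-
S34 moonshot, §E (q ∈ {2,3}), helper4: bivariate evaluation utilities (Mathlib only).
-/
import Mathlib

set_option autoImplicit false

noncomputable section

namespace Fermat.Agent.Lib.S34

open Polynomial
open scoped Polynomial.Bivariate

variable {R A B : Type*} [CommRing R] [CommRing A] [CommRing B] [Algebra R A] [Algebra R B]

/-- `aevalAeval` commutes with algebra homomorphisms. -/
theorem s34e_map_aevalAeval (f : A →ₐ[R] B) (x y : A) (p : R[X][Y]) :
    f (aevalAeval x y p) = aevalAeval (f x) (f y) p := by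
  have h : f.comp (aevalAeval x y) = aevalAeval (f x) (f y) := by
    apply (aevalAevalEquiv R B).symm.injective
    rw [aevalAevalEquiv_symm_apply, aevalAevalEquiv_symm_apply]
    simp
  exact congrArg (fun g : R[X][Y] →ₐ[R] B => g p) h

/-- `aevalAeval` of a monomial. -/
theorem s34e_aevalAeval_monomial (x y : A) (k : ℕ) (c : R[X]) :
    aevalAeval x y (monomial k c) = aeval x c * y ^ k := by
  rw [← C_mul_X_pow_eq_monomial, map_mul, map_pow, aevalAeval_C, aevalAeval_Y]

/-- The explicit double sum. -/
theorem s34e_aevalAeval_eq_dsum (x y : A) (p : R[X][Y]) (n : ℕ) (hY : p.natDegree ≤ n)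
    (hX : ∀ k, (p.coeff k).natDegree ≤ n) :
    aevalAeval x y p = ∑ k ∈ Finset.range (n + 1), ∑ i ∈ Finset.range (n + 1),
      algebraMap R A ((p.coeff k).coeff i) * x ^ i * y ^ k := by
  conv_lhs => rw [p.as_sum_range' (n + 1) (Nat.lt_succ_of_le hY)]
  rw [map_sum]
  refine Finset.sum_congr rfl fun k _ => ?_
  rw [s34e_aevalAeval_monomial, aeval_eq_sum_range' (Nat.lt_succ_of_le (hX k)), Finset.sum_mul]
  refine Finset.sum_congr rfl fun i _ => ?_
  rw [Algebra.smul_def]

end Fermat.Agent.Lib.S34
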