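/-
S34 moonshot, §E (q ∈ {2,3}), helper4: the NEWTON-POLYGON step of CLAIM 1.

If `∑_{i,k ≤ n} c i k · x^i y^k = 0` in a function field, with corner coefficient `c 0 n ≠ 0`, then no
place has `ord x > 0 > ord y`; with `c n 0 ≠ 0`, no place has `ord x < 0 < ord y`.
-/
import Mathlib
import Fermat.Agent.Lib.FF.FFBasicPlace

set_option autoImplicit false

noncomputable section

namespace Fermat.Agent.Lib.S34

open AlgebraicCurve Fermat.Agent.Lib.FF

variable {K F : Type*} [Field K] [Field F] [Algebra K F]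

/-- Valuation form of the Newton step: a term which is strictly dominant cannot cancel. -/
theorem s34e_newton_val {Γ : Type*} [LinearOrderedCommGroupWithZero Γ] (v : Valuation F Γ)
    (hvK : ∀ a : K, a ≠ 0 → v (algebraMap K F a) = 1) (x y : F) (n : ℕ) (c : ℕ → ℕ → K)
    (h0 : ∑ k ∈ Finset.range (n + 1), ∑ i ∈ Finset.range (n + 1),
      algebraMap K F (c i k) * x ^ i * y ^ k = 0)
    (hc : c 0 n ≠ 0) (hx : v x < 1) (hy : 1 < v y) : False := by
  classical
  set S : Finset (ℕ × ℕ) := Finset.range (n + 1) ×ˢ Finset.range (n + 1) with hS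
  set f : ℕ × ℕ → F := fun p => algebraMap K F (c p.2 p.1) * x ^ p.2 * y ^ p.1 with hf
  have hsum : ∑ p ∈ S, f p = 0 := by
    rw [hS, Finset.sum_product]
    exact h0
  have hmem : ((n, 0) : ℕ × ℕ) ∈ S := by
    rw [hS, Finset.mem_product]
    exact ⟨Finset.mem_range.mpr (Nat.lt_succ_self n), Finset.mem_range.mpr (Nat.succ_pos n)⟩
  have hy0 : v y ≠ 0 := (lt_trans zero_lt_one hy).ne'
  have hyn : v y ^ n ≠ 0 := pow_ne_zero n hy0
  have hynpos : 0 < v y ^ n := zero_lt_iff.mpr hyn
  have hdom : v (f (n, 0)) = v y ^ n := by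
    simp only [hf, pow_zero, mul_one, map_mul, map_pow, hvK _ hc, one_mul]
  have hothers : ∀ p ∈ S.erase (n, 0), v (f p) < v y ^ n := by
    intro p hp
    obtain ⟨hne, hpS⟩ := Finset.mem_erase.mp hp
    rw [hS, Finset.mem_product, Finset.mem_range, Finset.mem_range] at hpS
    obtain ⟨hk, hi⟩ := hpS
    by_cases hcz : c p.2 p.1 = 0
    · simp only [hf, hcz, map_zero, zero_mul]
      exact hynpos
    simp only [hf, map_mul, map_pow, hvK _ hcz, one_mul]
    have hxi : v x ^ p.2 ≤ 1 := pow_le_one₀ zero_le hx.le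
    rcases Nat.lt_or_ge p.1 n with hlt | hge
    · calc v x ^ p.2 * v y ^ p.1 ≤ 1 * v y ^ p.1 := mul_le_mul_left hxi _
        _ = v y ^ p.1 := one_mul _
        _ < v y ^ n := pow_lt_pow_right₀ hy hlt
    · have hk' : p.1 = n := by omega
      have hi0 : p.2 ≠ 0 := by
        intro h
        apply hne
        exact Prod.ext hk' h
      rw [hk']
      have hxi' : v x ^ p.2 < 1 := pow_lt_one₀ zero_le hx hi0
      calc v x ^ p.2 * v y ^ n < 1 * v y ^ n := by
            exact mul_lt_mul_of_pos_right hxi' hynpos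
        _ = v y ^ n := one_mul _
  have hlt : v (∑ p ∈ S.erase (n, 0), f p) < v y ^ n := Valuation.map_sum_lt v hyn hothers
  have heq : f (n, 0) = -∑ p ∈ S.erase (n, 0), f p := by
    rw [eq_neg_iff_add_eq_zero, Finset.add_sum_erase S f hmem, hsum]
  rw [← hdom, heq, Valuation.map_neg] at hlt
  exact lt_irrefl _ hlt

/-- **Newton step, first corner**: `c 0 n ≠ 0` and `ord_P x > 0` force `ord_P y ≥ 0`. -/
theorem s34e_newton_pos (P : Place K F) (x y : F) (n : ℕ) (c : ℕ → ℕ → K)
    (h0 : ∑ k ∈ Finset.range (n + 1), ∑ i ∈ Finset.range (n + 1),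
      algebraMap K F (c i k) * x ^ i * y ^ k = 0)
    (hc : c 0 n ≠ 0) (hx : 0 < P.ord x) : 0 ≤ P.ord y := by
  by_contra hy
  rw [not_le] at hy
  have hx0 : x ≠ 0 := by
    rintro rfl
    simp at hx
  have hy0 : y ≠ 0 := by
    rintro rfl
    simp at hy
  refine s34e_newton_val (K := K) P.adicValuation ?_ x y n c h0 hc ?_ ?_
  · intro a ha
    have h1 : algebraMap K F a ≠ 0 := by simpa using ha
    rw [ff_adicValuation_eq_exp P h1, ff_ord_algebraMap, neg_zero, WithZero.exp_zero]
  · rw [ff_adicValuation_eq_exp P hx0, ← WithZero.exp_zero, WithZero.exp_lt_exp]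
    omega
  · rw [ff_adicValuation_eq_exp P hy0, ← WithZero.exp_zero, WithZero.exp_lt_exp]
    omega

/-- **Newton step, second corner**: `c n 0 ≠ 0` and `ord_P x < 0` force `ord_P y ≤ 0`. -/
theorem s34e_newton_neg (P : Place K F) (x y : F) (n : ℕ) (c : ℕ → ℕ → K)
    (h0 : ∑ k ∈ Finset.range (n + 1), ∑ i ∈ Finset.range (n + 1),
      algebraMap K F (c i k) * x ^ i * y ^ k = 0)
    (hc : c n 0 ≠ 0) (hx : P.ord x < 0) : P.ord y ≤ 0 := by
  by_contra hy
  rw [not_le] at hy
  have hx0 : x ≠ 0 := by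
    rintro rfl
    simp at hx
  have hy0 : y ≠ 0 := by
    rintro rfl
    simp at hy
  -- swap the roles of `x` and `y`
  have h0' : ∑ k ∈ Finset.range (n + 1), ∑ i ∈ Finset.range (n + 1),
      algebraMap K F (c k i) * y ^ i * x ^ k = 0 := by
    rw [Finset.sum_comm]
    rw [← h0]
    refine Finset.sum_congr rfl fun k _ => Finset.sum_congr rfl fun i _ => ?_
    ring
  refine s34e_newton_val (K := K) P.adicValuation ?_ y x n (fun i k => c k i) h0' hc ?_ ?_
  · intro a ha
    have h1 : algebraMap K F a ≠ 0 := by simpa using ha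
    rw [ff_adicValuation_eq_exp P h1, ff_ord_algebraMap, neg_zero, WithZero.exp_zero]
  · rw [ff_adicValuation_eq_exp P hy0, ← WithZero.exp_zero, WithZero.exp_lt_exp]
    omega
  · rw [ff_adicValuation_eq_exp P hx0, ← WithZero.exp_zero, WithZero.exp_lt_exp]
    omega

end Fermat.Agent.Lib.S34
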