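/-
S34 moonshot, §E (q ∈ {2,3}), helper4: CLAIM 1 in abstract form.

* `s34e_cusp_unit`: the UNIT case (a): in a valuation ring `V ⊇ K`, if `j x^a = A(x)`, `u y^a = A(y)`
  (`A ∈ K[X]` monic of degree `> a ≥ 1`, `A(0) ≠ 0`), `u` integral over `ℤ[j]` and `x` is a unit of `V`,
  then `y` is a unit of `V`.
* `s34e_cusp_claim_abs`: CLAIM 1 for a function field from a relation `Ψ(x, y) = 0` of bidegree
  `≤ (n, n)` with nonvanishing corner coefficients (Newton) and the unit case.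
-/
import Fermat.Agent.Lib.S34.ENewton
import Fermat.Agent.Lib.S34.EEval
import Fermat.Agent.Lib.S28.DInt

set_option autoImplicit false

noncomputable section

namespace Fermat.Agent.Lib.S34

open AlgebraicCurve Polynomial Fermat.Agent.Lib.FF Fermat.Agent.Lib.S28
open scoped Polynomial.Bivariate

section Unit

variable {K 𝓕 : Type*} [Field K] [Field 𝓕] [Algebra K 𝓕]

/-- Polynomials over `K` evaluated in a valuation ring containing `K` stay in it. -/
theorem s34e_cusp_aeval_mem (V : ValuationSubring 𝓕) (hKV : ∀ c : K, algebraMap K 𝓕 c ∈ V)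
    {x : 𝓕} (hx : x ∈ V) (A : K[X]) : aeval x A ∈ V := by
  rw [aeval_eq_sum_range]
  refine V.toSubring.sum_mem fun i _ => ?_
  rw [Algebra.smul_def]
  exact V.mul_mem _ _ (hKV _) (V.toSubring.pow_mem hx i)

/-- A valuation ring contains everything integral over `ℤ[a]`, `a` in the ring. -/
theorem s34e_cusp_mem_of_intOver (V : ValuationSubring 𝓕) {a b : 𝓕}
    (h : s28d_IntOver a b) (ha : a ∈ V) : b ∈ V := by
  obtain ⟨G, hG, h0⟩ := h
  let ψ : ℤ[X] →+* V := (Polynomial.aeval (⟨a, ha⟩ : V) : ℤ[X] →ₐ[ℤ] V).toRingHom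
  have hcomp : (algebraMap V 𝓕).comp ψ = (Polynomial.aeval a : ℤ[X] →ₐ[ℤ] 𝓕).toRingHom := by
    apply Polynomial.ringHom_ext
    · intro n; simp [ψ]
    · simp [ψ]
  have hint : IsIntegral V b := by
    refine ⟨G.map ψ, hG.map _, ?_⟩
    rw [Polynomial.eval₂_map, hcomp, Polynomial.eval₂_eq_eval_map]
    exact h0
  obtain ⟨y, hy⟩ := IsIntegrallyClosed.isIntegral_iff.mp hint
  rw [← hy]
  exact y.2

/-- **The unit case (a).** -/
theorem s34e_cusp_unit (V : ValuationSubring 𝓕) (hKV : ∀ c : K, algebraMap K 𝓕 c ∈ V)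
    (A : K[X]) (hA : A.Monic) (a : ℕ) (ha0 : 0 < a) (haD : a < A.natDegree)
    (hA0 : A.coeff 0 ≠ 0) (j u x y : 𝓕) (hy0 : y ≠ 0)
    (r1 : j * x ^ a = aeval x A) (r2 : u * y ^ a = aeval y A) (hint : s28d_IntOver j u)
    (hx : x ∈ V) (hxi : x⁻¹ ∈ V) : y ∈ V ∧ y⁻¹ ∈ V := by
  have hx0 : x ≠ 0 := by
    rintro rfl
    have h1 : aeval (0 : 𝓕) A = algebraMap K 𝓕 (A.coeff 0) := by
      rw [← Polynomial.coeff_zero_eq_aeval_zero']
    rw [zero_pow ha0.ne', mul_zero, h1] at r1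
    exact hA0 ((map_eq_zero (algebraMap K 𝓕)).mp r1.symm)
  -- `j ∈ V`, hence `u ∈ V`
  have hj : j ∈ V := by
    have e : j = aeval x A * (x⁻¹) ^ a := by
      rw [← r1, mul_assoc, ← mul_pow, mul_inv_cancel₀ hx0, one_pow, mul_one]
    rw [e]
    exact V.mul_mem _ _ (s34e_cusp_aeval_mem V hKV hx A) (V.toSubring.pow_mem hxi a)
  have hu : u ∈ V := s34e_cusp_mem_of_intOver V hint hj
  -- `y` is integral over `V`
  have hy : y ∈ V := by
    let ψ : K →+* V := (algebraMap K 𝓕).codRestrict V.toSubring hKV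
    have hψ : (algebraMap V 𝓕).comp ψ = algebraMap K 𝓕 := by
      ext c
      rfl
    have hdeg : (C (⟨u, hu⟩ : V) * X ^ a : V[X]).degree < (A.map ψ).degree := by
      rw [Polynomial.degree_map, Polynomial.degree_eq_natDegree hA.ne_zero]
      refine lt_of_le_of_lt (Polynomial.degree_C_mul_X_pow_le _ _) ?_
      exact_mod_cast haD
    have hint' : IsIntegral V y := by
      refine ⟨A.map ψ - C (⟨u, hu⟩ : V) * X ^ a, (hA.map ψ).sub_of_left hdeg, ?_⟩
      rw [Polynomial.eval₂_sub, Polynomial.eval₂_map, hψ, Polynomial.eval₂_mul,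
        Polynomial.eval₂_C, Polynomial.eval₂_pow, Polynomial.eval₂_X, ← Polynomial.aeval_def,
        ← r2]
      exact sub_self _
    obtain ⟨z, hz⟩ := IsIntegrallyClosed.isIntegral_iff.mp hint'
    rw [← hz]
    exact z.2
  refine ⟨hy, ?_⟩
  -- `y⁻¹ ∈ V`: otherwise `A(0)` would be a non-unit
  by_contra hyi
  have hv : V.valuation y < 1 := by
    have h1 : ¬ V.valuation y⁻¹ ≤ 1 := fun h => hyi ((V.valuation_le_one_iff _).mp h)
    rw [not_le, map_inv₀, one_lt_inv₀ (zero_lt_iff.mpr ((Valuation.ne_zero_iff _).mpr hy0))] at h1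
    exact h1
  -- `A(y) = A(0) + y * B(y)`
  obtain ⟨B, hB⟩ : ∃ B : K[X], A = C (A.coeff 0) + X * B := by
    refine ⟨A.divX, ?_⟩
    conv_lhs => rw [← Polynomial.divX_mul_X_add A]
    ring
  have hAy : aeval y A = algebraMap K 𝓕 (A.coeff 0) + y * aeval y B := by
    conv_lhs => rw [hB]
    rw [map_add, aeval_C, map_mul, aeval_X]
  have hc : algebraMap K 𝓕 (A.coeff 0) = u * y ^ a - y * aeval y B := by
    rw [r2, hAy]
    ring
  have hvc : V.valuation (algebraMap K 𝓕 (A.coeff 0)) = 1 := by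
    have h0 : algebraMap K 𝓕 (A.coeff 0) ≠ 0 := by simpa using hA0
    refine le_antisymm ((V.valuation_le_one_iff _).mpr (hKV _)) ?_
    have h2 : V.valuation (algebraMap K 𝓕 (A.coeff 0))⁻¹ ≤ 1 := by
      rw [← map_inv₀]
      exact (V.valuation_le_one_iff _).mpr (hKV _)
    rw [map_inv₀, inv_le_one₀ (zero_lt_iff.mpr ((Valuation.ne_zero_iff _).mpr h0))] at h2
    exact h2
  have hlt : V.valuation (u * y ^ a - y * aeval y B) < 1 := by
    refine Valuation.map_sub_lt _ ?_ ?_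
    · rw [map_mul, map_pow]
      calc V.valuation u * V.valuation y ^ a ≤ 1 * V.valuation y ^ a :=
            mul_le_mul_left ((V.valuation_le_one_iff _).mpr hu) _
        _ = V.valuation y ^ a := one_mul _
        _ < 1 := pow_lt_one₀ zero_le hv ha0.ne'
    · rw [map_mul]
      calc V.valuation y * V.valuation (aeval y B) ≤ V.valuation y * 1 :=
            mul_le_mul_right ((V.valuation_le_one_iff _).mpr (s34e_cusp_aeval_mem V hKV hy B)) _
        _ = V.valuation y := mul_one _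
        _ < 1 := hv
  rw [← hc, hvc] at hlt
  exact lt_irrefl _ hlt

end Unit

section Claim

variable {K F : Type*} [Field K] [Field F] [Algebra K F]

/-- **CLAIM 1, abstract form.** -/
theorem s34e_cusp_claim_abs (x y : F) (n : ℕ) (Ψ : K[X][Y]) (hY : Ψ.natDegree ≤ n)
    (hX : ∀ k, (Ψ.coeff k).natDegree ≤ n) (h0 : aevalAeval x y Ψ = 0)
    (hc1 : (Ψ.coeff n).coeff 0 ≠ 0) (hc2 : (Ψ.coeff 0).coeff n ≠ 0)
    (hunit : ∀ P : Place K F, P.ord x = 0 → P.ord y = 0) (P : Place K F) :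
    (0 ≤ P.ord x → 0 ≤ P.ord y) ∧ (P.ord x ≤ 0 → P.ord y ≤ 0) := by
  rw [s34e_aevalAeval_eq_dsum x y Ψ n hY hX] at h0
  constructor
  · intro h
    rcases h.lt_or_eq with h | h
    · exact s34e_newton_pos P x y n (fun i k => (Ψ.coeff k).coeff i) h0 hc1 h
    · exact (hunit P h.symm).ge
  · intro h
    rcases h.lt_or_eq with h | h
    · exact s34e_newton_neg P x y n (fun i k => (Ψ.coeff k).coeff i) h0 hc2 h
    · exact (hunit P h).le

end Claim

end Fermat.Agent.Lib.S34
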