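/-
S34 moonshot §E (bases `t₂`, `t₃` for `q ∈ {3, 2}`), step [E2] of helper4's blueprint: a pure polynomial
lemma (Mathlib only).  `P ∈ κ[X][Y]` of bidegree `≤ (q+1, q+1)` with `P(X, X^q) = 0` and
`P(Y^q, Y) = 0` is a constant multiple of `X^{q+1} + Y^{q+1} - X^q Y^q - X Y = -(Y - X^q)(X - Y^q)`;
in particular its CORNER coefficients (of `Y^{q+1}` and of `X^{q+1}`) do not vanish.

* `s34e_expand_indep`: `1, X, …, X^{q-1}` are independent over `κ[X^q]`.
* `s34e_shape`: `p_k = 0` for `2 ≤ k ≤ q-1`, `p₁ = -X p_{q+1}`, `p_q = -X^q p_{q+1}`,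
  `p₀ = X^{q+1} p_{q+1}`, and `p_{q+1}` is a nonzero constant (`p_k := P.coeff k ∈ κ[X]`).
* `s34e_corners`: the two corner coefficients are nonzero.
(helper9)
-/
import Mathlib

set_option autoImplicit false

namespace Fermat.Agent.Lib.S34

open Polynomial

variable {κ : Type*} [Field κ]

/-- `1, X, …, X^{q-1}` are linearly independent over `κ[X^q]`. -/
theorem s34e_expand_indep (q : ℕ) (hq : 0 < q) (a : ℕ → κ[X])
    (h : ∑ k ∈ Finset.range q, expand κ q (a k) * X ^ k = 0) : ∀ k < q, a k = 0 := by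
  intro r hr
  ext m
  have hc := congrArg (fun f : κ[X] => f.coeff (q * m + r)) h
  simp only [finsetSum_coeff, coeff_zero] at hc
  rw [Finset.sum_eq_single_of_mem r (Finset.mem_range.mpr hr)] at hc
  · rw [coeff_mul_X_pow', if_pos (Nat.le_add_left r (q * m)), Nat.add_sub_cancel,
      coeff_expand hq, if_pos (dvd_mul_right q m), Nat.mul_div_cancel_left m hq] at hc
    rw [hc, coeff_zero]
  · intro k hk hkr
    rw [coeff_mul_X_pow']
    split_ifs with hle
    · rw [coeff_expand hq, if_neg]
      rintro ⟨c, hc'⟩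
      apply hkr
      have hk' := Finset.mem_range.mp hk
      have e : q * m + r = q * c + k := by omega
      have h1 : (q * m + r) % q = r := by rw [Nat.mul_add_mod, Nat.mod_eq_of_lt hr]
      have h2 : (q * c + k) % q = k := by rw [Nat.mul_add_mod, Nat.mod_eq_of_lt hk']
      rw [e, h2] at h1
      exact h1
    · rfl

/-- **The shape of a symmetric Kronecker relation.** -/
theorem s34e_shape (q : ℕ) (hq : 2 ≤ q) (P : Polynomial (Polynomial κ)) (hP : P ≠ 0)
    (hY : P.natDegree ≤ q + 1) (hX : ∀ k, (P.coeff k).natDegree ≤ q + 1)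
    (h1 : P.eval (X ^ q) = 0)
    (h2 : ∑ k ∈ Finset.range (q + 2), (P.coeff k).comp (X ^ q) * X ^ k = 0) :
    (∀ k, 2 ≤ k → k < q → P.coeff k = 0) ∧
    P.coeff 1 = -(X * P.coeff (q + 1)) ∧
    P.coeff q = -(X ^ q * P.coeff (q + 1)) ∧
    P.coeff 0 = X ^ (q + 1) * P.coeff (q + 1) ∧
    P.coeff (q + 1) ≠ 0 ∧ (P.coeff (q + 1)).natDegree = 0 := by
  classical
  have hq0 : 0 < q := by omega
  set p : ℕ → κ[X] := fun k => P.coeff k with hp
  -- step 1: exponents mod `q` in `h2`
  set a : ℕ → κ[X] := fun k =>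
    p k + (if k = 0 then X * p q else 0) + (if k = 1 then X * p (q + 1) else 0) with ha
  have hsum : ∑ k ∈ Finset.range q, expand κ q (a k) * X ^ k = 0 := by
    have h2' : ∑ k ∈ Finset.range (q + 2), expand κ q (p k) * X ^ k = 0 := h2
    rw [Finset.sum_range_succ, Finset.sum_range_succ] at h2'
    rw [← h2']
    simp only [ha, map_add, add_mul, Finset.sum_add_distrib]
    have e0 : ∑ k ∈ Finset.range q, expand κ q (if k = 0 then X * p q else 0) * X ^ k =
        expand κ q (p q) * X ^ q := by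
      have : ∀ k ∈ Finset.range q, expand κ q (if k = 0 then X * p q else 0) * X ^ k =
          if k = 0 then expand κ q (p q) * X ^ q else 0 := by
        intro k _
        split_ifs with hk
        · rw [hk, pow_zero, mul_one, map_mul, expand_X, mul_comm]
        · rw [map_zero, zero_mul]
      rw [Finset.sum_congr rfl this, Finset.sum_ite_eq' (Finset.range q) 0,
        if_pos (Finset.mem_range.mpr hq0)]
    have e1 : ∑ k ∈ Finset.range q, expand κ q (if k = 1 then X * p (q + 1) else 0) * X ^ k =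
        expand κ q (p (q + 1)) * X ^ (q + 1) := by
      have : ∀ k ∈ Finset.range q, expand κ q (if k = 1 then X * p (q + 1) else 0) * X ^ k =
          if k = 1 then expand κ q (p (q + 1)) * X ^ (q + 1) else 0 := by
        intro k _
        split_ifs with hk
        · rw [hk, pow_one, map_mul, expand_X, pow_succ]
          ring
        · rw [map_zero, zero_mul]
      rw [Finset.sum_congr rfl this, Finset.sum_ite_eq' (Finset.range q) 1,
        if_pos (Finset.mem_range.mpr (by omega))]
    rw [e0, e1]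
  have hall := s34e_expand_indep q hq0 a hsum
  have hmid : ∀ k, 2 ≤ k → k < q → p k = 0 := by
    intro k hk2 hkq
    have := hall k hkq
    simpa only [ha, if_neg (by omega : k ≠ 0), if_neg (by omega : k ≠ 1), add_zero] using this
  have hp0 : p 0 = -(X * p q) := by
    have := hall 0 hq0
    simp only [ha, if_true, if_neg (by omega : (0 : ℕ) ≠ 1), add_zero] at this
    exact eq_neg_of_add_eq_zero_left this
  have hp1 : p 1 = -(X * p (q + 1)) := by
    have := hall 1 (by omega)
    simp only [ha, if_true, if_neg (by omega : (1 : ℕ) ≠ 0), add_zero] at this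
    exact eq_neg_of_add_eq_zero_left this
  -- step 2: the relation `h1`
  have h1' : ∑ k ∈ Finset.range (q + 2), p k * (X ^ q) ^ k = 0 := by
    rw [← h1, eval_eq_sum_range' (show P.natDegree < q + 2 by omega)]
  rw [Finset.sum_range_succ, Finset.sum_range_succ,
    ← Finset.sum_subset (Finset.range_subset_range.mpr hq) (fun k hk hk2 => by
      rw [hmid k (by have := Finset.mem_range.not.mp hk2; omega) (Finset.mem_range.mp hk), zero_mul]),
    Finset.sum_range_succ, Finset.sum_range_one, pow_zero, mul_one, pow_one, hp0, hp1] at h1'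
  have hfac : (X ^ (q * q) - X) * (p q + X ^ q * p (q + 1)) = 0 := by
    have e1 : ((X : κ[X]) ^ q) ^ q = X ^ (q * q) := by rw [← pow_mul]
    have e2 : ((X : κ[X]) ^ q) ^ (q + 1) = X ^ (q * q) * X ^ q := by
      rw [← pow_mul, mul_add, mul_one, pow_add]
    rw [e1, e2] at h1'
    linear_combination h1'
  have hne : (X : κ[X]) ^ (q * q) - X ≠ 0 := by
    intro h
    have hc := congrArg (fun f : κ[X] => f.coeff (q * q)) h
    simp only [coeff_sub, coeff_X_pow, if_true, coeff_X, coeff_zero] at hc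
    have hqq : ¬ (1 = q * q) := by nlinarith
    rw [if_neg hqq, sub_zero] at hc
    exact one_ne_zero hc
  have hpq : p q = -(X ^ q * p (q + 1)) :=
    eq_neg_of_add_eq_zero_left ((mul_eq_zero.mp hfac).resolve_left hne)
  have hp0' : p 0 = X ^ (q + 1) * p (q + 1) := by
    rw [hp0, hpq, pow_succ]
    ring
  -- step 3: `p (q+1)` is a nonzero constant
  have htop : p (q + 1) ≠ 0 := by
    intro h0
    apply hP
    ext k : 1
    rw [coeff_zero]
    by_cases hk : k ≤ q + 1
    · rcases Nat.lt_or_ge k 2 with hk2 | hk2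
      · interval_cases k
        · show p 0 = 0
          rw [hp0', h0, mul_zero]
        · show p 1 = 0
          rw [hp1, h0, mul_zero, neg_zero]
      · rcases Nat.lt_or_ge k q with hkq | hkq
        · exact hmid k hk2 hkq
        · rcases Nat.eq_or_lt_of_le hkq with rfl | hlt
          · show p q = 0
            rw [hpq, h0, mul_zero, neg_zero]
          · have : k = q + 1 := by omega
            rw [this]
            exact h0
    · exact coeff_eq_zero_of_natDegree_lt (by omega)
  have hdeg0 : (p (q + 1)).natDegree = 0 := by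
    have h := hX 0
    change (p 0).natDegree ≤ q + 1 at h
    rw [hp0', natDegree_X_pow_mul (q + 1) htop] at h
    omega
  exact ⟨hmid, hp1, hpq, hp0', htop, hdeg0⟩

/-- **The corner coefficients.**  `h1` is `P(X, X^q) = 0`, `h2` is `P(Y^q, Y) = 0` written in one
variable.  Then the coefficients of `Y^{q+1}` and of `X^{q+1}` of `P` do not vanish. -/
theorem s34e_corners (q : ℕ) (hq : 2 ≤ q) (P : Polynomial (Polynomial κ)) (hP : P ≠ 0)
    (hY : P.natDegree ≤ q + 1) (hX : ∀ k, (P.coeff k).natDegree ≤ q + 1)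
    (h1 : P.eval (X ^ q) = 0)
    (h2 : ∑ k ∈ Finset.range (q + 2), (P.coeff k).comp (X ^ q) * X ^ k = 0) :
    (P.coeff (q + 1)).coeff 0 ≠ 0 ∧ (P.coeff 0).coeff (q + 1) ≠ 0 := by
  obtain ⟨-, -, -, hp0, htop, hdeg0⟩ := s34e_shape q hq P hP hY hX h1 h2
  have hc : (P.coeff (q + 1)).coeff 0 ≠ 0 := by
    intro h
    apply htop
    rw [eq_C_of_natDegree_eq_zero hdeg0, h, C_0]
  refine ⟨hc, ?_⟩
  rw [hp0]
  have : (X ^ (q + 1) * P.coeff (q + 1)).coeff (0 + (q + 1)) = (P.coeff (q + 1)).coeff 0 :=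
    coeff_X_pow_mul _ _ _
  rw [zero_add] at this
  rw [this]
  exact hc

/-- `P(x, y) = Σ_k p_k(x) y^k`. -/
theorem s34e_aevalAeval_eq_sum {A : Type*} [CommRing A] [Algebra κ A]
    (P : Polynomial (Polynomial κ)) (n : ℕ) (hn : P.natDegree < n) (x y : A) :
    aevalAeval x y P = ∑ k ∈ Finset.range n, aeval x (P.coeff k) * y ^ k := by
  conv_lhs => rw [P.as_sum_range' n hn]
  rw [map_sum]
  refine Finset.sum_congr rfl fun k _ => ?_
  rw [← C_mul_X_pow_eq_monomial, map_mul, map_pow, aevalAeval_C, aevalAeval_Y]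

/-- **The corner coefficients**, `aevalAeval` form: `P(X, X^q) = 0` and `P(X^q, X) = 0` in `κ[X]`. -/
theorem s34e_corners_aeval (q : ℕ) (hq : 2 ≤ q) (P : Polynomial (Polynomial κ)) (hP : P ≠ 0)
    (hY : P.natDegree ≤ q + 1) (hX : ∀ k, (P.coeff k).natDegree ≤ q + 1)
    (h1 : aevalAeval (X : κ[X]) (X ^ q) P = 0)
    (h2 : aevalAeval ((X : κ[X]) ^ q) X P = 0) :
    (P.coeff (q + 1)).coeff 0 ≠ 0 ∧ (P.coeff 0).coeff (q + 1) ≠ 0 := by
  refine s34e_corners q hq P hP hY hX ?_ ?_
  · rw [s34e_aevalAeval_eq_sum P (q + 2) (by omega)] at h1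
    rw [eval_eq_sum_range' (show P.natDegree < q + 2 by omega), ← h1]
    refine Finset.sum_congr rfl fun k _ => ?_
    rw [aeval_X_left_apply]
  · rw [s34e_aevalAeval_eq_sum P (q + 2) (by omega)] at h2
    rw [← h2]
    refine Finset.sum_congr rfl fun k _ => ?_
    rw [comp_eq_aeval]

/-- **The corner coefficients**, family form (`R k` = coefficient of `Y^k`, `k ≤ q + 1`). -/
theorem s34e_corners_family (q : ℕ) (hq : 2 ≤ q) (R : ℕ → κ[X]) (hR : ∃ k ≤ q + 1, R k ≠ 0)
    (hdeg : ∀ k, (R k).natDegree ≤ q + 1)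
    (h1 : ∑ k ∈ Finset.range (q + 2), R k * (X ^ q) ^ k = 0)
    (h2 : ∑ k ∈ Finset.range (q + 2), (R k).comp (X ^ q) * X ^ k = 0) :
    (R (q + 1)).coeff 0 ≠ 0 ∧ (R 0).coeff (q + 1) ≠ 0 := by
  classical
  set P : Polynomial (Polynomial κ) := ∑ k ∈ Finset.range (q + 2), monomial k (R k) with hPdef
  have hcoeff : ∀ k, P.coeff k = if k < q + 2 then R k else 0 := by
    intro k
    rw [hPdef, finsetSum_coeff]
    simp only [coeff_monomial]
    rw [Finset.sum_ite_eq' (Finset.range (q + 2)) k (fun j => R j)]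
    simp only [Finset.mem_range]
  have hcoeff' : ∀ k, k < q + 2 → P.coeff k = R k := fun k hk => by rw [hcoeff k, if_pos hk]
  have hY : P.natDegree ≤ q + 1 := by
    rw [natDegree_le_iff_coeff_eq_zero]
    intro k hk
    rw [hcoeff k, if_neg (by omega)]
  have hX : ∀ k, (P.coeff k).natDegree ≤ q + 1 := by
    intro k
    rw [hcoeff k]
    split_ifs
    · exact hdeg k
    · rw [natDegree_zero]; omega
  have hP : P ≠ 0 := by
    obtain ⟨k, hk, hRk⟩ := hR
    intro h0
    apply hRk
    rw [← hcoeff' k (by omega), h0, coeff_zero]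
  have h1' : P.eval (X ^ q) = 0 := by
    rw [eval_eq_sum_range' (show P.natDegree < q + 2 by omega), ← h1]
    exact Finset.sum_congr rfl fun k hk => by rw [hcoeff' k (Finset.mem_range.mp hk)]
  have h2' : ∑ k ∈ Finset.range (q + 2), (P.coeff k).comp (X ^ q) * X ^ k = 0 := by
    rw [← h2]
    exact Finset.sum_congr rfl fun k hk => by rw [hcoeff' k (Finset.mem_range.mp hk)]
  have := s34e_corners q hq P hP hY hX h1' h2'
  rwa [hcoeff' (q + 1) (by omega), hcoeff' 0 (by omega)] at this

end Fermat.Agent.Lib.S34
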