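/-
S34 moonshot, §E (q ∈ {2,3}), helper4: the REDUCTION step (c) of CLAIM 1.

`G` a Gauss datum on `K`, `x, y` in the Gauss ring of `K((T))` with reductions `t̄`, `t̄ ^ q`
(`t̄` transcendental over `κ`), `Ψ ∈ K[X][Y]` nonzero of bidegree `≤ (q+1, q+1)` with
`Ψ(x, y) = 0 = Ψ(y, x)`.  Then the two CORNER coefficients of `Ψ` (of `Y^{q+1}` and of `X^{q+1}`)
are nonzero: normalise `Ψ` (S18 `s18g_exists_normalise`), reduce both relations, and apply
helper9's polynomial lemma `s34e_corners_aeval`.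
-/
import Fermat.Agent.Lib.S18.GLift
import Fermat.Agent.Lib.S34.EPoly
import Fermat.Agent.Lib.S34.EEval

set_option autoImplicit false

noncomputable section

namespace Fermat.Agent.Lib.S34

open ModularCurve HahnSeries Polynomial Fermat.Agent.Lib.S18
open scoped Polynomial.Bivariate

variable {K : Type*} [Field K] {κ : Type*} [Field κ] (G : s18g_GaussData K κ)

/-- Reduction of a relation `∑ P_i(t) b_i = 0` after normalisation `R_i = c P_i ∈ A[X]`. -/
theorem s34e_red_rel {ι : Type*} [Fintype ι] (t : s18g_O G) (b : ι → s18g_O G) (P : ι → K[X])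
    (c : K) (R : ι → G.A[X]) (hR : ∀ i, (R i).map G.A.subtype = Polynomial.C c * P i)
    (hP : ∑ i, Polynomial.aeval (t : LaurentSeries K) (P i) * (b i : LaurentSeries K) = 0) :
    ∑ i, Polynomial.aeval (s18g_red G t) ((R i).map G.π) * s18g_red G (b i) = 0 := by
  have hrel : ∑ i, Polynomial.eval₂ (s18g_constHom G) t (R i) * b i = 0 := by
    apply Subtype.ext
    rw [Subring.coe_zero]
    have : ((∑ i, Polynomial.eval₂ (s18g_constHom G) t (R i) * b i : s18g_O G) :
        LaurentSeries K) = ∑ i, ((Polynomial.eval₂ (s18g_constHom G) t (R i) * b i : s18g_O G) :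
        LaurentSeries K) := by
      rw [← Subring.subtype_apply, map_sum]
      rfl
    rw [this]
    have h2 : ∀ i, ((Polynomial.eval₂ (s18g_constHom G) t (R i) * b i : s18g_O G) :
        LaurentSeries K) = algebraMap K (LaurentSeries K) c *
          (Polynomial.aeval (t : LaurentSeries K) (P i) * (b i : LaurentSeries K)) := by
      intro i
      rw [Subring.coe_mul, s18g_coe_eval₂, hR i, map_mul, Polynomial.aeval_C]
      ring
    simp_rw [h2]
    rw [← Finset.mul_sum, hP, mul_zero]
  have hred := congrArg (s18g_red G) hrel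
  rw [map_sum, map_zero] at hred
  simp_rw [map_mul, s18g_red_eval₂] at hred
  exact hred

/-- **Step (c)**: the corner coefficients of a symmetric relation of bidegree `≤ (q+1, q+1)` between
`x` and `y`, whose reductions are `t̄` and `t̄ ^ q`, do not vanish. -/
theorem s34e_red_corners (q : ℕ) (hq : 2 ≤ q)
    (x y : LaurentSeries K) (hx : x ∈ s18g_O G) (hy : y ∈ s18g_O G)
    (tb : LaurentSeries κ) (htb : Transcendental κ tb)
    (hrx : s18g_red G ⟨x, hx⟩ = tb) (hry : s18g_red G ⟨y, hy⟩ = tb ^ q)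
    (Ψ : K[X][Y]) (hΨ : Ψ ≠ 0) (hY : Ψ.natDegree ≤ q + 1)
    (hX : ∀ k, (Ψ.coeff k).natDegree ≤ q + 1)
    (h1 : aevalAeval x y Ψ = 0) (h2 : aevalAeval y x Ψ = 0) :
    (Ψ.coeff (q + 1)).coeff 0 ≠ 0 ∧ (Ψ.coeff 0).coeff (q + 1) ≠ 0 := by
  classical
  -- the family of coefficients
  set P : Fin (q + 2) → K[X] := fun k => Ψ.coeff (k : ℕ) with hPdef
  have hP0 : P ≠ 0 := by
    intro h
    apply hΨ
    ext1 k
    rw [Polynomial.coeff_zero]
    by_cases hk : k < q + 2
    · exact congrFun h ⟨k, hk⟩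
    · exact Polynomial.coeff_eq_zero_of_natDegree_lt (by omega)
  obtain ⟨c, R, hc, hR, k₀, hk₀⟩ := s18g_exists_normalise G P hP0
  -- the two relations in family form
  have hn : Ψ.natDegree < q + 2 := by omega
  have e1 : ∑ k : Fin (q + 2), Polynomial.aeval x (P k) * y ^ (k : ℕ) = 0 := by
    rw [s34e_aevalAeval_eq_sum Ψ (q + 2) hn x y] at h1
    rw [← h1, Finset.sum_range]
  have e2 : ∑ k : Fin (q + 2), Polynomial.aeval y (P k) * x ^ (k : ℕ) = 0 := by
    rw [s34e_aevalAeval_eq_sum Ψ (q + 2) hn y x] at h2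
    rw [← h2, Finset.sum_range]
  have r1 := s34e_red_rel G ⟨x, hx⟩ (fun k : Fin (q + 2) => (⟨y, hy⟩ : s18g_O G) ^ (k : ℕ)) P c R hR
    (by simpa using e1)
  have r2 := s34e_red_rel G ⟨y, hy⟩ (fun k : Fin (q + 2) => (⟨x, hx⟩ : s18g_O G) ^ (k : ℕ)) P c R hR
    (by simpa using e2)
  simp only [map_pow, hrx, hry] at r1 r2
  -- the reduced bivariate polynomial
  set Rb : ℕ → κ[X] := fun k => if h : k < q + 2 then (R ⟨k, h⟩).map G.π else 0 with hRb
  set Pb : κ[X][Y] := ∑ k ∈ Finset.range (q + 2), Polynomial.monomial k (Rb k) with hPb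
  have hRb_fin : ∀ k : Fin (q + 2), Rb (k : ℕ) = (R k).map G.π := by
    intro k
    simp only [hRb, dif_pos k.2]
  have hcoeff : ∀ m, Pb.coeff m = Rb m := by
    intro m
    rw [hPb, Polynomial.finsetSum_coeff]
    simp only [Polynomial.coeff_monomial]
    rw [Finset.sum_ite_eq' (Finset.range (q + 2)) m]
    split_ifs with hm
    · rfl
    · rw [Finset.mem_range] at hm
      simp only [hRb, dif_neg hm]
  have hdegR : ∀ k : Fin (q + 2), (R k).natDegree ≤ q + 1 := by
    intro k
    have h := congrArg Polynomial.natDegree (hR k)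
    rw [Polynomial.natDegree_map_eq_of_injective G.A.subtype_injective] at h
    rw [h]
    exact (Polynomial.natDegree_C_mul_le _ _).trans (hX _)
  have hPbY : Pb.natDegree ≤ q + 1 := by
    rw [hPb]
    refine Polynomial.natDegree_sum_le_of_forall_le _ _ fun k hk => ?_
    exact (Polynomial.natDegree_monomial_le _).trans (by
      have := Finset.mem_range.mp hk
      omega)
  have hPbX : ∀ k, (Pb.coeff k).natDegree ≤ q + 1 := by
    intro k
    rw [hcoeff]
    by_cases hk : k < q + 2
    · simp only [hRb, dif_pos hk]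
      exact (Polynomial.natDegree_map_le).trans (hdegR ⟨k, hk⟩)
    · simp only [hRb, dif_neg hk, Polynomial.natDegree_zero, zero_le]
  have hPb0 : Pb ≠ 0 := by
    intro h
    apply hk₀
    rw [← hRb_fin k₀, ← hcoeff, h, Polynomial.coeff_zero]
  have hnb : Pb.natDegree < q + 2 := by omega
  -- the reduced relations as bivariate evaluations
  have b1 : aevalAeval tb (tb ^ q) Pb = 0 := by
    rw [s34e_aevalAeval_eq_sum Pb (q + 2) hnb, Finset.sum_range, ← r1]
    refine Finset.sum_congr rfl fun k _ => ?_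
    rw [hcoeff, hRb_fin]
  have b2 : aevalAeval (tb ^ q) tb Pb = 0 := by
    rw [s34e_aevalAeval_eq_sum Pb (q + 2) hnb, Finset.sum_range, ← r2]
    refine Finset.sum_congr rfl fun k _ => ?_
    rw [hcoeff, hRb_fin]
  -- back to `κ[X]` by transcendence
  have hinj : Function.Injective (Polynomial.aeval (R := κ) tb) :=
    transcendental_iff_injective.mp htb
  have c1 : aevalAeval (Polynomial.X : κ[X]) (Polynomial.X ^ q) Pb = 0 := by
    apply hinj
    rw [s34e_map_aevalAeval, map_zero, map_pow, Polynomial.aeval_X]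
    exact b1
  have c2 : aevalAeval ((Polynomial.X : κ[X]) ^ q) Polynomial.X Pb = 0 := by
    apply hinj
    rw [s34e_map_aevalAeval, map_zero, map_pow, Polynomial.aeval_X]
    exact b2
  obtain ⟨hA, hB⟩ := s34e_corners_aeval q hq Pb hPb0 hPbY hPbX c1 c2
  -- lift the corners
  have hlift : ∀ (k : Fin (q + 2)) (i : ℕ), (Pb.coeff (k : ℕ)).coeff i ≠ 0 →
      (Ψ.coeff (k : ℕ)).coeff i ≠ 0 := by
    intro k i hne h0
    apply hne
    rw [hcoeff, hRb_fin, Polynomial.coeff_map]
    have h3 := congrArg (fun p => p.coeff i) (hR k)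
    simp only [Polynomial.coeff_map, Polynomial.coeff_C_mul, hPdef, h0, mul_zero] at h3
    have h4 : (R k).coeff i = 0 := Subtype.ext h3
    rw [h4, map_zero]
  exact ⟨hlift ⟨q + 1, by omega⟩ 0 hA, hlift ⟨0, by omega⟩ (q + 1) hB⟩

end Fermat.Agent.Lib.S34
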