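/-
S34 moonshot, §E (q ∈ {2,3}), helper4: CLAIM 1 at level `M * q` for a Hauptmodul-type base function.

`w ∈ 𝓕_M` with `j · w^a = A(w)` (`A ∈ K₀[X]` monic of degree `> a ≥ 1`, `A(0) ≠ 0`), `x := α w`,
`y := β w ∈ 𝓕_{Mq}`.
* `s34e_cusp_unit_level`: `ord_P x = 0 → ord_P y = 0` (unit case (a)).
* `s34e_cusp_claim`: CLAIM 1 from a relation `Ψ(x, y) = 0` of bidegree `≤ (q+1, q+1)` which is
  symmetric (`Ψ(y, x) = 0`), via reduction (EReduce) + Newton (ENewton).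
-/
import Fermat.Agent.Lib.S34.ECuspAbs
import Fermat.Agent.Lib.S34.EReduce
import Fermat.Agent.Lib.S34.DStarInst
import Fermat.Agent.Lib.S34.MValRed

set_option autoImplicit false
set_option linter.style.haveILetI false

noncomputable section

namespace Fermat.Agent.Lib.S34

open ModularCurve AlgebraicCurve HahnSeries Polynomial Fermat.Agent.Lib.FF Fermat.Agent.Lib.S18
  Fermat.Agent.Lib.S28 Fermat.Agent.Lib.S37
open scoped Polynomial.Bivariate

local notation "Kb" => AlgebraicClosure ℚ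

variable {K₀ : Type*} [Field K₀] [Algebra ℚ K₀] {κ : Type*} [Field κ] (G : s18g_GaussData K₀ κ)
variable (φ : K₀ →+* Kb) (M q : ℕ) [NeZero M] [NeZero q]

/-- **Unit case (a) at level `M q`.** -/
theorem s34e_cusp_unit_level (A : K₀[X]) (hA : A.Monic) (a : ℕ) (ha0 : 0 < a)
    (haD : a < A.natDegree) (hA0 : A.coeff 0 ≠ 0) (w : s34m_F K₀ M) (hw0 : w ≠ 0)
    (hrel : s18g_jF (K := K₀) M * w ^ a = aeval w A)
    (P : Place K₀ (s34m_F K₀ (M * q))) (h : P.ord (heckeAlphaBar K₀ M q w) = 0) :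
    P.ord (heckeBetaBar K₀ M q w) = 0 := by
  have hx0 : heckeAlphaBar K₀ M q w ≠ 0 :=
    (map_ne_zero_iff _ (heckeAlphaBar K₀ M q).toRingHom.injective).mpr hw0
  have hy0 : heckeBetaBar K₀ M q w ≠ 0 :=
    (map_ne_zero_iff _ (heckeBetaBar K₀ M q).toRingHom.injective).mpr hw0
  have hx : heckeAlphaBar K₀ M q w ∈ P.toValuationSubring :=
    (ff_mem_iff_ord_nonneg P hx0).mpr h.ge
  have hxi : (heckeAlphaBar K₀ M q w)⁻¹ ∈ P.toValuationSubring := by
    rw [ff_mem_iff_ord_nonneg P (inv_ne_zero hx0), P.ord_inv, h, neg_zero]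
  have r1 : s18g_jF (K := K₀) (M * q) * heckeAlphaBar K₀ M q w ^ a =
      aeval (heckeAlphaBar K₀ M q w) A := by
    have := congrArg (heckeAlphaBar K₀ M q) hrel
    rw [map_mul, map_pow, s34d2_alpha_j, ← Polynomial.aeval_algHom_apply] at this
    exact this
  have r2 : s34d2_u M q * heckeBetaBar K₀ M q w ^ a = aeval (heckeBetaBar K₀ M q w) A := by
    have := congrArg (heckeBetaBar K₀ M q) hrel
    rw [map_mul, map_pow, ← Polynomial.aeval_algHom_apply] at this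
    exact this
  obtain ⟨hy, hyi⟩ := s34e_cusp_unit P.toValuationSubring P.algebraMap_mem' A hA a ha0 haD hA0
    _ _ _ _ hy0 r1 r2 (s34d2_intOver_u M q) hx hxi
  have h1 := (ff_mem_iff_ord_nonneg P hy0).mp hy
  have h2 := (ff_mem_iff_ord_nonneg P (inv_ne_zero hy0)).mp hyi
  rw [P.ord_inv] at h2
  omega

include φ in
/-- **CLAIM 1 at level `M q`** for a base function `w ∈ 𝓕_M` of Hauptmodul type whose reduction
`t̄` satisfies `t̄(T^q) = t̄^q`, from a relation `Ψ(αw, βw) = 0` of bidegree `≤ (q+1, q+1)`. -/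
theorem s34e_cusp_claim (hq : q.Prime) (hqM : ¬ q ∣ M)
    (A : K₀[X]) (hA : A.Monic) (a : ℕ) (ha0 : 0 < a)
    (haD : a < A.natDegree) (hA0 : A.coeff 0 ≠ 0) (w : s34m_F K₀ M) (hw0 : w ≠ 0)
    (hrel : s18g_jF (K := K₀) M * w ^ a = aeval w A)
    (hwV : w ∈ s34m_Vinf G M) (tb : LaurentSeries κ) (htb : Transcendental κ tb)
    (hred : s34m_redInf G M ⟨w, hwV⟩ = tb) (hfrob : qExpand κ q tb = tb ^ q)
    (Ψ : K₀[X][Y]) (hΨ : Ψ ≠ 0) (hY : Ψ.natDegree ≤ q + 1)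
    (hX : ∀ k, (Ψ.coeff k).natDegree ≤ q + 1)
    (h0 : aevalAeval (heckeAlphaBar K₀ M q w) (heckeBetaBar K₀ M q w) Ψ = 0)
    (P : Place K₀ (s34m_F K₀ (M * q))) :
    (0 ≤ P.ord (heckeAlphaBar K₀ M q w) → 0 ≤ P.ord (heckeBetaBar K₀ M q w)) ∧
      (P.ord (heckeAlphaBar K₀ M q w) ≤ 0 → P.ord (heckeBetaBar K₀ M q w) ≤ 0) := by
  -- the symmetric relation, by `w_q`
  have h0' : aevalAeval (heckeBetaBar K₀ M q w) (heckeAlphaBar K₀ M q w) Ψ = 0 := by
    have := congrArg (s34m_al φ M q hq hqM : s34m_F K₀ (M * q) →ₐ[K₀] s34m_F K₀ (M * q)) h0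
    rw [s34e_map_aevalAeval, map_zero] at this
    have e1 : (s34m_al φ M q hq hqM : s34m_F K₀ (M * q) →ₐ[K₀] s34m_F K₀ (M * q))
        (heckeAlphaBar K₀ M q w) = heckeBetaBar K₀ M q w := s34m_al_alpha φ M q hq hqM w
    have e2 : (s34m_al φ M q hq hqM : s34m_F K₀ (M * q) →ₐ[K₀] s34m_F K₀ (M * q))
        (heckeBetaBar K₀ M q w) = heckeAlphaBar K₀ M q w := s34m_al_beta φ M q hq hqM w
    rwa [e1, e2] at this
  -- down to Laurent series
  have hxO : ((w : s34m_F K₀ M) : LaurentSeries K₀) ∈ s18g_O G := hwV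
  have hyO : qExpand K₀ q ((w : s34m_F K₀ M) : LaurentSeries K₀) ∈ s18g_O G :=
    s34m_qExpand_mem_O G q hxO
  have hrx : s18g_red G ⟨((w : s34m_F K₀ M) : LaurentSeries K₀), hxO⟩ = tb := hred
  have hry : s18g_red G ⟨qExpand K₀ q ((w : s34m_F K₀ M) : LaurentSeries K₀), hyO⟩ = tb ^ q := by
    rw [s34m_red_qExpand G q ⟨_, hxO⟩, hrx, hfrob]
  have l1 : aevalAeval ((w : s34m_F K₀ M) : LaurentSeries K₀)
      (qExpand K₀ q ((w : s34m_F K₀ M) : LaurentSeries K₀)) Ψ = 0 := by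
    have := congrArg (laurentBaseChange K₀ (modularFunctionFieldFull (M * q))).val h0
    rw [s34e_map_aevalAeval, map_zero] at this
    simpa using this
  have l2 : aevalAeval (qExpand K₀ q ((w : s34m_F K₀ M) : LaurentSeries K₀))
      ((w : s34m_F K₀ M) : LaurentSeries K₀) Ψ = 0 := by
    have := congrArg (laurentBaseChange K₀ (modularFunctionFieldFull (M * q))).val h0'
    rw [s34e_map_aevalAeval, map_zero] at this
    simpa using this
  obtain ⟨hc1, hc2⟩ := s34e_red_corners G q hq.two_le _ _ hxO hyO tb htb hrx hry Ψ hΨ hY hX l1 l2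
  exact s34e_cusp_claim_abs _ _ (q + 1) Ψ hY hX h0 hc1 hc2
    (fun P' h => s34e_cusp_unit_level M q A hA a ha0 haD hA0 w hw0 hrel P' h) P

end Fermat.Agent.Lib.S34
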