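/-
S34 moonshot, §E (q ∈ {2,3}), helper4: CLAIM 1 for the base functions `t₂` (`q ≠ 2`) and `t₃`
(`q ≠ 3`) at level `M q`, from a symmetric relation of bidegree `≤ (q+1, q+1)`.
-/
import Fermat.Agent.Lib.S34.ECusp
import Fermat.Agent.Lib.S18.BHaupt

set_option autoImplicit false
set_option linter.style.haveILetI false

noncomputable section

namespace Fermat.Agent.Lib.S34

open ModularCurve AlgebraicCurve HahnSeries Polynomial Fermat.Agent.Lib.FF Fermat.Agent.Lib.S18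
  Fermat.Agent.Lib.S28 Fermat.Agent.Lib.S37
open scoped Polynomial.Bivariate

local notation "Kb" => AlgebraicClosure ℚ

variable {K₀ : Type*} [Field K₀] [Algebra ℚ K₀] {κ : Type*} [Field κ] (G : s18g_GaussData K₀ κ)
variable (φ : K₀ →+* Kb) (M q : ℕ) [NeZero M] [NeZero q]

/-- In characteristic `q`, a series with prime-field coefficients satisfies `f(T^q) = f^q`. -/
theorem s34e_cusp_frob_t2 [Fact q.Prime] [CharP κ q] :
    qExpand κ q (s18u_t2 κ) = s18u_t2 κ ^ q := by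
  rw [s37e_pow_char q (s18u_t2 κ), s18u_coeffMap_t2]

theorem s34e_cusp_frob_t3 [Fact q.Prime] [CharP κ q] :
    qExpand κ q (s18u_t3 κ) = s18u_t3 κ ^ q := by
  rw [s37e_pow_char q (s18u_t3 κ), s18u_coeffMap_t3]

/-- The Hauptmodul relation inside `𝓕_M`. -/
theorem s34e_cusp_rel_of_coe (A : K₀[X]) (a : ℕ) (t : LaurentSeries K₀)
    (h : jqModC K₀ * t ^ a = aeval t A) (w : s34m_F K₀ M)
    (hcoe : (w : LaurentSeries K₀) = t) :
    s18g_jF (K := K₀) M * w ^ a = aeval w A := by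
  apply Subtype.ext
  have e : ((aeval w A : s34m_F K₀ M) : LaurentSeries K₀) = aeval (w : LaurentSeries K₀) A :=
    (Polynomial.aeval_algHom_apply
      (laurentBaseChange K₀ (modularFunctionFieldFull M)).val w A).symm
  rw [e, hcoe, ← h]
  simp [hcoe]

variable [CharZero K₀]

include G φ in
/-- **CLAIM 1 for `t₂`** (`q` odd). -/
theorem s34e_cusp_claim_t2 (hq : q.Prime) (hqM : ¬ q ∣ M) [CharP κ q]
    (w : s34m_F K₀ M) (hcoe : (w : LaurentSeries K₀) = s18u_t2 K₀)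
    (Ψ : K₀[X][Y]) (hΨ : Ψ ≠ 0) (hY : Ψ.natDegree ≤ q + 1)
    (hX : ∀ k, (Ψ.coeff k).natDegree ≤ q + 1)
    (h0 : aevalAeval (heckeAlphaBar K₀ M q w) (heckeBetaBar K₀ M q w) Ψ = 0)
    (P : Place K₀ (s34m_F K₀ (M * q))) :
    (0 ≤ P.ord (heckeAlphaBar K₀ M q w) → 0 ≤ P.ord (heckeBetaBar K₀ M q w)) ∧
      (P.ord (heckeAlphaBar K₀ M q w) ≤ 0 → P.ord (heckeBetaBar K₀ M q w) ≤ 0) := by
  haveI : Fact q.Prime := ⟨hq⟩
  have hH := s18b_haupt_two K₀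
  have hw0 : w ≠ 0 := by
    rintro rfl
    exact s18b_t2_ne_zero K₀ hcoe.symm
  have hwV : w ∈ s34m_Vinf G M := by
    rw [s34m_mem_Vinf, hcoe]
    exact s18b_t2_mem_O G
  have hred : s34m_redInf G M ⟨w, hwV⟩ = s18u_t2 κ := by
    rw [s34m_redInf_apply, ← s18b_red_t2 G]
    exact congrArg (s18g_red G) (Subtype.ext hcoe)
  have hA0 : ((X + Polynomial.C (256 : K₀)) ^ 3 : K₀[X]).coeff 0 ≠ 0 := by
    rw [Polynomial.coeff_zero_eq_eval_zero]
    simp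
  refine s34e_cusp_claim G φ M q hq hqM _ hH.monic 2 (by norm_num) (by rw [hH.deg]; norm_num) hA0
    w hw0 (s34e_cusp_rel_of_coe M _ 2 _ hH.rel w hcoe) hwV (s18u_t2 κ)
    (s18b_transcendental_t2 κ) hred (s34e_cusp_frob_t2 q) Ψ hΨ hY hX h0 P

include G φ in
/-- **CLAIM 1 for `t₃`** (`q ≠ 3`). -/
theorem s34e_cusp_claim_t3 (hq : q.Prime) (hqM : ¬ q ∣ M) [CharP κ q]
    (w : s34m_F K₀ M) (hcoe : (w : LaurentSeries K₀) = s18u_t3 K₀)
    (Ψ : K₀[X][Y]) (hΨ : Ψ ≠ 0) (hY : Ψ.natDegree ≤ q + 1)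
    (hX : ∀ k, (Ψ.coeff k).natDegree ≤ q + 1)
    (h0 : aevalAeval (heckeAlphaBar K₀ M q w) (heckeBetaBar K₀ M q w) Ψ = 0)
    (P : Place K₀ (s34m_F K₀ (M * q))) :
    (0 ≤ P.ord (heckeAlphaBar K₀ M q w) → 0 ≤ P.ord (heckeBetaBar K₀ M q w)) ∧
      (P.ord (heckeAlphaBar K₀ M q w) ≤ 0 → P.ord (heckeBetaBar K₀ M q w) ≤ 0) := by
  haveI : Fact q.Prime := ⟨hq⟩
  have hH := s18b_haupt_three K₀
  have hw0 : w ≠ 0 := by
    rintro rfl
    exact s18b_t3_ne_zero K₀ hcoe.symm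
  have hwV : w ∈ s34m_Vinf G M := by
    rw [s34m_mem_Vinf, hcoe]
    exact s18b_t3_mem_O G
  have hred : s34m_redInf G M ⟨w, hwV⟩ = s18u_t3 κ := by
    rw [s34m_redInf_apply, ← s18b_red_t3 G]
    exact congrArg (s18g_red G) (Subtype.ext hcoe)
  have hA0 : ((X + Polynomial.C (27 : K₀)) * (X + Polynomial.C (243 : K₀)) ^ 3 : K₀[X]).coeff 0
      ≠ 0 := by
    rw [Polynomial.coeff_zero_eq_eval_zero]
    simp
  refine s34e_cusp_claim G φ M q hq hqM _ hH.monic 3 (by norm_num) (by rw [hH.deg]; norm_num) hA0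
    w hw0 (s34e_cusp_rel_of_coe M _ 3 _ hH.rel w hcoe) hwV (s18u_t3 κ)
    (s18b_transcendental_t3 κ) hred (s34e_cusp_frob_t3 q) Ψ hΨ hY hX h0 P

end Fermat.Agent.Lib.S34
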