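/-
S34 (Plan S), §E (q ∈ {2,3}), item [E1] (helper7) — MATHLIB ONLY.

**Bidegree lemma.**  Let `F / K` be fields, `x y : F` with `x` transcendental over `K`, and
suppose that the kernel of `K[X][Y] → F, X ↦ x, Y ↦ y` contains a nonzero polynomial of `Y`-degree
`≤ n` and is stable under `swap` (`P(x,y) = 0 → P(y,x) = 0`).  Then the kernel contains a nonzero
`Ψ` with `deg_Y Ψ ≤ n` AND `deg_X Ψ ≤ n` (`s34e_exists_bidegree`).

Proof.  Take a nonzero kernel element of minimal `Y`-degree and replace it by its primitive part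
`Ψ` (over `K[X]`; the content is a nonzero element of `K[X]`, which does not vanish at the
transcendental `x`).  Pseudo-division + Gauss' lemma show that `Ψ` divides every kernel element
(`s34e_dvd_of_minimal`).  Apply this to `swap Ψ`: `Ψ ∣ swap Ψ`, hence `swap Ψ ∣ swap (swap Ψ) = Ψ`
and `deg_Y (swap Ψ) ≤ deg_Y Ψ ≤ n`.

`s34e_coeff_swap` translates `deg_Y (swap Ψ) ≤ n` into `∀ k, (Ψ.coeff k).natDegree ≤ n`
(`s34e_natDegree_coeff_le_of_swap`).
-/
import Mathlib

set_option autoImplicit false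

noncomputable section

namespace Fermat.Agent.Lib.S34

open Polynomial
open scoped Polynomial.Bivariate

/-- Coefficients of `swap Ψ`: the `(i,k)` coefficient of `swap Ψ` is the `(k,i)` coefficient of
`Ψ`. -/
theorem s34e_coeff_swap {R : Type*} [CommSemiring R] (Ψ : R[X][Y]) (i k : ℕ) :
    ((Polynomial.Bivariate.swap Ψ).coeff i).coeff k = (Ψ.coeff k).coeff i := by
  induction Ψ using Polynomial.induction_on' with
  | add p q hp hq => simp only [map_add, coeff_add, hp, hq]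
  | monomial n a =>
    induction a using Polynomial.induction_on' with
    | add p q hp hq => simp only [map_add, coeff_add, hp, hq]
    | monomial m r =>
      rw [Polynomial.Bivariate.swap_monomial_monomial]
      by_cases h1 : m = i <;> by_cases h2 : n = k <;> simp [coeff_monomial, h1, h2]

/-- `deg_Y (swap Ψ) ≤ n` gives `deg_X Ψ ≤ n`, coefficientwise. -/
theorem s34e_natDegree_coeff_le_of_swap {R : Type*} [CommSemiring R] (Ψ : R[X][Y]) (n : ℕ)
    (h : (Polynomial.Bivariate.swap Ψ).natDegree ≤ n) (k : ℕ) : (Ψ.coeff k).natDegree ≤ n := by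
  rw [natDegree_le_iff_coeff_eq_zero]
  intro i hi
  rw [← s34e_coeff_swap, coeff_eq_zero_of_natDegree_lt (lt_of_le_of_lt h hi), coeff_zero]

/-- Conversely. -/
theorem s34e_natDegree_swap_le {R : Type*} [CommSemiring R] (Ψ : R[X][Y]) (n : ℕ)
    (h : ∀ k, (Ψ.coeff k).natDegree ≤ n) : (Polynomial.Bivariate.swap Ψ).natDegree ≤ n := by
  rw [natDegree_le_iff_coeff_eq_zero]
  intro i hi
  ext k
  rw [s34e_coeff_swap, coeff_eq_zero_of_natDegree_lt (lt_of_le_of_lt (h k) hi), coeff_zero]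

/-- Gauss' lemma in the form: a primitive polynomial dividing `C a * Θ` (`a ≠ 0`) divides `Θ`. -/
theorem s34e_dvd_of_dvd_C_mul {R : Type*} [CommRing R] [IsDomain R] [StrongNormalizedGCDMonoid R]
    {Ψ Θ : R[X]} (hΨ : Ψ.IsPrimitive) {a : R} (ha : a ≠ 0) (h : Ψ ∣ C a * Θ) : Ψ ∣ Θ := by
  by_cases hΘ : Θ = 0
  · rw [hΘ]; exact dvd_zero _
  have h0 : C a * Θ ≠ 0 := mul_ne_zero (C_ne_zero.mpr ha) hΘ
  have h1 : Ψ ∣ (C a * Θ).primPart := (hΨ.dvd_primPart_iff_dvd h0).mpr h
  rw [primPart_mul h0] at h1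
  exact ((isUnit_primPart_C a).dvd_mul_left.mp h1).trans (primPart_dvd Θ)

/-- A primitive kernel element of minimal degree divides every kernel element (kernel of a ring
homomorphism `φ : R[X] → F`). -/
theorem s34e_dvd_of_minimal {R F : Type*} [CommRing R] [IsDomain R]
    [StrongNormalizedGCDMonoid R] [CommRing F] (φ : R[X] →+* F)
    (Ψ : R[X]) (hΨ : Ψ.IsPrimitive)
    (hmin : ∀ Θ : R[X], Θ ≠ 0 → φ Θ = 0 → Ψ.natDegree ≤ Θ.natDegree) (hΨ0 : φ Ψ = 0) :
    ∀ Θ : R[X], φ Θ = 0 → Ψ ∣ Θ := by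
  have hΨne : Ψ ≠ 0 := hΨ.ne_zero
  have ha : Ψ.leadingCoeff ≠ 0 := leadingCoeff_ne_zero.mpr hΨne
  intro Θ
  induction hN : Θ.natDegree using Nat.strong_induction_on generalizing Θ with
  | _ N ih =>
    intro hΘ0
    by_cases hΘ : Θ = 0
    · rw [hΘ]; exact dvd_zero _
    have hd : Ψ.natDegree ≤ Θ.natDegree := hmin Θ hΘ hΘ0
    set a := Ψ.leadingCoeff with ha_def
    set b := Θ.leadingCoeff with hb_def
    have hb : b ≠ 0 := leadingCoeff_ne_zero.mpr hΘ
    set e := Θ.natDegree - Ψ.natDegree with he_def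
    set p := C a * Θ with hp_def
    set q := C b * X ^ e * Ψ with hq_def
    have hp0 : p ≠ 0 := mul_ne_zero (C_ne_zero.mpr ha) hΘ
    have hdegp : p.degree = Θ.degree := degree_C_mul ha
    have hdegq : q.degree = Θ.degree := by
      rw [hq_def, mul_assoc, degree_C_mul hb, degree_mul, degree_X_pow,
        degree_eq_natDegree hΨne, degree_eq_natDegree hΘ, ← Nat.cast_add]
      congr 1
      omega
    have hlc : p.leadingCoeff = q.leadingCoeff := by
      rw [hp_def, hq_def, leadingCoeff_mul, leadingCoeff_mul, leadingCoeff_mul, leadingCoeff_C,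
        leadingCoeff_C, leadingCoeff_X_pow, mul_one, mul_comm]
    have hlt : (p - q).degree < p.degree := degree_sub_lt_left (hdegp.trans hdegq.symm) hp0 hlc
    have hker : φ (p - q) = 0 := by
      rw [map_sub, hp_def, hq_def, map_mul, map_mul, hΘ0, hΨ0, mul_zero, mul_zero, sub_zero]
    have hdvd : Ψ ∣ p - q := by
      by_cases hpq : p - q = 0
      · rw [hpq]; exact dvd_zero _
      · have hlt' : (p - q).natDegree < N := by
          rw [← hN]
          apply natDegree_lt_natDegree hpq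
          rw [← hdegp]; exact hlt
        exact ih _ hlt' (p - q) rfl hker
    have hdvd2 : Ψ ∣ C a * Θ := by
      have : C a * Θ = (p - q) + q := by rw [hp_def]; ring
      rw [this]
      exact dvd_add hdvd (Dvd.intro_left _ rfl)
    exact s34e_dvd_of_dvd_C_mul hΨ ha hdvd2

/-- **[E1] Bidegree lemma.** -/
theorem s34e_exists_bidegree {K F : Type*} [Field K] [Field F] [Algebra K F] (x y : F)
    (hx : Transcendental K x) (n : ℕ)
    (hrel : ∃ P : K[X][Y], P ≠ 0 ∧ P.natDegree ≤ n ∧ Polynomial.aevalAeval x y P = 0)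
    (hsymm : ∀ P : K[X][Y], Polynomial.aevalAeval x y P = 0 → Polynomial.aevalAeval y x P = 0) :
    ∃ Ψ : K[X][Y], Ψ ≠ 0 ∧ Ψ.natDegree ≤ n ∧ (Polynomial.Bivariate.swap Ψ).natDegree ≤ n ∧
      Polynomial.aevalAeval x y Ψ = 0 := by
  classical
  -- the minimal `Y`-degree of a nonzero kernel element
  have hex : ∃ d : ℕ, ∃ P : K[X][Y], P ≠ 0 ∧ P.natDegree = d ∧
      Polynomial.aevalAeval x y P = 0 := by
    obtain ⟨P, hP0, -, hP⟩ := hrel
    exact ⟨P.natDegree, P, hP0, rfl, hP⟩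
  obtain ⟨Ψ₀, hΨ₀ne, hΨ₀deg, hΨ₀ker⟩ := Nat.find_spec hex
  have hmin₀ : ∀ Θ : K[X][Y], Θ ≠ 0 → Polynomial.aevalAeval x y Θ = 0 →
      Nat.find hex ≤ Θ.natDegree := fun Θ hΘ hΘ0 =>
    Nat.find_min' hex ⟨Θ, hΘ, rfl, hΘ0⟩
  have hdn : Nat.find hex ≤ n := by
    obtain ⟨P, hP0, hPn, hP⟩ := hrel
    exact (hmin₀ P hP0 hP).trans hPn
  -- constants: `K[X] → F` is injective
  have hconst : ∀ a : K[X], (Polynomial.aevalAeval x y : K[X][Y] →ₐ[K] F) (C a) = 0 → a = 0 := by
    intro a h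
    rw [Polynomial.aevalAeval_C] at h
    exact (transcendental_iff.mp hx) a h
  -- the primitive part
  set Ψ := Ψ₀.primPart with hΨ_def
  have hΨprim : Ψ.IsPrimitive := isPrimitive_primPart Ψ₀
  have hΨne : Ψ ≠ 0 := hΨprim.ne_zero
  have hΨdeg : Ψ.natDegree = Nat.find hex := by rw [hΨ_def, natDegree_primPart, hΨ₀deg]
  have hΨker : Polynomial.aevalAeval x y Ψ = 0 := by
    have h1 : Ψ₀ = C Ψ₀.content * Ψ := eq_C_content_mul_primPart Ψ₀
    have h2 : Polynomial.aevalAeval x y (C Ψ₀.content * Ψ) = 0 := by rw [← h1]; exact hΨ₀ker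
    rw [map_mul] at h2
    rcases mul_eq_zero.mp h2 with h3 | h3
    · exact absurd (hconst _ h3) (mt content_eq_zero_iff.mp hΨ₀ne)
    · exact h3
  have hdvd : ∀ Θ : K[X][Y], Polynomial.aevalAeval x y Θ = 0 → Ψ ∣ Θ :=
    s34e_dvd_of_minimal ((Polynomial.aevalAeval x y : K[X][Y] →ₐ[K] F) : K[X][Y] →+* F)
      Ψ hΨprim
      (fun Θ hΘ hΘ0 => by rw [hΨdeg]; exact hmin₀ Θ hΘ hΘ0) hΨker
  -- the swap
  have hswapker : Polynomial.aevalAeval x y (Polynomial.Bivariate.swap Ψ) = 0 := by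
    rw [Polynomial.Bivariate.aevalAeval_swap]
    exact hsymm Ψ hΨker
  obtain ⟨R, hR⟩ := hdvd _ hswapker
  have hswapdvd : Polynomial.Bivariate.swap Ψ ∣ Ψ := by
    refine ⟨Polynomial.Bivariate.swap R, ?_⟩
    have := congrArg Polynomial.Bivariate.swap hR
    rw [Polynomial.Bivariate.swap_swap_apply, map_mul] at this
    exact this
  refine ⟨Ψ, hΨne, by rw [hΨdeg]; exact hdn, ?_, hΨker⟩
  exact (natDegree_le_of_dvd hswapdvd hΨne).trans (by rw [hΨdeg]; exact hdn)

end Fermat.Agent.Lib.S34
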