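/-
S34 moonshot, §E (`q ∈ {2, 3}`), package (b) "degree input" (helper5).

For a Hauptmodul `t` of level `ℓ ∈ {2, 3}` and a prime `q ≠ ℓ`, the two series `x = t`,
`y = t(T^q)` satisfy a nontrivial polynomial relation `P(x, y) = 0` with `deg_Y P ≤ q + 1`
(from the degree descent `RDeg`: `[𝓕_{ℓ q} : α 𝓕_ℓ] ≤ q + 1`, and `𝓕_ℓ = K₀(t)`), and the set of
relations is symmetric (apply the Atkin–Lehner involution `w_q`, which swaps `α` and `β`).
These are the hypotheses `hrel`, `hsymm` of the bidegree lemma of blueprint §E (b).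

* `s34e_rel_map`, `s34e_rel_coe` : `aevalAeval` commutes with algebra homomorphisms / coercion;
* `s34e_rel_symm`   : `P(α w, β w) = 0 → P(β w, α w) = 0` (any level `M`, any `w`);
* `s34e_rel_exists` : the relation at a level `L` with `𝓕_L = K₀(w)`;
* `s34e_rel_baseChange_le`, `s34e_rel_gen_of_haupt` : `𝓕_ℓ ⊆ K₀(t)` from Hauptmodul data;
* `s34e_rel_hrel`   : the relation for `x = α w`, `y = β w` at any level `M` with `ℓ ∣ M`,
  `(w : K₀((T))) = t`;
* `s34e_rel_hrel_t2`, `s34e_rel_hrel_t3` : the instances `t = t₂`, `t = t₃`.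
-/
import Fermat.Agent.Lib.S34.RDeg
import Fermat.Agent.Lib.S18.BHaupt
import Fermat.Agent.Lib.S18.TIndepJ
import Fermat.Agent.Lib.S18.GDegree

set_option autoImplicit false
set_option linter.style.haveILetI false
set_option linter.unusedSectionVars false

noncomputable section

namespace Fermat.Agent.Lib.S34

open ModularCurve AlgebraicCurve Fermat.Agent.Lib.FF Fermat.Agent.Lib.S18 Fermat.Agent.Lib.S28
  Fermat.Agent.Lib.S37 Polynomial
open scoped Polynomial.Bivariate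

local notation "Kb" => AlgebraicClosure ℚ

/-! ### `aevalAeval` and algebra homomorphisms -/

/-- Algebra homomorphisms commute with bivariate evaluation. -/
theorem s34e_rel_map {R A B : Type*} [CommSemiring R] [CommSemiring A] [CommSemiring B]
    [Algebra R A] [Algebra R B] (f : A →ₐ[R] B) (x y : A) (P : R[X][Y]) :
    f (aevalAeval x y P) = aevalAeval (f x) (f y) P := by
  have h : f.comp (aevalAeval x y) = aevalAeval (f x) (f y) := by
    apply (aevalAevalEquiv R B).symm.injective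
    rw [aevalAevalEquiv_symm_apply, aevalAevalEquiv_symm_apply]
    simp
  exact AlgHom.congr_fun h P

/-- Bivariate evaluation of a monomial. -/
theorem s34e_rel_monomial {R A : Type*} [CommSemiring R] [CommSemiring A] [Algebra R A]
    (x y : A) (k : ℕ) (a : R[X]) :
    aevalAeval x y (monomial k a) = aeval x a * y ^ k := by
  rw [← C_mul_X_pow_eq_monomial, map_mul, map_pow, aevalAeval_C, aevalAeval_Y]

/-- Explicit form of bivariate evaluation. -/
theorem s34e_rel_aevalAeval_eq {R A : Type*} [CommSemiring R] [CommSemiring A] [Algebra R A]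
    (x y : A) (P : R[X][Y]) :
    aevalAeval x y P = P.sum fun k a => aeval x a * y ^ k := by
  conv_lhs => rw [← P.sum_monomial_eq]
  unfold Polynomial.sum
  rw [map_sum]
  exact Finset.sum_congr rfl fun k _ => s34e_rel_monomial x y k _

section Levels

variable {K₀ : Type*} [Field K₀] [Algebra ℚ K₀]

/-- Bivariate relations in `𝓕_N` are identities of Laurent series. -/
theorem s34e_rel_coe (N : ℕ) [NeZero N] (x y : s34m_F K₀ N) (P : K₀[X][Y]) :
    ((aevalAeval x y P : s34m_F K₀ N) : LaurentSeries K₀) =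
      aevalAeval (x : LaurentSeries K₀) (y : LaurentSeries K₀) P :=
  s34e_rel_map (laurentBaseChange K₀ (modularFunctionFieldFull N)).val x y P

theorem s34e_rel_eq_zero_iff (N : ℕ) [NeZero N] (x y : s34m_F K₀ N) (P : K₀[X][Y]) :
    aevalAeval x y P = 0 ↔
      aevalAeval (x : LaurentSeries K₀) (y : LaurentSeries K₀) P = 0 := by
  rw [← s34e_rel_coe]
  constructor
  · intro h
    rw [h]
    rfl
  · intro h
    exact Subtype.ext h

variable (φ : K₀ →+* Kb) (M q : ℕ) [NeZero M] [NeZero q]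

include φ in
/-- **`hsymm`**: the relations between `α w` and `β w` are symmetric (Atkin–Lehner). -/
theorem s34e_rel_symm (hq : q.Prime) (hqM : ¬ q ∣ M) (w : s34m_F K₀ M) (P : K₀[X][Y])
    (h : aevalAeval (heckeAlphaBar K₀ M q w) (heckeBetaBar K₀ M q w) P = 0) :
    aevalAeval (heckeBetaBar K₀ M q w) (heckeAlphaBar K₀ M q w) P = 0 := by
  have h1 := s34e_rel_map (s34m_al φ M q hq hqM : s34m_F K₀ (M * q) →ₐ[K₀] s34m_F K₀ (M * q))
    (heckeAlphaBar K₀ M q w) (heckeBetaBar K₀ M q w) P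
  rw [h, map_zero] at h1
  have e1 : (s34m_al φ M q hq hqM : s34m_F K₀ (M * q) →ₐ[K₀] s34m_F K₀ (M * q))
      (heckeAlphaBar K₀ M q w) = heckeBetaBar K₀ M q w := s34m_al_alpha φ M q hq hqM w
  have e2 : (s34m_al φ M q hq hqM : s34m_F K₀ (M * q) →ₐ[K₀] s34m_F K₀ (M * q))
      (heckeBetaBar K₀ M q w) = heckeAlphaBar K₀ M q w := s34m_al_beta φ M q hq hqM w
  rw [e1, e2] at h1
  exact h1.symm

include φ in
/-- **The relation at a level `M` with `𝓕_M = K₀(w)`**: `P(α w, β w) = 0`, `deg_Y P ≤ q + 1`. -/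
theorem s34e_rel_exists (hq : q.Prime) (hqM : ¬ q ∣ M) (w : s34m_F K₀ M)
    (hw : Transcendental K₀ w)
    (hgen : ∀ r : s34m_F K₀ M, ∃ a b : K₀[X], b ≠ 0 ∧ r * aeval w b = aeval w a) :
    ∃ P : K₀[X][Y], P ≠ 0 ∧ P.natDegree ≤ q + 1 ∧
      aevalAeval (heckeAlphaBar K₀ M q w) (heckeBetaBar K₀ M q w) P = 0 := by
  classical
  letI := algebraAlong (heckeAlphaBar K₀ M q)
  obtain ⟨hfin, hle⟩ := s34r_deg_le φ M q hq hqM
  haveI := hfin
  set y := heckeBetaBar K₀ M q w with hy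
  -- the `q + 2` powers of `y` are dependent
  have hdep : ¬ LinearIndependent (s34m_F K₀ M) (fun k : Fin (q + 2) => y ^ (k : ℕ)) := by
    intro hli
    have h1 := hli.fintype_card_le_finrank
    rw [Fintype.card_fin] at h1
    have h2 : q + 2 ≤ q + 1 := le_trans h1 hle
    omega
  obtain ⟨g, hg, k₀, hk₀⟩ := Fintype.not_linearIndependent_iff.mp hdep
  have hg' : ∑ k : Fin (q + 2), heckeAlphaBar K₀ M q (g k) * y ^ (k : ℕ) = 0 := hg
  -- clear denominators
  choose a b hb hab using fun k => hgen (g k)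
  have hbw : ∀ k, aeval w (b k) ≠ 0 := fun k h =>
    hb k ((transcendental_iff.mp hw) (b k) h)
  set A : Fin (q + 2) → K₀[X] := fun k => a k * ∏ m ∈ Finset.univ.erase k, b m with hA
  set B : K₀[X] := ∏ m, b m with hB
  have hAB : ∀ k, g k * aeval w B = aeval w (A k) := by
    intro k
    rw [hA, hB, ← Finset.mul_prod_erase Finset.univ b (Finset.mem_univ k), map_mul, map_mul,
      ← mul_assoc, hab k]
  refine ⟨∑ k : Fin (q + 2), monomial (k : ℕ) (A k), ?_, ?_, ?_⟩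
  · -- nonzero: the coefficient at `k₀`
    intro h0
    have hc : (∑ k : Fin (q + 2), monomial (k : ℕ) (A k)).coeff (k₀ : ℕ) = A k₀ := by
      rw [finsetSum_coeff]
      rw [Finset.sum_eq_single k₀]
      · rw [coeff_monomial, if_pos rfl]
      · intro k _ hk
        rw [coeff_monomial, if_neg]
        exact fun h => hk (Fin.ext h)
      · intro h
        exact absurd (Finset.mem_univ k₀) h
    rw [h0, coeff_zero] at hc
    have h1 : aeval w (A k₀) = 0 := by rw [← hc, map_zero]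
    rw [← hAB k₀] at h1
    rcases mul_eq_zero.mp h1 with h2 | h2
    · exact hk₀ h2
    · rw [hB, map_prod] at h2
      obtain ⟨m, -, hm⟩ := Finset.prod_eq_zero_iff.mp h2
      exact hbw m hm
  · refine natDegree_sum_le_of_forall_le _ _ fun k _ => ?_
    refine le_trans (natDegree_monomial_le _) ?_
    have := k.2
    omega
  · rw [map_sum]
    have h1 : ∀ k : Fin (q + 2), aevalAeval (heckeAlphaBar K₀ M q w) y (monomial (k : ℕ) (A k)) =
        heckeAlphaBar K₀ M q (aeval w B) * (heckeAlphaBar K₀ M q (g k) * y ^ (k : ℕ)) := by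
      intro k
      rw [s34e_rel_monomial, aeval_algHom_apply, ← hAB k, map_mul]
      ring
    rw [Finset.sum_congr rfl fun k _ => h1 k, ← Finset.mul_sum, hg', mul_zero]

end Levels

/-! ### `𝓕_ℓ ⊆ K₀(t)` for a Hauptmodul `t` of prime level `ℓ` -/

section Haupt

variable {K₀ : Type*} [Field K₀] [Algebra ℚ K₀]

/-- An intermediate field containing all `j(T^d)`, `d ∣ N`, contains `𝓕_N`. -/
theorem s34e_rel_baseChange_le (N : ℕ) (T : IntermediateField K₀ (LaurentSeries K₀))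
    (hT : ∀ (d : ℕ) [NeZero d], d ∣ N → qExpand K₀ d (jqModC K₀) ∈ T) :
    laurentBaseChange K₀ (modularFunctionFieldFull N) ≤ T := by
  rw [laurentBaseChange, IntermediateField.adjoin_le_iff]
  rintro y ⟨x, hx, rfl⟩
  let S : Subfield (LaurentSeries ℚ) := T.toSubfield.comap (coeffEmb K₀)
  let FI : IntermediateField ℚ (LaurentSeries ℚ) :=
    S.toIntermediateField (fun c => by
      rw [eq_ratCast (algebraMap ℚ (LaurentSeries ℚ)) c]
      exact SubfieldClass.ratCast_mem _ c)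
  have hle : modularFunctionFieldFull N ≤ FI := by
    rw [modularFunctionFieldFull, IntermediateField.adjoin_le_iff]
    rintro y ⟨d, hd, hdN, rfl⟩
    show coeffEmb K₀ (qExpand ℚ d jq) ∈ T
    rw [s18g_coeffEmb_jqN]
    exact hT d hdN
  exact hle hx

/-- For Hauptmodul data `(j, j(T^ℓ), t)` of prime level `ℓ`: every element of `𝓕_ℓ` is a quotient
of polynomials in `w`, where `(w : K₀((T))) = t`. -/
theorem s34e_rel_gen_of_haupt {ℓ : ℕ} [NeZero ℓ] (hℓ : ℓ.Prime) {t : LaurentSeries K₀}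
    {D a b : ℕ} {A B : K₀[X]}
    (h : s18t_Haupt (jqModC K₀) (qExpand K₀ ℓ (jqModC K₀)) t D a b A B)
    (w : s34m_F K₀ ℓ) (hcoe : (w : LaurentSeries K₀) = t) (r : s34m_F K₀ ℓ) :
    ∃ a b : K₀[X], b ≠ 0 ∧ r * aeval w b = aeval w a := by
  have hle : laurentBaseChange K₀ (modularFunctionFieldFull ℓ) ≤ IntermediateField.adjoin K₀ {t} := by
    apply s34e_rel_baseChange_le
    intro d _ hd
    rcases (Nat.dvd_prime hℓ).mp hd with rfl | rfl
    · rw [qExpand_one_apply]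
      exact h.j_mem
    · exact h.j'_mem
  obtain ⟨p, s, hps⟩ := (IntermediateField.mem_adjoin_simple_iff K₀ _).mp (hle r.2)
  have hcoeA : ∀ p : K₀[X], ((aeval w p : s34m_F K₀ ℓ) : LaurentSeries K₀) = aeval t p := by
    intro p
    rw [← hcoe]
    exact (aeval_algHom_apply (laurentBaseChange K₀ (modularFunctionFieldFull ℓ)).val w p).symm
  by_cases hs : aeval t s = 0
  · refine ⟨0, 1, one_ne_zero, ?_⟩
    rw [hs, div_zero] at hps
    have hr : r = 0 := Subtype.ext hps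
    rw [hr, zero_mul, map_zero]
  · refine ⟨p, s, fun h0 => hs (by rw [h0, map_zero]), ?_⟩
    apply Subtype.ext
    rw [MulMemClass.coe_mul, hcoeA, hcoeA, hps, div_mul_cancel₀ _ hs]

end Haupt

/-! ### The relation at every level `M` with `ℓ ∣ M` -/

section Main

variable {K₀ : Type*} [Field K₀] [Algebra ℚ K₀] (φ : K₀ →+* Kb)

include φ in
/-- **`hrel`** for `x = α w`, `y = β w`, where `w ∈ 𝓕_M` has the series of a Hauptmodul `t` of prime
level `ℓ` (any `M`; `q` a prime different from `ℓ`; no relation between `q` and `M` needed). -/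
theorem s34e_rel_hrel {ℓ : ℕ} [NeZero ℓ] (hℓ : ℓ.Prime) {t : LaurentSeries K₀}
    {D a b : ℕ} {A B : K₀[X]}
    (h : s18t_Haupt (jqModC K₀) (qExpand K₀ ℓ (jqModC K₀)) t D a b A B)
    (ht : t ∈ laurentBaseChange K₀ (modularFunctionFieldFull ℓ))
    (htr : Transcendental K₀ t)
    (q : ℕ) [NeZero q] (hq : q.Prime) (hqℓ : q ≠ ℓ)
    (M : ℕ) [NeZero M] (w : s34m_F K₀ M) (hcoe : (w : LaurentSeries K₀) = t) :
    ∃ P : K₀[X][Y], P ≠ 0 ∧ P.natDegree ≤ q + 1 ∧
      aevalAeval (heckeAlphaBar K₀ M q w) (heckeBetaBar K₀ M q w) P = 0 := by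
  have hqℓ' : ¬ q ∣ ℓ := fun hd => hqℓ ((Nat.prime_dvd_prime_iff_eq hq hℓ).mp hd)
  set wℓ : s34m_F K₀ ℓ := ⟨t, ht⟩ with hwℓ
  have htrℓ : Transcendental K₀ wℓ := s18b_transcendental_coe ℓ wℓ htr
  obtain ⟨P, hP0, hdeg, hP⟩ := s34e_rel_exists φ ℓ q hq hqℓ' wℓ htrℓ
    (s34e_rel_gen_of_haupt hℓ h wℓ rfl)
  refine ⟨P, hP0, hdeg, ?_⟩
  rw [s34e_rel_eq_zero_iff] at hP ⊢
  rw [coe_heckeAlphaBar, coe_heckeBetaBar] at hP ⊢
  rw [hcoe]
  exact hP

include φ in
/-- `hrel` as an identity of Laurent series: `P(t, t(T^q)) = 0`, `deg_Y P ≤ q + 1`. -/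
theorem s34e_rel_hrel_series {ℓ : ℕ} [NeZero ℓ] (hℓ : ℓ.Prime) {t : LaurentSeries K₀}
    {D a b : ℕ} {A B : K₀[X]}
    (h : s18t_Haupt (jqModC K₀) (qExpand K₀ ℓ (jqModC K₀)) t D a b A B)
    (ht : t ∈ laurentBaseChange K₀ (modularFunctionFieldFull ℓ))
    (htr : Transcendental K₀ t)
    (q : ℕ) [NeZero q] (hq : q.Prime) (hqℓ : q ≠ ℓ) :
    ∃ P : K₀[X][Y], P ≠ 0 ∧ P.natDegree ≤ q + 1 ∧
      aevalAeval t (qExpand K₀ q t) P = 0 := by
  obtain ⟨P, hP0, hdeg, hP⟩ := s34e_rel_hrel φ hℓ h ht htr q hq hqℓ ℓ ⟨t, ht⟩ rfl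
  refine ⟨P, hP0, hdeg, ?_⟩
  rw [s34e_rel_eq_zero_iff, coe_heckeAlphaBar, coe_heckeBetaBar] at hP
  exact hP

include φ in
/-- `hsymm` as a statement on Laurent series: the relations between `t` and `t(T^q)` are
symmetric, for every `t ∈ 𝓕_ℓ` (`q ∤ ℓ`). -/
theorem s34e_rel_symm_series (ℓ : ℕ) [NeZero ℓ] {t : LaurentSeries K₀}
    (ht : t ∈ laurentBaseChange K₀ (modularFunctionFieldFull ℓ))
    (q : ℕ) [NeZero q] (hq : q.Prime) (hqℓ : ¬ q ∣ ℓ) (P : K₀[X][Y])
    (hP : aevalAeval t (qExpand K₀ q t) P = 0) :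
    aevalAeval (qExpand K₀ q t) t P = 0 := by
  have h1 := s34e_rel_symm φ ℓ q hq hqℓ ⟨t, ht⟩ P (by
    rw [s34e_rel_eq_zero_iff, coe_heckeAlphaBar, coe_heckeBetaBar]
    exact hP)
  rw [s34e_rel_eq_zero_iff, coe_heckeAlphaBar, coe_heckeBetaBar] at h1
  exact h1

end Main

/-! ### The instances `t₂`, `t₃` -/

section Instances

variable {K₀ : Type*} [Field K₀] [Algebra ℚ K₀] (φ : K₀ →+* Kb)
variable {κ : Type*} [Field κ] (G : s18g_GaussData K₀ κ)
variable (q : ℕ) [NeZero q] [CharP κ q]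

include φ G in
/-- `t₂ ∈ 𝓕_2(K₀)` (residue characteristic `q ≠ 2`). -/
theorem s34e_rel_t2_mem (hq : q.Prime) (hq2 : q ≠ 2) :
    s18u_t2 K₀ ∈ laurentBaseChange K₀ (modularFunctionFieldFull 2) := by
  haveI : Fact q.Prime := ⟨hq⟩
  have hq2' : ¬ q ∣ 2 := fun hd => hq2 ((Nat.prime_dvd_prime_iff_eq hq Nat.prime_two).mp hd)
  exact s18b_t2_mem_baseChange G (s18t_indep_j q 2 hq2' κ)
    (fun n b hb hn => s18g_exists_relation 2 φ hn b hb) 2 dvd_rfl

include φ G in
/-- `t₃ ∈ 𝓕_3(K₀)` (residue characteristic `q ≠ 3`). -/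
theorem s34e_rel_t3_mem (hq : q.Prime) (hq3 : q ≠ 3) :
    s18u_t3 K₀ ∈ laurentBaseChange K₀ (modularFunctionFieldFull 3) := by
  haveI : Fact q.Prime := ⟨hq⟩
  have hq3' : ¬ q ∣ 3 := fun hd => hq3 ((Nat.prime_dvd_prime_iff_eq hq Nat.prime_three).mp hd)
  exact s18b_t3_mem_baseChange G (s18t_indep_j q 3 hq3' κ)
    (fun n b hb hn => s18g_exists_relation 3 φ hn b hb) 3 dvd_rfl

include φ G in
/-- **`hrel` for `t₂`** (series form): `P(t₂, t₂(T^q)) = 0`, `P ≠ 0`, `deg_Y P ≤ q + 1`. -/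
theorem s34e_rel_hrel_t2 (hq : q.Prime) (hq2 : q ≠ 2) :
    ∃ P : K₀[X][Y], P ≠ 0 ∧ P.natDegree ≤ q + 1 ∧
      aevalAeval (s18u_t2 K₀) (qExpand K₀ q (s18u_t2 K₀)) P = 0 :=
  s34e_rel_hrel_series φ Nat.prime_two (s18b_haupt_two K₀) (s34e_rel_t2_mem φ G q hq hq2)
    (s18b_transcendental_t2 K₀) q hq hq2

include φ G in
/-- **`hsymm` for `t₂`** (series form). -/
theorem s34e_rel_symm_t2 (hq : q.Prime) (hq2 : q ≠ 2) (P : K₀[X][Y])
    (hP : aevalAeval (s18u_t2 K₀) (qExpand K₀ q (s18u_t2 K₀)) P = 0) :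
    aevalAeval (qExpand K₀ q (s18u_t2 K₀)) (s18u_t2 K₀) P = 0 :=
  s34e_rel_symm_series φ 2 (s34e_rel_t2_mem φ G q hq hq2) q hq
    (fun hd => hq2 ((Nat.prime_dvd_prime_iff_eq hq Nat.prime_two).mp hd)) P hP

include φ G in
/-- **`hrel` for `t₃`** (series form): `P(t₃, t₃(T^q)) = 0`, `P ≠ 0`, `deg_Y P ≤ q + 1`. -/
theorem s34e_rel_hrel_t3 (hq : q.Prime) (hq3 : q ≠ 3) :
    ∃ P : K₀[X][Y], P ≠ 0 ∧ P.natDegree ≤ q + 1 ∧
      aevalAeval (s18u_t3 K₀) (qExpand K₀ q (s18u_t3 K₀)) P = 0 :=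
  s34e_rel_hrel_series φ Nat.prime_three (s18b_haupt_three K₀) (s34e_rel_t3_mem φ G q hq hq3)
    (s18b_transcendental_t3 K₀) q hq hq3

include φ G in
/-- **`hsymm` for `t₃`** (series form). -/
theorem s34e_rel_symm_t3 (hq : q.Prime) (hq3 : q ≠ 3) (P : K₀[X][Y])
    (hP : aevalAeval (s18u_t3 K₀) (qExpand K₀ q (s18u_t3 K₀)) P = 0) :
    aevalAeval (qExpand K₀ q (s18u_t3 K₀)) (s18u_t3 K₀) P = 0 :=
  s34e_rel_symm_series φ 3 (s34e_rel_t3_mem φ G q hq hq3) q hq
    (fun hd => hq3 ((Nat.prime_dvd_prime_iff_eq hq Nat.prime_three).mp hd)) P hP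

end Instances

end Fermat.Agent.Lib.S34
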