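/-
S34 moonshot, §E (`q ∈ {2, 3}`), (b) assembled (helper5): the symmetric modular relation `Ψ` of
bidegree `≤ (q + 1, q + 1)` between `t` and `t(T^q)` for the Hauptmoduln `t = t₂` (`q ≠ 2`) and
`t = t₃` (`q ≠ 3`), as an identity of Laurent series over `K₀`:

  `Ψ ≠ 0`, `deg_Y Ψ ≤ q + 1`, `deg_X Ψ ≤ q + 1`, `Ψ(t, t(T^q)) = 0` (and `Ψ(t(T^q), t) = 0`).

= `s34e_exists_bidegree` (helper7, `EBidegree.lean`) applied to `hrel`, `hsymm` of `ERel.lean`.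
-/
import Fermat.Agent.Lib.S34.ERel
import Fermat.Agent.Lib.S34.EBidegree

set_option autoImplicit false
set_option linter.unusedSectionVars false

noncomputable section

namespace Fermat.Agent.Lib.S34

open ModularCurve AlgebraicCurve Fermat.Agent.Lib.FF Fermat.Agent.Lib.S18 Polynomial
open scoped Polynomial.Bivariate

local notation "Kb" => AlgebraicClosure ℚ

variable {K₀ : Type*} [Field K₀] [Algebra ℚ K₀] (φ : K₀ →+* Kb)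
variable {κ : Type*} [Field κ] (G : s18g_GaussData K₀ κ)
variable (q : ℕ) [NeZero q] [CharP κ q]

include φ G in
/-- **The modular relation of `t₂`** of bidegree `≤ (q+1, q+1)`, `q ≠ 2`. -/
theorem s34e_psi_t2 (hq : q.Prime) (hq2 : q ≠ 2) :
    ∃ Ψ : K₀[X][Y], Ψ ≠ 0 ∧ Ψ.natDegree ≤ q + 1 ∧ (∀ k, (Ψ.coeff k).natDegree ≤ q + 1) ∧
      aevalAeval (s18u_t2 K₀) (qExpand K₀ q (s18u_t2 K₀)) Ψ = 0 ∧
      aevalAeval (qExpand K₀ q (s18u_t2 K₀)) (s18u_t2 K₀) Ψ = 0 := by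
  obtain ⟨Ψ, h0, hY, hX, hΨ⟩ := s34e_exists_bidegree (K := K₀) (s18u_t2 K₀)
    (qExpand K₀ q (s18u_t2 K₀)) (s18b_transcendental_t2 K₀) (q + 1)
    (s34e_rel_hrel_t2 φ G q hq hq2) (s34e_rel_symm_t2 φ G q hq hq2)
  exact ⟨Ψ, h0, hY, s34e_natDegree_coeff_le_of_swap Ψ (q + 1) hX, hΨ,
    s34e_rel_symm_t2 φ G q hq hq2 Ψ hΨ⟩

include φ G in
/-- **The modular relation of `t₃`** of bidegree `≤ (q+1, q+1)`, `q ≠ 3`. -/
theorem s34e_psi_t3 (hq : q.Prime) (hq3 : q ≠ 3) :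
    ∃ Ψ : K₀[X][Y], Ψ ≠ 0 ∧ Ψ.natDegree ≤ q + 1 ∧ (∀ k, (Ψ.coeff k).natDegree ≤ q + 1) ∧
      aevalAeval (s18u_t3 K₀) (qExpand K₀ q (s18u_t3 K₀)) Ψ = 0 ∧
      aevalAeval (qExpand K₀ q (s18u_t3 K₀)) (s18u_t3 K₀) Ψ = 0 := by
  obtain ⟨Ψ, h0, hY, hX, hΨ⟩ := s34e_exists_bidegree (K := K₀) (s18u_t3 K₀)
    (qExpand K₀ q (s18u_t3 K₀)) (s18b_transcendental_t3 K₀) (q + 1)
    (s34e_rel_hrel_t3 φ G q hq hq3) (s34e_rel_symm_t3 φ G q hq hq3)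
  exact ⟨Ψ, h0, hY, s34e_natDegree_coeff_le_of_swap Ψ (q + 1) hX, hΨ,
    s34e_rel_symm_t3 φ G q hq hq3 Ψ hΨ⟩

end Fermat.Agent.Lib.S34
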