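/-
S34 moonshot, §E (q ∈ {2,3}), helper4: **CLAIM 1, hypothesis-free**, for the base functions `t₂`
(`q ≠ 2`) and `t₃` (`q ≠ 3`) at level `M q`: for every place `P` of `𝓕_{Mq}`, with `x := α w`,
`y := β w` (`w ∈ 𝓕_M` with series `t₂` resp. `t₃`):

  `(0 ≤ ord_P x → 0 ≤ ord_P y) ∧ (ord_P x ≤ 0 → ord_P y ≤ 0)`

= the hypothesis `hclaim` of helper1's `s34e_ch_beta₁/₂` (EChart.lean): both charts of `t₂`, `t₃` are
stable under the Atkin–Lehner involution `w_q`.  Proof: helper5's symmetric relation `Ψ` of bidegree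
`≤ (q+1, q+1)` (EPsi = ERel + helper7's EBidegree), reduction + helper9's corner lemma (EReduce),
Newton (ENewton), and the unit case (ECuspAbs).
-/
import Fermat.Agent.Lib.S34.ECuspInst
import Fermat.Agent.Lib.S34.EPsi

set_option autoImplicit false
set_option linter.style.haveILetI false

noncomputable section

namespace Fermat.Agent.Lib.S34

open ModularCurve AlgebraicCurve HahnSeries Polynomial Fermat.Agent.Lib.FF Fermat.Agent.Lib.S18
open scoped Polynomial.Bivariate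

local notation "Kb" => AlgebraicClosure ℚ

variable {K₀ : Type*} [Field K₀] [Algebra ℚ K₀] [CharZero K₀] {κ : Type*} [Field κ]
  (G : s18g_GaussData K₀ κ)
variable (φ : K₀ →+* Kb) (M q : ℕ) [NeZero M] [NeZero q] [CharP κ q]

include G φ in
/-- **CLAIM 1 for `t₂`**, hypothesis-free. -/
theorem s34e_cusp_hclaim_t2 (hq : q.Prime) (hqM : ¬ q ∣ M) (hq2 : q ≠ 2)
    (w : s34m_F K₀ M) (hcoe : (w : LaurentSeries K₀) = s18u_t2 K₀)
    (P : Place K₀ (s34m_F K₀ (M * q))) :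
    (0 ≤ P.ord (heckeAlphaBar K₀ M q w) → 0 ≤ P.ord (heckeBetaBar K₀ M q w)) ∧
      (P.ord (heckeAlphaBar K₀ M q w) ≤ 0 → P.ord (heckeBetaBar K₀ M q w) ≤ 0) := by
  obtain ⟨Ψ, hΨ, hY, hX, h1, -⟩ := s34e_psi_t2 φ G q hq hq2
  refine s34e_cusp_claim_t2 G φ M q hq hqM w hcoe Ψ hΨ hY hX ?_ P
  rw [s34e_rel_eq_zero_iff, coe_heckeAlphaBar, coe_heckeBetaBar, hcoe]
  exact h1

include G φ in
/-- **CLAIM 1 for `t₃`**, hypothesis-free. -/
theorem s34e_cusp_hclaim_t3 (hq : q.Prime) (hqM : ¬ q ∣ M) (hq3 : q ≠ 3)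
    (w : s34m_F K₀ M) (hcoe : (w : LaurentSeries K₀) = s18u_t3 K₀)
    (P : Place K₀ (s34m_F K₀ (M * q))) :
    (0 ≤ P.ord (heckeAlphaBar K₀ M q w) → 0 ≤ P.ord (heckeBetaBar K₀ M q w)) ∧
      (P.ord (heckeAlphaBar K₀ M q w) ≤ 0 → P.ord (heckeBetaBar K₀ M q w) ≤ 0) := by
  obtain ⟨Ψ, hΨ, hY, hX, h1, -⟩ := s34e_psi_t3 φ G q hq hq3
  refine s34e_cusp_claim_t3 G φ M q hq hqM w hcoe Ψ hΨ hY hX ?_ P
  rw [s34e_rel_eq_zero_iff, coe_heckeAlphaBar, coe_heckeBetaBar, hcoe]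
  exact h1

end Fermat.Agent.Lib.S34
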