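/-
S34 moonshot ([SS] ⇒ S34), §E final wiring (helper1; backup of helper2's `EWire.lean`, own prefix
`s34d_`): the branches `q = 3, 2 ∣ M` (base function `t₂`) and `q = 2, 3 ∣ M` (base function `t₃`).

* `s34d_elem_t2_1/_2`, `s34d_elem_t3_1/_2` : `s34f_Elem` on the two charts of `α t_M` (`t_M` ANY level-`M`
  function with series `t₂` resp. `t₃`), from `s34d_elem_of_hmain` (DFiveTop) with
  `hmain` = helper2's `s34dt_hmain_t2(_inv)/_t3(_inv)`, chart inclusions = `EChart.lean` with helper4's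
  CLAIM 1 (`s34e_cusp_hclaim_t2/_t3`), coordinate = S37 `s37b_coord_t2/_t3` (+ `s37b_coord_inv`);
* `s34d_geo_t2 : 2 ∣ M → s34f_Geo M 3 hq hqM`, `s34d_geo_t3 : 3 ∣ M → s34f_Geo M 2 hq hqM`
  (via helper3's `s34f_geo_of_base` and helper6's `s34m_base_t2/_t3`);
* `s34d_geo_all` : `s34f_Geo M q hq hqM` on all three S18-good branches.
-/
import Fermat.Agent.Lib.S34.DFiveTop
import Fermat.Agent.Lib.S34.DHmainT
import Fermat.Agent.Lib.S34.EChart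
import Fermat.Agent.Lib.S34.ECuspFinal
import Fermat.Agent.Lib.S34.EBaseT
import Fermat.Agent.Lib.S34.FBase

set_option autoImplicit false
set_option linter.unusedSectionVars false
set_option linter.style.haveILetI false

noncomputable section

namespace Fermat.Agent.Lib.S34

open ModularCurve AlgebraicCurve HahnSeries Polynomial Fermat.Agent.Lib.FF Fermat.Agent.Lib.S18
  Fermat.Agent.Lib.S37

local notation "Qbar" => AlgebraicClosure ℚ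

section Elem

variable (M q : ℕ) [NeZero M] [NeZero q] (hq : q.Prime) (hqM : ¬ q ∣ M)
  (K₀ : Type) [Field K₀] [NumberField K₀] (φ : K₀ →+* Qbar)
  (κ : Type) [Field κ] [CharP κ q] [PerfectField κ]
  (G : s18g_GaussData K₀ κ) [IsDiscreteValuationRing G.A] (hπ : Function.Surjective G.π)

local notation "𝓕M" => laurentBaseChange K₀ (modularFunctionFieldFull M)
local notation "hFM" => (fun (f : LaurentSeries K₀)
  (hf : f ∈ laurentBaseChange K₀ (modularFunctionFieldFull M)) => s18g_baseChange_mem_Frac G M hf)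

include hπ in
/-- `s34f_Elem` on chart 1 of `α t_M`, `t_M` with series `t₂` (`q = 3`, `2 ∣ M`). -/
theorem s34d_elem_t2_1 (hq3 : q = 3) (h2M : 2 ∣ M) (tM : s34m_F K₀ M)
    (htM : (tM : LaurentSeries K₀) = s18u_t2 K₀) [FFGen K₀ tM]
    (hwV : tM ∈ s34m_Vinf G M)
    (hred : s18g_redV G _ (s34m_hF G M) ⟨tM, hwV⟩ = s18u_t2 κ) :
    s34f_Elem M q hq hqM G φ (s18_chart1 (L₀ := K₀) (heckeAlphaBar K₀ M q tM)) := by
  haveI : Fact q.Prime := ⟨hq⟩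
  haveI : FFGen K₀ (s18g_jF (K := K₀) (M * q)) :=
    s18b_ffGen_jF (M * q) (fun _ b hb hn => s18g_exists_relation (M * q) φ hn b hb)
  have hT : s18g_HT κ M := s18t_indep_j q M hqM κ
  have hdegM : s18g_HDeg K₀ M := fun _ b hb hn => s18g_exists_relation M φ hn b hb
  have htM0 : tM ≠ 0 := by
    intro h0
    apply s18b_t2_ne_zero K₀
    rw [← htM, h0]; rfl
  have hq2 : q ≠ 2 := by omega
  refine s34d_elem_of_hmain G φ M q hq hqM (s34r_deg_HDeg φ M q hq hqM) hT hdegM tM hwV ?_ ?_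
    (s34dt_hmain_t2 M q hqM K₀ φ κ G hπ hT hdegM hq3 h2M tM htM) _
    (s34e_ch_alpha₁ G φ M q hq hqM tM)
    (s34e_ch_beta₁ G φ M q hq hqM htM0
      (fun P => s34e_cusp_hclaim_t2 G φ M q hq hqM hq2 tM htM P))
  · show s37b_Coord κ q (s18g_redV G _ (s34m_hF G M) ⟨tM, hwV⟩)
    rw [hred]
    exact s37b_coord_t2 κ q
  · intro τ
    show coeffMap (τ : κ →+* κ) (s18g_redV G _ (s34m_hF G M) ⟨tM, hwV⟩) =
      s18g_redV G _ (s34m_hF G M) ⟨tM, hwV⟩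
    rw [hred]
    exact s18u_coeffMap_t2 _

include hπ in
/-- `s34f_Elem` on chart 2 of `α t_M`, `t_M` with series `t₂` (`q = 3`, `2 ∣ M`). -/
theorem s34d_elem_t2_2 (hq3 : q = 3) (h2M : 2 ∣ M) (tM : s34m_F K₀ M)
    (htM : (tM : LaurentSeries K₀) = s18u_t2 K₀) [FFGen K₀ tM⁻¹]
    (hwV : tM ∈ s34m_Vinf G M) (hwinvV : tM⁻¹ ∈ s34m_Vinf G M)
    (hred : s18g_redV G _ (s34m_hF G M) ⟨tM, hwV⟩ = s18u_t2 κ) :
    s34f_Elem M q hq hqM G φ (s18_chart2 (L₀ := K₀) (heckeAlphaBar K₀ M q tM)) := by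
  haveI : Fact q.Prime := ⟨hq⟩
  haveI : FFGen K₀ (s18g_jF (K := K₀) (M * q)) :=
    s18b_ffGen_jF (M * q) (fun _ b hb hn => s18g_exists_relation (M * q) φ hn b hb)
  have hT : s18g_HT κ M := s18t_indep_j q M hqM κ
  have hdegM : s18g_HDeg K₀ M := fun _ b hb hn => s18g_exists_relation M φ hn b hb
  have htM0 : tM ≠ 0 := by
    intro h0
    apply s18b_t2_ne_zero K₀
    rw [← htM, h0]; rfl
  have hq2 : q ≠ 2 := by omega
  have hredinv : ((s18g_redF G M hFM hT hdegM ⟨tM⁻¹, hwinvV⟩ :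
      ↥(modularFunctionFieldFullC κ M)) : LaurentSeries κ) = (s18u_t2 κ)⁻¹ := by
    rw [s18f_redF_inv G M hT hdegM tM htM0 hwV hwinvV]
    show (s18g_redV G _ (s34m_hF G M) ⟨tM, hwV⟩)⁻¹ = _
    rw [hred]
  refine s34d_elem_of_hmain G φ M q hq hqM (s34r_deg_HDeg φ M q hq hqM) hT hdegM tM⁻¹ hwinvV
    ?_ ?_
    (s34dt_hmain_t2_inv M q hqM K₀ φ κ G hπ hT hdegM hq3 h2M tM htM) _
    (s34e_ch_alpha₂ G φ M q hq hqM tM)
    (s34e_ch_beta₂ G φ M q hq hqM htM0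
      (fun P => s34e_cusp_hclaim_t2 G φ M q hq hqM hq2 tM htM P))
  · rw [hredinv]
    exact s37b_coord_inv (s37b_coord_t2 κ q)
  · intro τ
    rw [hredinv, map_inv₀, s18u_coeffMap_t2]

include hπ in
/-- `s34f_Elem` on chart 1 of `α t_M`, `t_M` with series `t₃` (`q = 2`, `3 ∣ M`). -/
theorem s34d_elem_t3_1 (hq2 : q = 2) (h3M : 3 ∣ M) (tM : s34m_F K₀ M)
    (htM : (tM : LaurentSeries K₀) = s18u_t3 K₀) [FFGen K₀ tM]
    (hwV : tM ∈ s34m_Vinf G M)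
    (hred : s18g_redV G _ (s34m_hF G M) ⟨tM, hwV⟩ = s18u_t3 κ) :
    s34f_Elem M q hq hqM G φ (s18_chart1 (L₀ := K₀) (heckeAlphaBar K₀ M q tM)) := by
  haveI : Fact q.Prime := ⟨hq⟩
  haveI : FFGen K₀ (s18g_jF (K := K₀) (M * q)) :=
    s18b_ffGen_jF (M * q) (fun _ b hb hn => s18g_exists_relation (M * q) φ hn b hb)
  have hT : s18g_HT κ M := s18t_indep_j q M hqM κ
  have hdegM : s18g_HDeg K₀ M := fun _ b hb hn => s18g_exists_relation M φ hn b hb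
  have htM0 : tM ≠ 0 := by
    intro h0
    apply s18b_t3_ne_zero K₀
    rw [← htM, h0]; rfl
  have hq3 : q ≠ 3 := by omega
  refine s34d_elem_of_hmain G φ M q hq hqM (s34r_deg_HDeg φ M q hq hqM) hT hdegM tM hwV ?_ ?_
    (s34dt_hmain_t3 M q hqM K₀ φ κ G hπ hT hdegM hq2 h3M tM htM) _
    (s34e_ch_alpha₁ G φ M q hq hqM tM)
    (s34e_ch_beta₁ G φ M q hq hqM htM0
      (fun P => s34e_cusp_hclaim_t3 G φ M q hq hqM hq3 tM htM P))
  · show s37b_Coord κ q (s18g_redV G _ (s34m_hF G M) ⟨tM, hwV⟩)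
    rw [hred]
    exact s37b_coord_t3 κ q
  · intro τ
    show coeffMap (τ : κ →+* κ) (s18g_redV G _ (s34m_hF G M) ⟨tM, hwV⟩) =
      s18g_redV G _ (s34m_hF G M) ⟨tM, hwV⟩
    rw [hred]
    exact s18u_coeffMap_t3 _

include hπ in
/-- `s34f_Elem` on chart 2 of `α t_M`, `t_M` with series `t₃` (`q = 2`, `3 ∣ M`). -/
theorem s34d_elem_t3_2 (hq2 : q = 2) (h3M : 3 ∣ M) (tM : s34m_F K₀ M)
    (htM : (tM : LaurentSeries K₀) = s18u_t3 K₀) [FFGen K₀ tM⁻¹]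
    (hwV : tM ∈ s34m_Vinf G M) (hwinvV : tM⁻¹ ∈ s34m_Vinf G M)
    (hred : s18g_redV G _ (s34m_hF G M) ⟨tM, hwV⟩ = s18u_t3 κ) :
    s34f_Elem M q hq hqM G φ (s18_chart2 (L₀ := K₀) (heckeAlphaBar K₀ M q tM)) := by
  haveI : Fact q.Prime := ⟨hq⟩
  haveI : FFGen K₀ (s18g_jF (K := K₀) (M * q)) :=
    s18b_ffGen_jF (M * q) (fun _ b hb hn => s18g_exists_relation (M * q) φ hn b hb)
  have hT : s18g_HT κ M := s18t_indep_j q M hqM κ
  have hdegM : s18g_HDeg K₀ M := fun _ b hb hn => s18g_exists_relation M φ hn b hb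
  have htM0 : tM ≠ 0 := by
    intro h0
    apply s18b_t3_ne_zero K₀
    rw [← htM, h0]; rfl
  have hq3 : q ≠ 3 := by omega
  have hredinv : ((s18g_redF G M hFM hT hdegM ⟨tM⁻¹, hwinvV⟩ :
      ↥(modularFunctionFieldFullC κ M)) : LaurentSeries κ) = (s18u_t3 κ)⁻¹ := by
    rw [s18f_redF_inv G M hT hdegM tM htM0 hwV hwinvV]
    show (s18g_redV G _ (s34m_hF G M) ⟨tM, hwV⟩)⁻¹ = _
    rw [hred]
  refine s34d_elem_of_hmain G φ M q hq hqM (s34r_deg_HDeg φ M q hq hqM) hT hdegM tM⁻¹ hwinvV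
    ?_ ?_
    (s34dt_hmain_t3_inv M q hqM K₀ φ κ G hπ hT hdegM hq2 h3M tM htM) _
    (s34e_ch_alpha₂ G φ M q hq hqM tM)
    (s34e_ch_beta₂ G φ M q hq hqM htM0
      (fun P => s34e_cusp_hclaim_t3 G φ M q hq hqM hq3 tM htM P))
  · rw [hredinv]
    exact s37b_coord_inv (s37b_coord_t3 κ q)
  · intro τ
    rw [hredinv, map_inv₀, s18u_coeffMap_t3]

end Elem

/-- **The branch `q = 3`, `2 ∣ M`** (base function `t₂`). -/
theorem s34d_geo_t2 (M : ℕ) [NeZero M] (hq : Nat.Prime 3) (hqM : ¬ 3 ∣ M) (h2M : 2 ∣ M) :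
    s34f_Geo M 3 hq hqM := by
  refine s34f_geo_of_base M 3 hq hqM X X_ne_zero ?_
  intro K₀ _ _ _ _ φ κ _ _ _ G _ hπ
  obtain ⟨tM, htM, ⟨hwV, hred⟩, hwinvV, hgen, hgeninv, -, hw0, hgenN, hwO, hwO', hfix, hα, hα'⟩ :=
    s34m_base_t2 G φ M 3 hq hqM h2M (by norm_num)
  haveI := hgen
  haveI := hgeninv
  exact ⟨_, hw0, hgenN, hwO, hwO', hfix, hα, hα',
    s34d_elem_t2_1 M 3 hq hqM K₀ φ κ G hπ rfl h2M tM htM hwV hred,
    s34d_elem_t2_2 M 3 hq hqM K₀ φ κ G hπ rfl h2M tM htM hwV hwinvV hred⟩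

/-- **The branch `q = 2`, `3 ∣ M`** (base function `t₃`). -/
theorem s34d_geo_t3 (M : ℕ) [NeZero M] (hq : Nat.Prime 2) (hqM : ¬ 2 ∣ M) (h3M : 3 ∣ M) :
    s34f_Geo M 2 hq hqM := by
  refine s34f_geo_of_base M 2 hq hqM X X_ne_zero ?_
  intro K₀ _ _ _ _ φ κ _ _ _ G _ hπ
  obtain ⟨tM, htM, ⟨hwV, hred⟩, hwinvV, hgen, hgeninv, -, hw0, hgenN, hwO, hwO', hfix, hα, hα'⟩ :=
    s34m_base_t3 G φ M 2 hq hqM h3M (by norm_num)
  haveI := hgen
  haveI := hgeninv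
  exact ⟨_, hw0, hgenN, hwO, hwO', hfix, hα, hα',
    s34d_elem_t3_1 M 2 hq hqM K₀ φ κ G hπ rfl h3M tM htM hwV hred,
    s34d_elem_t3_2 M 2 hq hqM K₀ φ κ G hπ rfl h3M tM htM hwV hwinvV hred⟩

/-- **`s34f_Geo` on all three S18-good branches.** -/
theorem s34d_geo_all (M q : ℕ) [NeZero M] [NeZero q] (hq : q.Prime) (hqM : ¬ q ∣ M)
    (h : 5 ≤ q ∨ (q = 3 ∧ 2 ∣ M) ∨ (q = 2 ∧ 3 ∣ M)) : s34f_Geo M q hq hqM := by
  rcases h with h5 | ⟨rfl, h2M⟩ | ⟨rfl, h3M⟩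
  · exact s34d_geo_five M q hq hqM h5
  · exact s34d_geo_t2 M hq hqM h2M
  · exact s34d_geo_t3 M hq hqM h3M

end Fermat.Agent.Lib.S34
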