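/-
S34 (Plan S), package [T] (helper3): **S34 from the contract [SS]** (`s34_SSp`, Lib/S34/SSIface).

In a Hecke–Galois datum of level `N` away from `S`, the Galois representation has unipotent inertia
(`charpoly = (X - 1)²`) at every prime `q ≠ p` with `q ∥ N`.

Proof (Plan-M machinery, no new mathematics besides [SS]): let `σ₀` be in an inertia group at `q`.
* [SS] gives `(ρ_Λ(σ₀) - 1)² = 0` on the Tate module `Λ = T_p J₀(N)`, hence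
  `Φ(σ₀) = ρ_Λ(σ₀) + ε(σ₀) ρ_Λ(σ₀)⁻¹ = 2` (`ε(σ₀) = 1`: the cyclotomic character is unramified at `q`).
* ONE application of Frobenius density (`s34t_approx`): `σ₀ = σ_ℓ^j · h` with `h` trivial on the
  common level, so `tr r(σ₀) ≡ π(L_j(T_ℓ, ℓ))`, `det r(σ₀) ≡ ℓ^j` modulo `𝔪_T^n`, while
  `Φ(σ₀) ≡ L_j(T_ℓ^Λ, ℓ)` and `ε(σ₀) ≡ ℓ^j` modulo `p^(n+c)`.
* `2 = L_0`, so the landed congruence input `hcong` (for the pair `(ℓ, j)`, `(ℓ, 0)`) gives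
  `π(L_j(T_ℓ, ℓ)) - 2 ∈ 𝔪_T^n`; and `p^(n+c) ∣ ℓ^j - 1` in `ℤ`. Hence `tr r(σ₀) = 2`, `det r(σ₀) = 1`.
-/
import Fermat.Agent.Lib.S34.SSIface
import Fermat.Agent.Lib.S31.Final

set_option autoImplicit false
set_option linter.unusedSectionVars false

open IsLocalRing CuspForm CongruenceSubgroup Polynomial

namespace Fermat.Agent.Lib.S34

open Fermat.Agent.Lib.S29 Fermat.Agent.Lib.S30 Fermat.Agent.Lib.S31 Fermat.Agent.Lib.S53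
open ModularCurve AlgebraicCurve

noncomputable section

/-! ### Abstract part -/

section Abstract

variable (p : ℕ) [Fact p.Prime]
  {T : Type} [CommRing T] [IsLocalRing T]
  {Λ : Type*} [AddCommGroup Λ] [Module ℤ_[p] Λ]
  {𝕋 : Type*} [Ring 𝕋]

/-- Entrywise congruence to `1` gives congruence of the determinant to `1`. -/
theorem s34t_det_sub_one_mem (I : Ideal T) (M : Matrix (Fin 2) (Fin 2) T)
    (hM : ∀ i j, (M - 1) i j ∈ I) : M.det - 1 ∈ I := by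
  have h00 : M 0 0 - 1 ∈ I := by simpa using hM 0 0
  have h11 : M 1 1 - 1 ∈ I := by simpa using hM 1 1
  have h01 : M 0 1 ∈ I := by simpa using hM 0 1
  have h10 : M 1 0 ∈ I := by simpa using hM 1 0
  have e : M.det - 1 = (M 0 0 - 1) * M 1 1 + (M 1 1 - 1) - M 0 1 * M 1 0 := by
    rw [Matrix.det_fin_two]
    ring
  rw [e]
  exact I.sub_mem (I.add_mem (I.mul_mem_right _ h00) h11) (I.mul_mem_right _ h01)

/-- **One application of Frobenius density**: every `a ∈ G_ℚ` is approximated, on the common level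
of `r` modulo `𝔪_T ^ n` and of `ρ`, `ε` modulo `p ^ m`, by a power of a Frobenius element at a prime
`ℓ ∉ S₀`; consequences for trace, determinant, `Φ` and `ε`. -/
theorem s34t_approx
    (r : s29k_G →* Matrix (Fin 2) (Fin 2) T) (hr : MatContinuous r)
    (ρ : s29k_G →* Module.End ℤ_[p] Λ)
    (hρ : ∀ k : ℕ, ∃ L : IntermediateField ℚ (AlgebraicClosure ℚ), FiniteDimensional ℚ L ∧
      (∀ σ : s29k_G, ∀ x ∈ L, σ x ∈ L) ∧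
      ∀ σ : s29k_G, (∀ x ∈ L, σ x = x) → ∀ v : Λ, ∃ w : Λ, ρ σ v - v = (p : ℤ_[p]) ^ k • w)
    (ε : s29k_G →* ℤ_[p]ˣ)
    (hε : ∀ k : ℕ, ∃ L : IntermediateField ℚ (AlgebraicClosure ℚ), FiniteDimensional ℚ L ∧
      (∀ σ : s29k_G, ∀ x ∈ L, σ x ∈ L) ∧
      ∀ σ : s29k_G, (∀ x ∈ L, σ x = x) →
        ∃ w : ℤ_[p], ((ε σ : ℤ_[p]ˣ) : ℤ_[p]) - 1 = (p : ℤ_[p]) ^ k * w)
    (π : 𝕋 →+* T) (S₀ : Finset ℕ) (τ : ℕ → 𝕋) (TΛ : ℕ → Module.End ℤ_[p] Λ)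
    (hfrob : ∀ ℓ : ℕ, ℓ.Prime → ℓ ∉ S₀ →
      ∀ A : ValuationSubring (AlgebraicClosure ℚ), A.LiesOverPrime ℓ →
        ∀ σ : s29k_G, A.IsFrobeniusAt σ ℓ →
          (r σ).trace = π (τ ℓ) ∧ (r σ).det = (ℓ : T) ∧
            TΛ ℓ = ρ σ + ((ℓ : ℤ_[p])) • ρ σ⁻¹ ∧ ((ε σ : ℤ_[p]ˣ) : ℤ_[p]) = (ℓ : ℤ_[p]))
    (n m : ℕ) (a : s29k_G) :
    ∃ ℓ j : ℕ, ℓ.Prime ∧ ℓ ∉ S₀ ∧
      (r a).trace - π (s31c_lucas (τ ℓ) ((ℓ : ℕ) : 𝕋) j) ∈ maximalIdeal T ^ n ∧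
      (r a).det - (ℓ : T) ^ j ∈ maximalIdeal T ^ n ∧
      s31c_Div m (s31c_Phi ρ ε a - s31c_lucas (TΛ ℓ) ((ℓ : ℕ) : Module.End ℤ_[p] Λ) j) ∧
      ∃ w : ℤ_[p], ((ε a : ℤ_[p]ˣ) : ℤ_[p]) - (ℓ : ℤ_[p]) ^ j = (p : ℤ_[p]) ^ m * w := by
  obtain ⟨L, hL, hstab, hlev⟩ := s31c_exists_level p r hr ρ hρ ε hε n m
  obtain ⟨ℓ, A, σ, j, hℓ, hℓS, hA, hFr, hj⟩ := s29d_frobDensity L hL hstab S₀ a
  obtain ⟨htr, hdet, hTΛ, hεσ⟩ := hfrob ℓ hℓ hℓS A hA σ hFr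
  obtain ⟨b, hb⟩ : ∃ b : s29k_G, b = σ ^ j := ⟨_, rfl⟩
  rw [← hb] at hj
  obtain ⟨h, ha, hfix⟩ : ∃ h : s29k_G, a = b * h ∧ ∀ x ∈ L, h x = x := by
    refine ⟨b⁻¹ * a, by rw [mul_inv_cancel_left], fun x hx => ?_⟩
    rw [AlgEquiv.mul_apply, ← hj x hx]
    exact b.symm_apply_apply x
  have hfix' : ∀ x ∈ L, h⁻¹ x = x := by
    intro x hx
    conv_lhs => rw [← hfix x hx]
    exact h.symm_apply_apply x
  obtain ⟨g1, g2, g3⟩ := hlev h hfix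
  obtain ⟨-, g2', -⟩ := hlev h⁻¹ hfix'
  refine ⟨ℓ, j, hℓ, hℓS, ?_, ?_, ?_, ?_⟩
  · have e1 : (r b).trace = π (s31c_lucas (τ ℓ) ((ℓ : ℕ) : 𝕋) j) := by
      rw [hb, map_pow, s31c_trace_pow, htr, hdet, s31c_lucas_map, map_natCast]
    rw [← e1, ha, map_mul]
    exact s31c_trace_mul_sub_mem _ _ _ g1
  · have e1 : (r b).det = (ℓ : T) ^ j := by
      rw [hb, map_pow, Matrix.det_pow, hdet]
    have e2 : (r a).det - (ℓ : T) ^ j = (ℓ : T) ^ j * ((r h).det - 1) := by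
      rw [ha, map_mul, Matrix.det_mul, e1]
      ring
    rw [e2]
    exact Ideal.mul_mem_left _ _ (s34t_det_sub_one_mem _ _ g1)
  · have e2 : s31c_Phi ρ ε b = s31c_lucas (TΛ ℓ) ((ℓ : ℕ) : Module.End ℤ_[p] Λ) j := by
      rw [hb]
      exact s31c_Phi_pow ρ ε σ ℓ (TΛ ℓ) hTΛ hεσ j
    rw [← e2, ha]
    exact s31c_Phi_mul_approx ρ ε m b h g2 g2' g3
  · obtain ⟨w, hw⟩ := g3
    refine ⟨(ℓ : ℤ_[p]) ^ j * w, ?_⟩
    have e3 : ((ε b : ℤ_[p]ˣ) : ℤ_[p]) = (ℓ : ℤ_[p]) ^ j := by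
      rw [hb, map_pow, Units.val_pow_eq_pow_val, hεσ]
    rw [ha, map_mul, Units.val_mul, e3]
    have : (ℓ : ℤ_[p]) ^ j * ((ε h : ℤ_[p]ˣ) : ℤ_[p]) - (ℓ : ℤ_[p]) ^ j =
        (ℓ : ℤ_[p]) ^ j * (((ε h : ℤ_[p]ˣ) : ℤ_[p]) - 1) := by ring
    rw [this, hw]
    ring

/-- `Φ(σ₀) = 2` if `(ρ(σ₀) - 1)² = 0` and `ε(σ₀) = 1`. -/
theorem s34t_Phi_eq_two (ρ : s29k_G →* Module.End ℤ_[p] Λ) (ε : s29k_G →* ℤ_[p]ˣ)
    (σ₀ : s29k_G) (hσρ : (ρ σ₀ - 1) * (ρ σ₀ - 1) = 0) (hσε : ε σ₀ = 1) :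
    s31c_Phi ρ ε σ₀ = 2 := by
  have h1 : ρ σ₀ * ρ σ₀⁻¹ = 1 := s31c_rho_mul_inv ρ σ₀
  have h2 : ρ σ₀ - 2 + ρ σ₀⁻¹ = 0 := by
    have e : ρ σ₀ - 2 + ρ σ₀⁻¹ = ((ρ σ₀ - 1) * (ρ σ₀ - 1)) * ρ σ₀⁻¹ := by
      have e1 : ((ρ σ₀ - 1) * (ρ σ₀ - 1)) * ρ σ₀⁻¹ =
          ρ σ₀ * (ρ σ₀ * ρ σ₀⁻¹) - 2 * (ρ σ₀ * ρ σ₀⁻¹) + ρ σ₀⁻¹ := by
        noncomm_ring
      rw [e1, h1, mul_one, mul_one]
    rw [e, hσρ, zero_mul]
  unfold s31c_Phi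
  rw [hσε, Units.val_one, one_smul]
  have : ρ σ₀ + ρ σ₀⁻¹ = (ρ σ₀ - 2 + ρ σ₀⁻¹) + 2 := by abel
  rw [this, h2, zero_add]

/-- **Trace and determinant of an element acting unipotently of level two on `Λ`.** -/
theorem s34t_trace_det
    (hHaus : ∀ x : T, (∀ n : ℕ, x ∈ maximalIdeal T ^ n) → x = 0)
    (hpT : (p : T) ∈ maximalIdeal T)
    (r : s29k_G →* Matrix (Fin 2) (Fin 2) T) (hr : MatContinuous r)
    (ρ : s29k_G →* Module.End ℤ_[p] Λ)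
    (hρ : ∀ k : ℕ, ∃ L : IntermediateField ℚ (AlgebraicClosure ℚ), FiniteDimensional ℚ L ∧
      (∀ σ : s29k_G, ∀ x ∈ L, σ x ∈ L) ∧
      ∀ σ : s29k_G, (∀ x ∈ L, σ x = x) → ∀ v : Λ, ∃ w : Λ, ρ σ v - v = (p : ℤ_[p]) ^ k • w)
    (ε : s29k_G →* ℤ_[p]ˣ)
    (hε : ∀ k : ℕ, ∃ L : IntermediateField ℚ (AlgebraicClosure ℚ), FiniteDimensional ℚ L ∧
      (∀ σ : s29k_G, ∀ x ∈ L, σ x ∈ L) ∧
      ∀ σ : s29k_G, (∀ x ∈ L, σ x = x) →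
        ∃ w : ℤ_[p], ((ε σ : ℤ_[p]ˣ) : ℤ_[p]) - 1 = (p : ℤ_[p]) ^ k * w)
    (π : 𝕋 →+* T) (S₀ : Finset ℕ) (τ : ℕ → 𝕋) (TΛ : ℕ → Module.End ℤ_[p] Λ)
    (hfrob : ∀ ℓ : ℕ, ℓ.Prime → ℓ ∉ S₀ →
      ∀ A : ValuationSubring (AlgebraicClosure ℚ), A.LiesOverPrime ℓ →
        ∀ σ : s29k_G, A.IsFrobeniusAt σ ℓ →
          (r σ).trace = π (τ ℓ) ∧ (r σ).det = (ℓ : T) ∧
            TΛ ℓ = ρ σ + ((ℓ : ℤ_[p])) • ρ σ⁻¹ ∧ ((ε σ : ℤ_[p]ˣ) : ℤ_[p]) = (ℓ : ℤ_[p]))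
    (hcong : ∃ c : ℕ, ∀ n ℓ₁ ℓ₂ j₁ j₂ : ℕ, ℓ₁.Prime → ℓ₁ ∉ S₀ → ℓ₂.Prime → ℓ₂ ∉ S₀ →
      s31c_Div (n + c) (s31c_lucas (TΛ ℓ₁) ((ℓ₁ : ℕ) : Module.End ℤ_[p] Λ) j₁ -
        s31c_lucas (TΛ ℓ₂) ((ℓ₂ : ℕ) : Module.End ℤ_[p] Λ) j₂) →
      π (s31c_lucas (τ ℓ₁) ((ℓ₁ : ℕ) : 𝕋) j₁ - s31c_lucas (τ ℓ₂) ((ℓ₂ : ℕ) : 𝕋) j₂) ∈
        maximalIdeal T ^ n)
    (σ₀ : s29k_G) (hσρ : (ρ σ₀ - 1) * (ρ σ₀ - 1) = 0) (hσε : ε σ₀ = 1) :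
    (r σ₀).trace = 2 ∧ (r σ₀).det = 1 := by
  obtain ⟨c, hc⟩ := hcong
  have hΦ : s31c_Phi ρ ε σ₀ = 2 := s34t_Phi_eq_two p ρ ε σ₀ hσρ hσε
  have key : ∀ n : ℕ, (r σ₀).trace - 2 ∈ maximalIdeal T ^ n ∧
      (r σ₀).det - 1 ∈ maximalIdeal T ^ n := by
    intro n
    obtain ⟨ℓ, j, hℓ, hℓS, htr, hdet, hdiv, w, hw⟩ :=
      s34t_approx p r hr ρ hρ ε hε π S₀ τ TΛ hfrob n (n + c) σ₀
    constructor
    · -- the trace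
      rw [hΦ] at hdiv
      have hdiv' : s31c_Div (n + c) (s31c_lucas (TΛ ℓ) ((ℓ : ℕ) : Module.End ℤ_[p] Λ) j -
          s31c_lucas (TΛ ℓ) ((ℓ : ℕ) : Module.End ℤ_[p] Λ) 0) := by
        rw [s31c_lucas_zero]
        have := hdiv.neg
        rwa [neg_sub] at this
      have hπ := hc n ℓ ℓ j 0 hℓ hℓS hℓ hℓS hdiv'
      rw [s31c_lucas_zero, map_sub, map_ofNat] at hπ
      have e : (r σ₀).trace - 2 =
          ((r σ₀).trace - π (s31c_lucas (τ ℓ) ((ℓ : ℕ) : 𝕋) j)) +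
            (π (s31c_lucas (τ ℓ) ((ℓ : ℕ) : 𝕋) j) - 2) := by ring
      rw [e]
      exact Ideal.add_mem _ htr hπ
    · -- the determinant
      rw [hσε, Units.val_one] at hw
      have h1 : (p : ℤ_[p]) ^ (n + c) ∣ (((1 - (ℓ : ℤ) ^ j : ℤ)) : ℤ_[p]) := by
        refine ⟨w, ?_⟩
        rw [← hw]
        push_cast
        ring
      rw [PadicInt.pow_p_dvd_int_iff] at h1
      obtain ⟨k, hk⟩ := h1
      have h2 : (1 : T) - (ℓ : T) ^ j = (p : T) ^ (n + c) * (k : T) := by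
        have := congrArg (Int.cast : ℤ → T) hk
        push_cast at this
        exact this
      have h3 : (1 : T) - (ℓ : T) ^ j ∈ maximalIdeal T ^ n := by
        rw [h2]
        exact Ideal.mul_mem_right _ _
          (Ideal.pow_le_pow_right (Nat.le_add_right n c) (Ideal.pow_mem_pow hpT (n + c)))
      have e : (r σ₀).det - 1 = ((r σ₀).det - (ℓ : T) ^ j) - (1 - (ℓ : T) ^ j) := by ring
      rw [e]
      exact Ideal.sub_mem _ hdet h3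
  constructor
  · rw [← sub_eq_zero]
    exact hHaus _ fun n => (key n).1
  · rw [← sub_eq_zero]
    exact hHaus _ fun n => (key n).2

end Abstract

/-! ### From [SS] to the Tate module -/

section Tate

variable (N : ℕ) [NeZero N] (p : ℕ) [Fact p.Prime]

/-- [SS] on the Tate module: `(ρ_Λ(σ) - 1)² = 0` for `σ` in an inertia group at `q ∥ N`, `q ≠ p`. -/
theorem s34t_rho_sub_one_sq (hSS : s34_SSp) (q : ℕ) (hq : q.Prime) (hqp : q ≠ p) (hqN : q ∣ N)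
    (hq2 : ¬ q ^ 2 ∣ N) (P : ValuationSubring (AlgebraicClosure ℚ)) (hP : P.LiesOverPrime q)
    (σ : s29k_G) (hσ : σ ∈ P.inertiaSubgroupIn ℚ) :
    (s30a_rho N p σ - 1) * (s30a_rho N p σ - 1) = 0 := by
  refine s30a_end_ext fun x n => ?_
  have h := hSS N q hq hqN hq2 P hP σ hσ p (Fact.out : p.Prime) (Ne.symm hqp) n
    ((x : ℕ → JZero N) n) (s30a_pow_smul x n)
  show ((s30a_rho N p σ - 1) ((s30a_rho N p σ - 1) x) : s30a_TJ N p).1 n = (0 : s30a_TJ N p).1 n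
  have e : ((s30a_rho N p σ - 1) ((s30a_rho N p σ - 1) x) : s30a_TJ N p).1 n =
      σ • σ • (x : ℕ → JZero N) n - 2 • σ • (x : ℕ → JZero N) n + (x : ℕ → JZero N) n := by
    simp only [LinearMap.sub_apply, Module.End.one_apply, map_sub, s30a_sub_apply,
      s30a_rho_apply]
    rw [two_smul]
    abel
  rw [e, h]
  rfl

end Tate

/-! ### S34 -/

section Final

variable {p : ℕ} {N : ℕ} [NeZero N] {S : Finset ℕ}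
  {𝒪 : Type} [CommRing 𝒪] [IsDomain 𝒪] [IsDiscreteValuationRing 𝒪]
  [IsAdicComplete (IsLocalRing.maximalIdeal 𝒪) 𝒪]
  {θ : CuspForm.heckeAlgebra N 2 (↑S : Set ℕ) →+* IsLocalRing.ResidueField 𝒪}
  {T : Type} [CommRing T] [IsLocalRing T] [IsNoetherianRing T]
  [IsAdicComplete (IsLocalRing.maximalIdeal T) T] [Algebra 𝒪 T] [IsLocalHom (algebraMap 𝒪 T)]
  [Module.Finite 𝒪 T] [Module.Free 𝒪 T]

/-- **S34 from [SS].** -/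
theorem s34t_S34_of (hSS : s34_SSp) (hp : p.Prime)
    (hp𝒪 : (p : 𝒪) ∈ IsLocalRing.maximalIdeal 𝒪) (hpS : p ∈ S)
    (hNS : ∀ q : ℕ, q.Prime → q ∣ N → q ∈ S)
    (H : CuspForm.HeckeGaloisRepDatum N (↑S : Set ℕ) 𝒪 θ T)
    (q : ℕ) (hq : q.Prime) (hqp : q ≠ p) (hqN : q ∣ N) (hq2 : ¬ q ^ 2 ∣ N) :
    H.ρ.IsUnipotentOnInertiaAt q := by
  have : Fact p.Prime := ⟨hp⟩
  intro P hP σ₀ hσ₀
  have hpT : (p : T) ∈ maximalIdeal T := s31e_p_mem p hp𝒪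
  set b : Module.Basis (Fin 2) T H.ρ.V := Module.finBasisOfFinrankEq T H.ρ.V H.ρ.finrank_eq with hb
  have hσρ := s34t_rho_sub_one_sq N p hSS q hq hqp hqN hq2 P hP σ₀ hσ₀
  have hσε : (s30y_cycDatum p).ε σ₀ = 1 := (s30y_cycDatum p).unram q hq hqp P hP σ₀ hσ₀
  obtain ⟨htr, hdet⟩ := s34t_trace_det p s31e_hausdorff hpT (matOf H.ρ b)
    (matContinuous_matOf H.ρ b) (s30a_rho N p) (s30a_cont N p) (s30y_cycDatum p).ε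
    (s30y_cycDatum p).cont H.π S (s31e_tau N S) (s31e_TL N p)
    (s31f_hfrob hpS hNS H b (s30y_cycDatum p))
    (s31e_hcong_of N p S hNS (s31d_iota_div N p) (Module.finBasis ℤ (s29s_M N))
      (s31t_Theta N (↑S : Set ℕ) _) hpT H.π) σ₀ hσρ hσε
  rw [← LinearMap.charpoly_toMatrix (H.ρ.ρ σ₀) b, ← matOf_apply, Matrix.charpoly_fin_two, htr, hdet]
  have e : (C (2 : T) : T[X]) = 2 := by
    rw [← Nat.cast_ofNat (R := T), ← Nat.cast_ofNat (R := T[X]), map_natCast]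
  rw [e, map_one]
  ring

end Final

end

end Fermat.Agent.Lib.S34
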