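/-
S34 moonshot [X″]: conjuncts 1–4 of helper3's `s34f_ChartContract` for the two charts of the base
function `j` at level `M q`, in helper6's `MVal` setting (`O = {V_∞, V_0}`):

* conjunct 1 (`IsNoetherianRing` of the chart ring): XFin's `s34x_isNoetherianRing_ring` from (α) w.r.t.
  `j` (chart 1) and w.r.t. `j⁻¹` (chart 2; `s18_chart2 j = s18_chart1 j⁻¹` by `rfl`);
* conjuncts 2–4 (uniformisers, separation, finiteness): `XDict.lean`, with `hO` from helper4's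
  `s34c_hU_VV` / `s34c_hO_inf`.
(helper9)
-/
import Fermat.Agent.Lib.S34.XDict
import Fermat.Agent.Lib.S34.CChart

set_option autoImplicit false
set_option linter.style.haveILetI false
set_option linter.unusedSectionVars false

noncomputable section

namespace Fermat.Agent.Lib.S34

open AlgebraicCurve ModularCurve HahnSeries Polynomial Fermat.Agent.Lib.FF Fermat.Agent.Lib.S18

local notation "Kb" => AlgebraicClosure ℚ

variable {K₀ : Type*} [Field K₀] [Algebra ℚ K₀] {κ : Type*} [Field κ] (G : s18g_GaussData K₀ κ)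
  (φ : K₀ →+* Kb) (M q : ℕ) [NeZero M] [NeZero q] (hq : q.Prime) (hqM : ¬ q ∣ M)

/-- `hO` for `V_∞ ⊓ V_0`: every function has a `ϖ`-power multiple in it. -/
theorem s34x_hO_VV (f : s34m_F K₀ (M * q)) :
    ∃ k : ℕ, algebraMap K₀ (s34m_F K₀ (M * q)) ((G.ϖ : G.A) : K₀) ^ k * f ∈
      s34x_infRing (s34m_VV G φ M q hq hqM) :=
  s34c_hO_inf (s34m_VV G φ M q hq hqM) ((G.ϖ : G.A) : K₀)
    (fun i => s34m_unif_mem_VV G φ M q hq hqM i) (s34c_hU_VV G φ M q hq hqM) f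

variable [CharZero K₀] [IsDiscreteValuationRing G.A]

/-- Conjuncts 1–4 of the chart contract, chart 1 of `j`. -/
theorem s34x_chart1_j [FFGen K₀ (s18g_jF (K := K₀) (M * q))]
    (hα : ∀ y ∈ s34x_infRing (s34m_VV G φ M q hq hqM), ∃ s : G.A[X], s.map G.π ≠ 0 ∧
      (s18b_ev G (laurentBaseChange K₀ (modularFunctionFieldFull (M * q)))
        (s18g_jF (K := K₀) (M * q))).IsIntegralElem
        (s18b_ev G (laurentBaseChange K₀ (modularFunctionFieldFull (M * q)))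
          (s18g_jF (K := K₀) (M * q)) s * y)) :
    IsNoetherianRing (s34x_ring (L₀ := K₀) (s34x_infRing (s34m_VV G φ M q hq hqM))
      (s18_chart1 (L₀ := K₀) (s18g_jF (K := K₀) (M * q)))) ∧
    (∀ Q ∈ s18_chart1 (L₀ := K₀) (s18g_jF (K := K₀) (M * q)),
      ∃ u : s34x_ring (L₀ := K₀) (s34x_infRing (s34m_VV G φ M q hq hqM))
        (s18_chart1 (L₀ := K₀) (s18g_jF (K := K₀) (M * q))), Q.ord (u : s34m_F K₀ (M * q)) = 1) ∧
    (∀ Q ∈ s18_chart1 (L₀ := K₀) (s18g_jF (K := K₀) (M * q)),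
      ∀ Q' ∈ s18_chart1 (L₀ := K₀) (s18g_jF (K := K₀) (M * q)), Q' ≠ Q →
      ∃ y : s34x_ring (L₀ := K₀) (s34x_infRing (s34m_VV G φ M q hq hqM))
        (s18_chart1 (L₀ := K₀) (s18g_jF (K := K₀) (M * q))),
        0 < Q.ord (y : s34m_F K₀ (M * q)) ∧ Q'.ord (y : s34m_F K₀ (M * q)) = 0) ∧
    (∀ y : s34m_F K₀ (M * q), y ≠ 0 →
      {Q : Place K₀ (s34m_F K₀ (M * q)) |
        Q ∈ s18_chart1 (s18g_jF (K := K₀) (M * q)) ∧ Q.ord y ≠ 0}.Finite) := by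
  obtain ⟨h2, h3, h4⟩ := s34x_dict1 (L₀ := K₀) (s18g_jF (K := K₀) (M * q))
    (s34x_infRing (s34m_VV G φ M q hq hqM)) ((G.ϖ : G.A) : K₀) (s18g_unifK_ne_zero G)
    (s34x_hO_VV G φ M q hq hqM)
  exact ⟨s34x_isNoetherianRing_ring G
    (laurentBaseChange K₀ (modularFunctionFieldFull (M * q))) (s18g_jF (K := K₀) (M * q))
    (s34m_VV G φ M q hq hqM) (s34c_const_mem_VV G φ M q hq hqM)
    (s34c_jF_mem_VV G φ M q hq hqM) hα, h2, h3, h4⟩

/-- Conjuncts 1–4 of the chart contract, chart 2 of `j`. -/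
theorem s34x_chart2_j [FFGen K₀ (s18g_jF (K := K₀) (M * q))]
    (hα : ∀ y ∈ s34x_infRing (s34m_VV G φ M q hq hqM), ∃ s : G.A[X], s.map G.π ≠ 0 ∧
      (s18b_ev G (laurentBaseChange K₀ (modularFunctionFieldFull (M * q)))
        (s18g_jF (K := K₀) (M * q))⁻¹).IsIntegralElem
        (s18b_ev G (laurentBaseChange K₀ (modularFunctionFieldFull (M * q)))
          (s18g_jF (K := K₀) (M * q))⁻¹ s * y)) :
    IsNoetherianRing (s34x_ring (L₀ := K₀) (s34x_infRing (s34m_VV G φ M q hq hqM))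
      (s18_chart2 (L₀ := K₀) (s18g_jF (K := K₀) (M * q)))) ∧
    (∀ Q ∈ s18_chart2 (L₀ := K₀) (s18g_jF (K := K₀) (M * q)),
      ∃ u : s34x_ring (L₀ := K₀) (s34x_infRing (s34m_VV G φ M q hq hqM))
        (s18_chart2 (L₀ := K₀) (s18g_jF (K := K₀) (M * q))), Q.ord (u : s34m_F K₀ (M * q)) = 1) ∧
    (∀ Q ∈ s18_chart2 (L₀ := K₀) (s18g_jF (K := K₀) (M * q)),
      ∀ Q' ∈ s18_chart2 (L₀ := K₀) (s18g_jF (K := K₀) (M * q)), Q' ≠ Q →
      ∃ y : s34x_ring (L₀ := K₀) (s34x_infRing (s34m_VV G φ M q hq hqM))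
        (s18_chart2 (L₀ := K₀) (s18g_jF (K := K₀) (M * q))),
        0 < Q.ord (y : s34m_F K₀ (M * q)) ∧ Q'.ord (y : s34m_F K₀ (M * q)) = 0) ∧
    (∀ y : s34m_F K₀ (M * q), y ≠ 0 →
      {Q : Place K₀ (s34m_F K₀ (M * q)) |
        Q ∈ s18_chart2 (s18g_jF (K := K₀) (M * q)) ∧ Q.ord y ≠ 0}.Finite) := by
  obtain ⟨h2, h3, h4⟩ := s34x_dict2 (L₀ := K₀) (s18g_jF (K := K₀) (M * q))
    (s34x_infRing (s34m_VV G φ M q hq hqM)) ((G.ϖ : G.A) : K₀) (s18g_unifK_ne_zero G)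
    (s34x_hO_VV G φ M q hq hqM)
  haveI : FFGen K₀ (s18g_jF (K := K₀) (M * q))⁻¹ := ff_gen_inv
  exact ⟨s34x_isNoetherianRing_ring G
    (laurentBaseChange K₀ (modularFunctionFieldFull (M * q))) (s18g_jF (K := K₀) (M * q))⁻¹
    (s34m_VV G φ M q hq hqM) (s34c_const_mem_VV G φ M q hq hqM)
    (s34c_jF_inv_mem_VV G φ M q hq hqM) hα, h2, h3, h4⟩

/-! ### General base function `w` (for §E: `w` with series `t₂`, `t₃`) -/

/-- Conjuncts 1–4 of the chart contract, chart 1 of a general base function `w ∈ V_∞ ⊓ V_0`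
with (α) w.r.t. `w`. -/
theorem s34x_chart1_w (w : s34m_F K₀ (M * q)) [FFGen K₀ w]
    (hwO : ∀ i, w ∈ s34m_VV G φ M q hq hqM i)
    (hα : ∀ y ∈ s34x_infRing (s34m_VV G φ M q hq hqM), ∃ s : G.A[X], s.map G.π ≠ 0 ∧
      (s18b_ev G (laurentBaseChange K₀ (modularFunctionFieldFull (M * q))) w).IsIntegralElem
        (s18b_ev G (laurentBaseChange K₀ (modularFunctionFieldFull (M * q))) w s * y)) :
    IsNoetherianRing (s34x_ring (L₀ := K₀) (s34x_infRing (s34m_VV G φ M q hq hqM))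
      (s18_chart1 (L₀ := K₀) w)) ∧
    (∀ Q ∈ s18_chart1 (L₀ := K₀) w,
      ∃ u : s34x_ring (L₀ := K₀) (s34x_infRing (s34m_VV G φ M q hq hqM))
        (s18_chart1 (L₀ := K₀) w), Q.ord (u : s34m_F K₀ (M * q)) = 1) ∧
    (∀ Q ∈ s18_chart1 (L₀ := K₀) w, ∀ Q' ∈ s18_chart1 (L₀ := K₀) w, Q' ≠ Q →
      ∃ y : s34x_ring (L₀ := K₀) (s34x_infRing (s34m_VV G φ M q hq hqM))
        (s18_chart1 (L₀ := K₀) w),
        0 < Q.ord (y : s34m_F K₀ (M * q)) ∧ Q'.ord (y : s34m_F K₀ (M * q)) = 0) ∧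
    (∀ y : s34m_F K₀ (M * q), y ≠ 0 →
      {Q : Place K₀ (s34m_F K₀ (M * q)) | Q ∈ s18_chart1 w ∧ Q.ord y ≠ 0}.Finite) := by
  obtain ⟨h2, h3, h4⟩ := s34x_dict1 (L₀ := K₀) w
    (s34x_infRing (s34m_VV G φ M q hq hqM)) ((G.ϖ : G.A) : K₀) (s18g_unifK_ne_zero G)
    (s34x_hO_VV G φ M q hq hqM)
  exact ⟨s34x_isNoetherianRing_ring G
    (laurentBaseChange K₀ (modularFunctionFieldFull (M * q))) w
    (s34m_VV G φ M q hq hqM) (s34c_const_mem_VV G φ M q hq hqM) hwO hα, h2, h3, h4⟩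

/-- Conjuncts 1–4 of the chart contract, chart 2 of a general base function `w` with
`w⁻¹ ∈ V_∞ ⊓ V_0` and (α) w.r.t. `w⁻¹`. -/
theorem s34x_chart2_w (w : s34m_F K₀ (M * q)) [FFGen K₀ w]
    (hwO : ∀ i, w⁻¹ ∈ s34m_VV G φ M q hq hqM i)
    (hα : ∀ y ∈ s34x_infRing (s34m_VV G φ M q hq hqM), ∃ s : G.A[X], s.map G.π ≠ 0 ∧
      (s18b_ev G (laurentBaseChange K₀ (modularFunctionFieldFull (M * q))) w⁻¹).IsIntegralElem
        (s18b_ev G (laurentBaseChange K₀ (modularFunctionFieldFull (M * q))) w⁻¹ s * y)) :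
    IsNoetherianRing (s34x_ring (L₀ := K₀) (s34x_infRing (s34m_VV G φ M q hq hqM))
      (s18_chart2 (L₀ := K₀) w)) ∧
    (∀ Q ∈ s18_chart2 (L₀ := K₀) w,
      ∃ u : s34x_ring (L₀ := K₀) (s34x_infRing (s34m_VV G φ M q hq hqM))
        (s18_chart2 (L₀ := K₀) w), Q.ord (u : s34m_F K₀ (M * q)) = 1) ∧
    (∀ Q ∈ s18_chart2 (L₀ := K₀) w, ∀ Q' ∈ s18_chart2 (L₀ := K₀) w, Q' ≠ Q →
      ∃ y : s34x_ring (L₀ := K₀) (s34x_infRing (s34m_VV G φ M q hq hqM))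
        (s18_chart2 (L₀ := K₀) w),
        0 < Q.ord (y : s34m_F K₀ (M * q)) ∧ Q'.ord (y : s34m_F K₀ (M * q)) = 0) ∧
    (∀ y : s34m_F K₀ (M * q), y ≠ 0 →
      {Q : Place K₀ (s34m_F K₀ (M * q)) | Q ∈ s18_chart2 w ∧ Q.ord y ≠ 0}.Finite) := by
  haveI : FFGen K₀ w⁻¹ := ff_gen_inv
  exact s34x_chart1_w G φ M q hq hqM w⁻¹ hwO hα

end Fermat.Agent.Lib.S34
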