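/-
S34 moonshot ([SS] ⇒ S34), package [D] (helper8), part 4: S18's `hmain` EXTRACTED, and the final
contract for `q ≥ 5` (charts of `j`).

`hmain` ("every element of `F̄_M` integral over `κ[w̄]` is the reduction of an element of the chart
ring `B_{M}` of `w`") is only a `have` inside S18's `s18f_chartS_of_data` (`FProv.lean`); here it is
a theorem:
* `s34df_hmain_of_data`   (inputs of `s18s_main`; = `s18f_chartS_of_data` minus the last arrow),
* `s34df_hmain_of_inputs` (packaged inputs; = `s18f_chartS_of_inputs`),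
* `s34df_hmain_five`      (`ℓ ≥ 5`, `ℓ ∤ M`, `w = j` and `w = j⁻¹`; = the incantation of `s18f_sFive`).
-/
import Fermat.Agent.Lib.S34.DFibreD
import Fermat.Agent.Lib.S18.FProv5

set_option autoImplicit false
set_option linter.unusedSectionVars false
set_option linter.style.haveILetI false

noncomputable section

namespace Fermat.Agent.Lib.S34

open ModularCurve AlgebraicCurve Polynomial IntermediateField Fermat.Agent.Lib.FF
  Fermat.Agent.Lib.S18 Fermat.Agent.Lib.S37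

local notation "Kb" => AlgebraicClosure ℚ

section Hmain

variable {K : Type} [Field K] [CharZero K] [Algebra ℚ K] {κ : Type} [Field κ]
  (G : s18g_GaussData K κ) (M : ℕ)

local notation "𝓕M" => laurentBaseChange K (modularFunctionFieldFull M)
local notation "hFM" => (fun (f : LaurentSeries K)
  (hf : f ∈ laurentBaseChange K (modularFunctionFieldFull M)) => s18g_baseChange_mem_Frac G M hf)

/-- **`hmain` from the data of `s18s_main`** (copy of the first half of `s18f_chartS_of_data`). -/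
theorem s34df_hmain_of_data [IsDiscreteValuationRing G.A] (hπ : Function.Surjective G.π)
    (hT : s18g_HT κ M) (hdeg : s18g_HDeg K M)
    (w : ↥𝓕M) [FFGen K w] (hwV : w ∈ s18g_V G 𝓕M hFM)
    (hα : ∀ y ∈ s18g_V G 𝓕M hFM, ∃ s : G.A[X], s.map G.π ≠ 0 ∧
      (s18b_ev G 𝓕M w).IsIntegralElem (s18b_ev G 𝓕M w s * y))
    {ι : Type} [Fintype ι] [DecidableEq ι]
    (β : letI := s18p_algR (K := K) w; Module.Basis ι K[X] ↥(ffB K w))
    (hinj : letI := s18f_algF G M hT hdeg w hwV;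
      Function.Injective (algebraMap κ[X] ↥(modularFunctionFieldFullC κ M)))
    (bt : letI := s18f_algF G M hT hdeg w hwV;
      Module.Basis ι κ[X] ↥(integralClosure κ[X] ↥(modularFunctionFieldFullC κ M)))
    (hsep : letI := s18f_algF G M hT hdeg w hwV;
      Algebra.discr κ[X] bt ≠ 0)
    (Cs : Finset ↥G.A) (hCs : Set.InjOn G.π Cs) (α : ↥G.A → ℕ) (e : K) (he : e ≠ 0)
    (hΔ : letI := s18p_algR (K := K) w;
      Algebra.discr K[X] β = C e * ∏ c ∈ Cs, (X - C (algebraMap ↥G.A K c)) ^ α c)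
    (hα' : letI := s18p_algR (K := K) w;
      ∀ c ∈ Cs, ∀ (r : ℕ) (u : Fin r → ↥(ffB K w)),
        (∀ a : Fin r → K, (∑ j, (C (a j) : K[X]) • u j) ∈
          (Ideal.span {algebraMap K[X] ↥(ffB K w) (X - C (algebraMap ↥G.A K c))}).radical →
            a = 0) →
        α c + r ≤ Fintype.card ι) :
    letI := s18f_algF G M hT hdeg w hwV
    ∀ z : ↥(modularFunctionFieldFullC κ M), IsIntegral κ[X] z →
      ∃ (b : ↥𝓕M) (hb : b ∈ s18_ring (L₀ := K) (s18g_V G 𝓕M hFM) (s18_chart1 w)),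
        s18g_redF G M hFM hT hdeg ⟨b, hb.1⟩ = z := by
  letI algR := s18p_algR (K := K) w
  letI algF := s18f_algF G M hT hdeg w hwV
  letI algB := s18p_algB G 𝓕M hFM w hwV
  haveI finB : Module.Finite G.A[X] ↥(s18p_B G 𝓕M hFM w) := s18p_finite_B G 𝓕M hFM w hwV hα
  have hkerF : ∀ y : ↥(s18g_V G 𝓕M hFM), s18g_redF G M hFM hT hdeg y = 0 →
      ∃ g : ↥(s18g_V G 𝓕M hFM), y = s18g_unifV G 𝓕M hFM * g := by
    intro y hy
    have hy' : y ∈ RingHom.ker (s18g_redF G M hFM hT hdeg) := hy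
    rw [s18g_ker_redF, Ideal.mem_span_singleton'] at hy'
    obtain ⟨a, ha⟩ := hy'
    exact ⟨a, by rw [← ha, mul_comm]⟩
  have hmain : ∀ z : ↥(modularFunctionFieldFullC κ M), IsIntegral κ[X] z →
      ∃ y : ↥(s18p_B G 𝓕M hFM w), s18p_redB G 𝓕M hFM w (s18g_redF G M hFM hT hdeg) y = z := by
    refine s18s_main (A₀ := ↥G.A) (L₀ := K) (k₀ := κ) G.π hπ G.ϖ (s18f_irreducible_unif G)
      G.π_eq_zero_iff (R₁ := ↥(ffB K w)) β (B := ↥(s18p_B G 𝓕M hFM w))
      (s18p_jB w (s18g_V G 𝓕M hFM)) (s18p_jB_injective w _) ?_ ?_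
      (κ := ↥(modularFunctionFieldFullC κ M)) hinj
      (s18p_redB G 𝓕M hFM w (s18g_redF G M hFM hT hdeg)) ?_ ?_
      bt hsep Cs hCs α e he ?_ ?_
    · intro p
      apply Subtype.ext
      show s18b_ev G 𝓕M w p = Polynomial.aeval w (p.map (algebraMap ↥G.A K))
      rfl
    · exact fun x => s18p_hloc w (s18g_V G 𝓕M hFM) ((G.ϖ : G.A) : K)
        (s18f_hO_of_U (s18g_V G 𝓕M hFM) ((G.ϖ : G.A) : K) (s18f_U_gauss G 𝓕M hFM)) x
    · exact fun p => s18p_hredP G 𝓕M hFM w hwV (s18g_redF G M hFM hT hdeg)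
        (algebraMap κ ↥(modularFunctionFieldFullC κ M))
        (fun a => s18g_redF_constV G M hFM hT hdeg a) p
    · exact fun y hy => s18p_hker G 𝓕M hFM w hwV (s18g_redF G M hFM hT hdeg) hkerF y hy
    · convert hΔ using 3
    · intro c hc r u hu
      convert hα' c hc r u ?_ using 2
      intro a ha
      apply hu a
      convert ha using 3
  intro z hz
  obtain ⟨y, hy⟩ := hmain z hz
  exact ⟨(y : ↥𝓕M), y.2, hy⟩

variable [NeZero M]

/-- **`hmain` from the three packaged inputs** (copy of `s18f_chartS_of_inputs`). -/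
theorem s34df_hmain_of_inputs [IsDiscreteValuationRing G.A] (hπ : Function.Surjective G.π)
    (hT : s18g_HT κ M) (hdeg : s18g_HDeg K M)
    (w : ↥𝓕M) [FFGen K w] (hwV : w ∈ s18g_V G 𝓕M hFM)
    (hα : ∀ y ∈ s18g_V G 𝓕M hFM, ∃ s : G.A[X], s.map G.π ≠ 0 ∧
      (s18b_ev G 𝓕M w).IsIntegralElem (s18b_ev G 𝓕M w s * y))
    (n : ℕ) (hrank : Module.finrank ↥K⟮w⟯ ↥𝓕M = n)
    (hch : letI := s18f_algF G M hT hdeg w hwV;
      Function.Injective (algebraMap κ[X] ↥(modularFunctionFieldFullC κ M)) ∧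
      ∃ bt : Module.Basis (Fin n) κ[X]
        ↥(integralClosure κ[X] ↥(modularFunctionFieldFullC κ M)),
        Algebra.discr κ[X] bt ≠ 0)
    (hI : s18r_MainInputs G M w) :
    letI := s18f_algF G M hT hdeg w hwV
    ∀ z : ↥(modularFunctionFieldFullC κ M), IsIntegral κ[X] z →
      ∃ (b : ↥𝓕M) (hb : b ∈ s18_ring (L₀ := K) (s18g_V G 𝓕M hFM) (s18_chart1 w)),
        s18g_redF G M hFM hT hdeg ⟨b, hb.1⟩ = z := by
  letI algR := s18p_algR (K := K) w
  letI algF := s18f_algF G M hT hdeg w hwV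
  obtain ⟨β₀, -⟩ := s18g_ffB_basis (K := K) w n hrank
  obtain ⟨β, -⟩ := s18g_ffB_basis_poly w (FFGen.transc : Transcendental K w) β₀
    (s18p_coe_algebraMap_R w)
  obtain ⟨hinj, bt, hsep⟩ := hch
  obtain ⟨Cs, hCs, hβ⟩ := hI
  obtain ⟨α, e, he, hΔ, hα'⟩ := hβ β
  exact s34df_hmain_of_data G M hπ hT hdeg w hwV hα β hinj bt hsep Cs hCs α e he hΔ hα'

end Hmain

section Five

/-- **`hmain` for `j` and `j⁻¹`, `ℓ ≥ 5`** (the incantation of `s18f_sFive`). -/
theorem s34df_hmain_five (M : ℕ) [NeZero M] (ℓ : ℕ) [Fact ℓ.Prime] (h5 : 5 ≤ ℓ)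
    (K₀ : Type) [Field K₀] [NumberField K₀] (φ : K₀ →+* Kb)
    (κ : Type) [Field κ] [CharP κ ℓ] [PerfectField κ]
    (G : s18g_GaussData K₀ κ) [IsDiscreteValuationRing G.A] (hπ : Function.Surjective G.π)
    (hT : s18g_HT κ M) (hdeg : s18g_HDeg K₀ M) :
    (letI := s18f_algF G M hT hdeg (s18g_jF (K := K₀) M)
        (s18g_jF_mem_V G M (fun _ hf => s18g_baseChange_mem_Frac G M hf))
      ∀ z : ↥(modularFunctionFieldFullC κ M), IsIntegral κ[X] z →
        ∃ (b : ↥(laurentBaseChange K₀ (modularFunctionFieldFull M)))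
          (hb : b ∈ s18_ring (L₀ := K₀) (s18g_V G (laurentBaseChange K₀ (modularFunctionFieldFull M))
            (fun _ hf => s18g_baseChange_mem_Frac G M hf)) (s18_chart1 (s18g_jF (K := K₀) M))),
          s18g_redF G M (fun _ hf => s18g_baseChange_mem_Frac G M hf) hT hdeg ⟨b, hb.1⟩ = z) ∧
    (letI := s18f_algF G M hT hdeg (s18g_jF (K := K₀) M)⁻¹
        (s18g_jF_inv_mem_V G M (fun _ hf => s18g_baseChange_mem_Frac G M hf))
      ∀ z : ↥(modularFunctionFieldFullC κ M), IsIntegral κ[X] z →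
        ∃ (b : ↥(laurentBaseChange K₀ (modularFunctionFieldFull M)))
          (hb : b ∈ s18_ring (L₀ := K₀) (s18g_V G (laurentBaseChange K₀ (modularFunctionFieldFull M))
            (fun _ hf => s18g_baseChange_mem_Frac G M hf)) (s18_chart1 (s18g_jF (K := K₀) M)⁻¹)),
          s18g_redF G M (fun _ hf => s18g_baseChange_mem_Frac G M hf) hT hdeg ⟨b, hb.1⟩ = z) := by
  have hFM : ∀ f ∈ laurentBaseChange K₀ (modularFunctionFieldFull M), f ∈ s18g_Frac G :=
    fun _ hf => s18g_baseChange_mem_Frac G M hf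
  obtain ⟨hgen1, hrank1⟩ := s18g_deg_j_charZero G M hFM hT hdeg (s18g_jF (K := K₀) M) (Or.inl rfl)
  obtain ⟨hgen2, hrank2⟩ := s18g_deg_j_charZero G M hFM hT hdeg (s18g_jF (K := K₀) M)⁻¹
    (Or.inr rfl)
  haveI := hgen1
  haveI := hgen2
  have hred1 : s18g_redF G M hFM hT hdeg ⟨s18g_jF (K := K₀) M, s18g_jF_mem_V G M hFM⟩ =
      s18g_jFbar κ M := s18g_redF_jV G M hFM hT hdeg
  have hred2 : s18g_redF G M hFM hT hdeg ⟨(s18g_jF (K := K₀) M)⁻¹, s18g_jF_inv_mem_V G M hFM⟩ =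
      (s18g_jFbar κ M)⁻¹ := by
    rw [s18f_redF_inv G M hT hdeg _ (s18g_jF_ne_zero M) (s18g_jF_mem_V G M hFM), hred1]
  refine ⟨s34df_hmain_of_inputs G M hπ hT hdeg (s18g_jF (K := K₀) M) (s18g_jF_mem_V G M hFM)
      (s18g_alpha_j_b G M hT hdeg hFM) (dedekindPsi M) hrank1 ?_
      (s18r_mainInputs_j G M φ ℓ h5),
    s34df_hmain_of_inputs G M hπ hT hdeg (s18g_jF (K := K₀) M)⁻¹ (s18g_jF_inv_mem_V G M hFM)
      (s18g_alpha_inv_b G M hT hdeg hFM) (dedekindPsi M) hrank2 ?_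
      (s18r_mainInputs_j_inv G M φ ℓ h5)⟩
  · letI := s18f_algF G M hT hdeg (s18g_jF (K := K₀) M) (s18g_jF_mem_V G M hFM)
    exact s18g_deg_j G M hFM hT hdeg ℓ hπ _ (Or.inl hred1)
      (s18f_algF_apply G M hT hdeg _ (s18g_jF_mem_V G M hFM))
  · letI := s18f_algF G M hT hdeg (s18g_jF (K := K₀) M)⁻¹ (s18g_jF_inv_mem_V G M hFM)
    exact s18g_deg_j G M hFM hT hdeg ℓ hπ _ (Or.inr hred2)
      (s18f_algF_apply G M hT hdeg _ (s18g_jF_inv_mem_V G M hFM))

end Five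

section Elem

variable {K₀ : Type} [Field K₀] [CharZero K₀] [Algebra ℚ K₀] {κ : Type} [Field κ]
  (G : s18g_GaussData K₀ κ) (φ : K₀ →+* Kb) (M q : ℕ) [NeZero M] [NeZero q]
  (hq : q.Prime) (hqM : ¬ q ∣ M) [CharP κ q] [PerfectField κ]

local notation "𝓕M" => laurentBaseChange K₀ (modularFunctionFieldFull M)
local notation "hFM" => (fun (f : LaurentSeries K₀)
  (hf : f ∈ laurentBaseChange K₀ (modularFunctionFieldFull M)) => s18g_baseChange_mem_Frac G M hf)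

include hq hqM in
/-- **Conjunct 6 of the chart contract from S18's `hmain`, ELEMENT form** (same hypotheses as
`s34df_contract_of_hmain`; conclusion = helper3's `s34f_Elem` for `ϖB := s34f_constHom … G.ϖ`). -/
theorem s34df_elem_of_hmain (hdeg : s34m_HDeg K₀ M q) (hT : s18g_HT κ M)
    (hdegM : s18g_HDeg K₀ M) (w : ↥𝓕M) (hwV : w ∈ s18g_V G 𝓕M hFM)
    (hcoord : s37b_Coord κ q
      ((s18g_redF G M hFM hT hdegM ⟨w, hwV⟩ : ↥(modularFunctionFieldFullC κ M)) : LaurentSeries κ))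
    (hwtw : ∀ τ : κ ≃+* κ, ModularCurve.coeffMap (τ : κ →+* κ)
      ((s18g_redF G M hFM hT hdegM ⟨w, hwV⟩ : ↥(modularFunctionFieldFullC κ M)) : LaurentSeries κ) =
      ((s18g_redF G M hFM hT hdegM ⟨w, hwV⟩ : ↥(modularFunctionFieldFullC κ M)) : LaurentSeries κ))
    (hmain : letI := s18f_algF G M hT hdegM w hwV
      ∀ z : ↥(modularFunctionFieldFullC κ M), IsIntegral κ[X] z →
        ∃ (b : ↥𝓕M) (hb : b ∈ s18_ring (L₀ := K₀) (s18g_V G 𝓕M hFM) (s18_chart1 w)),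
          s18g_redF G M hFM hT hdegM ⟨b, hb.1⟩ = z)
    (S : Set (Place K₀ (s34m_F K₀ (M * q))))
    (hαB : ∀ g ∈ (s18_ring (L₀ := K₀) (s34m_Vinf G M) (s18_chart1 w) : Set (s34m_F K₀ M)),
      heckeAlphaBar K₀ M q g ∈ s34x_ring (s34x_infRing (s34m_VV G φ M q hq hqM)) S)
    (hβB : ∀ g ∈ (s18_ring (L₀ := K₀) (s34m_Vinf G M) (s18_chart1 w) : Set (s34m_F K₀ M)),
      ∃ b' ∈ s34x_ring (s34x_infRing (s34m_VV G φ M q hq hqM)) S,
      ∃ z, z ∈ s34m_Vinf G (M * q) ∧ z ∈ s34m_Vzero G φ M q hq hqM ∧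
        b' - heckeBetaBar K₀ M q g = s34m_unif G (M * q) * z)
    (ϖB : s34x_ring (s34x_infRing (s34m_VV G φ M q hq hqM)) S)
    (hϖB : (ϖB : s34m_F K₀ (M * q)) = s34m_unif G (M * q))
    (𝔫 : Ideal (s34x_ring (s34x_infRing (s34m_VV G φ M q hq hqM)) S)) [h𝔫 : 𝔫.IsPrime]
    (hϖ𝔫 : ϖB ∈ 𝔫) :
    (∃ t ∈ 𝔫, ∀ y ∈ 𝔫, ∃ c, c ∉ 𝔫 ∧ ∃ z b, c * y = z * t + b * ϖB) ∨
    (∃ u ∈ 𝔫, ∃ w' ∈ 𝔫, ϖB ∣ u * w' ∧
      ∀ y ∈ 𝔫, ∃ c, c ∉ 𝔫 ∧ ∃ z z' b, c * y = z * u + z' * w' + b * ϖB) := by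
  haveI : Fact q.Prime := ⟨hq⟩
  letI algF := s18f_algF G M hT hdegM w hwV
  have hA : ∀ p : κ[X], algebraMap κ[X] ↥(modularFunctionFieldFullC κ M) p =
      Polynomial.aeval (s18g_redF G M hFM hT hdegM ⟨w, hwV⟩) p :=
    s18f_algF_apply G M hT hdegM w hwV
  obtain ⟨hDed, hFrac⟩ := s37b_dedekind_of_coord κ q M (s18g_redF G M hFM hT hdegM ⟨w, hwV⟩)
    hcoord hA
  haveI := hDed
  haveI := hFrac
  have hBMV : ∀ g ∈ (s18_ring (L₀ := K₀) (s34m_Vinf G M) (s18_chart1 w) : Set (s34m_F K₀ M)),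
      g ∈ s34m_Vinf G M := fun g hg => hg.1
  have hlift : ∀ d : ↥(integralClosure κ[X] ↥(modularFunctionFieldFullC κ M)), ∃ g,
      ∃ hg : g ∈ (s18_ring (L₀ := K₀) (s34m_Vinf G M) (s18_chart1 w) : Set (s34m_F K₀ M)),
      s34m_redInf G M ⟨g, hBMV g hg⟩ =
        ((algebraMap ↥(integralClosure κ[X] ↥(modularFunctionFieldFullC κ M))
          ↥(modularFunctionFieldFullC κ M) d : ↥(modularFunctionFieldFullC κ M)) :
          LaurentSeries κ) := by
    intro d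
    obtain ⟨b, hb, e⟩ := hmain (d : ↥(modularFunctionFieldFullC κ M)) d.2
    refine ⟨b, hb, ?_⟩
    have h1 := congrArg (fun z : ↥(modularFunctionFieldFullC κ M) => (z : LaurentSeries κ)) e
    exact h1
  have htw : ∀ d : ↥(integralClosure κ[X] ↥(modularFunctionFieldFullC κ M)),
      ∃ d' : ↥(integralClosure κ[X] ↥(modularFunctionFieldFullC κ M)),
      qExpand κ q ((algebraMap ↥(integralClosure κ[X] ↥(modularFunctionFieldFullC κ M))
          ↥(modularFunctionFieldFullC κ M) d : ↥(modularFunctionFieldFullC κ M)) :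
          LaurentSeries κ) =
        ((algebraMap ↥(integralClosure κ[X] ↥(modularFunctionFieldFullC κ M))
          ↥(modularFunctionFieldFullC κ M) d' : ↥(modularFunctionFieldFullC κ M)) :
          LaurentSeries κ) ^ q := fun d =>
    s34df_htw M q (s18g_redF G M hFM hT hdegM ⟨w, hwV⟩) (hwtw _) hA d
  exact s34df_dichotomy G φ M q hq hqM S (modularFunctionFieldFullC κ M)
    (D₁ := ↥(integralClosure κ[X] ↥(modularFunctionFieldFullC κ M)))
    (D₂ := ↥(integralClosure κ[X] ↥(modularFunctionFieldFullC κ M)))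
    (fun b => s34df_hF₁ G φ M q hq hqM S hdeg hT hdegM b)
    (fun b => s34df_hF₂ G φ M q hq hqM S hdeg hT hdegM b)
    ϖB hϖB _ hBMV hαB hβB hlift hlift htw htw 𝔫 hϖ𝔫

end Elem

end Fermat.Agent.Lib.S34
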