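/-
S34 moonshot ([SS] ⇒ S34), package [D] (helper8), part 5: THE FINAL [D] CONTRACT FOR `q ≥ 5`.

`s34df_contract_five`: for every Gauss datum over a number field (residue characteristic `q ≥ 5`,
`q ∤ M`), the element-form smooth/weak-node dichotomy `s34f_Elem` (helper3, `FFive.lean`) holds on both
charts of `j` at level `M q`.  Inputs, all on main: S18's `hmain` extracted (`s34df_hmain_five`),
helper1's chart inclusions (`DChartW.lean`, with helper7's chart-2 correction (⋆)), helper5's degree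
descent (`s34r_deg_spanning`), helper6's Kronecker pairs / integral basis, helper1's abstract
dichotomy (`DNode.lean`), S37's Dedekind chart of the special fibre (`s37b_dedekind_of_coord`).
-/
import Fermat.Agent.Lib.S34.DFibreJ
import Fermat.Agent.Lib.S34.DChartW
import Fermat.Agent.Lib.S34.FFive

set_option autoImplicit false
set_option linter.unusedSectionVars false
set_option linter.style.haveILetI false

noncomputable section

namespace Fermat.Agent.Lib.S34

open ModularCurve AlgebraicCurve Polynomial IntermediateField Fermat.Agent.Lib.FF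
  Fermat.Agent.Lib.S18 Fermat.Agent.Lib.S37

local notation "Kb" => AlgebraicClosure ℚ

/-- **The [D] contract for `q ≥ 5`**: the element-form dichotomy on both charts of `j`. -/
theorem s34df_contract_five (M q : ℕ) [NeZero M] [NeZero q] (hq : q.Prime) (hqM : ¬ q ∣ M)
    (h5 : 5 ≤ q) (K₀ : Type) [Field K₀] [NumberField K₀] (φ : K₀ →+* Kb)
    (κ : Type) [Field κ] [CharP κ q] [PerfectField κ]
    (G : s18g_GaussData K₀ κ) [IsDiscreteValuationRing G.A] (hπ : Function.Surjective G.π) :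
    s34f_Elem M q hq hqM G φ (s18_chart1 (L₀ := K₀) (s18g_jF (K := K₀) (M * q))) ∧
    s34f_Elem M q hq hqM G φ (s18_chart2 (L₀ := K₀) (s18g_jF (K := K₀) (M * q))) := by
  haveI : Fact q.Prime := ⟨hq⟩
  have hT : s18g_HT κ M := s18t_indep_j q M hqM κ
  have hdegM : s18g_HDeg K₀ M := fun n b hb hn => s18g_exists_relation M φ hn b hb
  have hdeg : s34m_HDeg K₀ M q := fun b hb y => s34r_deg_spanning φ M q hq hqM b hb y
  have hdegN : s18g_HDeg K₀ (M * q) := fun n b hb hn => s18g_exists_relation (M * q) φ hn b hb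
  haveI : FFGen K₀ (s18g_jF (K := K₀) (M * q)) := s18b_ffGen_jF (M * q) hdegN
  have hFM : ∀ f ∈ laurentBaseChange K₀ (modularFunctionFieldFull M), f ∈ s18g_Frac G :=
    fun _ hf => s18g_baseChange_mem_Frac G M hf
  obtain ⟨hmain1, hmain2⟩ := s34df_hmain_five M q h5 K₀ φ κ G hπ hT hdegM
  have hred1 : ((s18g_redF G M hFM hT hdegM ⟨s18g_jF (K := K₀) M, s18g_jF_mem_V G M hFM⟩ :
      ↥(modularFunctionFieldFullC κ M)) : LaurentSeries κ) = jqModC κ := by
    rw [s18g_coe_redF]
    exact s18g_red_jq G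
  have hred2 : ((s18g_redF G M hFM hT hdegM
      ⟨(s18g_jF (K := K₀) M)⁻¹, s18g_jF_inv_mem_V G M hFM⟩ :
      ↥(modularFunctionFieldFullC κ M)) : LaurentSeries κ) = (jqModC κ)⁻¹ := by
    rw [s18f_redF_inv G M hT hdegM _ (s18g_jF_ne_zero M) (s18g_jF_mem_V G M hFM),
      IntermediateField.coe_inv, hred1]
  constructor
  · intro 𝔫 h𝔫p h𝔫
    refine @s34df_elem_of_hmain _ _ _ _ _ _ G φ M q _ _ hq hqM _ _ hdeg hT hdegM
      (s18g_jF (K := K₀) M)
      (s18g_jF_mem_V G M hFM) ?_ ?_ hmain1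
      (s18_chart1 (L₀ := K₀) (s18g_jF (K := K₀) (M * q)))
      (fun g hg => s34d_alpha_liftJ₁ G φ M q hq hqM g hg)
      (fun g hg => s34d_beta_liftJ₁ G φ M q hq hqM g hg) _ rfl 𝔫 h𝔫p h𝔫
    · rw [hred1]
      exact s37b_coord_jq κ q
    · intro τ
      rw [hred1]
      exact coeffMap_jqModC _
  · intro 𝔫 h𝔫p h𝔫
    refine @s34df_elem_of_hmain _ _ _ _ _ _ G φ M q _ _ hq hqM _ _ hdeg hT hdegM
      (s18g_jF (K := K₀) M)⁻¹
      (s18g_jF_inv_mem_V G M hFM) ?_ ?_ hmain2
      (s18_chart1 (L₀ := K₀) (s18g_jF (K := K₀) (M * q))⁻¹)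
      (fun g hg => s34d_alpha_liftJ₂ G φ M q hq hqM g hg)
      (fun g hg => s34d_beta_liftJ₂ G φ M q hq hqM g hg) _ rfl 𝔫 h𝔫p h𝔫
    · rw [hred2]
      exact s37b_coord_inv (s37b_coord_jq κ q)
    · intro τ
      rw [hred2, map_inv₀, coeffMap_jqModC]

end Fermat.Agent.Lib.S34
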