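/-
S34 moonshot ([SS] ⇒ S34), package [M](D), concrete part (helper1), (I2): THE KRONECKER IDENTITIES for
the two reductions at level `M q`, as Laurent-series statements.

Setting (helper6's `MVal.lean`): `G : s18g_GaussData K₀ κ`, `V_∞ = s34m_Vinf G N` the Gauss valuation
ring of `𝓕_N = s34m_F K₀ N`, `w = s34m_al φ M q hq hqM` the Atkin–Lehner involution of `𝓕_{Mq}`,
`V_0 = s34m_Vzero = V_∞.comap w`; `α = heckeAlphaBar K₀ M q` (inclusion), `β = heckeBetaBar K₀ M q`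
(`T ↦ T ^ q`).  `s34d_redInf G N : V_∞ →+* κ((T))` is the coefficientwise reduction (`s18g_redV`),
`Φ := qExpand κ q` the substitution `T ↦ T ^ q` on `κ((T))`.

* `s34d_qExpand_mem_O`, `s34d_red_qExpand` : `qExpand` preserves the Gauss ring of `K₀((T))` and
  commutes with the reduction;
* for `g ∈ V_∞(M)`: `α g, β g ∈ V_∞(Mq) ⊓ V_0` (`s34d_alpha_mem_Vinf`, `s34d_beta_mem_Vinf`,
  `s34d_alpha_mem_Vzero`, `s34d_beta_mem_Vzero`, `s34d_alpha_mem_VV`, `s34d_beta_mem_VV`) and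
  `red_∞ (α g) = red_M g`, `red_∞ (β g) = Φ (red_M g)`, `red_∞ (w (α g)) = Φ (red_M g)`,
  `red_∞ (w (β g)) = red_M g` (`s34d_red_alpha`, `s34d_red_beta`, `s34d_red_al_alpha`,
  `s34d_red_al_beta`).
-/
import Fermat.Agent.Lib.S34.MVal
import Fermat.Prelude.Thm_ModularCurve_coeffMap_qExpand

set_option autoImplicit false

noncomputable section

namespace Fermat.Agent.Lib.S34

open ModularCurve AlgebraicCurve HahnSeries Fermat.Agent.Lib.FF Fermat.Agent.Lib.S18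
  Fermat.Agent.Lib.S37

local notation "Kb" => AlgebraicClosure ℚ

section Laurent

variable {K₀ : Type*} [Field K₀] {κ : Type*} [Field κ] (G : s18g_GaussData K₀ κ)

theorem s34d_iota_qExpand (d : ℕ) [NeZero d] (P : LaurentSeries G.A) :
    s18g_iota G (qExpand G.A d P) = qExpand K₀ d (s18g_iota G P) :=
  coeffMap_qExpand _ d P

theorem s34d_rho_qExpand (d : ℕ) [NeZero d] (P : LaurentSeries G.A) :
    s18g_rho G (qExpand G.A d P) = qExpand κ d (s18g_rho G P) :=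
  coeffMap_qExpand _ d P

/-- The substitution `T ↦ T ^ d` preserves the Gauss ring. -/
theorem s34d_qExpand_mem_O (d : ℕ) [NeZero d] {f : LaurentSeries K₀} (hf : f ∈ s18g_O G) :
    qExpand K₀ d f ∈ s18g_O G := by
  obtain ⟨P, Q, hQ, h⟩ := hf
  refine ⟨qExpand G.A d P, qExpand G.A d Q, ?_, ?_⟩
  · rw [s34d_rho_qExpand]
    exact (map_ne_zero (qExpand κ d)).mpr hQ
  · rw [s34d_iota_qExpand, s34d_iota_qExpand, ← map_mul, h]

/-- The substitution `T ↦ T ^ d` commutes with the reduction. -/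
theorem s34d_red_qExpand (d : ℕ) [NeZero d] {f : LaurentSeries K₀} (hf : f ∈ s18g_O G) :
    s18g_red G ⟨qExpand K₀ d f, s34d_qExpand_mem_O G d hf⟩ =
      qExpand κ d (s18g_red G ⟨f, hf⟩) := by
  obtain ⟨P, Q, hQ, h⟩ := hf
  have hQ' : s18g_rho G (qExpand G.A d Q) ≠ 0 := by
    rw [s34d_rho_qExpand]
    exact (map_ne_zero (qExpand κ d)).mpr hQ
  rw [s18g_red_eq G ⟨qExpand K₀ d f, _⟩ (qExpand G.A d P) (qExpand G.A d Q) hQ'
      (by
        show s18g_iota G (qExpand G.A d Q) * qExpand K₀ d f = _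
        rw [s34d_iota_qExpand, s34d_iota_qExpand, ← map_mul, h]),
    s18g_red_eq G ⟨f, _⟩ P Q hQ h, s34d_rho_qExpand, s34d_rho_qExpand, map_div₀]

end Laurent

section Modular

variable {K₀ : Type*} [Field K₀] [Algebra ℚ K₀] {κ : Type*} [Field κ] (G : s18g_GaussData K₀ κ)

/-- The reduction `V_∞ → κ((T))` at level `N`. -/
abbrev s34d_redInf (N : ℕ) [NeZero N] : s34m_Vinf G N →+* LaurentSeries κ :=
  s18g_redV G (laurentBaseChange K₀ (modularFunctionFieldFull N)) (s34m_hF G N)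

theorem s34d_redInf_apply (N : ℕ) [NeZero N] (y : s34m_Vinf G N) :
    s34d_redInf G N y = s18g_red G ⟨((y : s34m_F K₀ N) : LaurentSeries K₀), y.2⟩ := rfl

/-- The reduction only depends on the underlying Laurent series. -/
theorem s34d_redInf_congr {N N' : ℕ} [NeZero N] [NeZero N'] (y : s34m_Vinf G N)
    (y' : s34m_Vinf G N')
    (h : ((y : s34m_F K₀ N) : LaurentSeries K₀) = ((y' : s34m_F K₀ N') : LaurentSeries K₀)) :
    s34d_redInf G N y = s34d_redInf G N' y' := by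
  rw [s34d_redInf_apply, s34d_redInf_apply]
  congr 1
  exact Subtype.ext h

variable (M q : ℕ) [NeZero M] [NeZero q]

theorem s34d_alpha_mem_Vinf_iff (g : s34m_F K₀ M) :
    heckeAlphaBar K₀ M q g ∈ s34m_Vinf G (M * q) ↔ g ∈ s34m_Vinf G M := by
  rw [s34m_mem_Vinf, s34m_mem_Vinf, coe_heckeAlphaBar]

theorem s34d_alpha_mem_Vinf {g : s34m_F K₀ M} (hg : g ∈ s34m_Vinf G M) :
    heckeAlphaBar K₀ M q g ∈ s34m_Vinf G (M * q) :=
  (s34d_alpha_mem_Vinf_iff G M q g).mpr hg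

theorem s34d_beta_mem_Vinf {g : s34m_F K₀ M} (hg : g ∈ s34m_Vinf G M) :
    heckeBetaBar K₀ M q g ∈ s34m_Vinf G (M * q) := by
  rw [s34m_mem_Vinf, coe_heckeBetaBar]
  exact s34d_qExpand_mem_O G q hg

/-- **(K1)** `red_∞ (α g) = red_M g`. -/
theorem s34d_red_alpha {g : s34m_F K₀ M} (hg : g ∈ s34m_Vinf G M) :
    s34d_redInf G (M * q) ⟨heckeAlphaBar K₀ M q g, s34d_alpha_mem_Vinf G M q hg⟩ =
      s34d_redInf G M ⟨g, hg⟩ :=
  s34d_redInf_congr G _ _ (coe_heckeAlphaBar M q g)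

/-- **(K2)** `red_∞ (β g) = Φ (red_M g)`, `Φ = (T ↦ T ^ q)`. -/
theorem s34d_red_beta {g : s34m_F K₀ M} (hg : g ∈ s34m_Vinf G M) :
    s34d_redInf G (M * q) ⟨heckeBetaBar K₀ M q g, s34d_beta_mem_Vinf G M q hg⟩ =
      qExpand κ q (s34d_redInf G M ⟨g, hg⟩) := by
  rw [s34d_redInf_apply, s34d_redInf_apply, ← s34d_red_qExpand G q hg]
  rfl

variable (φ : K₀ →+* Kb) (hq : q.Prime) (hqM : ¬ q ∣ M)

theorem s34d_alpha_mem_Vzero {g : s34m_F K₀ M} (hg : g ∈ s34m_Vinf G M) :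
    heckeAlphaBar K₀ M q g ∈ s34m_Vzero G φ M q hq hqM := by
  rw [s34m_mem_Vzero, s34m_al_alpha]
  exact s34d_beta_mem_Vinf G M q hg

theorem s34d_beta_mem_Vzero {g : s34m_F K₀ M} (hg : g ∈ s34m_Vinf G M) :
    heckeBetaBar K₀ M q g ∈ s34m_Vzero G φ M q hq hqM := by
  rw [s34m_mem_Vzero, s34m_al_beta]
  exact s34d_alpha_mem_Vinf G M q hg

theorem s34d_alpha_mem_VV {g : s34m_F K₀ M} (hg : g ∈ s34m_Vinf G M) (i : Bool) :
    heckeAlphaBar K₀ M q g ∈ s34m_VV G φ M q hq hqM i := by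
  cases i
  · exact s34d_alpha_mem_Vzero G M q φ hq hqM hg
  · exact s34d_alpha_mem_Vinf G M q hg

theorem s34d_beta_mem_VV {g : s34m_F K₀ M} (hg : g ∈ s34m_Vinf G M) (i : Bool) :
    heckeBetaBar K₀ M q g ∈ s34m_VV G φ M q hq hqM i := by
  cases i
  · exact s34d_beta_mem_Vzero G M q φ hq hqM hg
  · exact s34d_beta_mem_Vinf G M q hg

/-- **(K3)** `red_∞ (w (α g)) = Φ (red_M g)`. -/
theorem s34d_red_al_alpha {g : s34m_F K₀ M} (hg : g ∈ s34m_Vinf G M) :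
    s34d_redInf G (M * q) ⟨s34m_al φ M q hq hqM (heckeAlphaBar K₀ M q g),
        (s34m_mem_Vzero G φ M q hq hqM _).mp (s34d_alpha_mem_Vzero G M q φ hq hqM hg)⟩ =
      qExpand κ q (s34d_redInf G M ⟨g, hg⟩) := by
  rw [← s34d_red_beta G M q hg]
  exact s34d_redInf_congr G _ _
    (congrArg (fun x : s34m_F K₀ (M * q) => (x : LaurentSeries K₀)) (s34m_al_alpha φ M q hq hqM g))

/-- **(K4)** `red_∞ (w (β g)) = red_M g`. -/
theorem s34d_red_al_beta {g : s34m_F K₀ M} (hg : g ∈ s34m_Vinf G M) :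
    s34d_redInf G (M * q) ⟨s34m_al φ M q hq hqM (heckeBetaBar K₀ M q g),
        (s34m_mem_Vzero G φ M q hq hqM _).mp (s34d_beta_mem_Vzero G M q φ hq hqM hg)⟩ =
      s34d_redInf G M ⟨g, hg⟩ := by
  rw [← s34d_red_alpha G M q hg]
  exact s34d_redInf_congr G _ _
    (congrArg (fun x : s34m_F K₀ (M * q) => (x : LaurentSeries K₀)) (s34m_al_beta φ M q hq hqM g))

end Modular

end Fermat.Agent.Lib.S34
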