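/-
S34 moonshot ([SS] ⇒ S34), package [M](D), concrete part (helper1), (I1): THE CHART INCLUSIONS.

`B_{M,i} := s18_ring (s34m_Vinf G M) (s18_chart_i j_M)` (the chart rings of level `M`, S18) and
`B_i := s34x_ring (s34x_infRing (s34m_VV G φ M q hq hqM)) (s18_chart_i j_{Mq})` (the chart rings of
level `M q` for `O = V_∞ ⊓ V_0`):

* `s34d_alpha_mem_ring₁`, `s34d_alpha_mem_ring₂` : `α(B_{M,i}) ⊆ B_i` for both charts;
* `s34d_beta_mem_ring₁` : `β(B_{M,1}) ⊆ B_1` (`β j = j(T^q)` is integral over `ℤ[j]`);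
* `s34d_beta_mem_ring₂_of` : on chart 2, `β g ∈ B_2` as soon as `β g` is regular at the places of
  chart 2 where `β j` vanishes (the correction of these poles is helper4's lemma (⋆), `DStar`).

Generic tools: `s34d_algHom_mem_place` (pull-back of a chart condition along an algebraic embedding of
function fields, via S18's `s18l_restrict`), `s34d_mem_of_intOver` (valuation rings are integrally
closed, for `s28d_IntOver`), `s34d_isAlgebraic_alpha/beta` (`𝓕_{Mq}` is algebraic over `α 𝓕_M`, `β 𝓕_M`).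
-/
import Fermat.Agent.Lib.S34.DInst
import Fermat.Agent.Lib.S34.CChart
import Fermat.Agent.Lib.S18.LPlace

set_option autoImplicit false

noncomputable section

namespace Fermat.Agent.Lib.S34

open ModularCurve AlgebraicCurve HahnSeries Polynomial Fermat.Agent.Lib.FF Fermat.Agent.Lib.S18
  Fermat.Agent.Lib.S28 Fermat.Agent.Lib.S37

local notation "Kb" => AlgebraicClosure ℚ

section Generic

variable {K F F' : Type*} [Field K] [Field F] [Field F'] [Algebra K F] [Algebra K F']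

/-- **Pull-back of a chart condition** along a `K`-embedding `θ : F → F'` with `F'/θF` algebraic:
if `g` is regular wherever `t` is, then `θ g` is regular wherever `θ t` is. -/
theorem s34d_algHom_mem_place (θ : F →ₐ[K] F')
    (hθ : letI := θ.toRingHom.toAlgebra; Algebra.IsAlgebraic F F') {t g : F}
    (hg : ∀ P : Place K F, t ∈ P.toValuationSubring → g ∈ P.toValuationSubring)
    (Q : Place K F') (hQ : θ t ∈ Q.toValuationSubring) : θ g ∈ Q.toValuationSubring := by
  letI := θ.toRingHom.toAlgebra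
  haveI : IsScalarTower K F F' := IsScalarTower.of_algebraMap_eq (fun a => (θ.commutes a).symm)
  haveI := hθ
  exact hg (s18l_restrict (F := F) Q) hQ

/-- Valuation rings are integrally closed (for the explicit integrality `s28d_IntOver`). -/
theorem s34d_mem_of_intOver (V : ValuationSubring F') {u v : F'} (h : s28d_IntOver u v)
    (hu : u ∈ V) : v ∈ V := by
  obtain ⟨P, hP, h0⟩ := h
  let ψ : ℤ[X] →+* V := (aeval (⟨u, hu⟩ : V) : ℤ[X] →ₐ[ℤ] V).toRingHom
  have hψ : (V.subtype : V →+* F').comp ψ = (aeval u : ℤ[X] →ₐ[ℤ] F').toRingHom := by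
    apply Polynomial.ringHom_ext
    · intro a; simp [ψ]
    · simp [ψ]
  have hint : IsIntegral V v := by
    refine ⟨P.map ψ, hP.map ψ, ?_⟩
    rw [Polynomial.eval₂_map]
    have : (algebraMap V F').comp ψ = (aeval u : ℤ[X] →ₐ[ℤ] F').toRingHom := hψ
    rw [this, ← Polynomial.eval_map]
    exact h0
  have hic : IsIntegrallyClosed V := inferInstance
  obtain ⟨z, hz⟩ := (isIntegrallyClosed_iff F').1 hic hint
  rw [← hz]
  exact z.2

/-- Algebraicity is transported by an automorphism of the big field. -/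
theorem s34d_isAlgebraic_transport (a b : F →ₐ[K] F') (w : F' ≃ₐ[K] F')
    (hw : ∀ y, w (a y) = b y)
    (ha : letI := a.toRingHom.toAlgebra; Algebra.IsAlgebraic F F') :
    letI := b.toRingHom.toAlgebra; Algebra.IsAlgebraic F F' := by
  letI algb := b.toRingHom.toAlgebra
  refine ⟨fun y => ?_⟩
  obtain ⟨p, hp0, hp⟩ := (letI := a.toRingHom.toAlgebra; ha.isAlgebraic (w.symm y))
  refine ⟨p, hp0, ?_⟩
  have h1 : Polynomial.eval₂ a.toRingHom (w.symm y) p = 0 := hp
  have h2 := congrArg (w : F' →+* F') h1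
  rw [map_zero, Polynomial.hom_eval₂] at h2
  have h3 : (w : F' →+* F').comp a.toRingHom = b.toRingHom := by
    ext x; exact hw x
  rw [h3] at h2
  have h4 : (w : F' →+* F') (w.symm y) = y := w.apply_symm_apply y
  rw [h4] at h2
  exact h2

end Generic

section Modular

variable {K₀ : Type*} [Field K₀] [Algebra ℚ K₀] {κ : Type*} [Field κ] (G : s18g_GaussData K₀ κ)
  (φ : K₀ →+* Kb) (M q : ℕ) [NeZero M] [NeZero q]

/-- `𝓕_{Mq}` is algebraic over `α 𝓕_M` (it is finite over `K₀(j)`). -/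
theorem s34d_isAlgebraic_alpha [hgen : FFGen K₀ (s18g_jF (K := K₀) (M * q))] :
    letI := (heckeAlphaBar K₀ M q).toRingHom.toAlgebra
    Algebra.IsAlgebraic (s34m_F K₀ M) (s34m_F K₀ (M * q)) := by
  letI := (heckeAlphaBar K₀ M q).toRingHom.toAlgebra
  haveI : FiniteDimensional (IntermediateField.adjoin K₀ {s18g_jF (K := K₀) (M * q)})
      (s34m_F K₀ (M * q)) := hgen.finite
  -- `K₀(j) ⊆ α 𝓕_M`
  have hle : IntermediateField.adjoin K₀ {s18g_jF (K := K₀) (M * q)} ≤
      (heckeAlphaBar K₀ M q).fieldRange := by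
    rw [IntermediateField.adjoin_le_iff]
    rintro x rfl
    exact ⟨s18g_jF (K := K₀) M, (s34c_jF_eq_alpha M q).symm⟩
  refine ⟨fun y => ?_⟩
  have hy : IsIntegral (IntermediateField.adjoin K₀ {s18g_jF (K := K₀) (M * q)}) y :=
    Algebra.IsIntegral.isIntegral y
  obtain ⟨p, hpm, hp⟩ := hy
  have hl : p.map (algebraMap (IntermediateField.adjoin K₀ {s18g_jF (K := K₀) (M * q)})
      (s34m_F K₀ (M * q))) ∈ Polynomial.lifts (algebraMap (s34m_F K₀ M) (s34m_F K₀ (M * q))) := by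
    rw [Polynomial.lifts_iff_coeff_lifts]
    intro n
    rw [Polynomial.coeff_map]
    obtain ⟨d, hd⟩ := hle (p.coeff n).2
    exact ⟨d, hd⟩
  obtain ⟨p', hp'map, -, hp'monic⟩ :=
    Polynomial.lifts_and_degree_eq_and_monic hl (hpm.map _)
  refine ⟨p', hp'monic.ne_zero, ?_⟩
  rw [Polynomial.aeval_def, ← Polynomial.eval_map, hp'map, Polynomial.eval_map]
  exact hp

/-- `𝓕_{Mq}` is algebraic over `β 𝓕_M`. -/
theorem s34d_isAlgebraic_beta (φ : K₀ →+* Kb) (hq : q.Prime) (hqM : ¬ q ∣ M)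
    [FFGen K₀ (s18g_jF (K := K₀) (M * q))] :
    letI := (heckeBetaBar K₀ M q).toRingHom.toAlgebra
    Algebra.IsAlgebraic (s34m_F K₀ M) (s34m_F K₀ (M * q)) :=
  s34d_isAlgebraic_transport (heckeAlphaBar K₀ M q) (heckeBetaBar K₀ M q) (s34m_al φ M q hq hqM)
    (s34m_al_alpha φ M q hq hqM) (s34d_isAlgebraic_alpha M q)

/-- `β j = j(T^q)` is regular wherever `j` is. -/
theorem s34d_beta_jF_mem (Q : Place K₀ (s34m_F K₀ (M * q)))
    (hQ : s18g_jF (K := K₀) (M * q) ∈ Q.toValuationSubring) :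
    heckeBetaBar K₀ M q (s18g_jF (K := K₀) M) ∈ Q.toValuationSubring := by
  refine s34d_mem_of_intOver Q.toValuationSubring ?_ hQ
  -- transport `s18g_intOver_jqN` from `K₀((T))` to the function field
  obtain ⟨P, hP, h0⟩ := s18g_intOver_jqN (K := K₀) q
  refine ⟨P, hP, ?_⟩
  have hinj : Function.Injective
      ((laurentBaseChange K₀ (modularFunctionFieldFull (M * q))).val :
        s34m_F K₀ (M * q) →+* LaurentSeries K₀) := Subtype.val_injective
  apply hinj
  rw [map_zero, Polynomial.eval_map, Polynomial.hom_eval₂]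
  rw [Polynomial.eval_map] at h0
  have key : ∀ f : ℤ[X] →+* LaurentSeries K₀, f X = jqModC K₀ →
      Polynomial.eval₂ f (qExpand K₀ q (jqModC K₀)) P = 0 →
      Polynomial.eval₂ (((laurentBaseChange K₀ (modularFunctionFieldFull (M * q))).val :
        s34m_F K₀ (M * q) →+* LaurentSeries K₀).comp
        (aeval (s18g_jF (K := K₀) (M * q)) : ℤ[X] →ₐ[ℤ] s34m_F K₀ (M * q)).toRingHom)
        (((laurentBaseChange K₀ (modularFunctionFieldFull (M * q))).val :
          s34m_F K₀ (M * q) →+* LaurentSeries K₀) (heckeBetaBar K₀ M q (s18g_jF (K := K₀) M)))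
        P = 0 := by
    intro f hf h
    have e : ((laurentBaseChange K₀ (modularFunctionFieldFull (M * q))).val :
        s34m_F K₀ (M * q) →+* LaurentSeries K₀).comp
        (aeval (s18g_jF (K := K₀) (M * q)) : ℤ[X] →ₐ[ℤ] s34m_F K₀ (M * q)).toRingHom = f := by
      apply Polynomial.ringHom_ext
      · intro a
        exact RingHom.congr_fun (RingHom.ext_int
          ((((laurentBaseChange K₀ (modularFunctionFieldFull (M * q))).val :
            s34m_F K₀ (M * q) →+* LaurentSeries K₀).comp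
            (aeval (s18g_jF (K := K₀) (M * q)) : ℤ[X] →ₐ[ℤ] s34m_F K₀ (M * q)).toRingHom).comp
              Polynomial.C)
          (f.comp Polynomial.C)) a
      · rw [hf, RingHom.comp_apply]
        show ((aeval (s18g_jF (K := K₀) (M * q)) (X : ℤ[X]) : s34m_F K₀ (M * q)) :
          LaurentSeries K₀) = jqModC K₀
        rw [Polynomial.aeval_X]
        rfl
    rw [e]
    exact h
  refine key _ ?_ h0
  have hX := @Polynomial.aeval_X ℤ (LaurentSeries K₀) _ _ (Ring.toIntAlgebra (LaurentSeries K₀))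
    (jqModC K₀)
  exact hX

end Modular

section Rings

variable {K₀ : Type*} [Field K₀] [Algebra ℚ K₀] {κ : Type*} [Field κ] (G : s18g_GaussData K₀ κ)
  (φ : K₀ →+* Kb) (M q : ℕ) [NeZero M] [NeZero q] (hq : q.Prime) (hqM : ¬ q ∣ M)
  [FFGen K₀ (s18g_jF (K := K₀) (M * q))]

/-- **`α(B_{M,1}) ⊆ B_1`.** -/
theorem s34d_alpha_mem_ring₁ {g : s34m_F K₀ M}
    (hg : g ∈ s18_ring (s34m_Vinf G M) (s18_chart1 (L₀ := K₀) (s18g_jF (K := K₀) M))) :
    heckeAlphaBar K₀ M q g ∈ s34x_ring (s34x_infRing (s34m_VV G φ M q hq hqM))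
      (s18_chart1 (L₀ := K₀) (s18g_jF (K := K₀) (M * q))) := by
  refine ⟨(s34x_mem_infRing _ _).mpr fun i => s34d_alpha_mem_VV G M q φ hq hqM hg.1 i,
    fun Q hQ => ?_⟩
  refine s34d_algHom_mem_place (heckeAlphaBar K₀ M q) (s34d_isAlgebraic_alpha M q)
    (t := s18g_jF (K := K₀) M) (fun P hP => hg.2 P hP) Q ?_
  rw [← s34c_jF_eq_alpha]
  exact hQ

/-- **`α(B_{M,2}) ⊆ B_2`.** -/
theorem s34d_alpha_mem_ring₂ {g : s34m_F K₀ M}
    (hg : g ∈ s18_ring (s34m_Vinf G M) (s18_chart2 (L₀ := K₀) (s18g_jF (K := K₀) M))) :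
    heckeAlphaBar K₀ M q g ∈ s34x_ring (s34x_infRing (s34m_VV G φ M q hq hqM))
      (s18_chart2 (L₀ := K₀) (s18g_jF (K := K₀) (M * q))) := by
  refine ⟨(s34x_mem_infRing _ _).mpr fun i => s34d_alpha_mem_VV G M q φ hq hqM hg.1 i,
    fun Q hQ => ?_⟩
  refine s34d_algHom_mem_place (heckeAlphaBar K₀ M q) (s34d_isAlgebraic_alpha M q)
    (t := (s18g_jF (K := K₀) M)⁻¹) (fun P hP => hg.2 P hP) Q ?_
  rw [map_inv₀, ← s34c_jF_eq_alpha]
  exact hQ

/-- **`β(B_{M,1}) ⊆ B_1`.** -/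
theorem s34d_beta_mem_ring₁ {g : s34m_F K₀ M}
    (hg : g ∈ s18_ring (s34m_Vinf G M) (s18_chart1 (L₀ := K₀) (s18g_jF (K := K₀) M))) :
    heckeBetaBar K₀ M q g ∈ s34x_ring (s34x_infRing (s34m_VV G φ M q hq hqM))
      (s18_chart1 (L₀ := K₀) (s18g_jF (K := K₀) (M * q))) := by
  refine ⟨(s34x_mem_infRing _ _).mpr fun i => s34d_beta_mem_VV G M q φ hq hqM hg.1 i,
    fun Q hQ => ?_⟩
  exact s34d_algHom_mem_place (heckeBetaBar K₀ M q) (s34d_isAlgebraic_beta M q φ hq hqM)
    (t := s18g_jF (K := K₀) M) (fun P hP => hg.2 P hP) Q (s34d_beta_jF_mem M q Q hQ)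

include φ hq hqM in
/-- On chart 2, `β g` (`g ∈ B_{M,2}`) is regular at every place where `β j` does not vanish. -/
theorem s34d_beta_mem_place₂ {g : s34m_F K₀ M}
    (hg : g ∈ s18_ring (s34m_Vinf G M) (s18_chart2 (L₀ := K₀) (s18g_jF (K := K₀) M)))
    (Q : Place K₀ (s34m_F K₀ (M * q)))
    (hQ : (heckeBetaBar K₀ M q (s18g_jF (K := K₀) M))⁻¹ ∈ Q.toValuationSubring) :
    heckeBetaBar K₀ M q g ∈ Q.toValuationSubring := by
  refine s34d_algHom_mem_place (heckeBetaBar K₀ M q) (s34d_isAlgebraic_beta M q φ hq hqM)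
    (t := (s18g_jF (K := K₀) M)⁻¹) (fun P hP => hg.2 P hP) Q ?_
  rw [map_inv₀]
  exact hQ

/-- `β g ∈ B_2` as soon as `β g` is regular at the places of chart 2 where `β j` vanishes. -/
theorem s34d_beta_mem_ring₂_of {g : s34m_F K₀ M}
    (hg : g ∈ s18_ring (s34m_Vinf G M) (s18_chart2 (L₀ := K₀) (s18g_jF (K := K₀) M)))
    (h : ∀ Q ∈ s18_chart2 (L₀ := K₀) (s18g_jF (K := K₀) (M * q)),
      (heckeBetaBar K₀ M q (s18g_jF (K := K₀) M))⁻¹ ∉ Q.toValuationSubring →
        heckeBetaBar K₀ M q g ∈ Q.toValuationSubring) :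
    heckeBetaBar K₀ M q g ∈ s34x_ring (s34x_infRing (s34m_VV G φ M q hq hqM))
      (s18_chart2 (L₀ := K₀) (s18g_jF (K := K₀) (M * q))) := by
  refine ⟨(s34x_mem_infRing _ _).mpr fun i => s34d_beta_mem_VV G M q φ hq hqM hg.1 i,
    fun Q hQ => ?_⟩
  by_cases hQ' : (heckeBetaBar K₀ M q (s18g_jF (K := K₀) M))⁻¹ ∈ Q.toValuationSubring
  · exact s34d_beta_mem_place₂ G φ M q hq hqM hg Q hQ'
  · exact h Q hQ hQ'

end Rings

end Fermat.Agent.Lib.S34
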