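/-
S34 moonshot ([SS] ⇒ S34), package [D] (helper8), part 6: THE BRANCH `q ≥ 5` OF `s34f_Geo` IS CLOSED.

`s34df_geo_five : 5 ≤ q → s34f_Geo M q hq hqM` = helper3's `s34f_geo_j` (`FFive.lean`) fed with
`s34df_contract_five` (`DFibreFive.lean`).  No hypotheses left.
-/
import Fermat.Agent.Lib.S34.DFibreFive

set_option autoImplicit false

namespace Fermat.Agent.Lib.S34

open Polynomial

/-- **`s34f_Geo` for `q ≥ 5`.** -/
theorem s34df_geo_five (M q : ℕ) [NeZero M] [NeZero q] (hq : q.Prime) (hqM : ¬ q ∣ M)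
    (h5 : 5 ≤ q) : s34f_Geo M q hq hqM :=
  s34f_geo_j M q hq hqM X X_ne_zero
    (fun K₀ _ _ _ _ φ κ _ _ _ G _ hπ => s34df_contract_five M q hq hqM h5 K₀ φ κ G hπ)

end Fermat.Agent.Lib.S34
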