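/-
S34 moonshot ([SS] ⇒ S34), package [M](D), concrete part (helper1), (I1) continued: THE HYPOTHESIS
`hβB` OF helper8's `s34df_dichotomy` / `s34df_loc` FOR BOTH CHARTS OF `j`.

For `g` in the level-`M` chart ring `B_{M,i}` there is `b' ∈ B_i` with `b' ≡ β g` modulo
`ϖ (V_∞ ⊓ V_0)`:
* chart 1 (`s34d_beta_lift₁`): `b' = β g` itself (`DChart.lean`);
* chart 2 (`s34d_beta_lift₂`): helper7's chart-2 correction `s34d2_correct` (`DStarInst.lean`,
  lemma (⋆) of the blueprint) applied to `y = β g`, whose poles on the chart `{j ≠ 0}` are zeros of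
  `β j` by `s34d_beta_mem_place₂`.
Also `s34d_alpha_lift₁/₂` = the hypothesis `hαB`.
-/
import Fermat.Agent.Lib.S34.DChart
import Fermat.Agent.Lib.S34.DStarInst

set_option autoImplicit false

noncomputable section

namespace Fermat.Agent.Lib.S34

open ModularCurve AlgebraicCurve HahnSeries Polynomial Fermat.Agent.Lib.FF Fermat.Agent.Lib.S18
  Fermat.Agent.Lib.S37

local notation "Kb" => AlgebraicClosure ℚ

variable {K₀ : Type*} [Field K₀] [Algebra ℚ K₀] {κ : Type*} [Field κ] (G : s18g_GaussData K₀ κ)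
  (φ : K₀ →+* Kb) (M q : ℕ) [NeZero M] [NeZero q] [CharP κ q] (hq : q.Prime) (hqM : ¬ q ∣ M)
  [FFGen K₀ (s18g_jF (K := K₀) (M * q))]

omit [CharP κ q] in
/-- **`hβB` on chart 1.** -/
theorem s34d_beta_lift₁ {g : s34m_F K₀ M}
    (hg : g ∈ s18_ring (s34m_Vinf G M) (s18_chart1 (L₀ := K₀) (s18g_jF (K := K₀) M))) :
    ∃ b' ∈ s34x_ring (s34x_infRing (s34m_VV G φ M q hq hqM))
        (s18_chart1 (L₀ := K₀) (s18g_jF (K := K₀) (M * q))),
      ∃ z, z ∈ s34m_Vinf G (M * q) ∧ z ∈ s34m_Vzero G φ M q hq hqM ∧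
        b' - heckeBetaBar K₀ M q g = s34m_unif G (M * q) * z :=
  ⟨_, s34d_beta_mem_ring₁ G φ M q hq hqM hg, 0, (s34m_Vinf G (M * q)).zero_mem,
    (s34m_Vzero G φ M q hq hqM).zero_mem, by rw [sub_self, mul_zero]⟩

/-- **`hβB` on chart 2** (via the chart-2 correction (⋆)). -/
theorem s34d_beta_lift₂ {g : s34m_F K₀ M}
    (hg : g ∈ s18_ring (s34m_Vinf G M) (s18_chart2 (L₀ := K₀) (s18g_jF (K := K₀) M))) :
    ∃ b' ∈ s34x_ring (s34x_infRing (s34m_VV G φ M q hq hqM))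
        (s18_chart2 (L₀ := K₀) (s18g_jF (K := K₀) (M * q))),
      ∃ z, z ∈ s34m_Vinf G (M * q) ∧ z ∈ s34m_Vzero G φ M q hq hqM ∧
        b' - heckeBetaBar K₀ M q g = s34m_unif G (M * q) * z := by
  have hu0 : s34d2_u (K₀ := K₀) M q ≠ 0 := by
    rw [s34d2_u]
    exact (map_ne_zero (heckeBetaBar K₀ M q)).mpr (s18g_jF_ne_zero M)
  obtain ⟨b', hb', z, hz, e⟩ := s34d2_correct G φ M q hq hqM (heckeBetaBar K₀ M q g)
    ((s34x_mem_infRing _ _).mpr fun i => s34d_beta_mem_VV G M q φ hq hqM hg.1 i)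
    (by
      intro Q _
      by_cases hQu : 0 < Q.ord (s34d2_u (K₀ := K₀) M q)
      · exact Or.inr hQu
      · left
        refine s34d_beta_mem_place₂ G φ M q hq hqM hg Q ?_
        show (s34d2_u (K₀ := K₀) M q)⁻¹ ∈ Q.toValuationSubring
        rw [ff_mem_iff_ord_nonneg Q (inv_ne_zero hu0), Q.ord_inv]
        omega)
  rw [s34x_mem_infRing] at hz
  exact ⟨b', hb', z, hz true, hz false, e⟩

omit [CharP κ q] in
/-- **`hαB` on chart 1** (restatement of `s34d_alpha_mem_ring₁`). -/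
theorem s34d_alpha_lift₁ :
    ∀ g ∈ (s18_ring (s34m_Vinf G M) (s18_chart1 (L₀ := K₀) (s18g_jF (K := K₀) M)) :
        Set (s34m_F K₀ M)),
      heckeAlphaBar K₀ M q g ∈ s34x_ring (s34x_infRing (s34m_VV G φ M q hq hqM))
        (s18_chart1 (L₀ := K₀) (s18g_jF (K := K₀) (M * q))) :=
  fun _ hg => s34d_alpha_mem_ring₁ G φ M q hq hqM hg

omit [CharP κ q] in
/-- **`hαB` on chart 2.** -/
theorem s34d_alpha_lift₂ :
    ∀ g ∈ (s18_ring (s34m_Vinf G M) (s18_chart2 (L₀ := K₀) (s18g_jF (K := K₀) M)) :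
        Set (s34m_F K₀ M)),
      heckeAlphaBar K₀ M q g ∈ s34x_ring (s34x_infRing (s34m_VV G φ M q hq hqM))
        (s18_chart2 (L₀ := K₀) (s18g_jF (K := K₀) (M * q))) :=
  fun _ hg => s34d_alpha_mem_ring₂ G φ M q hq hqM hg

end Fermat.Agent.Lib.S34
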