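/-
S34 moonshot ([SS] ⇒ S34), §E (`q ∈ {2,3}`, base functions `t₂`, `t₃`), piece [E5] (helper1):
THE CHART INCLUSIONS FOR A GENERIC LEVEL-`M` BASE FUNCTION `w`, FROM helper4's CLAIM 1.

`w : 𝓕_M`, `w ≠ 0`; `x := α w`, `y := β w` at level `M q`.  CLAIM 1 (`hclaim`): for every place `P`
of `𝓕_{Mq}`:  `(0 ≤ ord_P x → 0 ≤ ord_P y) ∧ (ord_P x ≤ 0 → ord_P y ≤ 0)`.  Then with
`BM₁ := s18_ring (s34m_Vinf G M) (s18_chart1 w)`, `BM₂ := s18_ring (s34m_Vinf G M) (s18_chart1 w⁻¹)`,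
`S₁ := s18_chart1 x`, `S₂ := s18_chart2 x` (`= s18_chart1 x⁻¹`), `B_i := s34x_ring O₂ S_i`:

* `s34e_ch_alpha₁`, `s34e_ch_alpha₂` : `α(BM_i) ⊆ B_i`  (unconditional) = `hαB`;
* `s34e_ch_beta₁`,  `s34e_ch_beta₂`  : `β(BM_i) ⊆ B_i`  from `hclaim` = `hβB` (`b' = β g`, `z = 0`);

in the shapes of the hypotheses `hαB`, `hβB` of helper8's `s34df_dichotomy` / `s34df_loc` /
`s34df_contract_of_hmain`.  Primed versions `s34e_ch_alpha₁'`, … : the same with the level-`M q`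
function named `wN` and `hwN : heckeAlphaBar K₀ M q w = wN`.
-/
import Fermat.Agent.Lib.S34.DChartW

set_option autoImplicit false

noncomputable section

namespace Fermat.Agent.Lib.S34

open ModularCurve AlgebraicCurve HahnSeries Polynomial Fermat.Agent.Lib.FF Fermat.Agent.Lib.S18
  Fermat.Agent.Lib.S37

local notation "Kb" => AlgebraicClosure ℚ

variable {K₀ : Type*} [Field K₀] [Algebra ℚ K₀] {κ : Type*} [Field κ] (G : s18g_GaussData K₀ κ)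
  (φ : K₀ →+* Kb) (M q : ℕ) [NeZero M] [NeZero q] (hq : q.Prime) (hqM : ¬ q ∣ M)
  [FFGen K₀ (s18g_jF (K := K₀) (M * q))]

omit [FFGen K₀ (s18g_jF (K := K₀) (M * q))] in
/-- CLAIM 1, first half, in membership form: `α w` regular at `Q` ⟹ `β w` regular at `Q`. -/
theorem s34e_ch_mem₁ {w : s34m_F K₀ M} (hw0 : w ≠ 0)
    (hclaim : ∀ P : Place K₀ (s34m_F K₀ (M * q)),
      (0 ≤ P.ord (heckeAlphaBar K₀ M q w) → 0 ≤ P.ord (heckeBetaBar K₀ M q w)) ∧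
      (P.ord (heckeAlphaBar K₀ M q w) ≤ 0 → P.ord (heckeBetaBar K₀ M q w) ≤ 0))
    (Q : Place K₀ (s34m_F K₀ (M * q)))
    (hQ : heckeAlphaBar K₀ M q w ∈ Q.toValuationSubring) :
    heckeBetaBar K₀ M q w ∈ Q.toValuationSubring := by
  have ha0 : heckeAlphaBar K₀ M q w ≠ 0 := (_root_.map_ne_zero _).mpr hw0
  have hb0 : heckeBetaBar K₀ M q w ≠ 0 := (_root_.map_ne_zero _).mpr hw0
  rw [ff_mem_iff_ord_nonneg Q hb0]
  exact (hclaim Q).1 ((ff_mem_iff_ord_nonneg Q ha0).mp hQ)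

omit [FFGen K₀ (s18g_jF (K := K₀) (M * q))] in
/-- CLAIM 1, second half, in membership form: `(α w)⁻¹` regular at `Q` ⟹ `(β w)⁻¹` regular. -/
theorem s34e_ch_mem₂ {w : s34m_F K₀ M} (hw0 : w ≠ 0)
    (hclaim : ∀ P : Place K₀ (s34m_F K₀ (M * q)),
      (0 ≤ P.ord (heckeAlphaBar K₀ M q w) → 0 ≤ P.ord (heckeBetaBar K₀ M q w)) ∧
      (P.ord (heckeAlphaBar K₀ M q w) ≤ 0 → P.ord (heckeBetaBar K₀ M q w) ≤ 0))
    (Q : Place K₀ (s34m_F K₀ (M * q)))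
    (hQ : (heckeAlphaBar K₀ M q w)⁻¹ ∈ Q.toValuationSubring) :
    (heckeBetaBar K₀ M q w)⁻¹ ∈ Q.toValuationSubring := by
  have ha0 : heckeAlphaBar K₀ M q w ≠ 0 := (_root_.map_ne_zero _).mpr hw0
  have hb0 : heckeBetaBar K₀ M q w ≠ 0 := (_root_.map_ne_zero _).mpr hw0
  rw [ff_mem_iff_ord_nonneg Q (inv_ne_zero hb0), Q.ord_inv]
  rw [ff_mem_iff_ord_nonneg Q (inv_ne_zero ha0), Q.ord_inv] at hQ
  have := (hclaim Q).2 (by omega)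
  omega

/-- **`hαB`, chart 1 of `α w`** (unconditional). -/
theorem s34e_ch_alpha₁ (w : s34m_F K₀ M) :
    ∀ g ∈ (s18_ring (L₀ := K₀) (s34m_Vinf G M) (s18_chart1 w) : Set (s34m_F K₀ M)),
      heckeAlphaBar K₀ M q g ∈ s34x_ring (s34x_infRing (s34m_VV G φ M q hq hqM))
        (s18_chart1 (L₀ := K₀) (heckeAlphaBar K₀ M q w)) :=
  fun _ hg => s34d_alpha_mem_ring_of G φ M q hq hqM w _ (fun _ hQ => hQ) hg

/-- **`hαB`, chart 2 of `α w`** (unconditional); `BM₂` is the chart ring of `w⁻¹`. -/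
theorem s34e_ch_alpha₂ (w : s34m_F K₀ M) :
    ∀ g ∈ (s18_ring (L₀ := K₀) (s34m_Vinf G M) (s18_chart1 w⁻¹) : Set (s34m_F K₀ M)),
      heckeAlphaBar K₀ M q g ∈ s34x_ring (s34x_infRing (s34m_VV G φ M q hq hqM))
        (s18_chart2 (L₀ := K₀) (heckeAlphaBar K₀ M q w)) :=
  fun _ hg => s34d_alpha_mem_ring_of G φ M q hq hqM w⁻¹ _
    (fun Q hQ => by
      rw [map_inv₀]
      exact hQ) hg

/-- **`hβB`, chart 1 of `α w`**, from CLAIM 1 (`b' = β g`, `z = 0`). -/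
theorem s34e_ch_beta₁ {w : s34m_F K₀ M} (hw0 : w ≠ 0)
    (hclaim : ∀ P : Place K₀ (s34m_F K₀ (M * q)),
      (0 ≤ P.ord (heckeAlphaBar K₀ M q w) → 0 ≤ P.ord (heckeBetaBar K₀ M q w)) ∧
      (P.ord (heckeAlphaBar K₀ M q w) ≤ 0 → P.ord (heckeBetaBar K₀ M q w) ≤ 0)) :
    ∀ g ∈ (s18_ring (L₀ := K₀) (s34m_Vinf G M) (s18_chart1 w) : Set (s34m_F K₀ M)),
      ∃ b' ∈ s34x_ring (s34x_infRing (s34m_VV G φ M q hq hqM))
          (s18_chart1 (L₀ := K₀) (heckeAlphaBar K₀ M q w)),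
        ∃ z, z ∈ s34m_Vinf G (M * q) ∧ z ∈ s34m_Vzero G φ M q hq hqM ∧
          b' - heckeBetaBar K₀ M q g = s34m_unif G (M * q) * z :=
  s34d_beta_liftW G φ M q hq hqM w _ (fun Q hQ => s34e_ch_mem₁ M q hw0 hclaim Q hQ)

/-- **`hβB`, chart 2 of `α w`**, from CLAIM 1 (`b' = β g`, `z = 0`). -/
theorem s34e_ch_beta₂ {w : s34m_F K₀ M} (hw0 : w ≠ 0)
    (hclaim : ∀ P : Place K₀ (s34m_F K₀ (M * q)),
      (0 ≤ P.ord (heckeAlphaBar K₀ M q w) → 0 ≤ P.ord (heckeBetaBar K₀ M q w)) ∧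
      (P.ord (heckeAlphaBar K₀ M q w) ≤ 0 → P.ord (heckeBetaBar K₀ M q w) ≤ 0)) :
    ∀ g ∈ (s18_ring (L₀ := K₀) (s34m_Vinf G M) (s18_chart1 w⁻¹) : Set (s34m_F K₀ M)),
      ∃ b' ∈ s34x_ring (s34x_infRing (s34m_VV G φ M q hq hqM))
          (s18_chart2 (L₀ := K₀) (heckeAlphaBar K₀ M q w)),
        ∃ z, z ∈ s34m_Vinf G (M * q) ∧ z ∈ s34m_Vzero G φ M q hq hqM ∧
          b' - heckeBetaBar K₀ M q g = s34m_unif G (M * q) * z :=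
  s34d_beta_liftW G φ M q hq hqM w⁻¹ _ (fun Q hQ => by
    rw [map_inv₀]
    exact s34e_ch_mem₂ M q hw0 hclaim Q hQ)

/-! ### The same with the level-`M q` function named -/

/-- `hαB`, chart 1 of `wN = α w`. -/
theorem s34e_ch_alpha₁' (w : s34m_F K₀ M) (wN : s34m_F K₀ (M * q))
    (hwN : heckeAlphaBar K₀ M q w = wN) :
    ∀ g ∈ (s18_ring (L₀ := K₀) (s34m_Vinf G M) (s18_chart1 w) : Set (s34m_F K₀ M)),
      heckeAlphaBar K₀ M q g ∈ s34x_ring (s34x_infRing (s34m_VV G φ M q hq hqM))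
        (s18_chart1 (L₀ := K₀) wN) := by
  subst hwN
  exact s34e_ch_alpha₁ G φ M q hq hqM w

/-- `hαB`, chart 2 of `wN = α w`. -/
theorem s34e_ch_alpha₂' (w : s34m_F K₀ M) (wN : s34m_F K₀ (M * q))
    (hwN : heckeAlphaBar K₀ M q w = wN) :
    ∀ g ∈ (s18_ring (L₀ := K₀) (s34m_Vinf G M) (s18_chart1 w⁻¹) : Set (s34m_F K₀ M)),
      heckeAlphaBar K₀ M q g ∈ s34x_ring (s34x_infRing (s34m_VV G φ M q hq hqM))
        (s18_chart2 (L₀ := K₀) wN) := by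
  subst hwN
  exact s34e_ch_alpha₂ G φ M q hq hqM w

/-- `hβB`, chart 1 of `wN = α w`, from CLAIM 1. -/
theorem s34e_ch_beta₁' {w : s34m_F K₀ M} (hw0 : w ≠ 0) (wN : s34m_F K₀ (M * q))
    (hwN : heckeAlphaBar K₀ M q w = wN)
    (hclaim : ∀ P : Place K₀ (s34m_F K₀ (M * q)),
      (0 ≤ P.ord wN → 0 ≤ P.ord (heckeBetaBar K₀ M q w)) ∧
      (P.ord wN ≤ 0 → P.ord (heckeBetaBar K₀ M q w) ≤ 0)) :
    ∀ g ∈ (s18_ring (L₀ := K₀) (s34m_Vinf G M) (s18_chart1 w) : Set (s34m_F K₀ M)),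
      ∃ b' ∈ s34x_ring (s34x_infRing (s34m_VV G φ M q hq hqM)) (s18_chart1 (L₀ := K₀) wN),
        ∃ z, z ∈ s34m_Vinf G (M * q) ∧ z ∈ s34m_Vzero G φ M q hq hqM ∧
          b' - heckeBetaBar K₀ M q g = s34m_unif G (M * q) * z := by
  subst hwN
  exact s34e_ch_beta₁ G φ M q hq hqM hw0 hclaim

/-- `hβB`, chart 2 of `wN = α w`, from CLAIM 1. -/
theorem s34e_ch_beta₂' {w : s34m_F K₀ M} (hw0 : w ≠ 0) (wN : s34m_F K₀ (M * q))
    (hwN : heckeAlphaBar K₀ M q w = wN)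
    (hclaim : ∀ P : Place K₀ (s34m_F K₀ (M * q)),
      (0 ≤ P.ord wN → 0 ≤ P.ord (heckeBetaBar K₀ M q w)) ∧
      (P.ord wN ≤ 0 → P.ord (heckeBetaBar K₀ M q w) ≤ 0)) :
    ∀ g ∈ (s18_ring (L₀ := K₀) (s34m_Vinf G M) (s18_chart1 w⁻¹) : Set (s34m_F K₀ M)),
      ∃ b' ∈ s34x_ring (s34x_infRing (s34m_VV G φ M q hq hqM)) (s18_chart2 (L₀ := K₀) wN),
        ∃ z, z ∈ s34m_Vinf G (M * q) ∧ z ∈ s34m_Vzero G φ M q hq hqM ∧
          b' - heckeBetaBar K₀ M q g = s34m_unif G (M * q) * z := by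
  subst hwN
  exact s34e_ch_beta₂ G φ M q hq hqM hw0 hclaim

end Fermat.Agent.Lib.S34
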