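/-
S34 moonshot, blueprint §E (helper2): **the final wiring of the branches `q = 3, 2 ∣ M` (base `t₂`)
and `q = 2, 3 ∣ M` (base `t₃`)**.

* `s34e_w_elem_of_hmain` : the ELEMENT-form dichotomy `s34f_Elem` on a chart `S` of level `M q` from
  S18's `hmain` for the chart of a level-`M` coordinate `w` and the chart inclusions `hαB`, `hβB`
  (= helper8's `s34df_contract_of_hmain`, element form);
* `s34e_w_elem_t2`, `s34e_w_elem_t3` : `s34f_Elem` on both charts of `α t_M`, for any `t_M` of level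
  `M` with `q`-expansion `t₂` (`q = 3`, `2 ∣ M`) resp. `t₃` (`q = 2`, `3 ∣ M`), from CLAIM 1
  (`hclaim`, helper1's `EChart` shape) alone;
* `s34e_w_geo_t2`, `s34e_w_geo_t3` : `s34f_Geo M 3` (`2 ∣ M`) and `s34f_Geo M 2` (`3 ∣ M`) from
  CLAIM 1 alone (helper6's `s34m_base_t2/_t3` + helper3's `s34f_geo_of_base`).
-/
import Fermat.Agent.Lib.S34.DFibreD
import Fermat.Agent.Lib.S34.DHmainT
import Fermat.Agent.Lib.S34.EChart
import Fermat.Agent.Lib.S34.EBaseT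
import Fermat.Agent.Lib.S34.RDegH
import Fermat.Agent.Lib.S34.FFive

set_option autoImplicit false
set_option linter.unusedSectionVars false
set_option linter.style.haveILetI false

noncomputable section

namespace Fermat.Agent.Lib.S34

open ModularCurve AlgebraicCurve HahnSeries Polynomial Fermat.Agent.Lib.FF Fermat.Agent.Lib.S18
  Fermat.Agent.Lib.S37

local notation "Kb" => AlgebraicClosure ℚ

section Elem

variable {K₀ : Type} [Field K₀] [CharZero K₀] [Algebra ℚ K₀] {κ : Type} [Field κ]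
  (G : s18g_GaussData K₀ κ) (φ : K₀ →+* Kb) (M q : ℕ) [NeZero M] [NeZero q]
  (hq : q.Prime) (hqM : ¬ q ∣ M) [CharP κ q] [PerfectField κ]

local notation "𝓕M" => laurentBaseChange K₀ (modularFunctionFieldFull M)
local notation "hFM" => (fun (f : LaurentSeries K₀)
  (hf : f ∈ laurentBaseChange K₀ (modularFunctionFieldFull M)) => s18g_baseChange_mem_Frac G M hf)

/-- **The element-form dichotomy from S18's `hmain`** (helper8's `s34df_contract_of_hmain` with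
`s34df_dichotomy` in place of `s34df_loc`). -/
theorem s34e_w_elem_of_hmain (hdeg : s34m_HDeg K₀ M q) (hT : s18g_HT κ M)
    (hdegM : s18g_HDeg K₀ M) (w : ↥𝓕M) (hwV : w ∈ s18g_V G 𝓕M hFM)
    (hcoord : s37b_Coord κ q
      ((s18g_redF G M hFM hT hdegM ⟨w, hwV⟩ : ↥(modularFunctionFieldFullC κ M)) : LaurentSeries κ))
    (hwtw : ∀ τ : κ ≃+* κ, coeffMap (τ : κ →+* κ)
      ((s18g_redF G M hFM hT hdegM ⟨w, hwV⟩ : ↥(modularFunctionFieldFullC κ M)) : LaurentSeries κ) =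
      ((s18g_redF G M hFM hT hdegM ⟨w, hwV⟩ : ↥(modularFunctionFieldFullC κ M)) : LaurentSeries κ))
    (hmain : letI := s18f_algF G M hT hdegM w hwV
      ∀ z : ↥(modularFunctionFieldFullC κ M), IsIntegral κ[X] z →
        ∃ (b : ↥𝓕M) (hb : b ∈ s18_ring (L₀ := K₀) (s18g_V G 𝓕M hFM) (s18_chart1 w)),
          s18g_redF G M hFM hT hdegM ⟨b, hb.1⟩ = z)
    (S : Set (Place K₀ (s34m_F K₀ (M * q))))
    (hαB : ∀ g ∈ (s18_ring (L₀ := K₀) (s34m_Vinf G M) (s18_chart1 w) : Set (s34m_F K₀ M)),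
      heckeAlphaBar K₀ M q g ∈ s34x_ring (s34x_infRing (s34m_VV G φ M q hq hqM)) S)
    (hβB : ∀ g ∈ (s18_ring (L₀ := K₀) (s34m_Vinf G M) (s18_chart1 w) : Set (s34m_F K₀ M)),
      ∃ b' ∈ s34x_ring (s34x_infRing (s34m_VV G φ M q hq hqM)) S,
      ∃ z, z ∈ s34m_Vinf G (M * q) ∧ z ∈ s34m_Vzero G φ M q hq hqM ∧
        b' - heckeBetaBar K₀ M q g = s34m_unif G (M * q) * z) :
    s34f_Elem M q hq hqM G φ S := by
  haveI : Fact q.Prime := ⟨hq⟩
  letI algF := s18f_algF G M hT hdegM w hwV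
  have hA : ∀ p : κ[X], algebraMap κ[X] ↥(modularFunctionFieldFullC κ M) p =
      Polynomial.aeval (s18g_redF G M hFM hT hdegM ⟨w, hwV⟩) p :=
    s18f_algF_apply G M hT hdegM w hwV
  obtain ⟨hDed, hFrac⟩ := s37b_dedekind_of_coord κ q M (s18g_redF G M hFM hT hdegM ⟨w, hwV⟩)
    hcoord hA
  haveI := hDed
  haveI := hFrac
  have hBMV : ∀ g ∈ (s18_ring (L₀ := K₀) (s34m_Vinf G M) (s18_chart1 w) : Set (s34m_F K₀ M)),
      g ∈ s34m_Vinf G M := fun g hg => hg.1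
  have hlift : ∀ d : ↥(integralClosure κ[X] ↥(modularFunctionFieldFullC κ M)), ∃ g,
      ∃ hg : g ∈ (s18_ring (L₀ := K₀) (s34m_Vinf G M) (s18_chart1 w) : Set (s34m_F K₀ M)),
      s34m_redInf G M ⟨g, hBMV g hg⟩ =
        ((algebraMap ↥(integralClosure κ[X] ↥(modularFunctionFieldFullC κ M))
          ↥(modularFunctionFieldFullC κ M) d : ↥(modularFunctionFieldFullC κ M)) :
          LaurentSeries κ) := by
    intro d
    obtain ⟨b, hb, e⟩ := hmain (d : ↥(modularFunctionFieldFullC κ M)) d.2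
    refine ⟨b, hb, ?_⟩
    have h1 := congrArg (fun z : ↥(modularFunctionFieldFullC κ M) => (z : LaurentSeries κ)) e
    exact h1
  have htw : ∀ d : ↥(integralClosure κ[X] ↥(modularFunctionFieldFullC κ M)),
      ∃ d' : ↥(integralClosure κ[X] ↥(modularFunctionFieldFullC κ M)),
      qExpand κ q ((algebraMap ↥(integralClosure κ[X] ↥(modularFunctionFieldFullC κ M))
          ↥(modularFunctionFieldFullC κ M) d : ↥(modularFunctionFieldFullC κ M)) :
          LaurentSeries κ) =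
        ((algebraMap ↥(integralClosure κ[X] ↥(modularFunctionFieldFullC κ M))
          ↥(modularFunctionFieldFullC κ M) d' : ↥(modularFunctionFieldFullC κ M)) :
          LaurentSeries κ) ^ q := fun d =>
    s34df_htw M q (s18g_redF G M hFM hT hdegM ⟨w, hwV⟩) (hwtw _) hA d
  intro 𝔫 _ hϖ𝔫
  exact s34df_dichotomy G φ M q hq hqM S (modularFunctionFieldFullC κ M)
    (D₁ := ↥(integralClosure κ[X] ↥(modularFunctionFieldFullC κ M)))
    (D₂ := ↥(integralClosure κ[X] ↥(modularFunctionFieldFullC κ M)))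
    (fun b => s34df_hF₁ G φ M q hq hqM S hdeg hT hdegM b)
    (fun b => s34df_hF₂ G φ M q hq hqM S hdeg hT hdegM b)
    _ rfl _ hBMV hαB hβB hlift hlift htw htw 𝔫 hϖ𝔫

end Elem

/-! ### The two `s34f_Elem`s for the charts of `α t_M` -/

section Inst

variable (M q : ℕ) [NeZero M] [NeZero q] (hq : q.Prime) (hqM : ¬ q ∣ M)
  (K₀ : Type) [Field K₀] [NumberField K₀] (φ : K₀ →+* Kb)
  (κ : Type) [Field κ] [CharP κ q] [PerfectField κ]
  (G : s18g_GaussData K₀ κ) [IsDiscreteValuationRing G.A] (hπ : Function.Surjective G.π)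

local notation "𝓕M" => laurentBaseChange K₀ (modularFunctionFieldFull M)
local notation "hFM" => (fun (f : LaurentSeries K₀)
  (hf : f ∈ laurentBaseChange K₀ (modularFunctionFieldFull M)) => s18g_baseChange_mem_Frac G M hf)

include hπ in
/-- **[D] for the charts of `t₂`** (`q = 3`, `2 ∣ M`): the element-form dichotomy on both charts of
`α t_M` from CLAIM 1. -/
theorem s34e_w_elem_t2 (hq3 : q = 3) (h2M : 2 ∣ M)
    (tM : s34m_F K₀ M) (htM : (tM : LaurentSeries K₀) = s18u_t2 K₀)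
    [FFGen K₀ tM] [FFGen K₀ tM⁻¹]
    (hclaim : ∀ P : Place K₀ (s34m_F K₀ (M * q)),
      (0 ≤ P.ord (heckeAlphaBar K₀ M q tM) → 0 ≤ P.ord (heckeBetaBar K₀ M q tM)) ∧
      (P.ord (heckeAlphaBar K₀ M q tM) ≤ 0 → P.ord (heckeBetaBar K₀ M q tM) ≤ 0)) :
    s34f_Elem M q hq hqM G φ (s18_chart1 (L₀ := K₀) (heckeAlphaBar K₀ M q tM)) ∧
    s34f_Elem M q hq hqM G φ (s18_chart2 (L₀ := K₀) (heckeAlphaBar K₀ M q tM)) := by
  haveI : Fact q.Prime := ⟨hq⟩
  have hdeg : s34m_HDeg K₀ M q := s34r_deg_HDeg φ M q hq hqM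
  have hT : s18g_HT κ M := s18t_indep_j q M hqM κ
  have hdegM : s18g_HDeg K₀ M := fun n b hb hn => s18g_exists_relation M φ hn b hb
  have hdegN : s18g_HDeg K₀ (M * q) := fun n b hb hn => s18g_exists_relation (M * q) φ hn b hb
  haveI : FFGen K₀ (s18g_jF (K := K₀) (M * q)) := s18b_ffGen_jF (M * q) hdegN
  have hwV := s34dt_t2_mem_V M K₀ κ G tM htM
  have hwinvV := s34dt_t2_inv_mem_V M K₀ κ G tM htM
  have hw0 : tM ≠ 0 := by
    intro h0
    apply s18b_t2_ne_zero K₀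
    rw [← htM, h0]
    rfl
  have hred : ((s18g_redF G M hFM hT hdegM ⟨tM, hwV⟩ : ↥(modularFunctionFieldFullC κ M)) :
      LaurentSeries κ) = s18u_t2 κ := by
    rw [s18g_coe_redF]
    exact s18t_redV_t2 G M hFM tM htM hwV
  have hredinv : ((s18g_redF G M hFM hT hdegM ⟨tM⁻¹, hwinvV⟩ :
      ↥(modularFunctionFieldFullC κ M)) : LaurentSeries κ) = (s18u_t2 κ)⁻¹ := by
    rw [s18f_redF_inv G M hT hdegM tM hw0 hwV hwinvV, IntermediateField.coe_inv, hred]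
  refine ⟨s34e_w_elem_of_hmain G φ M q hq hqM hdeg hT hdegM tM hwV ?_ ?_
      (s34dt_hmain_t2 M q hqM K₀ φ κ G hπ hT hdegM hq3 h2M tM htM) _
      (s34e_ch_alpha₁ G φ M q hq hqM tM) (s34e_ch_beta₁ G φ M q hq hqM hw0 hclaim),
    s34e_w_elem_of_hmain G φ M q hq hqM hdeg hT hdegM tM⁻¹ hwinvV ?_ ?_
      (s34dt_hmain_t2_inv M q hqM K₀ φ κ G hπ hT hdegM hq3 h2M tM htM) _
      (s34e_ch_alpha₂ G φ M q hq hqM tM) (s34e_ch_beta₂ G φ M q hq hqM hw0 hclaim)⟩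
  · rw [hred]
    exact s37b_coord_t2 κ q
  · intro τ
    rw [hred]
    exact s18u_coeffMap_t2 _
  · rw [hredinv]
    exact s37b_coord_inv (s37b_coord_t2 κ q)
  · intro τ
    rw [hredinv, map_inv₀, s18u_coeffMap_t2]

include hπ in
/-- **[D] for the charts of `t₃`** (`q = 2`, `3 ∣ M`): the element-form dichotomy on both charts of
`α t_M` from CLAIM 1. -/
theorem s34e_w_elem_t3 (hq2 : q = 2) (h3M : 3 ∣ M)
    (tM : s34m_F K₀ M) (htM : (tM : LaurentSeries K₀) = s18u_t3 K₀)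
    [FFGen K₀ tM] [FFGen K₀ tM⁻¹]
    (hclaim : ∀ P : Place K₀ (s34m_F K₀ (M * q)),
      (0 ≤ P.ord (heckeAlphaBar K₀ M q tM) → 0 ≤ P.ord (heckeBetaBar K₀ M q tM)) ∧
      (P.ord (heckeAlphaBar K₀ M q tM) ≤ 0 → P.ord (heckeBetaBar K₀ M q tM) ≤ 0)) :
    s34f_Elem M q hq hqM G φ (s18_chart1 (L₀ := K₀) (heckeAlphaBar K₀ M q tM)) ∧
    s34f_Elem M q hq hqM G φ (s18_chart2 (L₀ := K₀) (heckeAlphaBar K₀ M q tM)) := by
  haveI : Fact q.Prime := ⟨hq⟩
  have hdeg : s34m_HDeg K₀ M q := s34r_deg_HDeg φ M q hq hqM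
  have hT : s18g_HT κ M := s18t_indep_j q M hqM κ
  have hdegM : s18g_HDeg K₀ M := fun n b hb hn => s18g_exists_relation M φ hn b hb
  have hdegN : s18g_HDeg K₀ (M * q) := fun n b hb hn => s18g_exists_relation (M * q) φ hn b hb
  haveI : FFGen K₀ (s18g_jF (K := K₀) (M * q)) := s18b_ffGen_jF (M * q) hdegN
  have hwV := s34dt_t3_mem_V M K₀ κ G tM htM
  have hwinvV := s34dt_t3_inv_mem_V M K₀ κ G tM htM
  have hw0 : tM ≠ 0 := by
    intro h0
    apply s18b_t3_ne_zero K₀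
    rw [← htM, h0]
    rfl
  have hred : ((s18g_redF G M hFM hT hdegM ⟨tM, hwV⟩ : ↥(modularFunctionFieldFullC κ M)) :
      LaurentSeries κ) = s18u_t3 κ := by
    rw [s18g_coe_redF]
    exact s18t_redV_t3 G M hFM tM htM hwV
  have hredinv : ((s18g_redF G M hFM hT hdegM ⟨tM⁻¹, hwinvV⟩ :
      ↥(modularFunctionFieldFullC κ M)) : LaurentSeries κ) = (s18u_t3 κ)⁻¹ := by
    rw [s18f_redF_inv G M hT hdegM tM hw0 hwV hwinvV, IntermediateField.coe_inv, hred]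
  refine ⟨s34e_w_elem_of_hmain G φ M q hq hqM hdeg hT hdegM tM hwV ?_ ?_
      (s34dt_hmain_t3 M q hqM K₀ φ κ G hπ hT hdegM hq2 h3M tM htM) _
      (s34e_ch_alpha₁ G φ M q hq hqM tM) (s34e_ch_beta₁ G φ M q hq hqM hw0 hclaim),
    s34e_w_elem_of_hmain G φ M q hq hqM hdeg hT hdegM tM⁻¹ hwinvV ?_ ?_
      (s34dt_hmain_t3_inv M q hqM K₀ φ κ G hπ hT hdegM hq2 h3M tM htM) _
      (s34e_ch_alpha₂ G φ M q hq hqM tM) (s34e_ch_beta₂ G φ M q hq hqM hw0 hclaim)⟩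
  · rw [hred]
    exact s37b_coord_t3 κ q
  · intro τ
    rw [hred]
    exact s18u_coeffMap_t3 _
  · rw [hredinv]
    exact s37b_coord_inv (s37b_coord_t3 κ q)
  · intro τ
    rw [hredinv, map_inv₀, s18u_coeffMap_t3]

end Inst

/-! ### The geometric contract on the two branches -/

section Geo

variable (M q : ℕ) [NeZero M] [NeZero q] (hq : q.Prime) (hqM : ¬ q ∣ M)

/-- **The branch `q = 3`, `2 ∣ M`** (base `t₂`): the geometric contract from CLAIM 1. -/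
theorem s34e_w_geo_t2 (hq3 : q = 3) (h2M : 2 ∣ M)
    (hclaim : ∀ (K₀ : Type) [Field K₀] [NumberField K₀] (_ : K₀ →+* Kb)
      (κ : Type) [Field κ] [CharP κ q] [PerfectField κ]
      (G : s18g_GaussData K₀ κ) [IsDiscreteValuationRing G.A], Function.Surjective G.π →
      ∀ tM : s34m_F K₀ M, (tM : LaurentSeries K₀) = s18u_t2 K₀ →
      ∀ P : Place K₀ (s34m_F K₀ (M * q)),
        (0 ≤ P.ord (heckeAlphaBar K₀ M q tM) → 0 ≤ P.ord (heckeBetaBar K₀ M q tM)) ∧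
        (P.ord (heckeAlphaBar K₀ M q tM) ≤ 0 → P.ord (heckeBetaBar K₀ M q tM) ≤ 0)) :
    s34f_Geo M q hq hqM := by
  refine s34f_geo_of_base M q hq hqM X X_ne_zero ?_
  intro K₀ _ _ _ _ φ κ _ _ _ G _ hπ
  obtain ⟨tM, htM, -, -, hgenM, hgenMinv, -, hw0, hgen, hwO, hwO', hfix, hα, hα'⟩ :=
    s34m_base_t2 G φ M q hq hqM h2M (by rw [hq3]; norm_num)
  haveI := hgenM
  haveI := hgenMinv
  obtain ⟨h1, h2⟩ := s34e_w_elem_t2 M q hq hqM K₀ φ κ G hπ hq3 h2M tM htM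
    (hclaim K₀ φ κ G hπ tM htM)
  exact ⟨_, hw0, hgen, hwO, hwO', hfix, hα, hα', h1, h2⟩

/-- **The branch `q = 2`, `3 ∣ M`** (base `t₃`): the geometric contract from CLAIM 1. -/
theorem s34e_w_geo_t3 (hq2 : q = 2) (h3M : 3 ∣ M)
    (hclaim : ∀ (K₀ : Type) [Field K₀] [NumberField K₀] (_ : K₀ →+* Kb)
      (κ : Type) [Field κ] [CharP κ q] [PerfectField κ]
      (G : s18g_GaussData K₀ κ) [IsDiscreteValuationRing G.A], Function.Surjective G.π →
      ∀ tM : s34m_F K₀ M, (tM : LaurentSeries K₀) = s18u_t3 K₀ →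
      ∀ P : Place K₀ (s34m_F K₀ (M * q)),
        (0 ≤ P.ord (heckeAlphaBar K₀ M q tM) → 0 ≤ P.ord (heckeBetaBar K₀ M q tM)) ∧
        (P.ord (heckeAlphaBar K₀ M q tM) ≤ 0 → P.ord (heckeBetaBar K₀ M q tM) ≤ 0)) :
    s34f_Geo M q hq hqM := by
  refine s34f_geo_of_base M q hq hqM X X_ne_zero ?_
  intro K₀ _ _ _ _ φ κ _ _ _ G _ hπ
  obtain ⟨tM, htM, -, -, hgenM, hgenMinv, -, hw0, hgen, hwO, hwO', hfix, hα, hα'⟩ :=
    s34m_base_t3 G φ M q hq hqM h3M (by rw [hq2]; norm_num)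
  haveI := hgenM
  haveI := hgenMinv
  obtain ⟨h1, h2⟩ := s34e_w_elem_t3 M q hq hqM K₀ φ κ G hπ hq2 h3M tM htM
    (hclaim K₀ φ κ G hπ tM htM)
  exact ⟨_, hw0, hgen, hwO, hwO', hfix, hα, hα', h1, h2⟩

end Geo

end Fermat.Agent.Lib.S34
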