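/-
S34 moonshot ([SS] ⇒ S34), package [M]/(D) (helper8): the ABSTRACT Goursat / Frobenius-graph lemma
(modular-free).

`B` a commutative ring (the chart ring of the normal model of `X₀(qM)`), `ϖ ∈ B`,
`r₁ : B →+* O₁`, `r₂ : B →+* O₂` two SURJECTIVE reductions onto Dedekind domains (the coordinate
rings of the two components of the special fibre) with `ker r₁ ⊓ ker r₂ = (ϖ)`.
`I₁ := r₁ (ker r₂)`, `I₂ := r₂ (ker r₁)` are the two "crossing ideals" (conductors).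
Hypothesis (G): `I₁` is not contained in the square of any maximal ideal containing it, same for `I₂`
(transversal crossings).  Conclusion, for every maximal ideal `𝔫 ∋ ϖ` of `B`, in ELEMENT FORM:

* SMOOTH: `∃ t ∈ 𝔫, ∀ x ∈ 𝔫, ∃ s ∉ 𝔫, s * x ∈ (t, ϖ)`, or
* NODE:   `∃ u w ∈ 𝔫, u * w ∈ (ϖ) ∧ ∀ x ∈ 𝔫, ∃ s ∉ 𝔫, s * x ∈ (u, w, ϖ)`,

and the corresponding statements `𝔪 (B_𝔫) = (t, ϖ)` resp. `(u, w, ϖ)` for `Localization.AtPrime 𝔫`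
(the hypotheses of `Lib/S34/NSec`).

(G) follows from a Frobenius-like endomorphism `Φ` of `O = O₁ = O₂` with `(y, Φ y)`, `(Φ y, y)` in
the image of `B` and `Φ (Φ y) ∈ 𝔪 → Φ (Φ y) ∈ 𝔪 ^ 2` (`s34g_G_of_frob`).
-/
import Mathlib

set_option autoImplicit false
set_option linter.unusedSectionVars false
set_option linter.style.haveILetI false

namespace Fermat.Agent.Lib.S34

open IsLocalRing

/-! ### Dedekind domains: uniformisers in element form -/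

section Dedekind

variable {O : Type*} [CommRing O] [IsDedekindDomain O]

/-- If `t ∈ 𝔪 ∖ 𝔪²` then `t` generates `𝔪` locally at `𝔪`, in element form. -/
theorem s34g_dedekind_unif (𝔪 : Ideal O) [𝔪.IsMaximal] {t : O} (ht : t ∈ 𝔪)
    (ht2 : t ∉ 𝔪 ^ 2) : ∀ x ∈ 𝔪, ∃ s, s ∉ 𝔪 ∧ ∃ c, s * x = c * t := by
  have hle : Ideal.span {t} ≤ 𝔪 := (Ideal.span_singleton_le_iff_mem _).mpr ht
  obtain ⟨J, hJ⟩ := Ideal.dvd_iff_le.mpr hle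
  have hJ𝔪 : ¬ J ≤ 𝔪 := by
    intro hJle
    obtain ⟨J', hJ'⟩ := Ideal.dvd_iff_le.mpr hJle
    apply ht2
    have h2 : Ideal.span {t} = 𝔪 ^ 2 * J' := by rw [hJ, hJ', ← mul_assoc, pow_two]
    have h3 : t ∈ 𝔪 ^ 2 * J' := by rw [← h2]; exact Ideal.mem_span_singleton_self t
    exact Ideal.mul_le_right (Ideal.mul_comm (𝔪 ^ 2) J' ▸ h3)
  obtain ⟨s, hsJ, hs𝔪⟩ := SetLike.not_le_iff_exists.mp hJ𝔪
  intro x hx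
  refine ⟨s, hs𝔪, ?_⟩
  have hmem : x * s ∈ Ideal.span {t} := by
    rw [hJ]; exact Ideal.mul_mem_mul hx hsJ
  rw [Ideal.mem_span_singleton'] at hmem
  obtain ⟨c, hc⟩ := hmem
  exact ⟨c, by rw [hc]; ring⟩

/-- A maximal ideal `≠ ⊥` of a Dedekind domain contains an element outside its square. -/
theorem s34g_exists_unif (𝔪 : Ideal O) [𝔪.IsMaximal] (hne : 𝔪 ≠ ⊥) :
    ∃ t ∈ 𝔪, t ∉ 𝔪 ^ 2 := by
  have hlt := Ideal.pow_succ_lt_pow (P := 𝔪) hne 1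
  rw [pow_one] at hlt
  obtain ⟨t, ht, ht2⟩ := SetLike.exists_of_lt hlt
  exact ⟨t, ht, ht2⟩

end Dedekind

/-! ### The local structure at a maximal ideal containing `ϖ` -/

section Local

variable {B O₁ O₂ : Type*} [CommRing B] [CommRing O₁] [IsDedekindDomain O₁]
  [CommRing O₂] [IsDedekindDomain O₂]
  (r₁ : B →+* O₁) (r₂ : B →+* O₂) (ϖ : B)
  (h₁ : Function.Surjective r₁) (h₂ : Function.Surjective r₂)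
  (hker : RingHom.ker r₁ ⊓ RingHom.ker r₂ = Ideal.span {ϖ})

include h₁ in
theorem s34g_map_isMaximal (𝔫 : Ideal B) [h𝔫 : 𝔫.IsMaximal] (hk : RingHom.ker r₁ ≤ 𝔫) :
    (Ideal.map r₁ 𝔫).IsMaximal ∧ Ideal.comap r₁ (Ideal.map r₁ 𝔫) = 𝔫 := by
  have hcomap : Ideal.comap r₁ (Ideal.map r₁ 𝔫) = 𝔫 := by
    rw [Ideal.comap_map_of_surjective r₁ h₁]
    exact sup_eq_left.mpr hk
  refine ⟨?_, hcomap⟩
  rcases Ideal.map_eq_top_or_isMaximal_of_surjective r₁ h₁ h𝔫 with h | h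
  · exfalso
    rw [h, Ideal.comap_top] at hcomap
    exact h𝔫.ne_top hcomap.symm
  · exact h

include h₁ h₂ hker in
/-- SMOOTH case: `ker r₁ ≤ 𝔫` and the crossing ideal `r₁ (ker r₂)` is not contained in `r₁ 𝔫`. -/
theorem s34g_smooth (hO₁ : ¬ IsField O₁) (𝔫 : Ideal B) [h𝔫 : 𝔫.IsMaximal]
    (hk : RingHom.ker r₁ ≤ 𝔫)
    (hI : ¬ Ideal.map r₁ (RingHom.ker r₂) ≤ Ideal.map r₁ 𝔫) :
    ∃ t ∈ 𝔫, ∀ x ∈ 𝔫, ∃ s, s ∉ 𝔫 ∧ s * x ∈ Ideal.span {t, ϖ} := by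
  obtain ⟨hmax, hcomap⟩ := s34g_map_isMaximal r₁ h₁ 𝔫 hk
  set 𝔪 := Ideal.map r₁ 𝔫 with h𝔪
  haveI := hmax
  -- `b ∈ ker r₂`, `b ∉ 𝔫`
  obtain ⟨bb, hbbI, hbb𝔪⟩ := SetLike.not_le_iff_exists.mp hI
  obtain ⟨b, hbker, rfl⟩ := Ideal.mem_image_of_mem_map_of_surjective r₁ h₁ hbbI
  have hb𝔫 : b ∉ 𝔫 := fun hb => hbb𝔪 (Ideal.mem_map_of_mem r₁ hb)
  -- uniformiser
  have hne : 𝔪 ≠ ⊥ := Ring.ne_bot_of_isMaximal_of_not_isField hmax hO₁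
  obtain ⟨tb, htb, htb2⟩ := s34g_exists_unif 𝔪 hne
  obtain ⟨t, rfl⟩ := h₁ tb
  have ht𝔫 : t ∈ 𝔫 := by rw [← hcomap]; exact htb
  refine ⟨t, ht𝔫, fun x hx => ?_⟩
  have hx𝔪 : r₁ x ∈ 𝔪 := Ideal.mem_map_of_mem r₁ hx
  obtain ⟨sb, hsb, cb, hsc⟩ := s34g_dedekind_unif 𝔪 htb htb2 (r₁ x) hx𝔪
  obtain ⟨s, rfl⟩ := h₁ sb
  obtain ⟨c, rfl⟩ := h₁ cb
  have hs𝔫 : s ∉ 𝔫 := fun hs => hsb (Ideal.mem_map_of_mem r₁ hs)
  have hy : s * x - c * t ∈ RingHom.ker r₁ := by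
    rw [RingHom.mem_ker, map_sub, map_mul, map_mul, hsc, sub_self]
  have hby : b * (s * x - c * t) ∈ Ideal.span {ϖ} := by
    rw [← hker]
    exact ⟨Ideal.mul_mem_left _ _ hy, Ideal.mul_mem_right _ _ hbker⟩
  rw [Ideal.mem_span_singleton'] at hby
  obtain ⟨z, hz⟩ := hby
  refine ⟨b * s, fun h => ?_, ?_⟩
  · rcases h𝔫.isPrime.mem_or_mem h with h | h
    · exact hb𝔫 h
    · exact hs𝔫 h
  · rw [Ideal.mem_span_pair]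
    exact ⟨b * c, z, by rw [hz]; ring⟩

include h₁ h₂ hker in
/-- NODE case: `ker r₁ ≤ 𝔫` and the crossing ideal `r₁ (ker r₂)` is contained in `r₁ 𝔫`, with
transversality on both sides. -/
theorem s34g_node (𝔫 : Ideal B) [h𝔫 : 𝔫.IsMaximal] (hk : RingHom.ker r₁ ≤ 𝔫)
    (hI : Ideal.map r₁ (RingHom.ker r₂) ≤ Ideal.map r₁ 𝔫)
    (hG₁ : ¬ Ideal.map r₁ (RingHom.ker r₂) ≤ Ideal.map r₁ 𝔫 ^ 2)
    (hG₂ : ¬ Ideal.map r₂ (RingHom.ker r₁) ≤ Ideal.map r₂ 𝔫 ^ 2) :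
    ∃ u ∈ 𝔫, ∃ w ∈ 𝔫, (∃ β, u * w = ϖ * β) ∧
      ∀ x ∈ 𝔫, ∃ s, s ∉ 𝔫 ∧ s * x ∈ Ideal.span {u, w, ϖ} := by
  obtain ⟨hmax₁, hcomap₁⟩ := s34g_map_isMaximal r₁ h₁ 𝔫 hk
  -- `ker r₂ ≤ 𝔫`
  have hk₂ : RingHom.ker r₂ ≤ 𝔫 := by
    intro b hb
    rw [← hcomap₁]
    exact hI (Ideal.mem_map_of_mem r₁ hb)
  obtain ⟨hmax₂, hcomap₂⟩ := s34g_map_isMaximal r₂ h₂ 𝔫 hk₂
  set 𝔪₁ := Ideal.map r₁ 𝔫 with h𝔪₁
  set 𝔪₂ := Ideal.map r₂ 𝔫 with h𝔪₂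
  haveI := hmax₁
  haveI := hmax₂
  -- `u ∈ ker r₂` with `r₁ u ∈ 𝔪₁ ∖ 𝔪₁²`
  obtain ⟨ub, hubI, hub2⟩ := SetLike.not_le_iff_exists.mp hG₁
  obtain ⟨u, huker, rfl⟩ := Ideal.mem_image_of_mem_map_of_surjective r₁ h₁ hubI
  have hu𝔫 : u ∈ 𝔫 := hk₂ huker
  have hu𝔪 : r₁ u ∈ 𝔪₁ := Ideal.mem_map_of_mem r₁ hu𝔫
  -- `w ∈ ker r₁` with `r₂ w ∈ 𝔪₂ ∖ 𝔪₂²`
  obtain ⟨wb, hwbI, hwb2⟩ := SetLike.not_le_iff_exists.mp hG₂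
  obtain ⟨w, hwker, rfl⟩ := Ideal.mem_image_of_mem_map_of_surjective r₂ h₂ hwbI
  have hw𝔫 : w ∈ 𝔫 := hk hwker
  have hw𝔪 : r₂ w ∈ 𝔪₂ := Ideal.mem_map_of_mem r₂ hw𝔫
  have huw : u * w ∈ Ideal.span {ϖ} := by
    rw [← hker]
    exact ⟨Ideal.mul_mem_left _ _ hwker, Ideal.mul_mem_right _ _ huker⟩
  refine ⟨u, hu𝔫, w, hw𝔫, ?_, fun x hx => ?_⟩
  · rw [Ideal.mem_span_singleton'] at huw
    obtain ⟨β, hβ⟩ := huw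
    exact ⟨β, by rw [← hβ]; ring⟩
  -- first kill the `r₁`-part with `u`
  have hx𝔪 : r₁ x ∈ 𝔪₁ := Ideal.mem_map_of_mem r₁ hx
  obtain ⟨sb, hsb, cb, hsc⟩ := s34g_dedekind_unif 𝔪₁ hu𝔪 hub2 (r₁ x) hx𝔪
  obtain ⟨s, rfl⟩ := h₁ sb
  obtain ⟨c, rfl⟩ := h₁ cb
  have hs𝔫 : s ∉ 𝔫 := fun hs => hsb (Ideal.mem_map_of_mem r₁ hs)
  have hy : s * x - c * u ∈ RingHom.ker r₁ := by
    rw [RingHom.mem_ker, map_sub, map_mul, map_mul, hsc, sub_self]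
  have hy𝔫 : s * x - c * u ∈ 𝔫 := hk hy
  -- then the `r₂`-part with `w`
  have hy𝔪 : r₂ (s * x - c * u) ∈ 𝔪₂ := Ideal.mem_map_of_mem r₂ hy𝔫
  obtain ⟨sb', hsb', cb', hsc'⟩ := s34g_dedekind_unif 𝔪₂ hw𝔪 hwb2 _ hy𝔪
  obtain ⟨s', rfl⟩ := h₂ sb'
  obtain ⟨c', rfl⟩ := h₂ cb'
  have hs'𝔫 : s' ∉ 𝔫 := fun hs => hsb' (Ideal.mem_map_of_mem r₂ hs)
  have hz : s' * (s * x - c * u) - c' * w ∈ Ideal.span {ϖ} := by
    rw [← hker]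
    refine ⟨?_, ?_⟩
    · exact Ideal.sub_mem _ (Ideal.mul_mem_left _ _ hy) (Ideal.mul_mem_left _ _ hwker)
    · show s' * (s * x - c * u) - c' * w ∈ RingHom.ker r₂
      rw [RingHom.mem_ker, map_sub, map_mul, map_mul, hsc', sub_self]
  rw [Ideal.mem_span_singleton'] at hz
  obtain ⟨z, hz⟩ := hz
  refine ⟨s' * s, fun h => ?_, ?_⟩
  · rcases h𝔫.isPrime.mem_or_mem h with h | h
    · exact hs'𝔫 h
    · exact hs𝔫 h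
  · rw [Ideal.mem_span_insert]
    refine ⟨s' * c, c' * w + z * ϖ, Ideal.mem_span_pair.mpr ⟨c', z, rfl⟩, ?_⟩
    linear_combination (-1 : B) * hz

include h₁ h₂ hker in
/-- **The dichotomy** at every maximal ideal `𝔫 ∋ ϖ`, in element form. -/
theorem s34g_smooth_or_node (hO₁ : ¬ IsField O₁) (hO₂ : ¬ IsField O₂)
    (hG₁ : ∀ 𝔪 : Ideal O₁, 𝔪.IsMaximal → Ideal.map r₁ (RingHom.ker r₂) ≤ 𝔪 →
      ¬ Ideal.map r₁ (RingHom.ker r₂) ≤ 𝔪 ^ 2)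
    (hG₂ : ∀ 𝔪 : Ideal O₂, 𝔪.IsMaximal → Ideal.map r₂ (RingHom.ker r₁) ≤ 𝔪 →
      ¬ Ideal.map r₂ (RingHom.ker r₁) ≤ 𝔪 ^ 2)
    (𝔫 : Ideal B) [h𝔫 : 𝔫.IsMaximal] (hϖ𝔫 : ϖ ∈ 𝔫) :
    (∃ t ∈ 𝔫, ∀ x ∈ 𝔫, ∃ s, s ∉ 𝔫 ∧ s * x ∈ Ideal.span {t, ϖ}) ∨
    (∃ u ∈ 𝔫, ∃ w ∈ 𝔫, (∃ β, u * w = ϖ * β) ∧
      ∀ x ∈ 𝔫, ∃ s, s ∉ 𝔫 ∧ s * x ∈ Ideal.span {u, w, ϖ}) := by
  have hprod : RingHom.ker r₁ * RingHom.ker r₂ ≤ 𝔫 := by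
    refine le_trans Ideal.mul_le_inf ?_
    rw [hker, Ideal.span_le]
    rintro z rfl
    exact hϖ𝔫
  have hker' : RingHom.ker r₂ ⊓ RingHom.ker r₁ = Ideal.span {ϖ} := by rw [inf_comm, hker]
  rcases h𝔫.isPrime.mul_le.mp hprod with hk | hk
  · by_cases hI : Ideal.map r₁ (RingHom.ker r₂) ≤ Ideal.map r₁ 𝔫
    · right
      obtain ⟨hmax₁, hcomap₁⟩ := s34g_map_isMaximal r₁ h₁ 𝔫 hk
      have hk₂ : RingHom.ker r₂ ≤ 𝔫 := by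
        intro b hb
        rw [← hcomap₁]
        exact hI (Ideal.mem_map_of_mem r₁ hb)
      obtain ⟨hmax₂, -⟩ := s34g_map_isMaximal r₂ h₂ 𝔫 hk₂
      exact s34g_node r₁ r₂ ϖ h₁ h₂ hker 𝔫 hk hI (hG₁ _ hmax₁ hI)
        (hG₂ _ hmax₂ (Ideal.map_mono hk))
    · left
      exact s34g_smooth r₁ r₂ ϖ h₁ h₂ hker hO₁ 𝔫 hk hI
  · by_cases hI : Ideal.map r₂ (RingHom.ker r₁) ≤ Ideal.map r₂ 𝔫
    · right
      obtain ⟨hmax₂, hcomap₂⟩ := s34g_map_isMaximal r₂ h₂ 𝔫 hk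
      have hk₁ : RingHom.ker r₁ ≤ 𝔫 := by
        intro b hb
        rw [← hcomap₂]
        exact hI (Ideal.mem_map_of_mem r₂ hb)
      obtain ⟨hmax₁, -⟩ := s34g_map_isMaximal r₁ h₁ 𝔫 hk₁
      exact s34g_node r₂ r₁ ϖ h₂ h₁ hker' 𝔫 hk hI (hG₂ _ hmax₂ hI)
        (hG₁ _ hmax₁ (Ideal.map_mono hk))
    · left
      exact s34g_smooth r₂ r₁ ϖ h₂ h₁ hker' hO₂ 𝔫 hk hI

end Local

/-! ### Localisation form -/

section Loc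

variable {B : Type*} [CommRing B]

/-- If `𝔫` is generated by `T` up to elements outside `𝔫`, then `𝔪 (B_𝔫)` is generated by the
image of `T`. -/
theorem s34g_maximalIdeal_loc (𝔫 : Ideal B) [𝔫.IsPrime] (T : Set B) (hT : T ⊆ 𝔫)
    (h : ∀ x ∈ 𝔫, ∃ s, s ∉ 𝔫 ∧ s * x ∈ Ideal.span T) :
    maximalIdeal (Localization.AtPrime 𝔫) =
      Ideal.span (algebraMap B (Localization.AtPrime 𝔫) '' T) := by
  rw [← IsLocalization.AtPrime.map_eq_maximalIdeal 𝔫 (Localization.AtPrime 𝔫)]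
  apply le_antisymm
  · rw [Ideal.map, Ideal.span_le]
    rintro _ ⟨x, hx, rfl⟩
    obtain ⟨s, hs, hsx⟩ := h x hx
    have hunit : IsUnit (algebraMap B (Localization.AtPrime 𝔫) s) :=
      IsLocalization.map_units (Localization.AtPrime 𝔫) (⟨s, hs⟩ : 𝔫.primeCompl)
    have hmem : algebraMap B (Localization.AtPrime 𝔫) (s * x) ∈
        Ideal.span (algebraMap B (Localization.AtPrime 𝔫) '' T) := by
      rw [← Ideal.map_span]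
      exact Ideal.mem_map_of_mem _ hsx
    rw [map_mul] at hmem
    obtain ⟨v, hv⟩ := hunit
    have : algebraMap B (Localization.AtPrime 𝔫) x =
        (↑v⁻¹ : Localization.AtPrime 𝔫) *
          (algebraMap B (Localization.AtPrime 𝔫) s * algebraMap B (Localization.AtPrime 𝔫) x) := by
      rw [← hv, ← mul_assoc, Units.inv_mul, one_mul]
    rw [SetLike.mem_coe, this]
    exact Ideal.mul_mem_left _ _ hmem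
  · rw [← Ideal.map_span]
    exact Ideal.map_mono (Ideal.span_le.mpr hT)

end Loc

/-! ### (G) from a Frobenius-like map -/

section Frob

variable {B O : Type*} [CommRing B] [CommRing O] [IsDedekindDomain O]
  (r₁ r₂ : B →+* O) (Φ : O → O)
  (ha : ∀ y : O, ∃ b : B, r₁ b = y ∧ r₂ b = Φ y)
  (hb : ∀ y : O, ∃ b : B, r₁ b = Φ y ∧ r₂ b = y)

include ha hb in
theorem s34g_sub_frob_mem₁ (y : O) : y - Φ (Φ y) ∈ Ideal.map r₁ (RingHom.ker r₂) := by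
  obtain ⟨b₁, h11, h12⟩ := ha y
  obtain ⟨b₂, h21, h22⟩ := hb (Φ y)
  have hk : b₁ - b₂ ∈ RingHom.ker r₂ := by
    rw [RingHom.mem_ker, map_sub, h12, h22, sub_self]
  have := Ideal.mem_map_of_mem r₁ hk
  rwa [map_sub, h11, h21] at this

include ha hb in
theorem s34g_sub_frob_mem₂ (y : O) : y - Φ (Φ y) ∈ Ideal.map r₂ (RingHom.ker r₁) := by
  obtain ⟨b₁, h11, h12⟩ := hb y
  obtain ⟨b₂, h21, h22⟩ := ha (Φ y)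
  have hk : b₁ - b₂ ∈ RingHom.ker r₁ := by
    rw [RingHom.mem_ker, map_sub, h11, h21, sub_self]
  have := Ideal.mem_map_of_mem r₂ hk
  rwa [map_sub, h12, h22] at this

/-- transversality from `y - Φ² y ∈ I` and `Φ² y ∈ 𝔪 → Φ² y ∈ 𝔪²`. -/
theorem s34g_G_of_sub_mem (hO : ¬ IsField O) (I : Ideal O) (hI : ∀ y : O, y - Φ (Φ y) ∈ I)
    (hc : ∀ 𝔪 : Ideal O, 𝔪.IsMaximal → ∀ y : O, Φ (Φ y) ∈ 𝔪 → Φ (Φ y) ∈ 𝔪 ^ 2)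
    (𝔪 : Ideal O) (h𝔪 : 𝔪.IsMaximal) (hle : I ≤ 𝔪) : ¬ I ≤ 𝔪 ^ 2 := by
  intro hle2
  have hne : 𝔪 ≠ ⊥ := Ring.ne_bot_of_isMaximal_of_not_isField h𝔪 hO
  haveI := h𝔪
  obtain ⟨t, ht, ht2⟩ := s34g_exists_unif 𝔪 hne
  apply ht2
  have h1 : Φ (Φ t) ∈ 𝔪 := by
    have := 𝔪.sub_mem ht (hle (hI t))
    rwa [sub_sub_cancel] at this
  have h2 := hc 𝔪 h𝔪 t h1
  have := (𝔪 ^ 2).add_mem (hle2 (hI t)) h2
  rwa [sub_add_cancel] at this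

/-- `Φ² y` is a proper power ⇒ the vanishing axiom. -/
theorem s34g_hc_of_pow (hpow : ∀ y : O, ∃ (z : O) (n : ℕ), 2 ≤ n ∧ Φ (Φ y) = z ^ n)
    (𝔪 : Ideal O) (h𝔪 : 𝔪.IsMaximal) (y : O) (hy : Φ (Φ y) ∈ 𝔪) : Φ (Φ y) ∈ 𝔪 ^ 2 := by
  obtain ⟨z, n, hn, hz⟩ := hpow y
  rw [hz] at hy ⊢
  have hz𝔪 : z ∈ 𝔪 := h𝔪.isPrime.mem_of_pow_mem n hy
  exact Ideal.pow_le_pow_right hn (Ideal.pow_mem_pow hz𝔪 n)

include ha hb in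
/-- **Main theorem (Frobenius form).**  `B`, `ϖ`, two reductions `r₁ r₂ : B →+* O` onto a Dedekind
domain with `ker r₁ ⊓ ker r₂ = (ϖ)`, whose joint image contains the graph of `Φ` and its transpose,
`Φ² y` vanishing to order `≥ 2` wherever it vanishes: every maximal ideal `𝔫 ∋ ϖ` of `B` is a
smooth point or a weak node, in element form. -/
theorem s34g_smooth_or_node_of_frob (ϖ : B)
    (hker : RingHom.ker r₁ ⊓ RingHom.ker r₂ = Ideal.span {ϖ}) (hO : ¬ IsField O)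
    (hc : ∀ 𝔪 : Ideal O, 𝔪.IsMaximal → ∀ y : O, Φ (Φ y) ∈ 𝔪 → Φ (Φ y) ∈ 𝔪 ^ 2)
    (𝔫 : Ideal B) [h𝔫 : 𝔫.IsMaximal] (hϖ𝔫 : ϖ ∈ 𝔫) :
    (∃ t ∈ 𝔫, ∀ x ∈ 𝔫, ∃ s, s ∉ 𝔫 ∧ s * x ∈ Ideal.span {t, ϖ}) ∨
    (∃ u ∈ 𝔫, ∃ w ∈ 𝔫, (∃ β, u * w = ϖ * β) ∧
      ∀ x ∈ 𝔫, ∃ s, s ∉ 𝔫 ∧ s * x ∈ Ideal.span {u, w, ϖ}) := by
  have h₁ : Function.Surjective r₁ := fun y => by
    obtain ⟨b, hb1, -⟩ := ha y
    exact ⟨b, hb1⟩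
  have h₂ : Function.Surjective r₂ := fun y => by
    obtain ⟨b, -, hb2⟩ := hb y
    exact ⟨b, hb2⟩
  exact s34g_smooth_or_node r₁ r₂ ϖ h₁ h₂ hker hO hO
    (s34g_G_of_sub_mem Φ hO _ (s34g_sub_frob_mem₁ r₁ r₂ Φ ha hb) hc)
    (s34g_G_of_sub_mem Φ hO _ (s34g_sub_frob_mem₂ r₁ r₂ Φ ha hb) hc) 𝔫 hϖ𝔫

include ha hb in
/-- **Main theorem, localisation form** (the hypotheses of `Lib/S34/NSec`). -/
theorem s34g_loc_smooth_or_node_of_frob (ϖ : B)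
    (hker : RingHom.ker r₁ ⊓ RingHom.ker r₂ = Ideal.span {ϖ}) (hO : ¬ IsField O)
    (hc : ∀ 𝔪 : Ideal O, 𝔪.IsMaximal → ∀ y : O, Φ (Φ y) ∈ 𝔪 → Φ (Φ y) ∈ 𝔪 ^ 2)
    (𝔫 : Ideal B) [h𝔫 : 𝔫.IsMaximal] (hϖ𝔫 : ϖ ∈ 𝔫) :
    (∃ t : B, maximalIdeal (Localization.AtPrime 𝔫) =
        Ideal.span {algebraMap B (Localization.AtPrime 𝔫) t,
          algebraMap B (Localization.AtPrime 𝔫) ϖ}) ∨
    (∃ u w β : B, u * w = ϖ * β ∧ maximalIdeal (Localization.AtPrime 𝔫) =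
        Ideal.span {algebraMap B (Localization.AtPrime 𝔫) u,
          algebraMap B (Localization.AtPrime 𝔫) w,
          algebraMap B (Localization.AtPrime 𝔫) ϖ}) := by
  rcases s34g_smooth_or_node_of_frob r₁ r₂ Φ ha hb ϖ hker hO hc 𝔫 hϖ𝔫 with
    ⟨t, ht, h⟩ | ⟨u, hu, w, hw, ⟨β, hβ⟩, h⟩
  · left
    refine ⟨t, ?_⟩
    rw [s34g_maximalIdeal_loc 𝔫 {t, ϖ} (by
      rintro z (rfl | rfl)
      · exact ht
      · exact hϖ𝔫) h, Set.image_pair]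
  · right
    refine ⟨u, w, β, hβ, ?_⟩
    rw [s34g_maximalIdeal_loc 𝔫 {u, w, ϖ} (by
      rintro z (rfl | rfl | rfl)
      · exact hu
      · exact hw
      · exact hϖ𝔫) h, Set.image_insert_eq, Set.image_pair]

end Frob

end Fermat.Agent.Lib.S34
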