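/-
S34 moonshot, package [NF] (formal algebra of a deformed node), part 1: the NORMAL FORM.

`A → R` commutative rings, `ϖ ∈ A`, `π` its image in `R`; `A` is `ϖ`-adically precomplete and `R`
is `π`-adically complete (Hausdorff + precomplete).  If `u₀ w₀ ∈ π R` (the two "branch equations"
multiply to zero on the special fibre) and `R = A + (π, u₀, w₀)` (the three elements generate a
maximal ideal with residue ring covered by `A`), then there are `u ≡ u₀`, `w ≡ w₀ mod π` and a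
CONSTANT `c ∈ ϖ A` with `u * w = c` exactly.  (`c = 0` is allowed.)

No power series are needed: the successive approximation is run inside the complete ring `R`.
(helper1)
-/
import Mathlib

set_option autoImplicit false

namespace Fermat.Agent.Lib.S34

/-- elementwise form of congruence modulo the `n`-th power of a principal ideal. -/
theorem s34n_smodEq_iff {R : Type*} [CommRing R] (ϖ : R) (n : ℕ) (x y : R) :
    x ≡ y [SMOD ((Ideal.span {ϖ}) ^ n • ⊤ : Submodule R R)] ↔ ∃ z, x - y = ϖ ^ n * z := by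
  rw [SModEq.sub_mem, smul_eq_mul, Ideal.mul_top, Ideal.span_singleton_pow,
    Ideal.mem_span_singleton']
  constructor
  · rintro ⟨z, hz⟩
    exact ⟨z, by rw [← hz]; ring⟩
  · rintro ⟨z, hz⟩
    exact ⟨z, by rw [hz]; ring⟩

/-- limits of sequences whose successive differences are divisible by `ϖ ^ n`. -/
theorem s34n_exists_limit {R : Type*} [CommRing R] (ϖ : R) [IsPrecomplete (Ideal.span {ϖ}) R]
    (f : ℕ → R) (h : ∀ n, ∃ z, f (n + 1) - f n = ϖ ^ n * z) :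
    ∃ L : R, ∀ n, ∃ z, L - f n = ϖ ^ n * z := by
  have hc : AdicCompletion.IsAdicCauchy (Ideal.span {ϖ}) R f := by
    rw [AdicCompletion.isAdicCauchy_iff]
    intro n
    rw [s34n_smodEq_iff]
    obtain ⟨z, hz⟩ := h n
    exact ⟨-z, by rw [mul_neg, ← hz]; ring⟩
  obtain ⟨L, hL⟩ := IsPrecomplete.prec ‹_› (f := f) (fun {m n} hmn => hc hmn)
  refine ⟨L, fun n => ?_⟩
  have := hL n
  rw [s34n_smodEq_iff] at this
  obtain ⟨z, hz⟩ := this
  exact ⟨-z, by rw [mul_neg, ← hz]; ring⟩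

/-- separatedness in elementwise form. -/
theorem s34n_eq_zero_of_forall {R : Type*} [CommRing R] (ϖ : R) [IsHausdorff (Ideal.span {ϖ}) R]
    (x : R) (h : ∀ n : ℕ, ∃ z, x = ϖ ^ n * z) : x = 0 := by
  apply IsHausdorff.haus ‹_› x
  intro n
  rw [s34n_smodEq_iff]
  obtain ⟨z, hz⟩ := h n
  exact ⟨z, by rw [sub_zero, hz]⟩

section NormalForm

variable {A R : Type*} [CommRing A] [CommRing R] [Algebra A R] (ϖ : A) (u₀ w₀ : R)

/-- the invariant of the successive approximation at stage `n`. -/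
def s34n_Inv (n : ℕ) (p : R × R × A) : Prop :=
  (∃ a, p.1 - u₀ = algebraMap A R ϖ * a) ∧ (∃ b, p.2.1 - w₀ = algebraMap A R ϖ * b) ∧
    (∃ d, p.2.2 = ϖ * d) ∧
      ∃ r, p.1 * p.2.1 - algebraMap A R p.2.2 = algebraMap A R ϖ ^ (n + 1) * r

/-- closeness of two successive stages. -/
def s34n_Close (n : ℕ) (p p' : R × R × A) : Prop :=
  (∃ z, p'.1 - p.1 = algebraMap A R ϖ ^ (n + 1) * z) ∧
    (∃ z, p'.2.1 - p.2.1 = algebraMap A R ϖ ^ (n + 1) * z) ∧
      ∃ z, p'.2.2 - p.2.2 = ϖ ^ (n + 1) * z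

/-- one step of the successive approximation. -/
theorem s34n_step
    (hsurj : ∀ r : R, ∃ (γ : A) (r' y x : R),
      r = algebraMap A R γ + algebraMap A R ϖ * r' + u₀ * y + w₀ * x)
    (n : ℕ) (p : R × R × A) (hp : s34n_Inv ϖ u₀ w₀ n p) :
    ∃ p' : R × R × A, s34n_Inv ϖ u₀ w₀ (n + 1) p' ∧ s34n_Close ϖ n p p' := by
  obtain ⟨u, w, c⟩ := p
  obtain ⟨⟨a, ha⟩, ⟨b, hb⟩, ⟨d, hd⟩, ⟨r, hr⟩⟩ := hp
  simp only at ha hb hd hr
  obtain ⟨γ, r', y, x, hrr⟩ := hsurj r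
  set π : R := algebraMap A R ϖ with hπ
  refine ⟨(u - π ^ (n + 1) * x, w - π ^ (n + 1) * y, c + ϖ ^ (n + 1) * γ), ⟨?_, ?_, ?_, ?_⟩,
    ⟨?_, ?_, ?_⟩⟩
  · refine ⟨a - π ^ n * x, ?_⟩
    show u - π ^ (n + 1) * x - u₀ = π * (a - π ^ n * x)
    have : u - π ^ (n + 1) * x - u₀ = (u - u₀) - π ^ (n + 1) * x := by ring
    rw [this, ha]; ring
  · refine ⟨b - π ^ n * y, ?_⟩
    show w - π ^ (n + 1) * y - w₀ = π * (b - π ^ n * y)
    have : w - π ^ (n + 1) * y - w₀ = (w - w₀) - π ^ (n + 1) * y := by ring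
    rw [this, hb]; ring
  · refine ⟨d + ϖ ^ n * γ, ?_⟩
    show c + ϖ ^ (n + 1) * γ = ϖ * (d + ϖ ^ n * γ)
    rw [hd]; ring
  · refine ⟨r' - a * y - b * x + π ^ n * (x * y), ?_⟩
    show (u - π ^ (n + 1) * x) * (w - π ^ (n + 1) * y) - algebraMap A R (c + ϖ ^ (n + 1) * γ)
      = π ^ (n + 1 + 1) * (r' - a * y - b * x + π ^ n * (x * y))
    have hu : u = u₀ + π * a := by rw [← ha]; ring
    have hw : w = w₀ + π * b := by rw [← hb]; ring
    have h1 : (u - π ^ (n + 1) * x) * (w - π ^ (n + 1) * y)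
        - algebraMap A R (c + ϖ ^ (n + 1) * γ)
        = (u * w - algebraMap A R c) - π ^ (n + 1) * (x * w + u * y + algebraMap A R γ)
          + π ^ (n + 1) * π ^ (n + 1) * (x * y) := by
      rw [map_add, map_mul, map_pow]; ring
    rw [h1, hr, hrr]
    have h2 : x * w + u * y = x * w₀ + u₀ * y + π * (x * b + a * y) := by
      rw [hu, hw]; ring
    rw [h2]
    ring
  · exact ⟨-x, by show u - π ^ (n + 1) * x - u = π ^ (n + 1) * -x; ring⟩
  · exact ⟨-y, by show w - π ^ (n + 1) * y - w = π ^ (n + 1) * -y; ring⟩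
  · exact ⟨γ, by show c + ϖ ^ (n + 1) * γ - c = ϖ ^ (n + 1) * γ; ring⟩

/-- the sequence of approximations. -/
noncomputable def s34n_seq
    (hsurj : ∀ r : R, ∃ (γ : A) (r' y x : R),
      r = algebraMap A R γ + algebraMap A R ϖ * r' + u₀ * y + w₀ * x)
    (h0 : s34n_Inv ϖ u₀ w₀ 0 (u₀, w₀, 0)) :
    (n : ℕ) → {p : R × R × A // s34n_Inv ϖ u₀ w₀ n p}
  | 0 => ⟨(u₀, w₀, 0), h0⟩
  | n + 1 =>
    ⟨(s34n_step ϖ u₀ w₀ hsurj n (s34n_seq hsurj h0 n).1 (s34n_seq hsurj h0 n).2).choose,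
      (s34n_step ϖ u₀ w₀ hsurj n (s34n_seq hsurj h0 n).1 (s34n_seq hsurj h0 n).2).choose_spec.1⟩

theorem s34n_seq_close
    (hsurj : ∀ r : R, ∃ (γ : A) (r' y x : R),
      r = algebraMap A R γ + algebraMap A R ϖ * r' + u₀ * y + w₀ * x)
    (h0 : s34n_Inv ϖ u₀ w₀ 0 (u₀, w₀, 0)) (n : ℕ) :
    s34n_Close ϖ n (s34n_seq ϖ u₀ w₀ hsurj h0 n).1 (s34n_seq ϖ u₀ w₀ hsurj h0 (n + 1)).1 :=
  (s34n_step ϖ u₀ w₀ hsurj n (s34n_seq ϖ u₀ w₀ hsurj h0 n).1
    (s34n_seq ϖ u₀ w₀ hsurj h0 n).2).choose_spec.2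

/-- **Normal form of a deformed node.**  In a `π`-adically complete `A`-algebra `R`
(`π` the image of `ϖ ∈ A`, `A` being `ϖ`-adically precomplete), if `u₀ * w₀ ∈ π R` and every
element of `R` is congruent to a constant from `A` modulo `(π, u₀, w₀)`, then there are
`u ≡ u₀`, `w ≡ w₀ mod π` and a constant `c ∈ ϖ A` with `u * w = c`. -/
theorem s34n_exists_normalForm [IsPrecomplete (Ideal.span {ϖ}) A]
    [IsAdicComplete (Ideal.span {algebraMap A R ϖ}) R]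
    (h : ∃ r, u₀ * w₀ = algebraMap A R ϖ * r)
    (hsurj : ∀ r : R, ∃ (γ : A) (r' y x : R),
      r = algebraMap A R γ + algebraMap A R ϖ * r' + u₀ * y + w₀ * x) :
    ∃ (u w : R) (c : A), (∃ a, u - u₀ = algebraMap A R ϖ * a) ∧
      (∃ b, w - w₀ = algebraMap A R ϖ * b) ∧ (∃ d, c = ϖ * d) ∧ u * w = algebraMap A R c := by
  set π : R := algebraMap A R ϖ with hπ
  have h0 : s34n_Inv ϖ u₀ w₀ 0 (u₀, w₀, 0) := by
    obtain ⟨r, hr⟩ := h
    refine ⟨⟨0, by simp⟩, ⟨0, by simp⟩, ⟨0, by simp⟩, ⟨r, ?_⟩⟩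
    show u₀ * w₀ - algebraMap A R 0 = π ^ (0 + 1) * r
    rw [map_zero, sub_zero, hr]; ring
  set S := s34n_seq ϖ u₀ w₀ hsurj h0 with hS
  have hclose := s34n_seq_close ϖ u₀ w₀ hsurj h0
  -- the three limits
  obtain ⟨u, hu⟩ := s34n_exists_limit π (fun n => (S n).1.1) (fun n => by
    obtain ⟨z, hz⟩ := (hclose n).1
    exact ⟨π * z, by rw [hz]; ring⟩)
  obtain ⟨w, hw⟩ := s34n_exists_limit π (fun n => (S n).1.2.1) (fun n => by
    obtain ⟨z, hz⟩ := (hclose n).2.1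
    exact ⟨π * z, by rw [hz]; ring⟩)
  obtain ⟨c, hc⟩ := s34n_exists_limit ϖ (fun n => (S n).1.2.2) (fun n => by
    obtain ⟨z, hz⟩ := (hclose n).2.2
    exact ⟨ϖ * z, by rw [hz]; ring⟩)
  refine ⟨u, w, c, ?_, ?_, ?_, ?_⟩
  · obtain ⟨z, hz⟩ := hu 1
    obtain ⟨a, ha⟩ := (S 1).2.1
    refine ⟨z + a, ?_⟩
    have : u - u₀ = (u - (S 1).1.1) + ((S 1).1.1 - u₀) := by ring
    rw [this, hz, ha]; ring
  · obtain ⟨z, hz⟩ := hw 1
    obtain ⟨b, hb⟩ := (S 1).2.2.1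
    refine ⟨z + b, ?_⟩
    have : w - w₀ = (w - (S 1).1.2.1) + ((S 1).1.2.1 - w₀) := by ring
    rw [this, hz, hb]; ring
  · obtain ⟨z, hz⟩ := hc 1
    obtain ⟨d, hd⟩ := (S 1).2.2.2.1
    refine ⟨z + d, ?_⟩
    have : c = (c - (S 1).1.2.2) + (S 1).1.2.2 := by ring
    rw [this, hz, hd]; ring
  · rw [← sub_eq_zero]
    apply s34n_eq_zero_of_forall π
    intro n
    obtain ⟨z₁, hz₁⟩ := hu n
    obtain ⟨z₂, hz₂⟩ := hw n
    obtain ⟨z₃, hz₃⟩ := hc n
    obtain ⟨r, hr⟩ := (S n).2.2.2.2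
    set un := (S n).1.1 with hun
    set wn := (S n).1.2.1 with hwn
    set cn := (S n).1.2.2 with hcn
    have e1 : u = un + π ^ n * z₁ := by rw [← hz₁]; ring
    have e2 : w = wn + π ^ n * z₂ := by rw [← hz₂]; ring
    have e3 : c = cn + ϖ ^ n * z₃ := by rw [← hz₃]; ring
    refine ⟨π * r + un * z₂ + z₁ * wn + π ^ n * (z₁ * z₂) - algebraMap A R z₃, ?_⟩
    have e4 : un * wn = algebraMap A R cn + π ^ (n + 1) * r := by rw [← hr]; ring
    rw [e1, e2, e3, map_add, map_mul, map_pow]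
    have : (un + π ^ n * z₁) * (wn + π ^ n * z₂) - (algebraMap A R cn + π ^ n * algebraMap A R z₃)
        = un * wn - algebraMap A R cn + π ^ n * (un * z₂ + z₁ * wn + π ^ n * (z₁ * z₂)
          - algebraMap A R z₃) := by ring
    rw [this, e4]
    ring

end NormalForm

/-- **The key identity at a node.**  If `u * w = a * b`, `a' = ρ * a` and `b = ρ * b'`, then
`(u - a') * (w - b) = ρ * ((u - a) * (w - b'))`. -/
theorem s34n_node_identity {R : Type*} [CommRing R] (u w a b a' b' ρ : R)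
    (h : u * w = a * b) (ha : a' = ρ * a) (hb : b = ρ * b') :
    (u - a') * (w - b) = ρ * ((u - a) * (w - b')) := by
  have h' : u * w = a * (ρ * b') := by rw [h, hb]
  rw [ha, hb]
  linear_combination (1 - ρ) * h'

/-- **Cartier-ness of `σx̄ − x̄` at a node, ideal form.**  With `Q = (u - a, w - b)`,
`Q' = (u - a', w - b')` the ideals of two sections through a node `u * w = c`, `a * b = c = a' * b'`,
`a' = ρ * a`, `ρ` a unit: `(u - a') • Q = (u - a) • Q'`. -/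
theorem s34n_node_ideal_eq {R : Type*} [CommRing R] (u w a b a' b' : R) (ρ : Rˣ)
    (h : u * w = a * b) (ha : a' = ρ * a) (hb : b = ρ * b') :
    Ideal.span {u - a'} * Ideal.span {u - a, w - b} =
      Ideal.span {u - a} * Ideal.span {u - a', w - b'} := by
  have key := s34n_node_identity u w a b a' b' ρ h ha hb
  apply le_antisymm
  · rw [Ideal.mul_le]
    intro r hr s hs
    obtain ⟨r₀, rfl⟩ := Ideal.mem_span_singleton'.mp hr
    obtain ⟨s₁, s₂, rfl⟩ := Ideal.mem_span_pair.mp hs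
    have e : r₀ * (u - a') * (s₁ * (u - a) + s₂ * (w - b))
        = (u - a) * (r₀ * s₁ * (u - a') + r₀ * s₂ * (ρ : R) * (w - b')) := by
      have : r₀ * (u - a') * (s₁ * (u - a) + s₂ * (w - b))
          = r₀ * s₁ * ((u - a') * (u - a)) + r₀ * s₂ * ((u - a') * (w - b)) := by ring
      rw [this, key]; ring
    rw [e]
    exact Ideal.mul_mem_mul (Ideal.mem_span_singleton_self _)
      (Ideal.mem_span_pair.mpr ⟨r₀ * s₁, r₀ * s₂ * (ρ : R), rfl⟩)
  · rw [Ideal.mul_le]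
    intro r hr s hs
    obtain ⟨r₀, rfl⟩ := Ideal.mem_span_singleton'.mp hr
    obtain ⟨s₁, s₂, rfl⟩ := Ideal.mem_span_pair.mp hs
    have key' : (u - a) * (w - b') = ((ρ⁻¹ : Rˣ) : R) * ((u - a') * (w - b)) := by
      rw [key, ← mul_assoc, ← Units.val_mul, inv_mul_cancel, Units.val_one, one_mul]
    have e : r₀ * (u - a) * (s₁ * (u - a') + s₂ * (w - b'))
        = (u - a') * (r₀ * s₁ * (u - a) + r₀ * s₂ * ((ρ⁻¹ : Rˣ) : R) * (w - b)) := by
      have : r₀ * (u - a) * (s₁ * (u - a') + s₂ * (w - b'))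
          = r₀ * s₁ * ((u - a') * (u - a)) + r₀ * s₂ * ((u - a) * (w - b')) := by ring
      rw [this, key']; ring
    rw [e]
    exact Ideal.mul_mem_mul (Ideal.mem_span_singleton_self _)
      (Ideal.mem_span_pair.mpr ⟨r₀ * s₁, r₀ * s₂ * ((ρ⁻¹ : Rˣ) : R), rfl⟩)

end Fermat.Agent.Lib.S34
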