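/-
S34 (Plan S), package [R2] (helper7), part 4: small tools for the consumers of the number-field
contract `s34q_NFKummer` (`RDescNF.lean`).

* `s34q_f2_mul'`, `s34q_f2_pow`, `s34q_f2_inv`, `s34q_f2_algebraMap` : the second difference
  `f ↦ σ²f · f / (σf)²` is multiplicative and maps constants to constants.
* `s34q_ord_f2` : `ord_Q (f₂ f) = ord_{σ⁻²Q} f - 2 ord_{σ⁻¹Q} f + ord_Q f`.
* `s34q_dvd_ord_f2`, `s34q_deg_of_ord_f2_ne_zero` : `m ∣ div f ⇒ m ∣ div (f₂ f)`; if all zeros and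
  poles of `f` have degree one, so have those of `f₂ f`.
* `s34q_exists_primitiveRoot_of_splits` : a field of characteristic zero in which a multiple of the
  `m`-th cyclotomic polynomial splits contains a primitive `m`-th root of unity.
-/
import Mathlib
import Fermat.Agent.Lib.S34.RDesc

set_option autoImplicit false
set_option linter.style.haveILetI false

noncomputable section

namespace Fermat.Agent.Lib.S34

open AlgebraicCurve Polynomial Fermat.Agent.Lib.FF

section F2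

variable {K F : Type*} [Field K] [Field F] [Algebra K F] (g : SemilinearAut K F)

theorem s34q_f2_mul' (f h : F) : s34q_f2 g (f * h) = s34q_f2 g f * s34q_f2 g h := by
  simp only [s34q_f2, smul_mul']
  rw [mul_pow, div_mul_div_comm]
  ring_nf

theorem s34q_f2_one : s34q_f2 g (1 : F) = 1 := by
  simp [s34q_f2]

theorem s34q_f2_pow (f : F) (n : ℕ) : s34q_f2 g (f ^ n) = s34q_f2 g f ^ n := by
  induction n with
  | zero => simp [s34q_f2_one]
  | succ n ih => rw [pow_succ, s34q_f2_mul', ih, pow_succ]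

theorem s34q_f2_inv (f : F) : s34q_f2 g f⁻¹ = (s34q_f2 g f)⁻¹ := by
  simp only [s34q_f2, smul_inv'']
  rw [inv_pow, ← mul_inv, ← inv_div_inv, inv_inv, inv_inv, inv_div]

theorem s34q_f2_algebraMap (c : K) :
    s34q_f2 g (algebraMap K F c) =
      algebraMap K F (SemilinearAut.baseAut g (SemilinearAut.baseAut g c) * c /
        (SemilinearAut.baseAut g c) ^ 2) := by
  rw [s34q_f2, SemilinearAut.smul_algebraMap, SemilinearAut.smul_algebraMap, map_div₀, map_mul,
    map_pow]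

/-- The divisor of the second difference. -/
theorem s34q_ord_f2 {f : F} (hf : f ≠ 0) (Q : Place K F) :
    Q.ord (s34q_f2 g f) = (g⁻¹ • g⁻¹ • Q).ord f - 2 * (g⁻¹ • Q).ord f + Q.ord f := by
  have h1 := s34r_smul_ne_zero g hf
  have h2 := s34r_smul_ne_zero g h1
  rw [s34q_f2, div_eq_mul_inv, Q.ord_mul (mul_ne_zero h2 hf) (inv_ne_zero (pow_ne_zero 2 h1)),
    Q.ord_mul h2 hf, Q.ord_inv, ← zpow_natCast (g • f) 2, Q.ord_zpow, s34r_ord_smul,
    s34r_ord_smul, s34r_ord_smul]
  push_cast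
  ring

theorem s34q_dvd_ord_f2 {f : F} (hf : f ≠ 0) (m : ℤ) (h : ∀ Q : Place K F, m ∣ Q.ord f)
    (Q : Place K F) : m ∣ Q.ord (s34q_f2 g f) := by
  rw [s34q_ord_f2 g hf]
  exact dvd_add (dvd_sub (h _) (Dvd.dvd.mul_left (h _) 2)) (h _)

/-- If all zeros and poles of `f` are rational, so are those of its second difference. -/
theorem s34q_deg_of_ord_f2_ne_zero {f : F} (hf : f ≠ 0)
    (h : ∀ Q : Place K F, Q.ord f ≠ 0 → Q.deg = 1) (Q : Place K F)
    (hQ : Q.ord (s34q_f2 g f) ≠ 0) : Q.deg = 1 := by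
  rw [s34q_ord_f2 g hf] at hQ
  by_cases h0 : Q.ord f ≠ 0
  · exact h Q h0
  by_cases h1 : (g⁻¹ • Q).ord f ≠ 0
  · have := h _ h1
    rwa [SemilinearAut.deg_smul] at this
  by_cases h2 : (g⁻¹ • g⁻¹ • Q).ord f ≠ 0
  · have := h _ h2
    rwa [SemilinearAut.deg_smul, SemilinearAut.deg_smul] at this
  · exfalso
    apply hQ
    rw [not_not] at h0 h1 h2
    rw [h0, h1, h2]
    norm_num

end F2

section Roots

/-- A field of characteristic zero in which a multiple of the `m`-th cyclotomic polynomial splits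
contains a primitive `m`-th root of unity. -/
theorem s34q_exists_primitiveRoot_of_splits {K₀ : Type*} [Field K₀] [CharZero K₀] (m : ℕ)
    (hm : m ≠ 0) (g : ℚ[X]) (hg0 : g ≠ 0) (hdvd : cyclotomic m ℚ ∣ g)
    (hg : (g.map (algebraMap ℚ K₀)).Splits) : ∃ ζ : K₀, IsPrimitiveRoot ζ m := by
  haveI : NeZero m := ⟨hm⟩
  haveI : NeZero ((m : ℕ) : K₀) := ⟨Nat.cast_ne_zero.mpr hm⟩
  have hg0' : g.map (algebraMap ℚ K₀) ≠ 0 :=
    (Polynomial.map_ne_zero_iff (algebraMap ℚ K₀).injective).mpr hg0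
  have hdvd' : cyclotomic m K₀ ∣ g.map (algebraMap ℚ K₀) := by
    rw [← map_cyclotomic m (algebraMap ℚ K₀)]
    exact Polynomial.map_dvd _ hdvd
  have hsplit : (cyclotomic m K₀).Splits := Splits.of_dvd hg hg0' hdvd'
  have hdeg : (cyclotomic m K₀).degree ≠ 0 := by
    rw [degree_cyclotomic]
    exact_mod_cast (Nat.totient_pos.mpr (Nat.pos_of_ne_zero hm)).ne'
  obtain ⟨ζ, hζ⟩ := hsplit.exists_eval_eq_zero hdeg
  exact ⟨ζ, (isRoot_cyclotomic_iff).mp hζ⟩

end Roots

end Fermat.Agent.Lib.S34
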