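/-
S34 moonshot [X″]: the local-to-global step and (LOC)-from-a-generator with respect to a SMALLER
ring `B' ≤ s34x_ring O S` (helper1's observation (O1), board #1345): the set
`{b ∈ B' | ∃ a ∈ lattice, a ≡ b mod πO}` is an ideal of `B'`, so the local conditions may be checked
at the maximal ideals of any subring `B'` of the chart ring containing `π` (e.g. the EMBEDDED chart
ring, image of `B_M ⊗ B_M`, which need not be normal).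

* `s34x_one_of_local_sub`, `s34x_zero_of_local_sub`, `s34x_zero_inf_sub`;
* `s34x_loc_of_gen_sub`: (LOC) at a prime `𝔫'` of `B'` from one function `g`.  (helper9)
-/
import Fermat.Agent.Lib.S34.XLocGen

set_option autoImplicit false

noncomputable section

namespace Fermat.Agent.Lib.S34

open AlgebraicCurve Fermat.Agent.Lib.FF Fermat.Agent.Lib.S18

variable {L₀ 𝓕 : Type*} [Field L₀] [Field 𝓕] [Algebra L₀ 𝓕]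

/-- The ideal of `B'` of all `b` congruent mod `πO` to an element of the lattice. -/
def s34x_congIdealSub (O : Subring 𝓕) (S : Set (Place L₀ 𝓕)) (E : Place L₀ 𝓕 → ℤ) (π : 𝓕)
    (B' : Subring 𝓕) (hB' : B' ≤ s34x_ring O S) : Ideal B' where
  carrier := {b | ∃ a ∈ s34x_latSet O S E, ∃ y ∈ O, a - (b : 𝓕) = π * y}
  zero_mem' := ⟨0, (s34x_latAdd O S E).zero_mem, 0, O.zero_mem, by simp⟩
  add_mem' := by
    rintro b₁ b₂ ⟨a₁, ha₁, y₁, hy₁, e₁⟩ ⟨a₂, ha₂, y₂, hy₂, e₂⟩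
    refine ⟨a₁ + a₂, (s34x_latAdd O S E).add_mem ha₁ ha₂, y₁ + y₂, O.add_mem hy₁ hy₂, ?_⟩
    push_cast
    rw [mul_add, ← e₁, ← e₂]; ring
  smul_mem' := by
    rintro r b ⟨a, ha, y, hy, e⟩
    refine ⟨(r : 𝓕) * a, s34x_ring_mul_lat O S E (hB' r.2) ha, (r : 𝓕) * y,
      O.mul_mem (hB' r.2).1 hy, ?_⟩
    rw [smul_eq_mul]
    push_cast
    rw [← mul_sub, e]; ring

/-- **Local to global over a subring `B'` of the chart ring.** -/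
theorem s34x_one_of_local_sub (O : Subring 𝓕) (S : Set (Place L₀ 𝓕)) (E : Place L₀ 𝓕 → ℤ)
    (π : 𝓕) (B' : Subring 𝓕) (hB' : B' ≤ s34x_ring O S) (hπB' : π ∈ B')
    (hloc : ∀ 𝔫 : Ideal B', 𝔫.IsMaximal → (⟨π, hπB'⟩ : B') ∈ 𝔫 →
      ∃ a ∈ s34x_latSet O S E, ∃ s : B', s ∉ 𝔫 ∧ ∃ y ∈ O, a - (s : 𝓕) = π * y) :
    ∃ g ∈ s34x_latSet O S E, ∃ y ∈ O, g - 1 = π * y := by
  set 𝔞 := s34x_congIdealSub O S E π B' hB' with h𝔞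
  have hπ𝔞 : (⟨π, hπB'⟩ : B') ∈ 𝔞 := by
    refine ⟨0, (s34x_latAdd O S E).zero_mem, -1, O.neg_mem O.one_mem, ?_⟩
    show (0 : 𝓕) - π = π * -1
    ring
  have htop : 𝔞 = ⊤ := by
    by_contra hne
    obtain ⟨𝔫, h𝔫, hle⟩ := Ideal.exists_le_maximal 𝔞 hne
    obtain ⟨a, ha, s, hs, y, hy, e⟩ := hloc 𝔫 h𝔫 (hle hπ𝔞)
    exact hs (hle ⟨a, ha, y, hy, e⟩)
  have h1 : (1 : B') ∈ 𝔞 := by rw [htop]; exact Submodule.mem_top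
  obtain ⟨g, hg, y, hy, e⟩ := h1
  exact ⟨g, hg, y, hy, by simpa using e⟩

/-- **Theorem X₀ for a subring `O`, local form over subrings `B₁'`, `B₂'` of the chart rings.** -/
theorem s34x_zero_of_local_sub (A₀ : ValuationSubring L₀) [IsNoetherianRing A₀]
    (O : Subring 𝓕) (hAO : ∀ a : A₀, algebraMap L₀ 𝓕 (a : L₀) ∈ O)
    (ϖ : A₀) (hϖ0 : (ϖ : L₀) ≠ 0)
    (hJ : ∀ y ∈ O, ∃ u ∈ O, (1 + algebraMap L₀ 𝓕 (ϖ : L₀) * y) * u = 1)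
    (t f : 𝓕) (m : ℕ) (hm0 : m ≠ 0) (hmA : ((m : L₀))⁻¹ ∈ A₀) (hmL : (m : L₀) ≠ 0)
    (hdiv : ∀ Q : Place L₀ 𝓕, (m : ℤ) ∣ Q.ord f)
    (hf1 : ∃ y ∈ O, f - 1 = algebraMap L₀ 𝓕 (ϖ : L₀) * y)
    (B₁ B₂ : Subring 𝓕) (hB₁ : B₁ ≤ s34x_ring O (s18_chart1 (L₀ := L₀) t))
    (hB₂ : B₂ ≤ s34x_ring O (s18_chart2 (L₀ := L₀) t))
    (hπB₁ : algebraMap L₀ 𝓕 (ϖ : L₀) ∈ B₁) (hπB₂ : algebraMap L₀ 𝓕 (ϖ : L₀) ∈ B₂)
    (hloc1 : ∀ 𝔫 : Ideal B₁, 𝔫.IsMaximal → (⟨_, hπB₁⟩ : B₁) ∈ 𝔫 →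
      ∃ a ∈ s34x_latSet O (s18_chart1 (L₀ := L₀) t) (s18_E f m),
        ∃ s : B₁, s ∉ 𝔫 ∧ ∃ y ∈ O, a - (s : 𝓕) = algebraMap L₀ 𝓕 (ϖ : L₀) * y)
    (hloc2 : ∀ 𝔫 : Ideal B₂, 𝔫.IsMaximal → (⟨_, hπB₂⟩ : B₂) ∈ 𝔫 →
      ∃ a ∈ s34x_latSet O (s18_chart2 (L₀ := L₀) t) (s18_E f m),
        ∃ s : B₂, s ∉ 𝔫 ∧ ∃ y ∈ O, a - (s : 𝓕) = algebraMap L₀ 𝓕 (ϖ : L₀) * y)
    (hH : ∃ G : Submodule A₀ 𝓕, G.FG ∧
      s34x_lat A₀ O hAO (s18_chart12 t) (s18_E f m) ≤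
        G ⊔ (s34x_lat A₀ O hAO (s18_chart1 t) (s18_E f m) ⊔
          s34x_lat A₀ O hAO (s18_chart2 t) (s18_E f m))) :
    ∃ x : 𝓕, x ≠ 0 ∧ x ∈ O ∧ ∀ Q : Place L₀ 𝓕, Q.ord f ≤ (m : ℤ) * Q.ord x :=
  s34x_zero A₀ O hAO ϖ hϖ0 hJ t f m hm0 hmA hmL hdiv hf1
    (s34x_one_of_local_sub O _ _ _ B₁ hB₁ hπB₁ hloc1)
    (s34x_one_of_local_sub O _ _ _ B₂ hB₂ hπB₂ hloc2) hH

/-- **Theorem X₀, local form over subrings of the chart rings, for `O = ⨅ O i`.** -/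
theorem s34x_zero_inf_sub {ι : Type*} [Nonempty ι] (A₀ : ValuationSubring L₀)
    [IsNoetherianRing A₀]
    (O : ι → ValuationSubring 𝓕) (hAO : ∀ i, ∀ a : A₀, algebraMap L₀ 𝓕 (a : L₀) ∈ O i)
    (ϖ : A₀) (hϖ0 : (ϖ : L₀) ≠ 0)
    (hϖ : ∀ i, ¬ ∃ y ∈ O i, (1 : 𝓕) = algebraMap L₀ 𝓕 (ϖ : L₀) * y)
    (t f : 𝓕) (m : ℕ) (hm0 : m ≠ 0) (hmA : ((m : L₀))⁻¹ ∈ A₀) (hmL : (m : L₀) ≠ 0)
    (hdiv : ∀ Q : Place L₀ 𝓕, (m : ℤ) ∣ Q.ord f)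
    (hf1 : ∀ i, ∃ y ∈ O i, f - 1 = algebraMap L₀ 𝓕 (ϖ : L₀) * y)
    (B₁ B₂ : Subring 𝓕)
    (hB₁ : B₁ ≤ s34x_ring (s34x_infRing O) (s18_chart1 (L₀ := L₀) t))
    (hB₂ : B₂ ≤ s34x_ring (s34x_infRing O) (s18_chart2 (L₀ := L₀) t))
    (hπB₁ : algebraMap L₀ 𝓕 (ϖ : L₀) ∈ B₁) (hπB₂ : algebraMap L₀ 𝓕 (ϖ : L₀) ∈ B₂)
    (hloc1 : ∀ 𝔫 : Ideal B₁, 𝔫.IsMaximal → (⟨_, hπB₁⟩ : B₁) ∈ 𝔫 →
      ∃ a ∈ s34x_latSet (s34x_infRing O) (s18_chart1 (L₀ := L₀) t) (s18_E f m),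
        ∃ s : B₁, s ∉ 𝔫 ∧
          ∃ y ∈ s34x_infRing O, a - (s : 𝓕) = algebraMap L₀ 𝓕 (ϖ : L₀) * y)
    (hloc2 : ∀ 𝔫 : Ideal B₂, 𝔫.IsMaximal → (⟨_, hπB₂⟩ : B₂) ∈ 𝔫 →
      ∃ a ∈ s34x_latSet (s34x_infRing O) (s18_chart2 (L₀ := L₀) t) (s18_E f m),
        ∃ s : B₂, s ∉ 𝔫 ∧
          ∃ y ∈ s34x_infRing O, a - (s : 𝓕) = algebraMap L₀ 𝓕 (ϖ : L₀) * y)
    (hH : ∃ G : Submodule A₀ 𝓕, G.FG ∧
      s34x_lat A₀ (s34x_infRing O) (s34x_inf_const_mem O A₀ hAO) (s18_chart12 t) (s18_E f m) ≤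
        G ⊔ (s34x_lat A₀ (s34x_infRing O) (s34x_inf_const_mem O A₀ hAO) (s18_chart1 t)
            (s18_E f m) ⊔
          s34x_lat A₀ (s34x_infRing O) (s34x_inf_const_mem O A₀ hAO) (s18_chart2 t)
            (s18_E f m))) :
    ∃ x : 𝓕, x ≠ 0 ∧ (∀ i, x ∈ O i) ∧ ∀ Q : Place L₀ 𝓕, Q.ord f ≤ (m : ℤ) * Q.ord x := by
  have hπ0 : algebraMap L₀ 𝓕 (ϖ : L₀) ≠ 0 := by simpa using hϖ0
  obtain ⟨x, hx0, hxO, hx⟩ := s34x_zero_of_local_sub A₀ (s34x_infRing O)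
    (s34x_inf_const_mem O A₀ hAO) ϖ hϖ0
    (s34x_inf_hJ O _ (fun i => hAO i ϖ) hϖ) t f m hm0 hmA hmL hdiv
    ((s34x_inf_cong O _ hπ0 _).mpr hf1) B₁ B₂ hB₁ hB₂ hπB₁ hπB₂ hloc1 hloc2 hH
  exact ⟨x, hx0, (s34x_mem_infRing O x).mp hxO, hx⟩

/-- Elements of a subring of the chart ring have non-negative order at the places of the chart. -/
theorem s34x_ord_nonneg_of_mem_sub (O : Subring 𝓕) (S : Set (Place L₀ 𝓕))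
    (B' : Subring 𝓕) (hB' : B' ≤ s34x_ring O S)
    (b : B') (Q : Place L₀ 𝓕) (hQ : Q ∈ S) : 0 ≤ Q.ord (b : 𝓕) :=
  s34x_ord_nonneg_of_mem_ring O S ⟨b, hB' b.2⟩ Q hQ

/-- Killing finitely many places not through `𝔫`, inside a subring `B'` of the chart ring. -/
theorem s34x_exists_kill_places_sub (O : Subring 𝓕) (S : Set (Place L₀ 𝓕))
    (B' : Subring 𝓕) (hB' : B' ≤ s34x_ring O S)
    (𝔫 : Ideal B') [h𝔫 : 𝔫.IsPrime] (n : Place L₀ 𝓕 → ℤ)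
    (T : Finset (Place L₀ 𝓕))
    (hT : ∀ Q ∈ T, Q ∈ S ∧ ∃ b : B', (b : 𝓕) ≠ 0 ∧ 0 < Q.ord (b : 𝓕) ∧ b ∉ 𝔫) :
    ∃ s : B', s ∉ 𝔫 ∧ (s : 𝓕) ≠ 0 ∧ ∀ Q ∈ T, n Q ≤ Q.ord (s : 𝓕) := by
  classical
  induction T using Finset.induction_on with
  | empty =>
    refine ⟨1, ?_, by simp, fun Q hQ => by simp at hQ⟩
    exact fun h => h𝔫.ne_top ((Ideal.eq_top_iff_one _).mpr h)
  | insert Q₀ T hQ₀ ih =>
    obtain ⟨s, hs𝔫, hs0, hs⟩ := ih (fun Q hQ => hT Q (Finset.mem_insert_of_mem hQ))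
    obtain ⟨hQ₀S, b, hb0, hbpos, hb𝔫⟩ := hT Q₀ (Finset.mem_insert_self _ _)
    set k : ℕ := (n Q₀).toNat with hk
    have hbk0 : ((b : 𝓕)) ^ k ≠ 0 := pow_ne_zero _ hb0
    refine ⟨b ^ k * s, ?_, ?_, ?_⟩
    · intro hmem
      rcases h𝔫.mem_or_mem hmem with h | h
      · exact hb𝔫 (h𝔫.mem_of_pow_mem k h)
      · exact hs𝔫 h
    · push_cast
      exact mul_ne_zero hbk0 hs0
    · intro Q hQ
      have hQS : Q ∈ S := (hT Q hQ).1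
      have hord : Q.ord (((b ^ k * s : B')) : 𝓕) =
          (k : ℤ) * Q.ord (b : 𝓕) + Q.ord (s : 𝓕) := by
        push_cast
        rw [Q.ord_mul hbk0 hs0, ← zpow_natCast, Q.ord_zpow]
      rw [hord]
      have hbQ : 0 ≤ Q.ord (b : 𝓕) := s34x_ord_nonneg_of_mem_sub O S B' hB' b Q hQS
      have hsQ : 0 ≤ Q.ord (s : 𝓕) := s34x_ord_nonneg_of_mem_sub O S B' hB' s Q hQS
      rcases Finset.mem_insert.mp hQ with rfl | hQT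
      · have h1 : n Q ≤ (k : ℤ) := Int.self_le_toNat _
        have h2 : (k : ℤ) ≤ (k : ℤ) * Q.ord (b : 𝓕) := by
          have : (1 : ℤ) ≤ Q.ord (b : 𝓕) := hbpos
          nlinarith [Int.natCast_nonneg k]
        omega
      · have h1 := hs Q hQT
        have h2 : 0 ≤ (k : ℤ) * Q.ord (b : 𝓕) := mul_nonneg (Int.natCast_nonneg k) hbQ
        omega

/-- Killing finitely many components not through `𝔫`, inside a subring `B'`. -/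
theorem s34x_exists_kill_comps_sub {ι : Type*} (O : ι → ValuationSubring 𝓕)
    (π : 𝓕)
    (hU : ∀ i, ∀ y : 𝓕, ∃ k : ℕ, π ^ k * y ∈ O i)
    (B' : Subring 𝓕) (hBO : ∀ (b : B') (i : ι), (b : 𝓕) ∈ O i)
    (𝔫 : Ideal B') [h𝔫 : 𝔫.IsPrime] (g : 𝓕)
    (I : Finset ι)
    (hI : ∀ i ∈ I, ∃ b : B', (∃ y ∈ O i, (b : 𝓕) = π * y) ∧ b ∉ 𝔫) :
    ∃ s : B', s ∉ 𝔫 ∧
      ∀ i ∈ I, (∃ y ∈ O i, (s : 𝓕) = π * y) ∧ ∃ y ∈ O i, (s : 𝓕) * g = π * y := by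
  classical
  induction I using Finset.induction_on with
  | empty =>
    refine ⟨1, ?_, fun i hi => by simp at hi⟩
    exact fun h => h𝔫.ne_top ((Ideal.eq_top_iff_one _).mpr h)
  | insert i₀ I hi₀ ih =>
    obtain ⟨s, hs𝔫, hs⟩ := ih (fun i hi => hI i (Finset.mem_insert_of_mem hi))
    obtain ⟨b, ⟨yb, hyb, eb⟩, hb𝔫⟩ := hI i₀ (Finset.mem_insert_self _ _)
    obtain ⟨k, hk⟩ := hU i₀ g
    refine ⟨b ^ (k + 1) * s, ?_, ?_⟩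
    · intro hmem
      rcases h𝔫.mem_or_mem hmem with h | h
      · exact hb𝔫 (h𝔫.mem_of_pow_mem _ h)
      · exact hs𝔫 h
    · intro i hi
      rcases Finset.mem_insert.mp hi with rfl | hiI
      · constructor
        · refine ⟨yb * (b : 𝓕) ^ k * (s : 𝓕), (O i).mul_mem _ _ ((O i).mul_mem _ _ hyb
            ((O i).pow_mem (hBO b i) k)) (hBO s i), ?_⟩
          push_cast
          rw [pow_succ, eb]; ring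
        · refine ⟨yb ^ (k + 1) * (s : 𝓕) * (π ^ k * g), (O i).mul_mem _ _ ((O i).mul_mem _ _
            ((O i).pow_mem hyb _) (hBO s i)) hk, ?_⟩
          push_cast
          rw [eb]; ring
      · obtain ⟨⟨y₁, hy₁, e₁⟩, ⟨y₂, hy₂, e₂⟩⟩ := hs i hiI
        constructor
        · refine ⟨(b : 𝓕) ^ (k + 1) * y₁, (O i).mul_mem _ _ ((O i).pow_mem (hBO b i) _) hy₁, ?_⟩
          push_cast
          rw [e₁]; ring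
        · refine ⟨(b : 𝓕) ^ (k + 1) * y₂, (O i).mul_mem _ _ ((O i).pow_mem (hBO b i) _) hy₂, ?_⟩
          push_cast
          rw [mul_assoc, e₂]; ring

/-- **(LOC) from a local generator, at a prime of a subring `B'` of the chart ring.**
A place `Q ∈ S` is THROUGH `𝔫` if every nonzero `b ∈ B'` vanishing at `Q` lies in `𝔫`; a component
`i` is THROUGH `𝔫` if every `b ∈ B' ∩ π(O i)` lies in `𝔫`. -/
theorem s34x_loc_of_gen_sub {ι : Type*} [Fintype ι] (O : ι → ValuationSubring 𝓕)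
    (S : Set (Place L₀ 𝓕)) (E : Place L₀ 𝓕 → ℤ) (π : 𝓕) (hπ0 : π ≠ 0) (hπO : ∀ i, π ∈ O i)
    (hU : ∀ i, ∀ y : 𝓕, ∃ k : ℕ, π ^ k * y ∈ O i)
    (B' : Subring 𝓕) (hB' : B' ≤ s34x_ring (s34x_infRing O) S)
    (𝔫 : Ideal B') [h𝔫 : 𝔫.IsPrime]
    (g : 𝓕) (hg0 : g ≠ 0)
    (hgQ : ∀ Q ∈ S, (∀ b : B', (b : 𝓕) ≠ 0 → 0 < Q.ord (b : 𝓕) → b ∈ 𝔫) → E Q ≤ Q.ord g)
    (hgC : ∀ i, (∀ b : B', (∃ y ∈ O i, (b : 𝓕) = π * y) → b ∈ 𝔫) →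
      ∃ y ∈ O i, g - 1 = π * y)
    (hfin : {Q : Place L₀ 𝓕 | Q ∈ S ∧ Q.ord g < E Q}.Finite) :
    ∃ a ∈ s34x_latSet (s34x_infRing O) S E, ∃ s : B', s ∉ 𝔫 ∧
      ∃ y ∈ s34x_infRing O, a - (s : 𝓕) = π * y := by
  classical
  have hBO : ∀ (b : B') (i : ι), (b : 𝓕) ∈ O i := fun b i =>
    (s34x_mem_infRing O _).mp (hB' b.2).1 i
  obtain ⟨s₁, hs₁𝔫, hs₁0, hs₁⟩ := s34x_exists_kill_places_sub (s34x_infRing O) S B' hB' 𝔫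
    (fun Q => E Q - Q.ord g) hfin.toFinset (by
      intro Q hQ
      rw [Set.Finite.mem_toFinset] at hQ
      refine ⟨hQ.1, ?_⟩
      by_contra hcon
      push Not at hcon
      have := hgQ Q hQ.1 (fun b hb0 hbpos => hcon b hb0 hbpos)
      exact absurd hQ.2 (not_lt.mpr this))
  let I : Finset ι := Finset.univ.filter fun i =>
    ∃ b : B', (∃ y ∈ O i, (b : 𝓕) = π * y) ∧ b ∉ 𝔫
  obtain ⟨s₂, hs₂𝔫, hs₂⟩ := s34x_exists_kill_comps_sub O π hU B' hBO 𝔫 g I (by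
    intro i hi
    exact (Finset.mem_filter.mp hi).2)
  have hs𝔫 : s₁ * s₂ ∉ 𝔫 := fun hmem => (h𝔫.mem_or_mem hmem).elim hs₁𝔫 hs₂𝔫
  have hs₂0 : (s₂ : 𝓕) ≠ 0 := by
    intro h0
    apply hs₂𝔫
    have : s₂ = 0 := Subtype.ext h0
    rw [this]; exact 𝔫.zero_mem
  have hcomp : ∀ i, (s₁ : 𝓕) * s₂ * g ∈ O i ∧ ∃ y' ∈ O i,
      (s₁ : 𝓕) * s₂ * g - (s₁ : 𝓕) * s₂ = π * y' := by
    intro i
    by_cases hi : i ∈ I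
    · obtain ⟨⟨y₁, hy₁, e₁⟩, ⟨y₂, hy₂, e₂⟩⟩ := hs₂ i hi
      refine ⟨?_, (s₁ : 𝓕) * y₂ - (s₁ : 𝓕) * y₁, (O i).sub_mem
        ((O i).mul_mem _ _ (hBO s₁ i) hy₂) ((O i).mul_mem _ _ (hBO s₁ i) hy₁), ?_⟩
      · rw [mul_assoc, e₂]
        exact (O i).mul_mem _ _ (hBO s₁ i) ((O i).mul_mem _ _ (hπO i) hy₂)
      · rw [mul_assoc, e₂, e₁]; ring
    · have hthrough : ∀ b : B', (∃ y ∈ O i, (b : 𝓕) = π * y) → b ∈ 𝔫 := by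
        intro b hb
        by_contra hb𝔫
        exact hi (Finset.mem_filter.mpr ⟨Finset.mem_univ _, b, hb, hb𝔫⟩)
      obtain ⟨y, hy, e⟩ := hgC i hthrough
      have hg : g = 1 + π * y := by rw [← e]; ring
      have hgO : g ∈ O i := by
        rw [hg]; exact (O i).add_mem _ _ (O i).one_mem ((O i).mul_mem _ _ (hπO i) hy)
      refine ⟨(O i).mul_mem _ _ ((O i).mul_mem _ _ (hBO s₁ i) (hBO s₂ i)) hgO,
        (s₁ : 𝓕) * s₂ * y, (O i).mul_mem _ _ ((O i).mul_mem _ _ (hBO s₁ i) (hBO s₂ i)) hy, ?_⟩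
      rw [hg]; ring
  refine ⟨(s₁ : 𝓕) * s₂ * g, ⟨?_, ?_⟩, s₁ * s₂, hs𝔫, ?_⟩
  · rw [s34x_mem_infRing]
    exact fun i => (hcomp i).1
  · intro Q hQ
    right
    rw [Q.ord_mul (mul_ne_zero hs₁0 hs₂0) hg0, Q.ord_mul hs₁0 hs₂0]
    have h1 : 0 ≤ Q.ord (s₁ : 𝓕) := s34x_ord_nonneg_of_mem_sub _ S B' hB' s₁ Q hQ
    have h2 : 0 ≤ Q.ord (s₂ : 𝓕) := s34x_ord_nonneg_of_mem_sub _ S B' hB' s₂ Q hQ
    by_cases hbad : Q.ord g < E Q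
    · have := hs₁ Q ((Set.Finite.mem_toFinset hfin).mpr ⟨hQ, hbad⟩)
      omega
    · omega
  · have hcoe : ((s₁ * s₂ : B') : 𝓕) = (s₁ : 𝓕) * s₂ := by
      push_cast; rfl
    rw [hcoe]
    exact (s34x_inf_cong O π hπ0 _).mpr fun i => (hcomp i).2

end Fermat.Agent.Lib.S34
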